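/-
GATE-F (S40) / GF-KCOVER-INST, node side (helper84), file 1: **the node arithmetic (I1)**,
Mathlib only.

`U` = the group of rational functions of the cover whose divisor is divisible by `p` at the
horizontal primes through ONE node (abstract: a commutative group); `w1 w2 : U → ℤ` the two branch
valuations (in units of a uniformiser `ϖ` of the base), `n : U → ℤ` the order at the node of the
reduction along the first branch (after normalising by the power of `ϖ`); all three additive.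

* `θ ∈ U` a cuspidal function (the pull-back of `Δ(z)/Δ(pz)`) with `(w1, w2, n) θ = (0, T, N0)`,
  `T = E * N0` (`E` = the thickness of the node in `ϖ`-units);
* `NL` (the node lemma, from factoriality of the node ring of the cover over the UNRAMIFIED base,
  transported by the tame norm `Norm.lean`): `w1 u = 0 → w2 u = 0 → p ∣ n u`.

Then for EVERY `f ∈ U`:  `E * n f ≡ w2 f − w1 f  (mod p)`  (`node_congr`), which is the node
relation `hnode`/`hn` of `CoverFrame.exists_tropical_const` in congruence form: use that theorem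
with `e := 1`, `n s j := w₂ (j + b s) f − w₁ (j + a s) f`, `mx' s := E s * mx s`
(`Congr.lean` does this).

Proof: `u := f ^ T * ϖ ^ (−a T) * θ ^ (−(b − a))`, `a = w1 f`, `b = w2 f`, has
`w1 u = w2 u = 0` and `n u = N0 * (E * n f − (b − a))`; `p ∤ N0`.
-/
import Mathlib

set_option autoImplicit false
set_option linter.unusedSectionVars false

namespace Fermat.Agent.GF.KCover.Node.Arith

variable {U : Type*} [CommGroup U]

section Additive

variable (w : U → ℤ) (hmul : ∀ y z, w (y * z) = w y + w z)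

include hmul in
theorem val_one : w 1 = 0 := by
  have h := hmul 1 1
  rw [mul_one] at h
  linarith

include hmul in
theorem val_inv (y : U) : w y⁻¹ = -w y := by
  have h := hmul y y⁻¹
  rw [mul_inv_cancel, val_one w hmul] at h
  linarith

include hmul in
theorem val_pow (y : U) (k : ℕ) : w (y ^ k) = k * w y := by
  induction k with
  | zero => rw [pow_zero, val_one w hmul]; simp
  | succ k ih => rw [pow_succ, hmul, ih]; push_cast; ring

include hmul in
theorem val_zpow (y : U) (k : ℤ) : w (y ^ k) = k * w y := by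
  cases k with
  | ofNat k => rw [Int.ofNat_eq_natCast, zpow_natCast, val_pow w hmul]
  | negSucc k =>
    rw [zpow_negSucc, val_inv w hmul, val_pow w hmul, Int.negSucc_eq]
    push_cast
    ring

end Additive

/-- **(I1) the node relation in congruence form.** -/
theorem node_congr {p : ℕ} (w1 w2 n : U → ℤ)
    (h1 : ∀ y z, w1 (y * z) = w1 y + w1 z) (h2 : ∀ y z, w2 (y * z) = w2 y + w2 z)
    (hn : ∀ y z, n (y * z) = n y + n z)
    {ϖ θ : U} (hϖ1 : w1 ϖ = 1) (hϖ2 : w2 ϖ = 1) (hϖn : n ϖ = 0)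
    {T N0 E : ℤ} (hθ1 : w1 θ = 0) (hθ2 : w2 θ = T) (hθn : n θ = N0) (hT : T = E * N0)
    (hN0 : IsCoprime (p : ℤ) N0)
    (NL : ∀ u : U, w1 u = 0 → w2 u = 0 → (p : ℤ) ∣ n u) (f : U) :
    (p : ℤ) ∣ E * n f - (w2 f - w1 f) := by
  set a := w1 f with ha
  set b := w2 f with hb
  have key := NL (f ^ T * ϖ ^ (-(a * T)) * θ ^ (-(b - a))) ?_ ?_
  · rw [hn, hn, val_zpow n hn, val_zpow n hn, val_zpow n hn, hϖn, hθn, hT] at key
    have h3 : E * N0 * n f + -(a * (E * N0)) * 0 + -(b - a) * N0 = N0 * (E * n f - (b - a)) := by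
      ring
    rw [h3] at key
    exact hN0.dvd_of_dvd_mul_left key
  · rw [h1, h1, val_zpow w1 h1, val_zpow w1 h1, val_zpow w1 h1, hϖ1, hθ1, ← ha]
    ring
  · rw [h2, h2, val_zpow w2 h2, val_zpow w2 h2, val_zpow w2 h2, hϖ2, hθ2, ← hb]
    ring

/-- the same in `ZMod p`. -/
theorem node_congr_zmod {p : ℕ} (w1 w2 n : U → ℤ)
    (h1 : ∀ y z, w1 (y * z) = w1 y + w1 z) (h2 : ∀ y z, w2 (y * z) = w2 y + w2 z)
    (hn : ∀ y z, n (y * z) = n y + n z)
    {ϖ θ : U} (hϖ1 : w1 ϖ = 1) (hϖ2 : w2 ϖ = 1) (hϖn : n ϖ = 0)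
    {T N0 E : ℤ} (hθ1 : w1 θ = 0) (hθ2 : w2 θ = T) (hθn : n θ = N0) (hT : T = E * N0)
    (hN0 : IsCoprime (p : ℤ) N0)
    (NL : ∀ u : U, w1 u = 0 → w2 u = 0 → (p : ℤ) ∣ n u) (f : U) :
    ((w2 f - w1 f : ℤ) : ZMod p) = ((E : ℤ) : ZMod p) * ((n f : ℤ) : ZMod p) := by
  have h := node_congr w1 w2 n h1 h2 hn hϖ1 hϖ2 hϖn hθ1 hθ2 hθn hT hN0 NL f
  have h' := (ZMod.intCast_zmod_eq_zero_iff_dvd _ p).2 h
  push_cast at h'
  push_cast
  linear_combination -h'

/-- the coprimality hypothesis for the modular application: `p ≥ 5` prime, `N0 ∣ 12`. -/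
theorem isCoprime_of_dvd_twelve {p : ℕ} (hp : p.Prime) (hp5 : 5 ≤ p) {N0 : ℤ} (hN0 : N0 ∣ 12) :
    IsCoprime (p : ℤ) N0 := by
  have h12 : IsCoprime (p : ℤ) 12 := by
    have : Nat.Coprime p 12 := by
      rw [Nat.Prime.coprime_iff_not_dvd hp]
      intro h
      have h2 : p ∣ 2 ^ 2 * 3 := by simpa using h
      rcases (Nat.Prime.dvd_mul hp).1 h2 with h3 | h3
      · have := (Nat.prime_dvd_prime_iff_eq hp Nat.prime_two).1 (hp.dvd_of_dvd_pow h3)
        omega
      · have := (Nat.prime_dvd_prime_iff_eq hp Nat.prime_three).1 h3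
        omega
    exact_mod_cast Nat.isCoprime_iff_coprime.2 this
  exact h12.of_isCoprime_of_dvd_right hN0

end Fermat.Agent.GF.KCover.Node.Arith
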