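/-
GATE-F (S40/S44) / GF-KCOVER-INST, leaf (L-c)-hn (helper42, third seat of helper84; helper13 6281 §5):
**the binder `hn` of `CoverFrame.exists_tropical_const` — "the order at the node `(s, j)` of the
reduction of `f'` along the branch `(1, j + a_s)` is `m_s(x)` modulo `p`".**

The Kummer function upstairs is `f' = a · u · h ^ p` with `a` a constant, `u ∈ F` the Kummer
function of `x` downstairs and `h ∈ F'` NOT `K'`-rational, so additivity of the node order has to be
used on `F'ˣ` over `ℚ̄`.  We therefore spell the node order through `GF/Trop/OrdRed.ordRed` on a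
reduction datum `R'` of the COVER which extends the reduction datum `R` of the base with the SAME
residue function field `Ft` (the cover is split along the branch: `e = f = 1`).

* `RedExt R R'` : `R'` extends `R` (`mem`, `red_eq`);
* `ordRed_algebraMap_eq` : `ordRed R' (algebraMap F F' u) = ordRed R u`;
* `ordRed_kummer_rep` (**`hn`**) : `f = a · u · h ^ p ⟹ (ordRed R' f : ZMod p) = (ordRed R u : ZMod p)`;
  `ordRed_kummer_rep_one` : the same for the shape `1 * u * h ^ p` of
  `KumDesc.Cover.exists_frame_binders`; `tropAt_eq_ordRed_kummer`, `trop_eq_ordRed_kummer` : the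
  right-hand side as `tropAt R hun Pl p x`, `trop R hun p P x s` (for `R = redDataBar N A` this is
  `trop1FN N A P x s` by `rfl`);
* `comapRed e RL hsurj` : the pull-back of a reduction datum `RL` of an overfield `L`
  (`e : F' →ₐ[K] L`; in the gate `L` = the completion at the Gauss valuation and `e = emb k` of
  `GF/KCover/Field/Split`), a `RedData K F' k Ft`; `unram_comapRed`, `redExt_comapRed`;
* `nodeOrd`, `nodeOrd_mul`, `nodeOrd_const` : the additive function `n` of
  `Node/Arith.node_congr_zmod` on any subgroup of `F'ˣ`.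
-/
import Fermat.Agent.GF.Trop.OrdRed

set_option autoImplicit false
set_option linter.unusedSectionVars false

noncomputable section

open AlgebraicCurve

namespace Fermat.Agent.GF.KCover.Node.OrdRedExt

open Fermat.Agent.GJ.J1 Fermat.Agent.GJ.KumGroup Fermat.Agent.S24 Fermat.Agent.GF.Trop

variable {K F F' k Ft : Type*} [Field K] [Field F] [Algebra K F] [Field F'] [Algebra K F']
  [Field k] [Field Ft] [Algebra k Ft]

section Ext

variable [Algebra F F'] [IsScalarTower K F F']

/-- the reduction datum `R'` of the cover `F'` extends the reduction datum `R` of `F`, with the same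
residue function field. -/
structure RedExt (R : RedData K F k Ft) (R' : RedData K F' k Ft) : Prop where
  mem : ∀ x : F, x ∈ R.Rw → algebraMap F F' x ∈ R'.Rw
  red_eq : ∀ (x : F) (hx : x ∈ R.Rw), R'.red ⟨algebraMap F F' x, mem x hx⟩ = R.red ⟨x, hx⟩

variable {R : RedData K F k Ft} {R' : RedData K F' k Ft}

theorem RedExt.isU (E : RedExt R R') {x : F} (hx : IsU R x) : IsU R' (algebraMap F F' x) := by
  refine ⟨?_, E.mem x hx.2.1, ?_⟩
  · rw [Ne, map_eq_zero_iff _ (algebraMap F F').injective]
    exact hx.1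
  · rw [← map_inv₀]
    exact E.mem _ hx.2.2

/-- **the node order upstairs of a function coming from downstairs** -/
theorem ordRed_algebraMap_eq (E : RedExt R R') (hun : Unram R) (hun' : Unram R')
    (Pl : Place k Ft) (u : F) :
    ordRed R' hun' Pl (algebraMap F F' u) = ordRed R hun Pl u := by
  by_cases hu : u = 0
  · subst hu
    rw [map_zero]
    unfold ordRed
    rw [dif_neg (not_not.2 rfl), dif_neg (not_not.2 rfl)]
  obtain ⟨c, hc0, hm, hmi⟩ := hun u hu
  have hcF : algebraMap K F c ≠ 0 := by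
    rw [Ne, map_eq_zero_iff _ (algebraMap K F).injective]
    exact hc0
  have hU : IsU R (algebraMap K F c * u) := ⟨mul_ne_zero hcF hu, hm, hmi⟩
  have e : algebraMap F F' (algebraMap K F c * u) = algebraMap K F' c * algebraMap F F' u := by
    rw [map_mul, ← IsScalarTower.algebraMap_apply]
  have hU' : IsU R' (algebraMap K F' c * algebraMap F F' u) := by
    have := E.isU hU
    rwa [e] at this
  have hu' : algebraMap F F' u ≠ 0 := by
    rw [Ne, map_eq_zero_iff _ (algebraMap F F').injective]
    exact hu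
  rw [ordRed_eq hun' Pl hu' hU', ordRed_eq hun Pl hu hU, ← E.red_eq _ hU.2.1]
  congr 2
  exact Subtype.ext e.symm

/-- **the binder `hn`**: `f = a · u · h ^ p ⟹ ord_{Pl} (red' f) ≡ ord_{Pl} (red u) (mod p)`. -/
theorem ordRed_kummer_rep (E : RedExt R R') (hun : Unram R) (hun' : Unram R')
    (Pl : Place k Ft) (p : ℕ) {a : K} {u : F} {h f : F'} (ha : a ≠ 0) (hu : u ≠ 0) (hh : h ≠ 0)
    (hf : f = algebraMap K F' a * algebraMap F F' u * h ^ p) :
    ((ordRed R' hun' Pl f : ℤ) : ZMod p) = ((ordRed R hun Pl u : ℤ) : ZMod p) := by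
  have ha' : algebraMap K F' a ≠ 0 := by
    rw [Ne, map_eq_zero_iff _ (algebraMap K F').injective]
    exact ha
  have hu' : algebraMap F F' u ≠ 0 := by
    rw [Ne, map_eq_zero_iff _ (algebraMap F F').injective]
    exact hu
  rw [hf, ordRed_mul hun' Pl (mul_ne_zero ha' hu') (pow_ne_zero p hh), ordRed_mul hun' Pl ha' hu',
    ordRed_algebraMap hun' Pl ha, ordRed_pow hun' Pl hh, ordRed_algebraMap_eq E hun hun' Pl u]
  push_cast
  rw [ZMod.natCast_self, zero_mul, zero_add, add_zero]

/-- the same for the shape `1 * u * h ^ p` of `KumDesc.Cover.exists_frame_binders`. -/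
theorem ordRed_kummer_rep_one (E : RedExt R R') (hun : Unram R) (hun' : Unram R')
    (Pl : Place k Ft) (p : ℕ) {u : F} {h f : F'} (hu : u ≠ 0) (hh : h ≠ 0)
    (hf : f = 1 * algebraMap F F' u * h ^ p) :
    ((ordRed R' hun' Pl f : ℤ) : ZMod p) = ((ordRed R hun Pl u : ℤ) : ZMod p) := by
  refine ordRed_kummer_rep E hun hun' Pl p (a := 1) one_ne_zero hu hh ?_
  rw [hf, map_one]

/-- `hn` with the right-hand side spelled as the tropical map at one place. -/
theorem tropAt_eq_ordRed_kummer (E : RedExt R R') (hun : Unram R) (hun' : Unram R')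
    (Pl : Place k Ft) (p : ℕ) {a : K} (u : pDivUnits K F p) {h f : F'} (ha : a ≠ 0) (hh : h ≠ 0)
    (hf : f = algebraMap K F' a * algebraMap F F' ((u : Fˣ) : F) * h ^ p) :
    ((ordRed R' hun' Pl f : ℤ) : ZMod p) = tropAt R hun Pl p (Additive.ofMul (Kum.mk u)) := by
  rw [tropAt_mk]
  exact ordRed_kummer_rep E hun hun' Pl p ha (u : Fˣ).ne_zero hh hf

/-- `hn` with the right-hand side spelled as the tropical vector (`trop1FN` for
`R = redDataBar N A`). -/
theorem trop_eq_ordRed_kummer (E : RedExt R R') (hun : Unram R) (hun' : Unram R')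
    {ι : Type*} (P : ι → Place k Ft) (s : ι) (p : ℕ) {a : K} (u : pDivUnits K F p) {h f : F'}
    (ha : a ≠ 0) (hh : h ≠ 0)
    (hf : f = algebraMap K F' a * algebraMap F F' ((u : Fˣ) : F) * h ^ p) :
    ((ordRed R' hun' (P s) f : ℤ) : ZMod p) = trop R hun p P (Additive.ofMul (Kum.mk u)) s := by
  rw [trop_mk]
  exact ordRed_kummer_rep E hun hun' (P s) p ha (u : Fˣ).ne_zero hh hf

end Ext

/-! ### the additive node order on a subgroup of units -/

section NodeOrd

variable (R' : RedData K F' k Ft) (hun' : Unram R') (Pl : Place k Ft)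

/-- the node order `n` on a subgroup of `F'ˣ` (e.g. `fixedUnits Γ F'`). -/
def nodeOrd (S : Subgroup F'ˣ) (y : S) : ℤ := ordRed R' hun' Pl (((y : F'ˣ) : F'))

theorem nodeOrd_mul (S : Subgroup F'ˣ) (y z : S) :
    nodeOrd R' hun' Pl S (y * z) = nodeOrd R' hun' Pl S y + nodeOrd R' hun' Pl S z := by
  unfold nodeOrd
  rw [Subgroup.coe_mul, Units.val_mul, ordRed_mul hun' Pl (y : F'ˣ).ne_zero (z : F'ˣ).ne_zero]

theorem nodeOrd_const (S : Subgroup F'ˣ) (y : S) {a : K}
    (hy : ((y : F'ˣ) : F') = algebraMap K F' a) : nodeOrd R' hun' Pl S y = 0 := by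
  unfold nodeOrd
  have ha : a ≠ 0 := by
    rintro rfl
    rw [map_zero] at hy
    exact (y : F'ˣ).ne_zero hy
  rw [hy, ordRed_algebraMap hun' Pl ha]

end NodeOrd

/-! ### pull-back of a reduction datum along an embedding into an overfield -/

section Comap

variable {L : Type*} [Field L] [Algebra K L]

/-- the restriction of `e` to the valuation rings -/
def comapHom (e : F' →ₐ[K] L) (RL : RedData K L k Ft) :
    ↥(RL.Rw.comap (e : F' →+* L)) →+* ↥RL.Rw :=
  (e : F' →+* L).restrict (RL.Rw.comap (e : F' →+* L)) RL.Rw fun _ hx => hx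

@[simp] theorem coe_comapHom (e : F' →ₐ[K] L) (RL : RedData K L k Ft)
    (x : ↥(RL.Rw.comap (e : F' →+* L))) : ((comapHom e RL x : RL.Rw) : L) = e (x : F') := rfl

theorem mem_maximalIdeal_comap_iff (e : F' →ₐ[K] L) (RL : RedData K L k Ft)
    (x : ↥(RL.Rw.comap (e : F' →+* L))) :
    x ∈ IsLocalRing.maximalIdeal ↥(RL.Rw.comap (e : F' →+* L)) ↔
      comapHom e RL x ∈ IsLocalRing.maximalIdeal ↥RL.Rw := by
  rw [← ValuationSubring.coe_mem_nonunits_iff, ← ValuationSubring.coe_mem_nonunits_iff,
    ValuationSubring.mem_nonunits_iff_or, ValuationSubring.mem_nonunits_iff_or, coe_comapHom,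
    ValuationSubring.mem_comap]
  have h1 : ((x : F') = 0) ↔ (e (x : F') = 0) :=
    (map_eq_zero_iff e (e : F' →+* L).injective).symm
  have h2 : (e : F' →+* L) ((x : F')⁻¹) = (e (x : F'))⁻¹ := map_inv₀ e _
  rw [h1, h2]

/-- **the pull-back of a reduction datum** along `e : F' →ₐ[K] L`. -/
def comapRed (e : F' →ₐ[K] L) (RL : RedData K L k Ft)
    (hsurj : Function.Surjective fun x : ↥(RL.Rw.comap (e : F' →+* L)) =>
      RL.red (comapHom e RL x)) : RedData K F' k Ft where
  Rw := RL.Rw.comap (e : F' →+* L)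
  A := RL.A
  mem_A_iff a := by
    rw [RL.mem_A_iff, ValuationSubring.mem_comap]
    show _ ↔ e (algebraMap K F' a) ∈ RL.Rw
    rw [e.commutes]
  red := RL.red.comp (comapHom e RL)
  red_surjective := hsurj
  red_eq_zero_iff x := by
    rw [RingHom.comp_apply, RL.red_eq_zero_iff, mem_maximalIdeal_comap_iff]
  res := RL.res
  res_surjective := RL.res_surjective
  red_algebraMap a := by
    rw [RingHom.comp_apply, ← RL.red_algebraMap a]
    congr 1
    apply Subtype.ext
    show e (algebraMap K F' (a : K)) = algebraMap K L (a : K)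
    rw [e.commutes]

@[simp] theorem comapRed_Rw (e : F' →ₐ[K] L) (RL : RedData K L k Ft) hsurj :
    (comapRed e RL hsurj).Rw = RL.Rw.comap (e : F' →+* L) := rfl

theorem mem_comapRed_Rw {e : F' →ₐ[K] L} {RL : RedData K L k Ft} {hsurj} {x : F'} :
    x ∈ (comapRed e RL hsurj).Rw ↔ e x ∈ RL.Rw := Iff.rfl

theorem comapRed_red (e : F' →ₐ[K] L) (RL : RedData K L k Ft) hsurj (x : F')
    (hx : x ∈ (comapRed e RL hsurj).Rw) :
    (comapRed e RL hsurj).red ⟨x, hx⟩ = RL.red ⟨e x, hx⟩ := rfl

theorem unram_comapRed (e : F' →ₐ[K] L) (RL : RedData K L k Ft) hsurj (hunL : Unram RL) :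
    Unram (comapRed e RL hsurj) := by
  intro y hy
  have hey : e y ≠ 0 := by
    rw [Ne, map_eq_zero_iff e (e : F' →+* L).injective]
    exact hy
  obtain ⟨c, hc0, hm, hmi⟩ := hunL (e y) hey
  refine ⟨c, hc0, ?_, ?_⟩
  · show e (algebraMap K F' c * y) ∈ RL.Rw
    rw [map_mul, e.commutes]
    exact hm
  · show e ((algebraMap K F' c * y)⁻¹) ∈ RL.Rw
    rw [map_inv₀, map_mul, e.commutes]
    exact hmi

/-- the node order of the pull-back is the node order in `L`. -/
theorem ordRed_comapRed (e : F' →ₐ[K] L) (RL : RedData K L k Ft) hsurj (hunL : Unram RL)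
    (Pl : Place k Ft) (y : F') :
    ordRed (comapRed e RL hsurj) (unram_comapRed e RL hsurj hunL) Pl y =
      ordRed RL hunL Pl (e y) := by
  by_cases hy : y = 0
  · subst hy
    rw [map_zero]
    unfold ordRed
    rw [dif_neg (not_not.2 rfl), dif_neg (not_not.2 rfl)]
  have hey : e y ≠ 0 := by
    rw [Ne, map_eq_zero_iff e (e : F' →+* L).injective]
    exact hy
  obtain ⟨c, hc0, hm, hmi⟩ := hunL (e y) hey
  have hcL : algebraMap K L c ≠ 0 := by
    rw [Ne, map_eq_zero_iff _ (algebraMap K L).injective]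
    exact hc0
  have hcF : algebraMap K F' c ≠ 0 := by
    rw [Ne, map_eq_zero_iff _ (algebraMap K F').injective]
    exact hc0
  have hUL : IsU RL (algebraMap K L c * e y) := ⟨mul_ne_zero hcL hey, hm, hmi⟩
  have ee : e (algebraMap K F' c * y) = algebraMap K L c * e y := by
    rw [map_mul, e.commutes]
  have hU : IsU (comapRed e RL hsurj) (algebraMap K F' c * y) := by
    refine ⟨mul_ne_zero hcF hy, ?_, ?_⟩
    · show e (algebraMap K F' c * y) ∈ RL.Rw
      rw [ee]
      exact hm
    · show e ((algebraMap K F' c * y)⁻¹) ∈ RL.Rw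
      rw [map_inv₀, ee]
      exact hmi
  rw [ordRed_eq _ Pl hy hU, ordRed_eq hunL Pl hey hUL, comapRed_red]
  congr 2
  exact Subtype.ext ee

variable [Algebra F F'] [IsScalarTower K F F']

/-- the pull-back extends `R` as soon as `RL` extends `R` along `e ∘ algebraMap F F'`. -/
theorem redExt_comapRed (e : F' →ₐ[K] L) (RL : RedData K L k Ft) hsurj (R : RedData K F k Ft)
    (hmem : ∀ x : F, x ∈ R.Rw → e (algebraMap F F' x) ∈ RL.Rw)
    (hred : ∀ (x : F) (hx : x ∈ R.Rw), RL.red ⟨e (algebraMap F F' x), hmem x hx⟩ = R.red ⟨x, hx⟩) :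
    RedExt R (comapRed e RL hsurj) where
  mem := hmem
  red_eq := hred

/-- surjectivity of the pulled-back reduction is automatic when `RL` extends `R`. -/
theorem surjective_of_ext (e : F' →ₐ[K] L) (RL : RedData K L k Ft) (R : RedData K F k Ft)
    (hmem : ∀ x : F, x ∈ R.Rw → e (algebraMap F F' x) ∈ RL.Rw)
    (hred : ∀ (x : F) (hx : x ∈ R.Rw), RL.red ⟨e (algebraMap F F' x), hmem x hx⟩ = R.red ⟨x, hx⟩) :
    Function.Surjective fun x : ↥(RL.Rw.comap (e : F' →+* L)) => RL.red (comapHom e RL x) := by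
  intro y
  obtain ⟨x, rfl⟩ := R.red_surjective y
  exact ⟨⟨algebraMap F F' (x : F), hmem _ x.2⟩, hred _ x.2⟩

end Comap

end Fermat.Agent.GF.KCover.Node.OrdRedExt

end
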