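/-
GATE-F / GF-KCOVER-NODE-PKG-Q4 (helper45): the abstract half of (U3) of helper84 6432/6491
= (Q4) of helper47 6448.  Mathlib only.

Setting: `B` a domain, `𝔫` a prime of `B`, `R` ANY ring with `[IsLocalization.AtPrime R 𝔫]`
(consumer: `R := KrullHeightOne.locSub F0 𝔫`), `rd : B →+* D` a surjection onto a domain `D`
(consumer: `redC1K0`, `redC2K0`), `𝔫'` a prime of `D` with `comap rd 𝔫' = 𝔫`
(consumer, branch 1: `𝔫' := (primeOfPlace Q hQ).asIdeal`, `h𝔫 := rfl`;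
branch 2: `𝔫' := Ideal.map rd 𝔫`, `h𝔫 := comap_map_eq hrd hle`), `D'` ANY ring with
`[IsLocalization.AtPrime D' 𝔫']`.

Exports:
* `piHom : R →+* D'`, `piHom_algebraMap`, `piHom_mk'`, `piHom_surjective`,
  `piHom_eq_zero_iff` (kernel `= map (algebraMap B R) (ker rd)`), `ker_piHom`;
* `piHom_eq_zero_iff_dvd_of_gen` : for a generator `y : B` of `ker rd` in the `hker` shape of
  `Upstairs.nl0` (`∀ b, rd b = 0 → ∃ s ∉ 𝔫, y ∣ s * b`): `piHom c = 0 ↔ algebraMap B R y ∣ c`;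
* `exists_prime_gen` : `[UniqueFactorizationMonoid R]`, `ker rd ≠ ⊥` minimal among the non-zero
  primes (height one) ⟹ `∃ x : R, Prime x ∧ map (algebraMap B R) (ker rd) = span {x}`;
* `exists_node_pkg` : the package `(x, π)` with `π` surjective, `π ∘ algebraMap = algebraMap ∘ rd`
  and `π c = 0 ↔ x ∣ c`;
* `isDomain_loc`, `isDiscreteValuationRing_loc`, `isFractionRing_loc` : `D'` is a domain, a DVR
  (`D` Dedekind, `𝔫' ≠ ⊥`) and has the fraction field of `D`;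
* `dvd_mul_of_prime_factors`, `dvd_of_prime_factors_single`, `dvd_of_thickness_eq` : the product
  clause `p0 ∣ x1 * x2` (node) / `p0 ∣ x1` (type I).
-/
import Mathlib

set_option maxHeartbeats 400000

namespace Fermat.Agent.GF.KCover.Node.NodePkg

section Prime

variable {B D : Type*} [CommRing B] [CommRing D]

/-- `rd b ∈ map rd 𝔫 ↔ b ∈ 𝔫` for a surjection with kernel inside `𝔫`. -/
theorem mem_map_iff_mem {𝔫 : Ideal B} {rd : B →+* D} (hrd : Function.Surjective rd)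
    (hle : RingHom.ker rd ≤ 𝔫) (b : B) : rd b ∈ Ideal.map rd 𝔫 ↔ b ∈ 𝔫 := by
  constructor
  · intro h
    obtain ⟨b', hb', hbb'⟩ := (Ideal.mem_map_iff_of_surjective rd hrd).1 h
    have hk : b - b' ∈ RingHom.ker rd := by
      rw [RingHom.mem_ker, map_sub, hbb', sub_self]
    have : b = (b - b') + b' := by ring
    rw [this]
    exact 𝔫.add_mem (hle hk) hb'
  · intro h
    exact Ideal.mem_map_of_mem rd h

/-- `comap rd (map rd 𝔫) = 𝔫` for a surjection with kernel inside `𝔫`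
(the `h𝔫` binder for branch 2). -/
theorem comap_map_eq {𝔫 : Ideal B} {rd : B →+* D} (hrd : Function.Surjective rd)
    (hle : RingHom.ker rd ≤ 𝔫) : Ideal.comap rd (Ideal.map rd 𝔫) = 𝔫 := by
  ext b
  rw [Ideal.mem_comap]
  exact mem_map_iff_mem hrd hle b

/-- `map rd 𝔫` is prime for a surjection with kernel inside `𝔫`. -/
theorem map_isPrime {𝔫 : Ideal B} [𝔫.IsPrime] {rd : B →+* D} (hrd : Function.Surjective rd)
    (hle : RingHom.ker rd ≤ 𝔫) : (Ideal.map rd 𝔫).IsPrime :=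
  Ideal.map_isPrime_of_surjective hrd hle

/-- `ker rd ≤ 𝔫` when `𝔫` is a pull-back along `rd`. -/
theorem ker_le_of_comap_eq {𝔫 : Ideal B} {rd : B →+* D} {𝔫' : Ideal D}
    (h𝔫 : Ideal.comap rd 𝔫' = 𝔫) : RingHom.ker rd ≤ 𝔫 := by
  intro b hb
  rw [← h𝔫, Ideal.mem_comap, (RingHom.mem_ker).1 hb]
  exact 𝔫'.zero_mem

/-- When `𝔫 = comap rd 𝔫'` and `rd` is surjective, `𝔫' = map rd 𝔫`. -/
theorem map_eq_of_comap_eq {𝔫 : Ideal B} {rd : B →+* D} (hrd : Function.Surjective rd)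
    {𝔫' : Ideal D} (h𝔫 : Ideal.comap rd 𝔫' = 𝔫) : Ideal.map rd 𝔫 = 𝔫' := by
  rw [← h𝔫]
  exact Ideal.map_comap_of_surjective rd hrd 𝔫'

end Prime

section Pi

variable {B D : Type*} [CommRing B] [CommRing D]

theorem primeCompl_le_comap (𝔫 : Ideal B) [𝔫.IsPrime] (rd : B →+* D) (𝔫' : Ideal D) [𝔫'.IsPrime]
    (h𝔫 : Ideal.comap rd 𝔫' = 𝔫) : 𝔫.primeCompl ≤ Submonoid.comap rd 𝔫'.primeCompl := by
  intro b hb
  rw [Submonoid.mem_comap]
  intro h
  apply hb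
  rw [← h𝔫]
  exact h

/-- The reduction map `π : B_𝔫 → D_{𝔫'}` induced by `rd : B → D` (`𝔫 = rd⁻¹ 𝔫'`). -/
noncomputable def piHom (𝔫 : Ideal B) [𝔫.IsPrime] (R : Type*) [CommRing R] [Algebra B R]
    [IsLocalization.AtPrime R 𝔫] (rd : B →+* D) (𝔫' : Ideal D) [𝔫'.IsPrime]
    (h𝔫 : Ideal.comap rd 𝔫' = 𝔫) (D' : Type*) [CommRing D'] [Algebra D D']
    [IsLocalization.AtPrime D' 𝔫'] : R →+* D' :=
  IsLocalization.map (M := 𝔫.primeCompl) (T := 𝔫'.primeCompl) D' rd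
    (primeCompl_le_comap 𝔫 rd 𝔫' h𝔫)

@[simp]
theorem piHom_algebraMap (𝔫 : Ideal B) [𝔫.IsPrime] (R : Type*) [CommRing R] [Algebra B R]
    [IsLocalization.AtPrime R 𝔫] (rd : B →+* D) (𝔫' : Ideal D) [𝔫'.IsPrime]
    (h𝔫 : Ideal.comap rd 𝔫' = 𝔫) (D' : Type*) [CommRing D'] [Algebra D D']
    [IsLocalization.AtPrime D' 𝔫'] (b : B) :
    piHom 𝔫 R rd 𝔫' h𝔫 D' (algebraMap B R b) = algebraMap D D' (rd b) := by
  unfold piHom
  exact IsLocalization.map_eq _ b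

theorem piHom_comp_algebraMap (𝔫 : Ideal B) [𝔫.IsPrime] (R : Type*) [CommRing R] [Algebra B R]
    [IsLocalization.AtPrime R 𝔫] (rd : B →+* D) (𝔫' : Ideal D) [𝔫'.IsPrime]
    (h𝔫 : Ideal.comap rd 𝔫' = 𝔫) (D' : Type*) [CommRing D'] [Algebra D D']
    [IsLocalization.AtPrime D' 𝔫'] :
    (piHom 𝔫 R rd 𝔫' h𝔫 D').comp (algebraMap B R) = (algebraMap D D').comp rd :=
  RingHom.ext fun b => piHom_algebraMap 𝔫 R rd 𝔫' h𝔫 D' b

theorem piHom_mk' (𝔫 : Ideal B) [𝔫.IsPrime] (R : Type*) [CommRing R] [Algebra B R]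
    [IsLocalization.AtPrime R 𝔫] (rd : B →+* D) (𝔫' : Ideal D) [𝔫'.IsPrime]
    (h𝔫 : Ideal.comap rd 𝔫' = 𝔫) (D' : Type*) [CommRing D'] [Algebra D D']
    [IsLocalization.AtPrime D' 𝔫'] (b : B) (s : 𝔫.primeCompl) :
    piHom 𝔫 R rd 𝔫' h𝔫 D' (IsLocalization.mk' R b s) =
      IsLocalization.mk' D' (rd b)
        (⟨rd s, primeCompl_le_comap 𝔫 rd 𝔫' h𝔫 s.2⟩ : 𝔫'.primeCompl) := by
  unfold piHom
  exact IsLocalization.map_mk' _ b s

/-- `π` is surjective when `rd` is. -/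
theorem piHom_surjective (𝔫 : Ideal B) [𝔫.IsPrime] (R : Type*) [CommRing R] [Algebra B R]
    [IsLocalization.AtPrime R 𝔫] (rd : B →+* D) (𝔫' : Ideal D) [𝔫'.IsPrime]
    (h𝔫 : Ideal.comap rd 𝔫' = 𝔫) (D' : Type*) [CommRing D'] [Algebra D D']
    [IsLocalization.AtPrime D' 𝔫'] (hrd : Function.Surjective rd) :
    Function.Surjective (piHom 𝔫 R rd 𝔫' h𝔫 D') := by
  intro z
  obtain ⟨d, t, rfl⟩ := IsLocalization.exists_mk'_eq 𝔫'.primeCompl z
  obtain ⟨b, rfl⟩ := hrd d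
  obtain ⟨s, hs⟩ := hrd (t : D)
  have hs𝔫 : s ∈ 𝔫.primeCompl := by
    intro h
    apply t.2
    rw [← hs]
    rw [← h𝔫] at h
    exact h
  refine ⟨IsLocalization.mk' R b (⟨s, hs𝔫⟩ : 𝔫.primeCompl), ?_⟩
  rw [piHom_mk']
  congr 1
  exact Subtype.ext hs

/-- `π` is a LOCAL homomorphism: `π c` is a unit iff `c` is. -/
theorem isUnit_piHom_iff (𝔫 : Ideal B) [𝔫.IsPrime] (R : Type*) [CommRing R]
    [Algebra B R] [IsLocalization.AtPrime R 𝔫] (rd : B →+* D) (𝔫' : Ideal D) [𝔫'.IsPrime]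
    (h𝔫 : Ideal.comap rd 𝔫' = 𝔫) (D' : Type*) [CommRing D'] [Algebra D D']
    [IsLocalization.AtPrime D' 𝔫'] (c : R) :
    IsUnit (piHom 𝔫 R rd 𝔫' h𝔫 D' c) ↔ IsUnit c := by
  obtain ⟨b, s, rfl⟩ := IsLocalization.exists_mk'_eq 𝔫.primeCompl c
  rw [piHom_mk', IsLocalization.AtPrime.isUnit_mk'_iff D' 𝔫',
    IsLocalization.AtPrime.isUnit_mk'_iff R 𝔫]
  change rd b ∉ 𝔫' ↔ b ∉ 𝔫
  rw [← h𝔫, Ideal.mem_comap]

/-- uniqueness of `π`. -/
theorem piHom_unique (𝔫 : Ideal B) [𝔫.IsPrime] (R : Type*) [CommRing R]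
    [Algebra B R] [IsLocalization.AtPrime R 𝔫] (rd : B →+* D) (𝔫' : Ideal D) [𝔫'.IsPrime]
    (h𝔫 : Ideal.comap rd 𝔫' = 𝔫) (D' : Type*) [CommRing D'] [Algebra D D']
    [IsLocalization.AtPrime D' 𝔫'] (π : R →+* D')
    (hπ : ∀ b : B, π (algebraMap B R b) = algebraMap D D' (rd b)) :
    π = piHom 𝔫 R rd 𝔫' h𝔫 D' := by
  apply IsLocalization.ringHom_ext 𝔫.primeCompl
  apply RingHom.ext
  intro b
  rw [RingHom.comp_apply, RingHom.comp_apply, hπ, piHom_algebraMap]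

/-- the value of `π` in a field `K ⊇ D' ⊇ D` (e.g. `K = Frac D`): `π (b / s) = rd b / rd s`. -/
theorem algebraMap_piHom_mk' (𝔫 : Ideal B) [𝔫.IsPrime] (R : Type*) [CommRing R]
    [Algebra B R] [IsLocalization.AtPrime R 𝔫] (rd : B →+* D) (𝔫' : Ideal D) [𝔫'.IsPrime]
    (h𝔫 : Ideal.comap rd 𝔫' = 𝔫) (D' : Type*) [CommRing D'] [Algebra D D']
    [IsLocalization.AtPrime D' 𝔫'] (K : Type*) [Field K] [Algebra D K] [Algebra D' K]
    [IsScalarTower D D' K] (hK : ∀ d : D, d ∉ 𝔫' → algebraMap D K d ≠ 0)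
    (b : B) (s : 𝔫.primeCompl) :
    algebraMap D' K (piHom 𝔫 R rd 𝔫' h𝔫 D' (IsLocalization.mk' R b s)) =
      algebraMap D K (rd b) / algebraMap D K (rd s) := by
  have hs : rd s ∉ 𝔫' := primeCompl_le_comap 𝔫 rd 𝔫' h𝔫 s.2
  rw [piHom_mk', eq_div_iff (hK _ hs), IsScalarTower.algebraMap_apply D D' K (rd s),
    ← map_mul, IsScalarTower.algebraMap_apply D D' K (rd b)]
  congr 1
  exact IsLocalization.mk'_spec D' (rd b) (⟨rd s, hs⟩ : 𝔫'.primeCompl)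

/-- on `B`: `π b = rd b` in `K`. -/
theorem algebraMap_piHom_algebraMap (𝔫 : Ideal B) [𝔫.IsPrime] (R : Type*) [CommRing R]
    [Algebra B R] [IsLocalization.AtPrime R 𝔫] (rd : B →+* D) (𝔫' : Ideal D) [𝔫'.IsPrime]
    (h𝔫 : Ideal.comap rd 𝔫' = 𝔫) (D' : Type*) [CommRing D'] [Algebra D D']
    [IsLocalization.AtPrime D' 𝔫'] (K : Type*) [CommRing K] [Algebra D K] [Algebra D' K]
    [IsScalarTower D D' K] (b : B) :
    algebraMap D' K (piHom 𝔫 R rd 𝔫' h𝔫 D' (algebraMap B R b)) = algebraMap D K (rd b) := by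
  rw [piHom_algebraMap, ← IsScalarTower.algebraMap_apply]

/-- `π (b / s) = 0 ↔ rd b = 0`. -/
theorem piHom_mk'_eq_zero_iff [IsDomain D] (𝔫 : Ideal B) [𝔫.IsPrime] (R : Type*) [CommRing R]
    [Algebra B R] [IsLocalization.AtPrime R 𝔫] (rd : B →+* D) (𝔫' : Ideal D) [𝔫'.IsPrime]
    (h𝔫 : Ideal.comap rd 𝔫' = 𝔫) (D' : Type*) [CommRing D'] [Algebra D D']
    [IsLocalization.AtPrime D' 𝔫'] (b : B) (s : 𝔫.primeCompl) :
    piHom 𝔫 R rd 𝔫' h𝔫 D' (IsLocalization.mk' R b s) = 0 ↔ rd b = 0 := by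
  rw [piHom_mk', IsLocalization.mk'_eq_zero_iff]
  constructor
  · rintro ⟨m, hm⟩
    rcases mul_eq_zero.1 hm with h | h
    · exact absurd (h ▸ 𝔫'.zero_mem : (m : D) ∈ 𝔫') m.2
    · exact h
  · intro h
    exact ⟨1, by rw [h, mul_zero]⟩

/-- The kernel of `π` is the extension of `ker rd`, elementwise. -/
theorem piHom_eq_zero_iff [IsDomain D] (𝔫 : Ideal B) [𝔫.IsPrime] (R : Type*) [CommRing R]
    [Algebra B R] [IsLocalization.AtPrime R 𝔫] (rd : B →+* D) (𝔫' : Ideal D) [𝔫'.IsPrime]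
    (h𝔫 : Ideal.comap rd 𝔫' = 𝔫) (D' : Type*) [CommRing D'] [Algebra D D']
    [IsLocalization.AtPrime D' 𝔫'] (c : R) :
    piHom 𝔫 R rd 𝔫' h𝔫 D' c = 0 ↔ c ∈ Ideal.map (algebraMap B R) (RingHom.ker rd) := by
  obtain ⟨b, s, rfl⟩ := IsLocalization.exists_mk'_eq 𝔫.primeCompl c
  rw [piHom_mk'_eq_zero_iff, IsLocalization.mk'_mem_map_algebraMap_iff 𝔫.primeCompl]
  constructor
  · intro h
    exact ⟨1, Submonoid.one_mem _, by rw [one_mul]; exact (RingHom.mem_ker).2 h⟩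
  · rintro ⟨t, ht, htb⟩
    have h0 : rd t * rd b = 0 := by
      rw [← map_mul]; exact (RingHom.mem_ker).1 htb
    rcases mul_eq_zero.1 h0 with h | h
    · exfalso
      apply ht
      exact ker_le_of_comap_eq h𝔫 ((RingHom.mem_ker).2 h)
    · exact h

theorem ker_piHom [IsDomain D] (𝔫 : Ideal B) [𝔫.IsPrime] (R : Type*) [CommRing R]
    [Algebra B R] [IsLocalization.AtPrime R 𝔫] (rd : B →+* D) (𝔫' : Ideal D) [𝔫'.IsPrime]
    (h𝔫 : Ideal.comap rd 𝔫' = 𝔫) (D' : Type*) [CommRing D'] [Algebra D D']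
    [IsLocalization.AtPrime D' 𝔫'] :
    RingHom.ker (piHom 𝔫 R rd 𝔫' h𝔫 D') = Ideal.map (algebraMap B R) (RingHom.ker rd) := by
  apply Ideal.ext
  intro c
  rw [RingHom.mem_ker]
  exact piHom_eq_zero_iff 𝔫 R rd 𝔫' h𝔫 D' c

/-- **Generator form** (the `hker` shape of `Upstairs.nl0`): if `y ∈ ker rd` generates `ker rd`
locally at `𝔫`, then `π c = 0 ↔ y ∣ c` in `R`.  No UFD / height-one hypothesis needed. -/
theorem piHom_eq_zero_iff_dvd_of_gen [IsDomain D] (𝔫 : Ideal B) [𝔫.IsPrime] (R : Type*)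
    [CommRing R] [Algebra B R] [IsLocalization.AtPrime R 𝔫] (rd : B →+* D) (𝔫' : Ideal D)
    [𝔫'.IsPrime] (h𝔫 : Ideal.comap rd 𝔫' = 𝔫) (D' : Type*) [CommRing D'] [Algebra D D']
    [IsLocalization.AtPrime D' 𝔫'] (y : B) (hy : rd y = 0)
    (hgen : ∀ b : B, rd b = 0 → ∃ s : B, s ∉ 𝔫 ∧ y ∣ s * b) (c : R) :
    piHom 𝔫 R rd 𝔫' h𝔫 D' c = 0 ↔ algebraMap B R y ∣ c := by
  constructor
  · intro h
    obtain ⟨b, s, rfl⟩ := IsLocalization.exists_mk'_eq 𝔫.primeCompl c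
    rw [piHom_mk'_eq_zero_iff] at h
    obtain ⟨t, ht, w, hw⟩ := hgen b h
    -- `t * b = y * w`, so `b / s = y * (w / (t * s))`
    have ht' : t ∈ 𝔫.primeCompl := ht
    refine ⟨IsLocalization.mk' R w ((⟨t, ht'⟩ : 𝔫.primeCompl) * s), ?_⟩
    rw [← IsLocalization.mk'_one (M := 𝔫.primeCompl) R y, ← IsLocalization.mk'_mul,
      IsLocalization.mk'_eq_iff_eq]
    simp only [one_mul, Submonoid.coe_mul]
    congr 1
    rw [← hw]
    ring
  · rintro ⟨w, rfl⟩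
    rw [map_mul, piHom_algebraMap, hy, map_zero, zero_mul]

end Pi

section Gen

variable {B : Type*} [CommRing B]

theorem algebraMap_injective [IsDomain B] (𝔫 : Ideal B) [𝔫.IsPrime] (R : Type*) [CommRing R]
    [Algebra B R] [IsLocalization.AtPrime R 𝔫] : Function.Injective (algebraMap B R) :=
  IsLocalization.injective R (M := 𝔫.primeCompl) 𝔫.primeCompl_le_nonZeroDivisors

theorem isDomain_R [IsDomain B] (𝔫 : Ideal B) [𝔫.IsPrime] (R : Type*) [CommRing R]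
    [Algebra B R] [IsLocalization.AtPrime R 𝔫] : IsDomain R :=
  IsLocalization.isDomain_of_le_nonZeroDivisors (M := 𝔫.primeCompl) R
    𝔫.primeCompl_le_nonZeroDivisors

/-- elements outside `𝔫` become units of `R`. -/
theorem isUnit_algebraMap_of_not_mem (𝔫 : Ideal B) [𝔫.IsPrime] (R : Type*) [CommRing R]
    [Algebra B R] [IsLocalization.AtPrime R 𝔫] {s : B} (hs : s ∉ 𝔫) :
    IsUnit (algebraMap B R s) :=
  IsLocalization.map_units R (⟨s, hs⟩ : 𝔫.primeCompl)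

/-- **Height-one primes below `𝔫` are principal in the factorial local ring `R = B_𝔫`.**
`𝔭` is a prime of `B` with `𝔭 ≤ 𝔫`, `𝔭 ≠ ⊥`, minimal among the non-zero primes. -/
theorem exists_prime_gen_of_prime [IsDomain B] (𝔫 : Ideal B) [𝔫.IsPrime] (R : Type*) [CommRing R]
    [Algebra B R] [IsLocalization.AtPrime R 𝔫] [UniqueFactorizationMonoid R]
    (𝔭 : Ideal B) [h𝔭 : 𝔭.IsPrime] (hle : 𝔭 ≤ 𝔫) (h0 : 𝔭 ≠ ⊥)
    (hmin : ∀ 𝔮 : Ideal B, 𝔮.IsPrime → 𝔮 ≠ ⊥ → 𝔮 ≤ 𝔭 → 𝔮 = 𝔭) :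
    ∃ x : R, Prime x ∧ Ideal.map (algebraMap B R) 𝔭 = Ideal.span {x} := by
  have hdisj : Disjoint (𝔫.primeCompl : Set B) (𝔭 : Set B) := by
    rw [Set.disjoint_left]
    intro b hb hb'
    exact hb (hle hb')
  have hP : (Ideal.map (algebraMap B R) 𝔭).IsPrime :=
    IsLocalization.isPrime_of_isPrime_disjoint 𝔫.primeCompl R 𝔭 h𝔭 hdisj
  have hinj := algebraMap_injective 𝔫 R
  have hP0 : Ideal.map (algebraMap B R) 𝔭 ≠ ⊥ := by
    intro h
    exact h0 ((Ideal.map_eq_bot_iff_of_injective hinj).1 h)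
  obtain ⟨x, hxP, hx⟩ := hP.exists_mem_prime_of_ne_bot hP0
  refine ⟨x, hx, ?_⟩
  -- `𝔮 := comap (span {x})` is a non-zero prime inside `𝔭`
  have hxprime : (Ideal.span ({x} : Set R)).IsPrime :=
    (Ideal.span_singleton_prime hx.ne_zero).2 hx
  have hle' : Ideal.span ({x} : Set R) ≤ Ideal.map (algebraMap B R) 𝔭 :=
    (Ideal.span_singleton_le_iff_mem _).2 hxP
  have hmc : Ideal.map (algebraMap B R) (Ideal.comap (algebraMap B R) (Ideal.span ({x} : Set R)))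
      = Ideal.span ({x} : Set R) :=
    IsLocalization.map_under 𝔫.primeCompl R _
  have hq0 : Ideal.comap (algebraMap B R) (Ideal.span ({x} : Set R)) ≠ ⊥ := by
    intro h
    rw [h, Ideal.map_bot] at hmc
    exact hx.ne_zero ((Ideal.span_singleton_eq_bot).1 hmc.symm)
  have hqle : Ideal.comap (algebraMap B R) (Ideal.span ({x} : Set R)) ≤ 𝔭 := by
    have h1 := Ideal.comap_mono (f := algebraMap B R) hle'
    have h2 : Ideal.comap (algebraMap B R) (Ideal.map (algebraMap B R) 𝔭) = 𝔭 :=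
      IsLocalization.under_map_of_isPrime_disjoint 𝔫.primeCompl R h𝔭 hdisj
    rw [h2] at h1
    exact h1
  have hq := hmin _ (Ideal.comap_isPrime (algebraMap B R) _) hq0 hqle
  rw [← hq, hmc]

end Gen

section Pkg

variable {B D : Type*} [CommRing B] [IsDomain B] [CommRing D]

/-- the vertical prime `ker rd` is principal in the factorial `R`. -/
theorem exists_prime_gen [IsDomain D] (𝔫 : Ideal B) [𝔫.IsPrime] (R : Type*) [CommRing R]
    [Algebra B R] [IsLocalization.AtPrime R 𝔫] [UniqueFactorizationMonoid R]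
    (rd : B →+* D) (hle : RingHom.ker rd ≤ 𝔫) (hker0 : RingHom.ker rd ≠ ⊥)
    (hmin : ∀ 𝔮 : Ideal B, 𝔮.IsPrime → 𝔮 ≠ ⊥ → 𝔮 ≤ RingHom.ker rd → 𝔮 = RingHom.ker rd) :
    ∃ x : R, Prime x ∧ Ideal.map (algebraMap B R) (RingHom.ker rd) = Ideal.span {x} :=
  haveI : (RingHom.ker rd).IsPrime := RingHom.ker_isPrime rd
  exists_prime_gen_of_prime 𝔫 R (RingHom.ker rd) hle hker0 hmin

/-- **The node package (Q4).**  `x : R` prime, `π : R ↠ D'` extending `rd`, with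
`π c = 0 ↔ x ∣ c`. -/
theorem exists_node_pkg [IsDomain D] (𝔫 : Ideal B) [𝔫.IsPrime] (R : Type*) [CommRing R]
    [Algebra B R] [IsLocalization.AtPrime R 𝔫] [UniqueFactorizationMonoid R]
    (rd : B →+* D) (𝔫' : Ideal D) [𝔫'.IsPrime] (h𝔫 : Ideal.comap rd 𝔫' = 𝔫)
    (D' : Type*) [CommRing D'] [Algebra D D'] [IsLocalization.AtPrime D' 𝔫']
    (hrd : Function.Surjective rd) (hker0 : RingHom.ker rd ≠ ⊥)
    (hmin : ∀ 𝔮 : Ideal B, 𝔮.IsPrime → 𝔮 ≠ ⊥ → 𝔮 ≤ RingHom.ker rd → 𝔮 = RingHom.ker rd) :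
    ∃ x : R, Prime x ∧ Ideal.map (algebraMap B R) (RingHom.ker rd) = Ideal.span {x} ∧
      ∃ π : R →+* D', Function.Surjective π ∧
        (∀ b : B, π (algebraMap B R b) = algebraMap D D' (rd b)) ∧ ∀ c : R, π c = 0 ↔ x ∣ c := by
  obtain ⟨x, hx, hspan⟩ := exists_prime_gen 𝔫 R rd (ker_le_of_comap_eq h𝔫) hker0 hmin
  refine ⟨x, hx, hspan, piHom 𝔫 R rd 𝔫' h𝔫 D', piHom_surjective 𝔫 R rd 𝔫' h𝔫 D' hrd,
    piHom_algebraMap 𝔫 R rd 𝔫' h𝔫 D', fun c => ?_⟩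
  rw [piHom_eq_zero_iff, hspan, Ideal.mem_span_singleton]

/-- The same with `𝔫' := map rd 𝔫` (branch 2 at a node: only `ker rd ≤ 𝔫` is known). -/
theorem exists_node_pkg_map [IsDomain D] (𝔫 : Ideal B) [𝔫.IsPrime] (R : Type*) [CommRing R]
    [Algebra B R] [IsLocalization.AtPrime R 𝔫] [UniqueFactorizationMonoid R]
    (rd : B →+* D) (hrd : Function.Surjective rd)
    (hle : RingHom.ker rd ≤ 𝔫) [(Ideal.map rd 𝔫).IsPrime]
    (D' : Type*) [CommRing D'] [Algebra D D'] [IsLocalization.AtPrime D' (Ideal.map rd 𝔫)]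
    (hker0 : RingHom.ker rd ≠ ⊥)
    (hmin : ∀ 𝔮 : Ideal B, 𝔮.IsPrime → 𝔮 ≠ ⊥ → 𝔮 ≤ RingHom.ker rd → 𝔮 = RingHom.ker rd) :
    ∃ x : R, Prime x ∧ Ideal.map (algebraMap B R) (RingHom.ker rd) = Ideal.span {x} ∧
      ∃ π : R →+* D', Function.Surjective π ∧
        (∀ b : B, π (algebraMap B R b) = algebraMap D D' (rd b)) ∧ ∀ c : R, π c = 0 ↔ x ∣ c :=
  exists_node_pkg 𝔫 R rd (Ideal.map rd 𝔫) (comap_map_eq hrd hle) D' hrd hker0 hmin

omit [IsDomain B] in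
theorem isDomain_loc [IsDomain D] (𝔫' : Ideal D) [𝔫'.IsPrime] (D' : Type*) [CommRing D']
    [Algebra D D'] [IsLocalization.AtPrime D' 𝔫'] : IsDomain D' :=
  IsLocalization.isDomain_of_le_nonZeroDivisors (M := 𝔫'.primeCompl) D'
    𝔫'.primeCompl_le_nonZeroDivisors

omit [IsDomain B] in
/-- `D' = D_{𝔫'}` is a DVR when `D` is Dedekind and `𝔫' ≠ ⊥`. -/
theorem isDiscreteValuationRing_loc [IsDedekindDomain D] (𝔫' : Ideal D) [𝔫'.IsPrime]
    (D' : Type*) [CommRing D'] [IsDomain D'] [Algebra D D'] [IsLocalization.AtPrime D' 𝔫']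
    (h0 : 𝔫' ≠ ⊥) : IsDiscreteValuationRing D' :=
  IsLocalization.AtPrime.isDiscreteValuationRing_of_dedekind_domain D h0 D'

omit [IsDomain B] in
/-- `D' = D_{𝔫'}` has the fraction field of `D`. -/
theorem isFractionRing_loc [IsDomain D] (𝔫' : Ideal D) [𝔫'.IsPrime] (D' : Type*) [CommRing D']
    [Algebra D D'] [IsLocalization.AtPrime D' 𝔫'] (K : Type*) [CommRing K] [Algebra D K]
    [Algebra D' K] [IsScalarTower D D' K] [IsFractionRing D K] : IsFractionRing D' K :=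
  IsFractionRing.isFractionRing_of_isDomain_of_isLocalization 𝔫'.primeCompl D' K

end Pkg

section Product

variable {R : Type*} [CommRing R] [IsDomain R] [UniqueFactorizationMonoid R]

omit [IsDomain R] in
/-- a non-zero element of a UFD without prime divisors is a unit. -/
theorem isUnit_of_no_prime_dvd {a : R} (ha : a ≠ 0) (h : ∀ q : R, Prime q → ¬ q ∣ a) :
    IsUnit a := by
  by_contra hu
  obtain ⟨i, hi, hia⟩ := WfDvdMonoid.exists_irreducible_factor hu ha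
  exact h i (UniqueFactorizationMonoid.irreducible_iff_prime.1 hi) hia

/-- **Product clause (node).**  If every prime divisor of `p0 ≠ 0` is associated to `x1` or `x2`
and `p0` is divisible neither by `x1²` nor by `x2²` (thickness one), then `p0 ∣ x1 * x2`.
(`x2 = x1` allowed: type I.) -/
theorem dvd_mul_of_prime_factors {p0 x1 x2 : R} (hx1 : Prime x1) (hx2 : Prime x2) (h0 : p0 ≠ 0)
    (H : ∀ q : R, Prime q → q ∣ p0 → Associated q x1 ∨ Associated q x2)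
    (h1 : ¬ x1 ^ 2 ∣ p0) (h2 : ¬ x2 ^ 2 ∣ p0) : p0 ∣ x1 * x2 := by
  obtain ⟨a, p1, hp1, rfl⟩ := WfDvdMonoid.max_power_factor h0 hx1.irreducible
  have hp10 : p1 ≠ 0 := right_ne_zero_of_mul h0
  obtain ⟨b, p2, hp2, rfl⟩ := WfDvdMonoid.max_power_factor hp10 hx2.irreducible
  have ha : a ≤ 1 := by
    by_contra hlt
    rw [not_le] at hlt
    exact h1 (Dvd.dvd.mul_right (pow_dvd_pow x1 hlt) _)
  have hb : b ≤ 1 := by
    by_contra hlt
    rw [not_le] at hlt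
    exact h2 (Dvd.dvd.mul_left (Dvd.dvd.mul_right (pow_dvd_pow x2 hlt) _) _)
  have hp20 : p2 ≠ 0 := right_ne_zero_of_mul hp10
  have hx1p2 : ¬ x1 ∣ p2 := fun h => hp1 (Dvd.dvd.mul_left h _)
  have hu : IsUnit p2 := by
    apply isUnit_of_no_prime_dvd hp20
    intro q hq hqp2
    have hqp0 : q ∣ x1 ^ a * (x2 ^ b * p2) :=
      Dvd.dvd.mul_left (Dvd.dvd.mul_left hqp2 _) _
    rcases H q hq hqp0 with h | h
    · exact hx1p2 (h.symm.dvd.trans hqp2)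
    · exact hp2 (h.symm.dvd.trans hqp2)
  obtain ⟨u, rfl⟩ := hu
  have e1 : x1 ^ a ∣ x1 := by
    calc x1 ^ a ∣ x1 ^ 1 := pow_dvd_pow x1 ha
      _ = x1 := pow_one x1
  have e2 : x2 ^ b ∣ x2 := by
    calc x2 ^ b ∣ x2 ^ 1 := pow_dvd_pow x2 hb
      _ = x2 := pow_one x2
  have e3 : x2 ^ b * (u : R) ∣ x2 := by
    rw [Units.mul_right_dvd]
    exact e2
  exact mul_dvd_mul e1 e3

/-- **Product clause (type I).**  If every prime divisor of `p0 ≠ 0` is associated to `x1` and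
`x1² ∤ p0`, then `p0 ∣ x1` (a fortiori `p0 ∣ x1 * x1`). -/
theorem dvd_of_prime_factors_single {p0 x1 : R} (hx1 : Prime x1) (h0 : p0 ≠ 0)
    (H : ∀ q : R, Prime q → q ∣ p0 → Associated q x1) (h1 : ¬ x1 ^ 2 ∣ p0) : p0 ∣ x1 := by
  obtain ⟨a, p1, hp1, rfl⟩ := WfDvdMonoid.max_power_factor h0 hx1.irreducible
  have hp10 : p1 ≠ 0 := right_ne_zero_of_mul h0
  have ha : a ≤ 1 := by
    by_contra hlt
    rw [not_le] at hlt
    exact h1 (Dvd.dvd.mul_right (pow_dvd_pow x1 hlt) _)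
  have hu : IsUnit p1 := by
    apply isUnit_of_no_prime_dvd hp10
    intro q hq hqp1
    have h := H q hq (Dvd.dvd.mul_left hqp1 _)
    exact hp1 (h.symm.dvd.trans hqp1)
  obtain ⟨u, rfl⟩ := hu
  rw [Units.mul_right_dvd]
  calc x1 ^ a ∣ x1 ^ 1 := pow_dvd_pow x1 ha
    _ = x1 := pow_one x1

theorem dvd_mul_self_of_prime_factors_single {p0 x1 : R} (hx1 : Prime x1) (h0 : p0 ≠ 0)
    (H : ∀ q : R, Prime q → q ∣ p0 → Associated q x1) (h1 : ¬ x1 ^ 2 ∣ p0) : p0 ∣ x1 * x1 :=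
  Dvd.dvd.mul_right (dvd_of_prime_factors_single hx1 h0 H h1) _

end Product

section Thickness

variable {B : Type*} [CommRing B]
variable (𝔫 : Ideal B) [𝔫.IsPrime] (R : Type*) [CommRing R] [Algebra B R]
  [IsLocalization.AtPrime R 𝔫]

/-- **Thickness one, transported to `R`** (helper75's `thickness_one : ℓ * s = c * x * y` with
`s c ∉ 𝔫`): `ℓ = unit * x * y` in `R`. -/
theorem associated_of_thickness_eq {l s c x y : B} (hs : s ∉ 𝔫) (hc : c ∉ 𝔫)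
    (h : l * s = c * x * y) :
    Associated (algebraMap B R l) (algebraMap B R x * algebraMap B R y) := by
  obtain ⟨us, hus⟩ := isUnit_algebraMap_of_not_mem 𝔫 R hs
  obtain ⟨uc, huc⟩ := isUnit_algebraMap_of_not_mem 𝔫 R hc
  have h' : algebraMap B R l * (us : R)
      = (uc : R) * (algebraMap B R x * algebraMap B R y) := by
    rw [hus, huc, ← map_mul, ← map_mul, ← map_mul, h, mul_assoc]
  refine ⟨us * uc⁻¹, ?_⟩
  rw [Units.val_mul, ← mul_assoc, h', mul_comm, ← mul_assoc, Units.inv_mul, one_mul]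

theorem dvd_of_thickness_eq {l s c x y : B} (hs : s ∉ 𝔫) (hc : c ∉ 𝔫)
    (h : l * s = c * x * y) :
    algebraMap B R l ∣ algebraMap B R x * algebraMap B R y :=
  (associated_of_thickness_eq 𝔫 R hs hc h).dvd

/-- type I: `ℓ * s = c * y` with `s c ∉ 𝔫` gives `ℓ = unit * y` in `R`. -/
theorem associated_of_thickness_eq_single {l s c y : B} (hs : s ∉ 𝔫) (hc : c ∉ 𝔫)
    (h : l * s = c * y) :
    Associated (algebraMap B R l) (algebraMap B R y) := by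
  obtain ⟨us, hus⟩ := isUnit_algebraMap_of_not_mem 𝔫 R hs
  obtain ⟨uc, huc⟩ := isUnit_algebraMap_of_not_mem 𝔫 R hc
  have h' : algebraMap B R l * (us : R) = (uc : R) * algebraMap B R y := by
    rw [hus, huc, ← map_mul, ← map_mul, h]
  refine ⟨us * uc⁻¹, ?_⟩
  rw [Units.val_mul, ← mul_assoc, h', mul_comm, ← mul_assoc, Units.inv_mul, one_mul]

end Thickness

end Fermat.Agent.GF.KCover.Node.NodePkg
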