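/-
GATE-F (S44) / GF-KCOVER-INST, node side, leaf (U3) of helper84 (board 6432 / 6491), MODULAR half
(helper75): **the thickness-one node ring DOWNSTAIRS**, on the finite chart
`B := BRingK0 N' ℓ A h ⊆ F₀ = K₀(X₀(N' ℓ))` of `GB/A/A4` (helper84) and `GL/Red` (helper96).

`Q` a place of the first component `FresBar N' A` containing `CRing N' A` (`j~` regular at `Q`),
`𝔫 := centre Q hQ = comap redC1K0 (centre of Q)`, `W₁ = RwK0 A (N' ℓ)`,
`W₂ = (redData2K0 A (N' ℓ) h).Rw` the two vertical valuation rings over `K₀`.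

ABSTRACT (noetherian integrally closed `B`, `F = Frac B`, `𝔫` prime, `Kummer.IsGenAtPrime`):
* `exists_mul_eq_prod_gen` : **thickness one**.  If `q ∈ B` is a uniformiser of `B_𝔭` for every
  height-one prime `𝔭 ≤ 𝔫` containing `q` (`𝔭 ∈ T`), all height-one primes through `𝔫` are principal
  at `𝔫` and `π 𝔭` is a local generator of `𝔭 ∈ T`, then `q * s = c * ∏_{𝔭 ∈ T} π 𝔭` with
  `s, c ∉ 𝔫` (`q` is a unit of `B_𝔫` times the product of the local equations of the vertical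
  components through `𝔫`).

MODULAR (binders of `GB/A/A4/Finite.dvd_ord_finite` verbatim):
* `centre`, `IsNode` ; `ufd_centre` : `B_𝔫` is factorial (node: the η-route, else type I);
* `le_centre₁` : `B ∩ 𝔪(W₁) ⊆ 𝔫` (`hc₁` of `Upstairs.nl0`; `hc₂` is `IsNode`);
* `exists_gen₁`, `exists_gen₂` : local generators `y`, `x` of `B ∩ 𝔪(W₁)`, `B ∩ 𝔪(W₂)` at `𝔫`, in the
  `hker` shape of `Upstairs.nl0` (`∃ s ∉ 𝔫, y ∣ s * b`);
* **`thickness_one`** (node) : `∃ x y s c`, `s c ∉ 𝔫`, `x`, `y` such generators, `ℓ * s = c * x * y`;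
* **`thickness_one_typeI`** (not a node) : `ℓ * s = c * y`;
* `nl0_binders` : `∃ x y p0`, `hker₁ ∧ hker₂ ∧ p0 ∣ x * y ∧ ∃ s ∉ 𝔫, p0 = ℓ * s` — the binders
  `(hker₁ hker₂ hxy)` of `Upstairs.nl0` with `S := B`.
-/
import Fermat.Agent.GB.A.A4.Finite
import Fermat.Agent.GB.A.A4.TypeIInputs
import Fermat.Agent.GL.Frame.KummerDatum

set_option autoImplicit false
set_option linter.unusedSectionVars false

noncomputable section

namespace Fermat.Agent.GF.KCover.Node.NodeRingK0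

open Fermat.Agent.GL.KrullHeightOne Fermat.Agent.GL.KrullFrame Fermat.Agent.GL.Frame.HeightOne
  Fermat.Agent.GL.Frame.Kummer

/-! ### Abstract: thickness one from uniformisers -/

section Abstract

variable {B F : Type*} [CommRing B] [IsDomain B] [Field F] [Algebra B F] [IsFractionRing B F]
  [IsNoetherianRing B] [IsIntegrallyClosed B]

/-- `q / π` is a unit of `B_𝔭` when `π` is a local generator of `𝔭` and `q ∈ 𝔭` a uniformiser. -/
theorem unitAt_div_gen {𝔫 : Ideal B} {𝔭 : HtOne B} (h𝔭 : 𝔭.1 ≤ 𝔫) {q π : B} (hq : q ∈ 𝔭.1)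
    (hπ : IsGenAtPrime 𝔫 𝔭.1 π) (hπ0 : π ≠ 0)
    (hunif : ∀ f : F, f ∈ (V1 F 𝔭).nonunits → f / algebraMap B F q ∈ V1 F 𝔭) :
    UnitAt 𝔭 (algebraMap B F q / algebraMap B F π) := by
  have hπF : algebraMap B F π ≠ 0 := fun h0 =>
    hπ0 ((map_eq_zero_iff _ (IsFractionRing.injective B F)).1 h0)
  constructor
  · obtain ⟨s, hs, b', hb'⟩ := hπ.2 q hq
    have hs𝔭 : s ∉ 𝔭.1 := fun h => hs (h𝔭 h)
    have hsF : algebraMap B F s ≠ 0 :=
      Fermat.Agent.GL.KrullFrame.algebraMap_ne_zero_of_not_mem hs𝔭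
    have e : algebraMap B F q / algebraMap B F π = algebraMap B F b' * (algebraMap B F s)⁻¹ := by
      have h1 := congrArg (algebraMap B F) hb'
      rw [map_mul, map_mul] at h1
      have h2 : algebraMap B F q =
          (algebraMap B F s)⁻¹ * (algebraMap B F π * algebraMap B F b') := by
        rw [← h1, inv_mul_cancel_left₀ hsF]
      rw [div_eq_iff hπF, h2]
      ring
    rw [e]
    exact (V1 F 𝔭).mul_mem _ _ (algebraMap_mem_V1 𝔭 b') (inv_algebraMap_mem_V1 𝔭 hs𝔭)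
  · rw [inv_div]
    exact hunif _ ((algebraMap_mem_nonunits_V1_iff 𝔭 π).2 hπ.1)

/-- **thickness one, abstract**: `q` is a unit of `B_𝔫` times the product of the local equations of
the height-one primes through `𝔫` which contain it, when it uniformises each of them. -/
theorem exists_mul_eq_prod_gen (𝔫 : Ideal B) [h𝔫 : 𝔫.IsPrime] {q : B} (hq0 : q ≠ 0)
    (hprin : ∀ 𝔭 : HtOne B, 𝔭.1 ≤ 𝔫 → ∃ π : B, IsGenAtPrime 𝔫 𝔭.1 π)
    (T : Finset (HtOne B)) (hTq : ∀ 𝔭 ∈ T, q ∈ 𝔭.1)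
    (hvert : ∀ 𝔭 : HtOne B, 𝔭.1 ≤ 𝔫 → q ∈ 𝔭.1 → 𝔭 ∈ T)
    (hunif : ∀ 𝔭 ∈ T, ∀ f : F, f ∈ (V1 F 𝔭).nonunits → f / algebraMap B F q ∈ V1 F 𝔭)
    (π : HtOne B → B) (hπ : ∀ 𝔭 ∈ T, IsGenAtPrime 𝔫 𝔭.1 (π 𝔭)) :
    ∃ s c : B, s ∉ 𝔫 ∧ c ∉ 𝔫 ∧ q * s = c * ∏ 𝔭 ∈ T, π 𝔭 := by
  classical
  have hπ0 : ∀ 𝔭 ∈ T, π 𝔭 ≠ 0 := fun 𝔭 h𝔭 => ne_zero_of_isGenAtPrime (hπ 𝔭 h𝔭)
  have hπF : ∀ 𝔭 ∈ T, algebraMap B F (π 𝔭) ≠ 0 := fun 𝔭 h𝔭 h0 =>
    hπ0 𝔭 h𝔭 ((map_eq_zero_iff _ (IsFractionRing.injective B F)).1 h0)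
  have hqF : algebraMap B F q ≠ 0 := fun h0 =>
    hq0 ((map_eq_zero_iff _ (IsFractionRing.injective B F)).1 h0)
  set G : F := ∏ 𝔭 ∈ T, algebraMap B F (π 𝔭) with hG
  have hG0 : G ≠ 0 := Finset.prod_ne_zero_iff.2 hπF
  set u : F := algebraMap B F q / G with hu
  have hu0 : u ≠ 0 := div_ne_zero hqF hG0
  -- `u` is a unit at every height-one prime through `𝔫`
  have hunit : ∀ 𝔭0 : HtOne B, 𝔭0.1 ≤ 𝔫 → UnitAt 𝔭0 u := by
    intro 𝔭0 h0
    by_cases hmem : 𝔭0 ∈ T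
    · have h1 : G = algebraMap B F (π 𝔭0) * ∏ 𝔭 ∈ T.erase 𝔭0, algebraMap B F (π 𝔭) := by
        rw [hG]
        exact (Finset.mul_prod_erase T (fun 𝔭 => algebraMap B F (π 𝔭)) hmem).symm
      have h2 : UnitAt 𝔭0 (∏ 𝔭 ∈ T.erase 𝔭0, algebraMap B F (π 𝔭)) :=
        UnitAt.prod _ _ fun 𝔭 h𝔭 => unitAt_algebraMap
          (not_mem_of_isGenAtPrime (hπ 𝔭 (Finset.mem_of_mem_erase h𝔭)) h0
            (Finset.ne_of_mem_erase h𝔭))
      have h3 : u = (algebraMap B F q / algebraMap B F (π 𝔭0)) *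
          (∏ 𝔭 ∈ T.erase 𝔭0, algebraMap B F (π 𝔭))⁻¹ := by
        rw [hu, h1, div_mul_eq_div_div, div_eq_mul_inv (algebraMap B F q / _)]
      rw [h3]
      exact (unitAt_div_gen h0 (hTq 𝔭0 hmem) (hπ 𝔭0 hmem) (hπ0 𝔭0 hmem) (hunif 𝔭0 hmem)).mul h2.inv
    · have hq𝔭 : q ∉ 𝔭0.1 := fun h => hmem (hvert 𝔭0 h0 h)
      have h2 : UnitAt 𝔭0 G :=
        UnitAt.prod _ _ fun 𝔭 h𝔭 => unitAt_algebraMap
          (not_mem_of_isGenAtPrime (hπ 𝔭 h𝔭) h0 (fun h => hmem (h ▸ h𝔭)))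
      rw [hu, div_eq_mul_inv]
      exact (unitAt_algebraMap hq𝔭).mul h2.inv
  obtain ⟨g, c, s, hc, hs, hgs⟩ := exists_kummer_datum (F := F) 𝔫 0 u hu0 hprin
    (fun 𝔭 h𝔭 => ⟨1, one_ne_zero, by rw [pow_zero, mul_one]; exact hunit 𝔭 h𝔭⟩)
  refine ⟨s, c, hs, hc, IsFractionRing.injective B F ?_⟩
  rw [pow_zero, one_mul, hu] at hgs
  rw [map_mul, map_mul, map_prod, ← hG, ← hgs]
  field_simp

end Abstract

/-! ### Modular: the finite chart `BRingK0 N' ℓ A h` -/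

section Modular

open ModularCurve IsLocalRing AlgebraicCurve
open Fermat.Agent.GL.Val.GaussK0 Fermat.Agent.GL.Val.SecondK0 Fermat.Agent.GL.Val.L1eLower
open Fermat.Agent.GL.Val.RamK0 Fermat.Agent.GL.MultiVal
open Fermat.Agent.GL.Local.InertiaField
open Fermat.Agent.GJ.KumGroup Fermat.Agent.GJ.J1 Fermat.Agent.GJ.J1.Val
open Fermat.Agent.GL.Frame.HorizDiv Fermat.Agent.GL.Frame.HorizHord
open Fermat.Agent.GK.AL Fermat.Agent.GL.AL Fermat.Agent.GK.QS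
open Fermat.Agent.Common_helper32
open Fermat.Agent.S24_helper6
open Fermat.Agent.GL.Final.H5UnifK0
open Fermat.Agent.GB.A4.FrameTwo Fermat.Agent.GB.A4.LocalKummer Fermat.Agent.GB.A4.ChartStep
open Fermat.Agent.GB.A4.Finite Fermat.Agent.GB.A4.TypeIInputs
open Fermat.Agent.GL.BRingK0 Fermat.Agent.GL.BRingChart Fermat.Agent.GL.Thick
open Fermat.Agent.GL.EtaK0 Fermat.Agent.GL.EtaInstK0B Fermat.Agent.GL.EtaInstK0Aux

attribute [local instance] Fermat.Agent.GL.Frame.InstK0.algSubringFullC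

variable {A : ValuationSubring Qb} {N' : ℕ} [NeZero N'] {ℓ : ℕ} [Fact ℓ.Prime] [NeZero ℓ]
  (h : ExactDvd ℓ (N' * ℓ)) (hℓN : ¬ ℓ ∣ N') (hA : A.LiesOverPrime ℓ)

local notation "F0" => modularFunctionFieldFullC (K0 A) (N' * ℓ)
local notation "kA" => IsLocalRing.ResidueField A

variable [IsDedekindDomain (CRing N' A)] [IsFractionRing (CRing N' A) (FresBar N' A)]

/-- the centre on the finite chart `BRingK0 N' ℓ A h` of a place `Q` of the first component at which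
`j~` is regular. -/
def centre (Q : Place kA (FresBar N' A)) (hQ : ContainsB (CRing N' A) Q) :
    Ideal (BRingK0 N' ℓ A h) :=
  Ideal.comap (redC1K0 h hℓN hA) (primeOfPlace Q hQ).asIdeal

instance centre_isPrime (Q : Place kA (FresBar N' A)) (hQ : ContainsB (CRing N' A) Q) :
    (centre h hℓN hA Q hQ).IsPrime := by
  have : ((primeOfPlace Q hQ).asIdeal).IsPrime := (primeOfPlace Q hQ).isPrime
  exact Ideal.comap_isPrime _ _

/-- `Q` is a NODE: its centre lies on the second vertical component as well. -/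
def IsNode (Q : Place kA (FresBar N' A)) (hQ : ContainsB (CRing N' A) Q) : Prop :=
  ∀ b : BRingK0 N' ℓ A h, (b : F0) ∈ (redData2K0 A (N' * ℓ) h).Rw.nonunits →
    b ∈ centre h hℓN hA Q hQ

/-- the centre contains the first vertical prime (`hc₁` of `Upstairs.nl0`). -/
theorem le_centre₁ (Q : Place kA (FresBar N' A)) (hQ : ContainsB (CRing N' A) Q)
    (b : BRingK0 N' ℓ A h) (hb : (b : F0) ∈ (RwK0 A (N' * ℓ)).nonunits) :
    b ∈ centre h hℓN hA Q hQ := by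
  rw [centre, Ideal.mem_comap, (redC1K0_eq_zero_iff h hA hℓN).2 hb]
  exact Ideal.zero_mem _

set_option maxHeartbeats 1000000 in
/-- **the local ring of the finite chart at the centre of `Q` is factorial** (node: the η-route of
thickness one; otherwise type I) — the `hufd` of `GB/A/A4/Finite.dvd_ord_finite`, exported. -/
theorem ufd_centre (h2 : ℓ = 2 → 3 ∣ N') (h3 : ℓ = 3 → 2 ∣ N')
    (hν2 : nuTwo N' = 0) (hν3 : nuThree N' = 0)
    (Q : Place kA (FresBar N' A)) (hQ : ContainsB (CRing N' A) Q) :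
    UniqueFactorizationMonoid (Localization.AtPrime (centre (A := A) h hℓN hA Q hQ)) := by
  have hF := frame_BRingK0 h hA
  have hR0 : ∀ c : K0 A, c ∈ R0 A → algebraMap (K0 A) F0 c ∈ BRingK0 N' ℓ A h :=
    fun c hc => algebraMap_mem_BRingK0 N' ℓ A h ⟨c, hc⟩
  have : ((primeOfPlace Q hQ).asIdeal).IsPrime := (primeOfPlace Q hQ).isPrime
  have hker1 : ∀ b : BRingK0 N' ℓ A h, redC1K0 h hℓN hA b = 0 ↔
      (b : F0) ∈ (RwK0 A (N' * ℓ)).nonunits := fun b => redC1K0_eq_zero_iff h hA hℓN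
  by_cases hnode : IsNode h hℓN hA Q hQ
  · -- a node: the η-route
    obtain ⟨J', hJ, hBT, -, -, -, hmap⟩ := exists_ideal_K0 h hℓN hA h2 h3
    have hJP : J' ≤ (primeOfPlace Q hQ).asIdeal := by
      rw [← hmap, Ideal.map_le_iff_le_comap]
      intro b hb
      exact hnode b ((mem_P2K0_iff h hℓN hA).1 hb)
    obtain ⟨y, hy, c, hyg, hc⟩ := exists_lift_pow_eq_K0_B h hℓN hA h2 h3 hν2 hν3 hJ hBT
      (primeOfPlace Q hQ) hJP
    have hg0 := etaBK0_ne_zero h hℓN hA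
    have hc0 : c ≠ 0 := fun h0 => hc (by rw [h0, map_zero]; exact Ideal.zero_mem _)
    have hy0 : y ≠ 0 := by
      intro h0
      rw [h0, zero_pow (by norm_num)] at hyg
      exact mul_ne_zero hg0 hc0 hyg.symm
    refine ufd_node_of_frame hF (redC2K0 h hℓN hA) (redC2K0_surjective hℓN hA h2 h3)
      (fun b => ?_) _ hnode (n := 12) (by norm_num) (fun z hz => ?_)
      ((mem_P2K0_iff h hℓN hA).1 hy) hyg hc hy0
    · rw [← mem_P2K0_iff h hℓN hA, mem_P2K0]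
    · exact etaBK0_dvd_pow h hℓN hA ((mem_P2K0_iff h hℓN hA).2 hz)
  · -- one component
    unfold IsNode at hnode
    push Not at hnode
    exact ufd_typeI_of_frame hA hF hR0 (redC1K0 h hℓN hA)
      (redC1K0_surjective h hℓN hA h2 h3) hker1
      (centre h hℓN hA Q hQ) (le_centre₁ h hℓN hA Q hQ) hnode

/-- `ℓ` as an element of the finite chart. -/
theorem natCast_mem_BRingK0 : (ℓ : F0) ∈ BRingK0 N' ℓ A h := by
  have hqR : ((q0 A ℓ : R0 A) : K0 A) ∈ R0 A := (q0 A ℓ).2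
  have := algebraMap_mem_BRingK0 N' ℓ A h ⟨_, hqR⟩
  rwa [algebraMap_q0] at this

/-- `ℓ` as an element of the finite chart. -/
def ellB : BRingK0 N' ℓ A h := ⟨(ℓ : F0), natCast_mem_BRingK0 h⟩

@[simp] theorem coe_ellB : ((ellB (A := A) h : BRingK0 N' ℓ A h) : F0) = (ℓ : F0) := rfl

include hA in
/-- `ℓ` lies in both vertical primes. -/
theorem ellB_mem_nonunits₁ : ((ellB (A := A) h : BRingK0 N' ℓ A h) : F0) ∈
    (RwK0 A (N' * ℓ)).nonunits := by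
  have hq : ℓ.Prime := h.prime
  rw [coe_ellB, ValuationSubring.mem_nonunits_iff]
  have := (isRamified_Rw1K0 A (N' * ℓ) hq hA).valuation_q_lt_one (isUnif_R0 A hq hA)
  rwa [algebraMap_q0] at this

include hA in
/-- `ℓ` lies in the second vertical prime. -/
theorem ellB_mem_nonunits₂ : ((ellB (A := A) h : BRingK0 N' ℓ A h) : F0) ∈
    (redData2K0 A (N' * ℓ) h).Rw.nonunits := by
  have hq : ℓ.Prime := h.prime
  rw [coe_ellB, ValuationSubring.mem_nonunits_iff]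
  have := (isRamified_Rw2K0 A (N' * ℓ) hq hA h).valuation_q_lt_one (isUnif_R0 A hq hA)
  rwa [algebraMap_q0] at this

section Gens

variable (h2 : ℓ = 2 → 3 ∣ N') (h3 : ℓ = 3 → 2 ∣ N') (hν2 : nuTwo N' = 0) (hν3 : nuThree N' = 0)

include h2 h3 hν2 hν3 in
/-- **a local generator at the centre of the first vertical prime** `B ∩ 𝔪(W₁)`, in the `hker₁`
shape of `Upstairs.nl0`. -/
theorem exists_gen₁ (Q : Place kA (FresBar N' A)) (hQ : ContainsB (CRing N' A) Q) :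
    ∃ y : BRingK0 N' ℓ A h, (y : F0) ∈ (RwK0 A (N' * ℓ)).nonunits ∧
      ∀ b : BRingK0 N' ℓ A h, (b : F0) ∈ (RwK0 A (N' * ℓ)).nonunits →
        ∃ s : BRingK0 N' ℓ A h, s ∉ centre h hℓN hA Q hQ ∧ y ∣ s * b := by
  have hufd := ufd_centre h hℓN hA h2 h3 hν2 hν3 Q hQ
  obtain ⟨i1, i2, i3, f, hf1, hf2, hf3⟩ := frame_BRingK0 h hA
  have hW0 : W2 A (N' * ℓ) h 0 = RwK0 A (N' * ℓ) := rfl
  have hle : (f 0).1 ≤ centre h hℓN hA Q hQ := fun b hb =>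
    le_centre₁ h hℓN hA Q hQ b (hW0 ▸ (hf2 0 b).1 hb)
  obtain ⟨π, hπ⟩ := isGenAtPrime_of_ufd (centre h hℓN hA Q hQ)
    (Localization.AtPrime (centre (A := A) h hℓN hA Q hQ)) (f 0) hle
  refine ⟨π, hW0 ▸ (hf2 0 π).1 hπ.1, fun b hb => ?_⟩
  obtain ⟨s, hs, b', hb'⟩ := hπ.2 b ((hf2 0 b).2 (hW0 ▸ hb))
  exact ⟨s, hs, b', hb'⟩

include h2 h3 hν2 hν3 in
/-- **a local generator at a node of the second vertical prime** `B ∩ 𝔪(W₂)`, in the `hker₂` shape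
of `Upstairs.nl0`. -/
theorem exists_gen₂ (Q : Place kA (FresBar N' A)) (hQ : ContainsB (CRing N' A) Q)
    (hnode : IsNode h hℓN hA Q hQ) :
    ∃ x : BRingK0 N' ℓ A h, (x : F0) ∈ (redData2K0 A (N' * ℓ) h).Rw.nonunits ∧
      ∀ b : BRingK0 N' ℓ A h, (b : F0) ∈ (redData2K0 A (N' * ℓ) h).Rw.nonunits →
        ∃ s : BRingK0 N' ℓ A h, s ∉ centre h hℓN hA Q hQ ∧ x ∣ s * b := by
  have hufd := ufd_centre h hℓN hA h2 h3 hν2 hν3 Q hQ
  obtain ⟨i1, i2, i3, f, hf1, hf2, hf3⟩ := frame_BRingK0 h hA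
  have hW1 : W2 A (N' * ℓ) h 1 = (redData2K0 A (N' * ℓ) h).Rw := rfl
  have hle : (f 1).1 ≤ centre h hℓN hA Q hQ := fun b hb => hnode b (hW1 ▸ (hf2 1 b).1 hb)
  obtain ⟨π, hπ⟩ := isGenAtPrime_of_ufd (centre h hℓN hA Q hQ)
    (Localization.AtPrime (centre (A := A) h hℓN hA Q hQ)) (f 1) hle
  refine ⟨π, hW1 ▸ (hf2 1 π).1 hπ.1, fun b hb => ?_⟩
  obtain ⟨s, hs, b', hb'⟩ := hπ.2 b ((hf2 1 b).2 (hW1 ▸ hb))
  exact ⟨s, hs, b', hb'⟩

include h2 h3 hν2 hν3 in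
/-- **THICKNESS ONE at a node**: with `x`, `y` local generators at the centre of the two vertical
primes, `ℓ * s = c * (x * y)` with `s, c` outside the centre — in the local ring `ℓ` is a unit times
the product of the local equations of the two branches. -/
theorem thickness_one (Q : Place kA (FresBar N' A)) (hQ : ContainsB (CRing N' A) Q)
    (hnode : IsNode h hℓN hA Q hQ) :
    ∃ x y s c : BRingK0 N' ℓ A h, s ∉ centre h hℓN hA Q hQ ∧ c ∉ centre h hℓN hA Q hQ ∧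
      ((x : F0) ∈ (redData2K0 A (N' * ℓ) h).Rw.nonunits ∧
        ∀ b : BRingK0 N' ℓ A h, (b : F0) ∈ (redData2K0 A (N' * ℓ) h).Rw.nonunits →
          ∃ t : BRingK0 N' ℓ A h, t ∉ centre h hℓN hA Q hQ ∧ x ∣ t * b) ∧
      ((y : F0) ∈ (RwK0 A (N' * ℓ)).nonunits ∧
        ∀ b : BRingK0 N' ℓ A h, (b : F0) ∈ (RwK0 A (N' * ℓ)).nonunits →
          ∃ t : BRingK0 N' ℓ A h, t ∉ centre h hℓN hA Q hQ ∧ y ∣ t * b) ∧
      ellB h * s = c * (x * y) := by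
  classical
  have hq : ℓ.Prime := h.prime
  have hufd := ufd_centre h hℓN hA h2 h3 hν2 hν3 Q hQ
  obtain ⟨i1, i2, i3, f, hf1, hf2, hf3⟩ := frame_BRingK0 h hA
  have hW0 : W2 A (N' * ℓ) h 0 = RwK0 A (N' * ℓ) := rfl
  have hW1 : W2 A (N' * ℓ) h 1 = (redData2K0 A (N' * ℓ) h).Rw := rfl
  have hle0 : (f 0).1 ≤ centre h hℓN hA Q hQ := fun b hb =>
    le_centre₁ h hℓN hA Q hQ b (hW0 ▸ (hf2 0 b).1 hb)
  have hle1 : (f 1).1 ≤ centre h hℓN hA Q hQ := fun b hb => hnode b (hW1 ▸ (hf2 1 b).1 hb)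
  have hprin : ∀ 𝔭 : HtOne (BRingK0 N' ℓ A h), 𝔭.1 ≤ centre h hℓN hA Q hQ →
      ∃ π : BRingK0 N' ℓ A h, IsGenAtPrime (centre h hℓN hA Q hQ) 𝔭.1 π := fun 𝔭 h𝔭 =>
    isGenAtPrime_of_ufd (centre h hℓN hA Q hQ)
      (Localization.AtPrime (centre (A := A) h hℓN hA Q hQ)) 𝔭 h𝔭
  obtain ⟨y, hy⟩ := hprin (f 0) hle0
  obtain ⟨x, hx⟩ := hprin (f 1) hle1
  have hne : f 0 ≠ f 1 := by
    intro e
    apply Rw1K0_ne_Rw2K0 A (N' * ℓ) h hA
    rw [← hW0, ← hW1, ← hf1 0, ← hf1 1, e]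
  have hq0 : (ellB (A := A) h : BRingK0 N' ℓ A h) ≠ 0 := fun h0 =>
    natCast_ne_zero' A (N' * ℓ) hq (congrArg Subtype.val h0)
  have hq0mem : (ellB (A := A) h : BRingK0 N' ℓ A h) ∈ (f 0).1 :=
    (hf2 0 _).2 (hW0 ▸ ellB_mem_nonunits₁ h hA)
  have hq1mem : (ellB (A := A) h : BRingK0 N' ℓ A h) ∈ (f 1).1 :=
    (hf2 1 _).2 (hW1 ▸ ellB_mem_nonunits₂ h hA)
  set π : HtOne (BRingK0 N' ℓ A h) → BRingK0 N' ℓ A h := fun 𝔭 => if 𝔭 = f 0 then y else x with hπdef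
  have hπ0 : π (f 0) = y := by simp [hπdef]
  have hπ1 : π (f 1) = x := by simp [hπdef, Ne.symm hne]
  obtain ⟨s, c, hs, hc, hsc⟩ := exists_mul_eq_prod_gen (F := F0) (centre h hℓN hA Q hQ) hq0 hprin
    ({f 0, f 1} : Finset (HtOne (BRingK0 N' ℓ A h)))
    (by
      intro 𝔭 h𝔭
      rw [Finset.mem_insert, Finset.mem_singleton] at h𝔭
      rcases h𝔭 with rfl | rfl
      · exact hq0mem
      · exact hq1mem)
    (by
      intro 𝔭 _ hq𝔭
      obtain ⟨i, rfl⟩ := hf3 𝔭 (ellB h) rfl hq𝔭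
      rw [Finset.mem_insert, Finset.mem_singleton]
      fin_cases i
      · exact Or.inl rfl
      · exact Or.inr rfl)
    (by
      intro 𝔭 h𝔭
      rw [Finset.mem_insert, Finset.mem_singleton] at h𝔭
      rcases h𝔭 with rfl | rfl
      · exact hunif_W1 A (N' * ℓ) hq hA (f 0) (hf1 0) (qB := ellB h) rfl
      · exact hunif_W2E A (N' * ℓ) hq hA h (f 1) (hf1 1) (qB := ellB h) rfl)
    π
    (by
      intro 𝔭 h𝔭
      rw [Finset.mem_insert, Finset.mem_singleton] at h𝔭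
      rcases h𝔭 with rfl | rfl
      · rw [hπ0]; exact hy
      · rw [hπ1]; exact hx)
  refine ⟨x, y, s, c, hs, hc, ⟨hW1 ▸ (hf2 1 x).1 hx.1, fun b hb => ?_⟩,
    ⟨hW0 ▸ (hf2 0 y).1 hy.1, fun b hb => ?_⟩, ?_⟩
  · obtain ⟨t, ht, b', hb'⟩ := hx.2 b ((hf2 1 b).2 (hW1 ▸ hb))
    exact ⟨t, ht, b', hb'⟩
  · obtain ⟨t, ht, b', hb'⟩ := hy.2 b ((hf2 0 b).2 (hW0 ▸ hb))
    exact ⟨t, ht, b', hb'⟩
  · rw [hsc, Finset.prod_insert (by rw [Finset.mem_singleton]; exact hne),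
      Finset.prod_singleton, hπ0, hπ1, mul_comm y x]

include h2 h3 hν2 hν3 in
/-- **thickness one at a point of type I** (not a node): `ℓ * s = c * y`, `y` a local generator of
the first vertical prime — `ℓ` is a unit times the local equation of the only branch. -/
theorem thickness_one_typeI (Q : Place kA (FresBar N' A)) (hQ : ContainsB (CRing N' A) Q)
    (hnode : ¬ IsNode h hℓN hA Q hQ) :
    ∃ y s c : BRingK0 N' ℓ A h, s ∉ centre h hℓN hA Q hQ ∧ c ∉ centre h hℓN hA Q hQ ∧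
      ((y : F0) ∈ (RwK0 A (N' * ℓ)).nonunits ∧
        ∀ b : BRingK0 N' ℓ A h, (b : F0) ∈ (RwK0 A (N' * ℓ)).nonunits →
          ∃ t : BRingK0 N' ℓ A h, t ∉ centre h hℓN hA Q hQ ∧ y ∣ t * b) ∧
      ellB h * s = c * y := by
  classical
  have hq : ℓ.Prime := h.prime
  have hufd := ufd_centre h hℓN hA h2 h3 hν2 hν3 Q hQ
  obtain ⟨i1, i2, i3, f, hf1, hf2, hf3⟩ := frame_BRingK0 h hA
  have hW0 : W2 A (N' * ℓ) h 0 = RwK0 A (N' * ℓ) := rfl
  have hW1 : W2 A (N' * ℓ) h 1 = (redData2K0 A (N' * ℓ) h).Rw := rfl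
  have hle0 : (f 0).1 ≤ centre h hℓN hA Q hQ := fun b hb =>
    le_centre₁ h hℓN hA Q hQ b (hW0 ▸ (hf2 0 b).1 hb)
  have hnle1 : ¬ (f 1).1 ≤ centre h hℓN hA Q hQ := by
    intro hle
    apply hnode
    intro b hb
    exact hle ((hf2 1 b).2 (hW1 ▸ hb))
  have hprin : ∀ 𝔭 : HtOne (BRingK0 N' ℓ A h), 𝔭.1 ≤ centre h hℓN hA Q hQ →
      ∃ π : BRingK0 N' ℓ A h, IsGenAtPrime (centre h hℓN hA Q hQ) 𝔭.1 π := fun 𝔭 h𝔭 =>
    isGenAtPrime_of_ufd (centre h hℓN hA Q hQ)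
      (Localization.AtPrime (centre (A := A) h hℓN hA Q hQ)) 𝔭 h𝔭
  obtain ⟨y, hy⟩ := hprin (f 0) hle0
  have hq0 : (ellB (A := A) h : BRingK0 N' ℓ A h) ≠ 0 := fun h0 =>
    natCast_ne_zero' A (N' * ℓ) hq (congrArg Subtype.val h0)
  have hq0mem : (ellB (A := A) h : BRingK0 N' ℓ A h) ∈ (f 0).1 :=
    (hf2 0 _).2 (hW0 ▸ ellB_mem_nonunits₁ h hA)
  obtain ⟨s, c, hs, hc, hsc⟩ := exists_mul_eq_prod_gen (F := F0) (centre h hℓN hA Q hQ) hq0 hprin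
    ({f 0} : Finset (HtOne (BRingK0 N' ℓ A h)))
    (by
      intro 𝔭 h𝔭
      rw [Finset.mem_singleton] at h𝔭
      rw [h𝔭]
      exact hq0mem)
    (by
      intro 𝔭 h𝔭 hq𝔭
      obtain ⟨i, rfl⟩ := hf3 𝔭 (ellB h) rfl hq𝔭
      rw [Finset.mem_singleton]
      fin_cases i
      · rfl
      · exact absurd h𝔭 hnle1)
    (by
      intro 𝔭 h𝔭
      rw [Finset.mem_singleton] at h𝔭
      rw [h𝔭]
      exact hunif_W1 A (N' * ℓ) hq hA (f 0) (hf1 0) (qB := ellB h) rfl)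
    (fun _ => y)
    (by
      intro 𝔭 h𝔭
      rw [Finset.mem_singleton] at h𝔭
      rw [h𝔭]
      exact hy)
  refine ⟨y, s, c, hs, hc, ⟨hW0 ▸ (hf2 0 y).1 hy.1, fun b hb => ?_⟩, ?_⟩
  · obtain ⟨t, ht, b', hb'⟩ := hy.2 b ((hf2 0 b).2 (hW0 ▸ hb))
    exact ⟨t, ht, b', hb'⟩
  · rw [hsc, Finset.prod_singleton]

include hA in
/-- the finite chart lies in both vertical valuation rings (`hSW₁`, `hSW₂` of `Upstairs.nl0`). -/
theorem coe_mem_Rw (b : BRingK0 N' ℓ A h) :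
    (b : F0) ∈ RwK0 A (N' * ℓ) ∧ (b : F0) ∈ (redData2K0 A (N' * ℓ) h).Rw := by
  obtain ⟨i1, i2, i3, f, hf1, hf2, hf3⟩ := frame_BRingK0 h hA
  have hW0 : W2 A (N' * ℓ) h 0 = RwK0 A (N' * ℓ) := rfl
  have hW1 : W2 A (N' * ℓ) h 1 = (redData2K0 A (N' * ℓ) h).Rw := rfl
  refine ⟨?_, ?_⟩
  · rw [← hW0, ← hf1 0]
    exact algebraMap_mem_V1 (f 0) b
  · rw [← hW1, ← hf1 1]
    exact algebraMap_mem_V1 (f 1) b

include h2 h3 hν2 hν3 in
/-- **the binders `(hker₁ hker₂ hxy)` of `Upstairs.nl0` downstairs at a node**, with `S := B`,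
`W₁ := RwK0`, `W₂ := redData2K0.Rw`, `𝔫 := centre`: local equations `y`, `x` of the two branches and
`p0 = ℓ * s` (`s ∉ 𝔫`, so `p0⁻¹ ∈ V ↔ ℓ⁻¹ ∈ V` for every valuation ring `V ⊇ B` centred inside `𝔫`)
with `p0 = x * y`. -/
theorem nl0_binders (Q : Place kA (FresBar N' A)) (hQ : ContainsB (CRing N' A) Q)
    (hnode : IsNode h hℓN hA Q hQ) :
    ∃ x y p0 : BRingK0 N' ℓ A h,
      (∀ b : BRingK0 N' ℓ A h, (b : F0) ∈ (RwK0 A (N' * ℓ)).nonunits →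
        ∃ t : BRingK0 N' ℓ A h, t ∉ centre h hℓN hA Q hQ ∧ y ∣ t * b) ∧
      (∀ b : BRingK0 N' ℓ A h, (b : F0) ∈ (redData2K0 A (N' * ℓ) h).Rw.nonunits →
        ∃ t : BRingK0 N' ℓ A h, t ∉ centre h hℓN hA Q hQ ∧ x ∣ t * b) ∧
      p0 ∣ x * y ∧ ∃ s : BRingK0 N' ℓ A h, s ∉ centre h hℓN hA Q hQ ∧ p0 = ellB h * s := by
  obtain ⟨x, y, s, c, hs, hc, ⟨-, hx⟩, ⟨-, hy⟩, hsc⟩ :=
    thickness_one h hℓN hA h2 h3 hν2 hν3 Q hQ hnode
  refine ⟨c * x, y, ellB h * s, hy, fun b hb => ?_, ?_, s, hs, rfl⟩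
  · obtain ⟨t, ht, b', hb'⟩ := hx b hb
    refine ⟨c * t, fun hmem => ?_, b', ?_⟩
    · rcases (centre_isPrime h hℓN hA Q hQ).mem_or_mem hmem with h1 | h1
      · exact hc h1
      · exact ht h1
    · rw [mul_assoc, hb']
      ring
  · rw [hsc]
    exact dvd_of_eq (by ring)

/-- the kernel of `redC2K0` is the second vertical prime (the input `hker` of the abstract package
for the branch `2`; the branch `1` is `BRingChart.redC1K0_eq_zero_iff`). -/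
theorem redC2K0_eq_zero_iff (b : BRingK0 N' ℓ A h) :
    redC2K0 h hℓN hA b = 0 ↔ (b : F0) ∈ (redData2K0 A (N' * ℓ) h).Rw.nonunits := by
  rw [← mem_P2K0_iff h hℓN hA, mem_P2K0]

end Gens

end Modular

end Fermat.Agent.GF.KCover.Node.NodeRingK0
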