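/-
GATE-F (S44) / GF-KCOVER-INST, node side, leaf (U3) of helper84 (board 6432 / 6491), MODULAR half,
part 2 (helper75): **the modular inputs of the downstairs block of `NL0Plug.nl0_residue_ordRed`**
in the spelling of `NodePkg` (helper45, (Q4)) and of the announced `nl0_of_pkg` ((U10), helper45):
`rd₁ := redC1K0 h hℓN hA`, `rd₂ := redC2K0 h hℓN hA : BRingK0 N' ℓ A h →+* CRing N' A`,
`𝔫 := NodeRingK0.centre h hℓN hA Q hQ`.

ABSTRACT (`D` a domain, `K = Frac D`, `𝔫'` a prime of `D`):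
* `locAlg 𝔫' : Algebra (Localization.AtPrime 𝔫') K`, `locAlg_tower`, `locAlg_frac`,
  `locAlg_dvr` (Dedekind, `𝔫' ≠ ⊥`) — the instances `[Algebra D_i Ft] [IsScalarTower E_i D_i Ft]
  [IsFractionRing D_i Ft] [ValuationRing D_i] [IsIntegrallyClosed D_i]` of the consumer with
  `D_i := Localization.AtPrime 𝔫'_i` (use `letI := locAlg (K := Ft) 𝔫'`, then `haveI`).

MODULAR (binders of `NodeRingK0` = `GB/A/A4/Finite.dvd_ord_finite` verbatim):
* `thickness_one_rd` (node) : `∃ y₁ y₂ s c`, `s c ∉ 𝔫`, `rd_i y_i = 0`,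
  `∀ b, rd_i b = 0 → ∃ t ∉ 𝔫, y_i ∣ t * b`, `ellB h * s = c * y₂ * y₁`;
  `thickness_one_rd_typeI` (not a node) : `ellB h * s = c * y₁`;
* branch `1` : `𝔫'₁ := (primeOfPlace Q hQ).asIdeal`, `comap_P1 : comap rd₁ 𝔫'₁ = 𝔫` (`rfl`),
  `ord_eq_zero_of_not_mem_P1` (= `hvE`);
* branch `2` at a node : `P2 … hnode : HeightOneSpectrum (CRing N' A)` with
  `(P2 …).asIdeal = map rd₂ 𝔫`, `comap_P2 : comap rd₂ (P2 …).asIdeal = 𝔫`, the second branch
  point `Q2 … := placeOfPrime (P2 …)`, `containsB_Q2`, `primeOfPlace_Q2`,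
  `ord_eq_zero_of_not_mem_P2`;
* `ker_redC1K0_le`, `ker_redC2K0_le`, `vert_ne` (`P'₁ ⊄ P'₂`);
* **`exists_node_pkg_K0`** : for ANY `R` with `[IsLocalization.AtPrime R 𝔫]`
  (consumer: `locSub F0 𝔫`): `∃ y₁ y₂ : B`, with `x_i := algebraMap B R y_i`, `p0 := algebraMap B R ℓ`,
  `π_i := NodePkg.piHom 𝔫 R rd_i 𝔫'_i _ (Localization.AtPrime 𝔫'_i)` :
  `x_i ≠ 0`, `p0 ∣ x₂ * x₁`, `π_i c = 0 ↔ x_i ∣ c`, `π_i` onto — the binders
  `(x₁ x₂ p0 hxy π_i hπ_i hπx_i)` of `nl0_residue_ordRed`; `exists_node_pkg_K0_typeI`.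
-/
import Fermat.Agent.GF.KCover.Node.NodeRingK0
import Fermat.Agent.GF.KCover.Node.NodePkg

set_option autoImplicit false
set_option linter.unusedSectionVars false
set_option linter.style.haveILetI false
set_option linter.overlappingInstances false
set_option warn.classDefReducibility false

noncomputable section

namespace Fermat.Agent.GF.KCover.Node.NodeRingK0Pkg

/-! ### Abstract: `Frac D` as an algebra over `D_{𝔫'}` -/

section LocAlg

variable {D : Type*} [CommRing D] [IsDomain D] (K : Type*) [Field K] [Algebra D K]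
  [IsFractionRing D K] (𝔫' : Ideal D) [𝔫'.IsPrime]

theorem isUnit_algebraMap_primeCompl (s : 𝔫'.primeCompl) : IsUnit (algebraMap D K (s : D)) := by
  have h0 : (s : D) ≠ 0 := fun h => s.2 (h ▸ 𝔫'.zero_mem)
  exact ((map_ne_zero_iff _ (IsFractionRing.injective D K)).mpr h0).isUnit

/-- `K = Frac D` as an algebra over the local ring `D_{𝔫'}`. -/
def locAlg : Algebra (Localization.AtPrime 𝔫') K :=
  (IsLocalization.lift (M := 𝔫'.primeCompl) (S := Localization.AtPrime 𝔫')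
    (isUnit_algebraMap_primeCompl K 𝔫')).toAlgebra

theorem locAlg_tower :
    letI := locAlg K 𝔫'
    IsScalarTower D (Localization.AtPrime 𝔫') K := by
  letI := locAlg K 𝔫'
  exact IsScalarTower.of_algebraMap_eq fun b =>
    (IsLocalization.lift_eq (isUnit_algebraMap_primeCompl K 𝔫') b).symm

theorem locAlg_frac :
    letI := locAlg K 𝔫'
    IsFractionRing (Localization.AtPrime 𝔫') K := by
  letI := locAlg K 𝔫'
  haveI := locAlg_tower K 𝔫'
  exact IsFractionRing.isFractionRing_of_isDomain_of_isLocalization 𝔫'.primeCompl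
    (Localization.AtPrime 𝔫') K

theorem locAlg_algebraMap (b : D) :
    letI := locAlg K 𝔫'
    algebraMap (Localization.AtPrime 𝔫') K (algebraMap D (Localization.AtPrime 𝔫') b) =
      algebraMap D K b := by
  letI := locAlg K 𝔫'
  exact IsLocalization.lift_eq (isUnit_algebraMap_primeCompl K 𝔫') b

/-- `algebraMap (a / s) * s = a` in `K`. -/
theorem locAlg_mk'_mul (a : D) (s : 𝔫'.primeCompl) :
    letI := locAlg K 𝔫'
    algebraMap (Localization.AtPrime 𝔫') K (IsLocalization.mk' (Localization.AtPrime 𝔫') a s) *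
      algebraMap D K (s : D) = algebraMap D K a := by
  letI := locAlg K 𝔫'
  haveI := locAlg_tower K 𝔫'
  rw [IsScalarTower.algebraMap_apply D (Localization.AtPrime 𝔫') K (s : D), ← map_mul,
    IsLocalization.mk'_spec, ← IsScalarTower.algebraMap_apply]

/-- a function `v : K → ℤ`, additive on non-zero products and vanishing on `D ∖ 𝔫'`, vanishes on the
units of `D_{𝔫'}` (the `hvD` of `NL0Plug.nl0_residue_ordRed` from `hvE`). -/
theorem locAlg_val_unit (v : K → ℤ) (hmul : ∀ x y : K, x ≠ 0 → y ≠ 0 → v (x * y) = v x + v y)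
    (hv : ∀ e : D, e ∉ 𝔫' → v (algebraMap D K e) = 0) :
    letI := locAlg K 𝔫'
    ∀ d : Localization.AtPrime 𝔫', IsUnit d → v (algebraMap (Localization.AtPrime 𝔫') K d) = 0 := by
  letI := locAlg K 𝔫'
  intro d hd
  obtain ⟨a, s, rfl⟩ := IsLocalization.exists_mk'_eq 𝔫'.primeCompl d
  have ha : a ∉ 𝔫' :=
    (IsLocalization.AtPrime.isUnit_mk'_iff (Localization.AtPrime 𝔫') 𝔫' a s).1 hd
  have hs : (s : D) ∉ 𝔫' := s.2
  have h1 := locAlg_mk'_mul K 𝔫' a s
  have ha0 : algebraMap D K a ≠ 0 := fun h0 =>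
    ha (by
      rw [(map_eq_zero_iff _ (IsFractionRing.injective D K)).1 h0]
      exact Ideal.zero_mem _)
  have hs0 : algebraMap D K (s : D) ≠ 0 := fun h0 =>
    hs (by
      rw [(map_eq_zero_iff _ (IsFractionRing.injective D K)).1 h0]
      exact Ideal.zero_mem _)
  have hd0 : algebraMap (Localization.AtPrime 𝔫') K
      (IsLocalization.mk' (Localization.AtPrime 𝔫') a s) ≠ 0 := by
    intro h0
    rw [h0, zero_mul] at h1
    exact ha0 h1.symm
  have h2 := congrArg v h1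
  rw [hmul _ _ hd0 hs0, hv a ha, hv _ hs, add_zero] at h2
  exact h2

/-- `D_{𝔫'}` is a discrete valuation ring (`D` Dedekind, `𝔫' ≠ ⊥`). -/
theorem loc_dvr [IsDedekindDomain D] (h0 : 𝔫' ≠ ⊥) :
    IsDiscreteValuationRing (Localization.AtPrime 𝔫') :=
  IsLocalization.AtPrime.isDiscreteValuationRing_of_dedekind_domain D h0 (Localization.AtPrime 𝔫')

end LocAlg

/-! ### Modular -/

section Modular

open ModularCurve IsLocalRing AlgebraicCurve IsDedekindDomain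
open Fermat.Agent.GL.KrullHeightOne Fermat.Agent.GL.KrullFrame Fermat.Agent.GL.Frame.HeightOne
  Fermat.Agent.GL.Frame.Kummer
open Fermat.Agent.GL.Val.GaussK0 Fermat.Agent.GL.Val.SecondK0 Fermat.Agent.GL.Val.L1eLower
open Fermat.Agent.GL.Val.RamK0 Fermat.Agent.GL.MultiVal
open Fermat.Agent.GJ.KumGroup Fermat.Agent.GJ.J1 Fermat.Agent.GJ.J1.Val
open Fermat.Agent.GK.AL Fermat.Agent.GL.AL Fermat.Agent.GK.QS
open Fermat.Agent.Common_helper32
open Fermat.Agent.S24_helper6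
open Fermat.Agent.GB.A4.FrameTwo Fermat.Agent.GB.A4.LocalKummer Fermat.Agent.GB.A4.ChartStep
open Fermat.Agent.GB.A4.Finite Fermat.Agent.GB.A4.TypeIInputs
open Fermat.Agent.GL.BRingK0 Fermat.Agent.GL.BRingChart Fermat.Agent.GL.Thick
open Fermat.Agent.GF.KCover.Node

attribute [local instance] Fermat.Agent.GL.Frame.InstK0.algSubringFullC

variable {A : ValuationSubring Qb} {N' : ℕ} [NeZero N'] {ℓ : ℕ} [Fact ℓ.Prime] [NeZero ℓ]
  (h : ExactDvd ℓ (N' * ℓ)) (hℓN : ¬ ℓ ∣ N') (hA : A.LiesOverPrime ℓ)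

local notation "F0" => modularFunctionFieldFullC (K0 A) (N' * ℓ)
local notation "kA" => IsLocalRing.ResidueField A

variable [IsDedekindDomain (CRing N' A)] [IsFractionRing (CRing N' A) (FresBar N' A)]

/-- shortcut instance: the generic search for this instance detours through `Subalgebra.toAlgebra`
(`CRing N' A` is a subalgebra of `FresBar N' A`, itself an intermediate field of the Laurent series)
and exceeds the default `synthInstance.maxHeartbeats`.  It IS the instance found by that search. -/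
instance (priority := 2000) algLocCRing (P : Ideal (CRing N' A)) [P.IsPrime] :
    Algebra (CRing N' A) (Localization.AtPrime P) := OreLocalization.instAlgebra

/-- `ℓ ≠ 0` on the finite chart. -/
theorem ellB_ne_zero : (NodeRingK0.ellB (A := A) h : BRingK0 N' ℓ A h) ≠ 0 := fun h0 =>
  Fermat.Agent.GL.Final.H5UnifK0.natCast_ne_zero' A (N' * ℓ) h.prime (congrArg Subtype.val h0)

/-! #### the two kernels -/

/-- `ker rd₁ ≤ 𝔫`. -/
theorem ker_redC1K0_le (Q : Place kA (FresBar N' A)) (hQ : ContainsB (CRing N' A) Q) :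
    RingHom.ker (redC1K0 h hℓN hA) ≤ NodeRingK0.centre h hℓN hA Q hQ := by
  intro b hb
  exact NodeRingK0.le_centre₁ h hℓN hA Q hQ b
    ((redC1K0_eq_zero_iff h hA hℓN).1 ((RingHom.mem_ker).1 hb))

/-- `ker rd₂ ≤ 𝔫` at a node. -/
theorem ker_redC2K0_le (Q : Place kA (FresBar N' A)) (hQ : ContainsB (CRing N' A) Q)
    (hnode : NodeRingK0.IsNode h hℓN hA Q hQ) :
    RingHom.ker (redC2K0 h hℓN hA) ≤ NodeRingK0.centre h hℓN hA Q hQ := by
  intro b hb
  exact hnode b ((NodeRingK0.redC2K0_eq_zero_iff h hℓN hA b).1 ((RingHom.mem_ker).1 hb))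

/-- the first vertical prime is not contained in the second one. -/
theorem vert_ne : ∃ b : BRingK0 N' ℓ A h, redC1K0 h hℓN hA b = 0 ∧ redC2K0 h hℓN hA b ≠ 0 := by
  by_contra hcon
  push Not at hcon
  obtain ⟨i1, i2, i3, f, hf1, hf2, hf3⟩ := frame_BRingK0 h hA
  have hW0 : W2 A (N' * ℓ) h 0 = RwK0 A (N' * ℓ) := rfl
  have hW1 : W2 A (N' * ℓ) h 1 = (redData2K0 A (N' * ℓ) h).Rw := rfl
  have hle : (f 0).1 ≤ (f 1).1 := by
    intro b hb
    have h1 : redC1K0 h hℓN hA b = 0 :=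
      (redC1K0_eq_zero_iff h hA hℓN).2 (hW0 ▸ (hf2 0 b).1 hb)
    have h2 := (NodeRingK0.redC2K0_eq_zero_iff h hℓN hA b).1 (hcon b h1)
    exact (hf2 1 b).2 (hW1 ▸ h2)
  have e : f 0 = f 1 := HtOne.eq_of_le hle
  apply Rw1K0_ne_Rw2K0 A (N' * ℓ) h hA
  rw [← hW0, ← hW1, ← hf1 0, ← hf1 1, e]

/-! #### thickness one in the `rd`-spelling -/

section Gens

variable (h2 : ℓ = 2 → 3 ∣ N') (h3 : ℓ = 3 → 2 ∣ N') (hν2 : nuTwo N' = 0) (hν3 : nuThree N' = 0)

include h2 h3 hν2 hν3 in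
/-- **thickness one at a node, `rd`-spelling** (the binders `y₁ y₂ l s c hy_i hgen_i hs hc hth` of
`nl0_of_pkg`, `l := ellB h`). -/
theorem thickness_one_rd (Q : Place kA (FresBar N' A)) (hQ : ContainsB (CRing N' A) Q)
    (hnode : NodeRingK0.IsNode h hℓN hA Q hQ) :
    ∃ y₁ y₂ s c : BRingK0 N' ℓ A h,
      s ∉ NodeRingK0.centre h hℓN hA Q hQ ∧ c ∉ NodeRingK0.centre h hℓN hA Q hQ ∧
      redC1K0 h hℓN hA y₁ = 0 ∧
      (∀ b : BRingK0 N' ℓ A h, redC1K0 h hℓN hA b = 0 →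
        ∃ t : BRingK0 N' ℓ A h, t ∉ NodeRingK0.centre h hℓN hA Q hQ ∧ y₁ ∣ t * b) ∧
      redC2K0 h hℓN hA y₂ = 0 ∧
      (∀ b : BRingK0 N' ℓ A h, redC2K0 h hℓN hA b = 0 →
        ∃ t : BRingK0 N' ℓ A h, t ∉ NodeRingK0.centre h hℓN hA Q hQ ∧ y₂ ∣ t * b) ∧
      NodeRingK0.ellB h * s = c * y₂ * y₁ := by
  obtain ⟨x, y, s, c, hs, hc, ⟨hx0, hx⟩, ⟨hy0, hy⟩, hsc⟩ :=
    NodeRingK0.thickness_one h hℓN hA h2 h3 hν2 hν3 Q hQ hnode
  refine ⟨y, x, s, c, hs, hc, (redC1K0_eq_zero_iff h hA hℓN).2 hy0,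
    fun b hb => hy b ((redC1K0_eq_zero_iff h hA hℓN).1 hb),
    (NodeRingK0.redC2K0_eq_zero_iff h hℓN hA x).2 hx0,
    fun b hb => hx b ((NodeRingK0.redC2K0_eq_zero_iff h hℓN hA b).1 hb), ?_⟩
  rw [hsc, mul_assoc]

include h2 h3 hν2 hν3 in
/-- **thickness one at a point of type I, `rd`-spelling**. -/
theorem thickness_one_rd_typeI (Q : Place kA (FresBar N' A)) (hQ : ContainsB (CRing N' A) Q)
    (hnode : ¬ NodeRingK0.IsNode h hℓN hA Q hQ) :
    ∃ y₁ s c : BRingK0 N' ℓ A h,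
      s ∉ NodeRingK0.centre h hℓN hA Q hQ ∧ c ∉ NodeRingK0.centre h hℓN hA Q hQ ∧
      redC1K0 h hℓN hA y₁ = 0 ∧
      (∀ b : BRingK0 N' ℓ A h, redC1K0 h hℓN hA b = 0 →
        ∃ t : BRingK0 N' ℓ A h, t ∉ NodeRingK0.centre h hℓN hA Q hQ ∧ y₁ ∣ t * b) ∧
      NodeRingK0.ellB h * s = c * y₁ := by
  obtain ⟨y, s, c, hs, hc, ⟨hy0, hy⟩, hsc⟩ :=
    NodeRingK0.thickness_one_typeI h hℓN hA h2 h3 hν2 hν3 Q hQ hnode
  exact ⟨y, s, c, hs, hc, (redC1K0_eq_zero_iff h hA hℓN).2 hy0,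
    fun b hb => hy b ((redC1K0_eq_zero_iff h hA hℓN).1 hb), hsc⟩

end Gens

/-! #### branch 1 -/

/-- `comap rd₁ 𝔫'₁ = 𝔫` (`h𝔫₁`), by definition. -/
theorem comap_P1 (Q : Place kA (FresBar N' A)) (hQ : ContainsB (CRing N' A) Q) :
    Ideal.comap (redC1K0 h hℓN hA) (primeOfPlace Q hQ).asIdeal =
      NodeRingK0.centre h hℓN hA Q hQ := rfl

/-- `hvE` : elements of the first branch ring outside the centre of `Q` have order `0` at `Q`. -/
theorem ord_eq_zero_of_not_mem_P1 (Q : Place kA (FresBar N' A)) (hQ : ContainsB (CRing N' A) Q)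
    (e : CRing N' A) (he : e ∉ (primeOfPlace Q hQ).asIdeal) :
    Q.ord (algebraMap (CRing N' A) (FresBar N' A) e) = 0 :=
  ord_algebraMap_eq_zero Q hQ he

/-- `hvD` : units of the local ring `D₁ = (CRing N' A)_{𝔫'₁}` of the first branch at `Q` have order
`0` at `Q` (with the algebra structure `locAlg`). -/
theorem ord_eq_zero_of_isUnit_loc (Q : Place kA (FresBar N' A)) (hQ : ContainsB (CRing N' A) Q) :
    letI := locAlg (FresBar N' A) (primeOfPlace Q hQ).asIdeal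
    ∀ d : Localization.AtPrime (primeOfPlace Q hQ).asIdeal, IsUnit d →
      Q.ord (algebraMap (Localization.AtPrime (primeOfPlace Q hQ).asIdeal) (FresBar N' A) d) = 0 :=
  locAlg_val_unit (FresBar N' A) (primeOfPlace Q hQ).asIdeal (fun z => Q.ord z)
    (fun _ _ hx hy => Place.ord_mul Q hx hy) (fun _ he => ord_algebraMap_eq_zero Q hQ he)

/-! #### branch 2 (at a node) -/

section Branch2

variable (h2 : ℓ = 2 → 3 ∣ N') (h3 : ℓ = 3 → 2 ∣ N')

include h2 h3 in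
/-- the image of the centre on the second branch is a prime. -/
theorem map_centre_isPrime (Q : Place kA (FresBar N' A)) (hQ : ContainsB (CRing N' A) Q)
    (hnode : NodeRingK0.IsNode h hℓN hA Q hQ) :
    (Ideal.map (redC2K0 h hℓN hA) (NodeRingK0.centre h hℓN hA Q hQ)).IsPrime :=
  NodePkg.map_isPrime (Fermat.Agent.GL.Thick.redC2K0_surjective hℓN hA h2 h3)
    (ker_redC2K0_le h hℓN hA Q hQ hnode)

include h2 h3 in
/-- the image of the centre on the second branch is not zero. -/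
theorem map_centre_ne_bot (Q : Place kA (FresBar N' A)) (hQ : ContainsB (CRing N' A) Q) :
    Ideal.map (redC2K0 h hℓN hA) (NodeRingK0.centre h hℓN hA Q hQ) ≠ ⊥ := by
  intro h0
  obtain ⟨b, hb1, hb2⟩ := vert_ne h hℓN hA
  apply hb2
  have hb : b ∈ NodeRingK0.centre h hℓN hA Q hQ :=
    ker_redC1K0_le h hℓN hA Q hQ ((RingHom.mem_ker).2 hb1)
  have := Ideal.mem_map_of_mem (redC2K0 h hℓN hA) hb
  rw [h0] at this
  exact (Ideal.mem_bot).1 this

/-- **the centre of the second branch at a node**, a height-one prime of the Dedekind ring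
`CRing N' A`. -/
def P2 (Q : Place kA (FresBar N' A)) (hQ : ContainsB (CRing N' A) Q)
    (hnode : NodeRingK0.IsNode h hℓN hA Q hQ) : HeightOneSpectrum (CRing N' A) where
  asIdeal := Ideal.map (redC2K0 h hℓN hA) (NodeRingK0.centre h hℓN hA Q hQ)
  isPrime := map_centre_isPrime h hℓN hA h2 h3 Q hQ hnode
  ne_bot := map_centre_ne_bot h hℓN hA h2 h3 Q hQ

theorem P2_asIdeal (Q : Place kA (FresBar N' A)) (hQ : ContainsB (CRing N' A) Q)
    (hnode : NodeRingK0.IsNode h hℓN hA Q hQ) :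
    (P2 h hℓN hA h2 h3 Q hQ hnode).asIdeal =
      Ideal.map (redC2K0 h hℓN hA) (NodeRingK0.centre h hℓN hA Q hQ) := rfl

/-- `comap rd₂ 𝔫'₂ = 𝔫` (`h𝔫₂`). -/
theorem comap_P2 (Q : Place kA (FresBar N' A)) (hQ : ContainsB (CRing N' A) Q)
    (hnode : NodeRingK0.IsNode h hℓN hA Q hQ) :
    Ideal.comap (redC2K0 h hℓN hA) (P2 h hℓN hA h2 h3 Q hQ hnode).asIdeal =
      NodeRingK0.centre h hℓN hA Q hQ :=
  NodePkg.comap_map_eq (Fermat.Agent.GL.Thick.redC2K0_surjective hℓN hA h2 h3)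
    (ker_redC2K0_le h hℓN hA Q hQ hnode)

/-- `rd₂ b ∈ 𝔫'₂ ↔ b ∈ 𝔫`. -/
theorem redC2K0_mem_P2_iff (Q : Place kA (FresBar N' A)) (hQ : ContainsB (CRing N' A) Q)
    (hnode : NodeRingK0.IsNode h hℓN hA Q hQ) (b : BRingK0 N' ℓ A h) :
    redC2K0 h hℓN hA b ∈ (P2 h hℓN hA h2 h3 Q hQ hnode).asIdeal ↔
      b ∈ NodeRingK0.centre h hℓN hA Q hQ :=
  NodePkg.mem_map_iff_mem (Fermat.Agent.GL.Thick.redC2K0_surjective hℓN hA h2 h3)
    (ker_redC2K0_le h hℓN hA Q hQ hnode) b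

/-- **the point of the second branch through the node `Q`**. -/
def Q2 (Q : Place kA (FresBar N' A)) (hQ : ContainsB (CRing N' A) Q)
    (hnode : NodeRingK0.IsNode h hℓN hA Q hQ) : Place kA (FresBar N' A) :=
  placeOfPrime (K := kA) (F := FresBar N' A) (P2 h hℓN hA h2 h3 Q hQ hnode)

theorem containsB_Q2 (Q : Place kA (FresBar N' A)) (hQ : ContainsB (CRing N' A) Q)
    (hnode : NodeRingK0.IsNode h hℓN hA Q hQ) :
    ContainsB (CRing N' A) (Q2 h hℓN hA h2 h3 Q hQ hnode) :=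
  containsB_placeOfPrime _

theorem primeOfPlace_Q2 (Q : Place kA (FresBar N' A)) (hQ : ContainsB (CRing N' A) Q)
    (hnode : NodeRingK0.IsNode h hℓN hA Q hQ) :
    primeOfPlace (Q2 h hℓN hA h2 h3 Q hQ hnode) (containsB_Q2 h hℓN hA h2 h3 Q hQ hnode) =
      P2 h hℓN hA h2 h3 Q hQ hnode :=
  primeOfPlace_placeOfPrime _

/-- elements of the second branch ring outside `𝔫'₂` have order `0` at `Q₂`. -/
theorem ord_eq_zero_of_not_mem_P2 (Q : Place kA (FresBar N' A)) (hQ : ContainsB (CRing N' A) Q)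
    (hnode : NodeRingK0.IsNode h hℓN hA Q hQ) (e : CRing N' A)
    (he : e ∉ (P2 h hℓN hA h2 h3 Q hQ hnode).asIdeal) :
    (Q2 h hℓN hA h2 h3 Q hQ hnode).ord (algebraMap (CRing N' A) (FresBar N' A) e) = 0 := by
  apply ord_algebraMap_eq_zero _ (containsB_Q2 h hℓN hA h2 h3 Q hQ hnode)
  rw [primeOfPlace_Q2]
  exact he

end Branch2

/-! #### the package -/

section Pkg

variable (h2 : ℓ = 2 → 3 ∣ N') (h3 : ℓ = 3 → 2 ∣ N') (hν2 : nuTwo N' = 0) (hν3 : nuThree N' = 0)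

set_option maxHeartbeats 2000000 in
include hν2 hν3 in
/-- **the downstairs block of `NL0Plug.nl0_residue_ordRed` at a node of the finite chart**, for any
model `R` of the local ring `B_𝔫`. -/
theorem exists_node_pkg_K0 (Q : Place kA (FresBar N' A)) (hQ : ContainsB (CRing N' A) Q)
    (hnode : NodeRingK0.IsNode h hℓN hA Q hQ)
    (R : Type*) [CommRing R] [Algebra (BRingK0 N' ℓ A h) R]
    [IsLocalization.AtPrime R (NodeRingK0.centre (A := A) h hℓN hA Q hQ)] :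
    ∃ y₁ y₂ : BRingK0 N' ℓ A h,
      algebraMap (BRingK0 N' ℓ A h) R y₁ ≠ 0 ∧ algebraMap (BRingK0 N' ℓ A h) R y₂ ≠ 0 ∧
      algebraMap (BRingK0 N' ℓ A h) R (NodeRingK0.ellB h) ∣
        algebraMap (BRingK0 N' ℓ A h) R y₂ * algebraMap (BRingK0 N' ℓ A h) R y₁ ∧
      Function.Surjective (NodePkg.piHom (NodeRingK0.centre (A := A) h hℓN hA Q hQ) R
        (redC1K0 h hℓN hA) (primeOfPlace Q hQ).asIdeal (comap_P1 h hℓN hA Q hQ)
        (Localization.AtPrime (primeOfPlace Q hQ).asIdeal)) ∧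
      (∀ c : R, NodePkg.piHom (NodeRingK0.centre (A := A) h hℓN hA Q hQ) R
        (redC1K0 h hℓN hA) (primeOfPlace Q hQ).asIdeal (comap_P1 h hℓN hA Q hQ)
        (Localization.AtPrime (primeOfPlace Q hQ).asIdeal) c = 0 ↔
          algebraMap (BRingK0 N' ℓ A h) R y₁ ∣ c) ∧
      Function.Surjective (NodePkg.piHom (NodeRingK0.centre (A := A) h hℓN hA Q hQ) R
        (redC2K0 h hℓN hA) (P2 h hℓN hA h2 h3 Q hQ hnode).asIdeal
        (comap_P2 h hℓN hA h2 h3 Q hQ hnode)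
        (Localization.AtPrime (P2 h hℓN hA h2 h3 Q hQ hnode).asIdeal)) ∧
      (∀ c : R, NodePkg.piHom (NodeRingK0.centre (A := A) h hℓN hA Q hQ) R
        (redC2K0 h hℓN hA) (P2 h hℓN hA h2 h3 Q hQ hnode).asIdeal
        (comap_P2 h hℓN hA h2 h3 Q hQ hnode)
        (Localization.AtPrime (P2 h hℓN hA h2 h3 Q hQ hnode).asIdeal) c = 0 ↔
          algebraMap (BRingK0 N' ℓ A h) R y₂ ∣ c) := by
  obtain ⟨y₁, y₂, s, c, hs, hc, hy₁, hgen₁, hy₂, hgen₂, hth⟩ :=
    thickness_one_rd h hℓN hA h2 h3 hν2 hν3 Q hQ hnode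
  have hinj := NodePkg.algebraMap_injective (NodeRingK0.centre (A := A) h hℓN hA Q hQ) R
  have hl0 : (NodeRingK0.ellB (A := A) h : BRingK0 N' ℓ A h) ≠ 0 := ellB_ne_zero h
  have hs0 : s ≠ 0 := fun h0 => hs (h0 ▸ Ideal.zero_mem _)
  have hprod : c * y₂ * y₁ ≠ 0 := hth ▸ mul_ne_zero hl0 hs0
  have hy₁0 : y₁ ≠ 0 := right_ne_zero_of_mul hprod
  have hy₂0 : y₂ ≠ 0 := right_ne_zero_of_mul (left_ne_zero_of_mul hprod)
  refine ⟨y₁, y₂, fun h0 => hy₁0 (hinj (h0.trans (map_zero _).symm)),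
    fun h0 => hy₂0 (hinj (h0.trans (map_zero _).symm)),
    NodePkg.dvd_of_thickness_eq _ R hs hc hth,
    NodePkg.piHom_surjective _ R _ _ _ _ (redC1K0_surjective h hℓN hA h2 h3),
    fun c' => NodePkg.piHom_eq_zero_iff_dvd_of_gen _ R _ _ _ _ y₁ hy₁ hgen₁ c',
    NodePkg.piHom_surjective _ R _ _ _ _
      (Fermat.Agent.GL.Thick.redC2K0_surjective hℓN hA h2 h3),
    fun c' => NodePkg.piHom_eq_zero_iff_dvd_of_gen _ R _ _ _ _ y₂ hy₂ hgen₂ c'⟩

set_option maxHeartbeats 2000000 in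
include h2 h3 hν2 hν3 in
/-- **the downstairs block at a point of type I** (one branch; `p0 ∣ x₁`). -/
theorem exists_node_pkg_K0_typeI (Q : Place kA (FresBar N' A)) (hQ : ContainsB (CRing N' A) Q)
    (hnode : ¬ NodeRingK0.IsNode h hℓN hA Q hQ)
    (R : Type*) [CommRing R] [Algebra (BRingK0 N' ℓ A h) R]
    [IsLocalization.AtPrime R (NodeRingK0.centre (A := A) h hℓN hA Q hQ)] :
    ∃ y₁ : BRingK0 N' ℓ A h,
      algebraMap (BRingK0 N' ℓ A h) R y₁ ≠ 0 ∧
      algebraMap (BRingK0 N' ℓ A h) R (NodeRingK0.ellB h) ∣ algebraMap (BRingK0 N' ℓ A h) R y₁ ∧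
      Function.Surjective (NodePkg.piHom (NodeRingK0.centre (A := A) h hℓN hA Q hQ) R
        (redC1K0 h hℓN hA) (primeOfPlace Q hQ).asIdeal (comap_P1 h hℓN hA Q hQ)
        (Localization.AtPrime (primeOfPlace Q hQ).asIdeal)) ∧
      (∀ c : R, NodePkg.piHom (NodeRingK0.centre (A := A) h hℓN hA Q hQ) R
        (redC1K0 h hℓN hA) (primeOfPlace Q hQ).asIdeal (comap_P1 h hℓN hA Q hQ)
        (Localization.AtPrime (primeOfPlace Q hQ).asIdeal) c = 0 ↔
          algebraMap (BRingK0 N' ℓ A h) R y₁ ∣ c) := by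
  obtain ⟨y₁, s, c, hs, hc, hy₁, hgen₁, hth⟩ :=
    thickness_one_rd_typeI h hℓN hA h2 h3 hν2 hν3 Q hQ hnode
  have hinj := NodePkg.algebraMap_injective (NodeRingK0.centre (A := A) h hℓN hA Q hQ) R
  have hl0 : (NodeRingK0.ellB (A := A) h : BRingK0 N' ℓ A h) ≠ 0 := ellB_ne_zero h
  have hs0 : s ≠ 0 := fun h0 => hs (h0 ▸ Ideal.zero_mem _)
  have hprod : c * y₁ ≠ 0 := hth ▸ mul_ne_zero hl0 hs0
  have hy₁0 : y₁ ≠ 0 := right_ne_zero_of_mul hprod
  refine ⟨y₁, fun h0 => hy₁0 (hinj (h0.trans (map_zero _).symm)),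
    (NodePkg.associated_of_thickness_eq_single _ R hs hc hth).dvd,
    NodePkg.piHom_surjective _ R _ _ _ _ (redC1K0_surjective h hℓN hA h2 h3),
    fun c' => NodePkg.piHom_eq_zero_iff_dvd_of_gen _ R _ _ _ _ y₁ hy₁ hgen₁ c'⟩

end Pkg

end Modular

end Fermat.Agent.GF.KCover.Node.NodeRingK0Pkg
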