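/-
GATE-F (S44) / GF-KCOVER-INST, node side, (M-b) of helper13 RULING-6, part 3 (helper75):
**the node block at the residue field of level `N' ℓ`**.

`NodeRingK0(Pkg)` live at `Ft = FresBar N' A` (`Q : Place kA (FresBar N' A)`,
`[IsFractionRing (CRing N' A) (FresBar N' A)]`) — the binders of `GB/A/A4/Finite`.  The consumer
(`SheetAsm.nl0_of_sheets`, `R_i :=` sheets of `redDataBar (N' ℓ) A`, `redData2 (N' ℓ) A h`) has
`Ft = Ft₂ = FresBar (N' * ℓ) A` and `Pl : Place kA (FresBar (N' * ℓ) A)`; the two residue fields are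
EQUAL as subfields of `k((Q))` (`GL/Thick/KRedB.fresBar_mul_eq`), but only propositionally.

* (L1) `fresInclInv`, `fresEquiv`, `algCFres hℓN hA : Algebra (CRing N' A) (FresBar (N' * ℓ) A)`
  (consumer: `letI := algCFres hℓN hA`), `coe_algebraMap_algCFres`, `algCFres_tower`,
  `algCFres_frac`;
* (L2) BASE `hρB` : `red1_mapK0Bar`, `red2_mapK0Bar` — the two Gauss reductions of level `N' ℓ` on
  the finite chart ARE `redC1K0`, `redC2K0` (in the `algCFres` spelling);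
* (L3) PRIME FORM of the node block: for `P : HeightOneSpectrum (CRing N' A)` (consumer:
  `P := primeOfPlace Pl hPl` with respect to `algCFres`): `centreP`, `IsNodeP`, `centreP_eq_centre`,
  `thickness_one_prime(_typeI)`, `P2P`, `comap_P2P`; the point at level `N' ℓ`: `ContainsC`,
  `containsC_of_jt_mem`, `containsC_of_red1_jF_mem`, `primeL`, `mem_primeL_iff`, `hvE_level`.
-/
import Fermat.Agent.GF.KCover.Node.NodeRingK0Pkg

set_option autoImplicit false
set_option linter.unusedSectionVars false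
set_option linter.style.haveILetI false
set_option warn.classDefReducibility false

noncomputable section

namespace Fermat.Agent.GF.KCover.Node.NodeRingK0Level

open ModularCurve IsLocalRing AlgebraicCurve IsDedekindDomain
open Fermat.Agent.GL.Val.GaussK0 Fermat.Agent.GL.Val.SecondK0 Fermat.Agent.GL.Val.L1eLower
open Fermat.Agent.GL.Val.RamK0 Fermat.Agent.GL.MultiVal
open Fermat.Agent.GJ.KumGroup Fermat.Agent.GJ.J1 Fermat.Agent.GJ.J1.Val
open Fermat.Agent.GK.AL Fermat.Agent.GL.AL Fermat.Agent.GK.QS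
open Fermat.Agent.Common_helper32
open Fermat.Agent.S24_helper6
open Fermat.Agent.GB.A4.LocalKummer
open Fermat.Agent.GL.BRingK0 Fermat.Agent.GL.BRingChart Fermat.Agent.GL.Thick
open Fermat.Agent.GF.KCover.Node Fermat.Agent.GF.KCover.Node.NodeRingK0Pkg

attribute [local instance] Fermat.Agent.GL.Frame.InstK0.algSubringFullC

variable {A : ValuationSubring Qb} {N' : ℕ} [NeZero N'] {ℓ : ℕ} [Fact ℓ.Prime] [NeZero ℓ]
  (h : ExactDvd ℓ (N' * ℓ)) (hℓN : ¬ ℓ ∣ N') (hA : A.LiesOverPrime ℓ)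

local notation "F0" => modularFunctionFieldFullC (K0 A) (N' * ℓ)
local notation "kA" => IsLocalRing.ResidueField A

/-! ### (L1) the residue field of level `N' ℓ` as a `CRing N' A`-algebra -/

/-- the inclusion `F̃_{N'} → F̃_{N'ℓ}` (an equality of subfields of `k((Q))`). -/
def fresInclInv : FresBar N' A →ₐ[kA] FresBar (N' * ℓ) A :=
  IntermediateField.inclusion (le_of_eq (fresBar_mul_eq N' ℓ A hℓN hA).symm)

@[simp]
theorem coe_fresInclInv (y : FresBar N' A) :
    ((fresInclInv (ℓ := ℓ) hℓN hA y : FresBar (N' * ℓ) A) : LaurentSeries kA) =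
      (y : LaurentSeries kA) :=
  IntermediateField.coe_inclusion (le_of_eq (fresBar_mul_eq N' ℓ A hℓN hA).symm) y

theorem fresIncl_fresInclInv (y : FresBar N' A) :
    fresIncl N' ℓ A hℓN hA (fresInclInv hℓN hA y) = y :=
  Subtype.ext (by rw [coe_fresIncl, coe_fresInclInv])

theorem fresInclInv_fresIncl (y : FresBar (N' * ℓ) A) :
    fresInclInv hℓN hA (fresIncl N' ℓ A hℓN hA y) = y :=
  Subtype.ext (by rw [coe_fresInclInv, coe_fresIncl])

/-- `F̃_{N'} ≃ F̃_{N'ℓ}`. -/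
def fresEquiv : FresBar N' A ≃ₐ[kA] FresBar (N' * ℓ) A :=
  AlgEquiv.ofAlgHom (fresInclInv hℓN hA) (fresIncl N' ℓ A hℓN hA)
    (AlgHom.ext fun y => fresInclInv_fresIncl hℓN hA y)
    (AlgHom.ext fun y => fresIncl_fresInclInv hℓN hA y)

/-- **`F̃_{N'ℓ}` as an algebra over the coordinate ring `C` of the first component.** -/
def algCFres : Algebra (CRing N' A) (FresBar (N' * ℓ) A) :=
  ((fresInclInv (ℓ := ℓ) hℓN hA).toRingHom.comp
    (algebraMap (CRing N' A) (FresBar N' A))).toAlgebra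

theorem algebraMap_algCFres (c : CRing N' A) :
    letI := algCFres (ℓ := ℓ) hℓN hA
    algebraMap (CRing N' A) (FresBar (N' * ℓ) A) c =
      fresInclInv hℓN hA (algebraMap (CRing N' A) (FresBar N' A) c) := rfl

theorem coe_algebraMap_algCFres (c : CRing N' A) :
    letI := algCFres (ℓ := ℓ) hℓN hA
    ((algebraMap (CRing N' A) (FresBar (N' * ℓ) A) c : FresBar (N' * ℓ) A) : LaurentSeries kA) =
      cVal N' A c := by
  letI := algCFres (ℓ := ℓ) hℓN hA
  rw [algebraMap_algCFres, coe_fresInclInv, cVal_apply]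
  rfl

theorem fresIncl_algebraMap_algCFres (c : CRing N' A) :
    letI := algCFres (ℓ := ℓ) hℓN hA
    fresIncl N' ℓ A hℓN hA (algebraMap (CRing N' A) (FresBar (N' * ℓ) A) c) =
      algebraMap (CRing N' A) (FresBar N' A) c := by
  letI := algCFres (ℓ := ℓ) hℓN hA
  rw [algebraMap_algCFres, fresIncl_fresInclInv]

theorem algCFres_tower :
    @IsScalarTower kA (CRing N' A) (FresBar (N' * ℓ) A) Algebra.toSMul
      (algCFres (ℓ := ℓ) hℓN hA).toSMul Algebra.toSMul := by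
  letI := algCFres (ℓ := ℓ) hℓN hA
  refine IsScalarTower.of_algebraMap_eq fun x => ?_
  rw [algebraMap_algCFres, ← IsScalarTower.algebraMap_apply kA (CRing N' A) (FresBar N' A),
    AlgHom.commutes]

theorem algCFres_frac [IsFractionRing (CRing N' A) (FresBar N' A)] :
    letI := algCFres (ℓ := ℓ) hℓN hA
    IsFractionRing (CRing N' A) (FresBar (N' * ℓ) A) := by
  letI := algCFres (ℓ := ℓ) hℓN hA
  exact IsLocalization.isLocalization_of_algEquiv (nonZeroDivisors (CRing N' A))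
    (AlgEquiv.ofRingEquiv (f := (fresEquiv (ℓ := ℓ) hℓN hA).toRingEquiv) fun _ => rfl)

/-! ### (L2) the two Gauss reductions of level `N' ℓ` on the finite chart -/

/-- **`red₁` of level `N' ℓ` on the finite chart is `redC1K0`.** -/
theorem red1_mapK0Bar (b : BRingK0 N' ℓ A h)
    (hb : mapK0Bar A (N' * ℓ) (b : F0) ∈ (redDataBar (N' * ℓ) A).Rw) :
    letI := algCFres (ℓ := ℓ) hℓN hA
    (redDataBar (N' * ℓ) A).red ⟨mapK0Bar A (N' * ℓ) (b : F0), hb⟩ =
      algebraMap (CRing N' A) (FresBar (N' * ℓ) A) (redC1K0 h hℓN hA b) := by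
  letI := algCFres (ℓ := ℓ) hℓN hA
  apply Subtype.ext
  rw [coe_algebraMap_algCFres, cVal_redC1K0, Fermat.Agent.GK.QS.rho1_apply]
  rfl

/-- **`red₂` of level `N' ℓ` on the finite chart is `redC2K0`.** -/
theorem red2_mapK0Bar (b : BRingK0 N' ℓ A h)
    (hb : mapK0Bar A (N' * ℓ) (b : F0) ∈ (redData2 (N' * ℓ) A h).Rw) :
    letI := algCFres (ℓ := ℓ) hℓN hA
    (redData2 (N' * ℓ) A h).red ⟨mapK0Bar A (N' * ℓ) (b : F0), hb⟩ =
      algebraMap (CRing N' A) (FresBar (N' * ℓ) A) (redC2K0 h hℓN hA b) := by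
  letI := algCFres (ℓ := ℓ) hℓN hA
  apply Subtype.ext
  rw [coe_algebraMap_algCFres, cVal_redC2K0, Fermat.Agent.GK.QS.rho2_apply]
  rfl

/-- the finite chart lies in both Gauss valuation rings of level `N' ℓ` over `Q̄`. -/
theorem mapK0Bar_mem_Rw (b : BRingK0 N' ℓ A h) :
    mapK0Bar A (N' * ℓ) (b : F0) ∈ (redDataBar (N' * ℓ) A).Rw ∧
      mapK0Bar A (N' * ℓ) (b : F0) ∈ (redData2 (N' * ℓ) A h).Rw :=
  ⟨(toBRing N' ℓ A h b).2.2.1, (toBRing N' ℓ A h b).2.2.2⟩

/-! ### (L3) the node block in PRIME form -/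

variable [IsDedekindDomain (CRing N' A)] [IsFractionRing (CRing N' A) (FresBar N' A)]

/-- the centre on the finite chart of a height-one prime of the first branch ring. -/
def centreP (P : HeightOneSpectrum (CRing N' A)) : Ideal (BRingK0 N' ℓ A h) :=
  Ideal.comap (redC1K0 h hℓN hA) P.asIdeal

instance centreP_isPrime (P : HeightOneSpectrum (CRing N' A)) :
    (centreP h hℓN hA P).IsPrime :=
  Ideal.comap_isPrime _ _

/-- `P` is a NODE: its centre lies on the second vertical component as well. -/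
def IsNodeP (P : HeightOneSpectrum (CRing N' A)) : Prop :=
  ∀ b : BRingK0 N' ℓ A h, (b : F0) ∈ (redData2K0 A (N' * ℓ) h).Rw.nonunits →
    b ∈ centreP h hℓN hA P

/-- the prime form is the place form at `Q := placeOfPrime P`. -/
theorem centreP_eq_centre (P : HeightOneSpectrum (CRing N' A)) :
    NodeRingK0.centre h hℓN hA (placeOfPrime (K := kA) (F := FresBar N' A) P)
      (containsB_placeOfPrime P) = centreP h hℓN hA P := by
  unfold NodeRingK0.centre centreP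
  rw [primeOfPlace_placeOfPrime]

theorem isNode_of_isNodeP (P : HeightOneSpectrum (CRing N' A)) (hnode : IsNodeP h hℓN hA P) :
    NodeRingK0.IsNode h hℓN hA (placeOfPrime (K := kA) (F := FresBar N' A) P)
      (containsB_placeOfPrime P) := by
  intro b hb
  rw [centreP_eq_centre]
  exact hnode b hb

theorem not_isNode_of_not_isNodeP (P : HeightOneSpectrum (CRing N' A))
    (hnode : ¬ IsNodeP h hℓN hA P) :
    ¬ NodeRingK0.IsNode h hℓN hA (placeOfPrime (K := kA) (F := FresBar N' A) P)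
      (containsB_placeOfPrime P) := by
  intro hn
  apply hnode
  intro b hb
  rw [← centreP_eq_centre]
  exact hn b hb

/-- `comap rd₁ 𝔫'₁ = 𝔫` (`h𝔫₁`), by definition. -/
theorem comap_P1P (P : HeightOneSpectrum (CRing N' A)) :
    Ideal.comap (redC1K0 h hℓN hA) P.asIdeal = centreP h hℓN hA P := rfl

section Gens

variable (h2 : ℓ = 2 → 3 ∣ N') (h3 : ℓ = 3 → 2 ∣ N') (hν2 : nuTwo N' = 0) (hν3 : nuThree N' = 0)

include h2 h3 hν2 hν3 in
/-- **thickness one at a node, prime form** (`y₁ y₂ l s c hy_i hy_i0 hgen_i hs hc hth` of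
`SheetAsm.nl0_of_sheets`, `l := ellB h`). -/
theorem thickness_one_prime (P : HeightOneSpectrum (CRing N' A)) (hnode : IsNodeP h hℓN hA P) :
    ∃ y₁ y₂ s c : BRingK0 N' ℓ A h,
      s ∉ centreP h hℓN hA P ∧ c ∉ centreP h hℓN hA P ∧
      redC1K0 h hℓN hA y₁ = 0 ∧ y₁ ≠ 0 ∧
      (∀ b : BRingK0 N' ℓ A h, redC1K0 h hℓN hA b = 0 →
        ∃ t : BRingK0 N' ℓ A h, t ∉ centreP h hℓN hA P ∧ y₁ ∣ t * b) ∧
      redC2K0 h hℓN hA y₂ = 0 ∧ y₂ ≠ 0 ∧
      (∀ b : BRingK0 N' ℓ A h, redC2K0 h hℓN hA b = 0 →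
        ∃ t : BRingK0 N' ℓ A h, t ∉ centreP h hℓN hA P ∧ y₂ ∣ t * b) ∧
      NodeRingK0.ellB h * s = c * y₂ * y₁ := by
  obtain ⟨y₁, y₂, s, c, hs, hc, hy₁, hgen₁, hy₂, hgen₂, hth⟩ :=
    thickness_one_rd h hℓN hA h2 h3 hν2 hν3 _ (containsB_placeOfPrime P)
      (isNode_of_isNodeP h hℓN hA P hnode)
  rw [centreP_eq_centre] at hs hc
  have hs0 : s ≠ 0 := fun h0 => hs (h0 ▸ Ideal.zero_mem _)
  have hprod : c * y₂ * y₁ ≠ 0 := hth ▸ mul_ne_zero (ellB_ne_zero h) hs0
  refine ⟨y₁, y₂, s, c, hs, hc, hy₁, right_ne_zero_of_mul hprod, fun b hb => ?_, hy₂,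
    right_ne_zero_of_mul (left_ne_zero_of_mul hprod), fun b hb => ?_, hth⟩
  · obtain ⟨t, ht, hd⟩ := hgen₁ b hb
    rw [centreP_eq_centre] at ht
    exact ⟨t, ht, hd⟩
  · obtain ⟨t, ht, hd⟩ := hgen₂ b hb
    rw [centreP_eq_centre] at ht
    exact ⟨t, ht, hd⟩

include h2 h3 hν2 hν3 in
/-- **thickness one at a point of type I, prime form**. -/
theorem thickness_one_prime_typeI (P : HeightOneSpectrum (CRing N' A))
    (hnode : ¬ IsNodeP h hℓN hA P) :
    ∃ y₁ s c : BRingK0 N' ℓ A h,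
      s ∉ centreP h hℓN hA P ∧ c ∉ centreP h hℓN hA P ∧
      redC1K0 h hℓN hA y₁ = 0 ∧ y₁ ≠ 0 ∧
      (∀ b : BRingK0 N' ℓ A h, redC1K0 h hℓN hA b = 0 →
        ∃ t : BRingK0 N' ℓ A h, t ∉ centreP h hℓN hA P ∧ y₁ ∣ t * b) ∧
      NodeRingK0.ellB h * s = c * y₁ := by
  obtain ⟨y₁, s, c, hs, hc, hy₁, hgen₁, hth⟩ :=
    thickness_one_rd_typeI h hℓN hA h2 h3 hν2 hν3 _ (containsB_placeOfPrime P)
      (not_isNode_of_not_isNodeP h hℓN hA P hnode)
  rw [centreP_eq_centre] at hs hc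
  have hs0 : s ≠ 0 := fun h0 => hs (h0 ▸ Ideal.zero_mem _)
  have hprod : c * y₁ ≠ 0 := hth ▸ mul_ne_zero (ellB_ne_zero h) hs0
  refine ⟨y₁, s, c, hs, hc, hy₁, right_ne_zero_of_mul hprod, fun b hb => ?_, hth⟩
  obtain ⟨t, ht, hd⟩ := hgen₁ b hb
  rw [centreP_eq_centre] at ht
  exact ⟨t, ht, hd⟩

end Gens

/-! #### branch 2 (at a node), prime form -/

section Branch2

variable (h2 : ℓ = 2 → 3 ∣ N') (h3 : ℓ = 3 → 2 ∣ N')

/-- `ker rd₂ ≤ 𝔫` at a node. -/
theorem ker_redC2K0_le_centreP (P : HeightOneSpectrum (CRing N' A))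
    (hnode : IsNodeP h hℓN hA P) :
    RingHom.ker (redC2K0 h hℓN hA) ≤ centreP h hℓN hA P := by
  intro b hb
  exact hnode b ((NodeRingK0.redC2K0_eq_zero_iff h hℓN hA b).1 ((RingHom.mem_ker).1 hb))

/-- `ker rd₁ ≤ 𝔫`. -/
theorem ker_redC1K0_le_centreP (P : HeightOneSpectrum (CRing N' A)) :
    RingHom.ker (redC1K0 h hℓN hA) ≤ centreP h hℓN hA P := by
  intro b hb
  rw [centreP, Ideal.mem_comap, (RingHom.mem_ker).1 hb]
  exact Ideal.zero_mem _

/-- **the centre of the second branch at a node**, prime form. -/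
def P2P (P : HeightOneSpectrum (CRing N' A)) (hnode : IsNodeP h hℓN hA P) :
    HeightOneSpectrum (CRing N' A) where
  asIdeal := Ideal.map (redC2K0 h hℓN hA) (centreP h hℓN hA P)
  isPrime := NodePkg.map_isPrime (redC2K0_surjective hℓN hA h2 h3)
    (ker_redC2K0_le_centreP h hℓN hA P hnode)
  ne_bot := by
    intro h0
    obtain ⟨b, hb1, hb2⟩ := vert_ne h hℓN hA
    apply hb2
    have hb : b ∈ centreP h hℓN hA P :=
      ker_redC1K0_le_centreP h hℓN hA P ((RingHom.mem_ker).2 hb1)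
    have := Ideal.mem_map_of_mem (redC2K0 h hℓN hA) hb
    rw [h0] at this
    exact (Ideal.mem_bot).1 this

theorem P2P_asIdeal (P : HeightOneSpectrum (CRing N' A)) (hnode : IsNodeP h hℓN hA P) :
    (P2P h hℓN hA h2 h3 P hnode).asIdeal =
      Ideal.map (redC2K0 h hℓN hA) (centreP h hℓN hA P) := rfl

/-- `comap rd₂ 𝔫'₂ = 𝔫` (`h𝔫₂`). -/
theorem comap_P2P (P : HeightOneSpectrum (CRing N' A)) (hnode : IsNodeP h hℓN hA P) :
    Ideal.comap (redC2K0 h hℓN hA) (P2P h hℓN hA h2 h3 P hnode).asIdeal =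
      centreP h hℓN hA P :=
  NodePkg.comap_map_eq (redC2K0_surjective hℓN hA h2 h3)
    (ker_redC2K0_le_centreP h hℓN hA P hnode)

end Branch2

/-! #### the point at level `N' ℓ` -/

/-- `C ⊆ O_{Pl}` for a place `Pl` of `F̃_{N'ℓ}` (`= ContainsB (CRing N' A) Pl` for `algCFres`, stated
without the algebra instance). -/
def ContainsC (Pl : Place kA (FresBar (N' * ℓ) A)) : Prop :=
  ∀ c : CRing N' A,
    fresInclInv hℓN hA (algebraMap (CRing N' A) (FresBar N' A) c) ∈ Pl.toValuationSubring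

theorem containsB_of_containsC {Pl : Place kA (FresBar (N' * ℓ) A)}
    (hPl : ContainsC hℓN hA Pl) :
    letI := algCFres (ℓ := ℓ) hℓN hA
    ContainsB (CRing N' A) Pl := hPl

/-- **`j~ ∈ O_{Pl} ⟹ C ⊆ O_{Pl}`** at level `N' ℓ`. -/
theorem containsC_of_jt_mem (Pl : Place kA (FresBar (N' * ℓ) A))
    (hj : fresInclInv hℓN hA (Fermat.Agent.GK.QS.jt N' A) ∈ Pl.toValuationSubring) : ContainsC hℓN hA Pl := by
  intro c
  have h1 : RegFin kA (fresInclInv hℓN hA (Fermat.Agent.GK.QS.jt N' A)) (fresInclInv hℓN hA (c : FresBar N' A)) :=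
    regFin_map_of_algHom (fresInclInv hℓN hA) c.2
  exact Fermat.Agent.GL.Frame.Inst.mem_valuationSubring_of_mem_icRing kA
    {fresInclInv hℓN hA (Fermat.Agent.GK.QS.jt N' A)} Pl.toValuationSubring (fun r => Pl.algebraMap_mem' r)
    (by rintro _ rfl; exact hj) h1

/-- `red₁ j = j~` in `F̃_{N'ℓ}`. -/
theorem red1_jF_eq (hj : Fermat.Agent.S24.jF (N' * ℓ) ∈ (redDataBar (N' * ℓ) A).Rw) :
    (redDataBar (N' * ℓ) A).red ⟨Fermat.Agent.S24.jF (N' * ℓ), hj⟩ = fresInclInv hℓN hA (Fermat.Agent.GK.QS.jt N' A) := by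
  rw [← fresIncl_red1_jF hℓN hA hj, fresInclInv_fresIncl]

/-- **`red₁ j ∈ O_{Pl} ⟹ C ⊆ O_{Pl}`** (`j` regular at `Pl`). -/
theorem containsC_of_red1_jF_mem (Pl : Place kA (FresBar (N' * ℓ) A))
    (hj : Fermat.Agent.S24.jF (N' * ℓ) ∈ (redDataBar (N' * ℓ) A).Rw)
    (hjPl : (redDataBar (N' * ℓ) A).red ⟨Fermat.Agent.S24.jF (N' * ℓ), hj⟩ ∈ Pl.toValuationSubring) :
    ContainsC hℓN hA Pl := by
  rw [red1_jF_eq hℓN hA hj] at hjPl
  exact containsC_of_jt_mem hℓN hA Pl hjPl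

/-- **the centre on `C` of a place of `F̃_{N'ℓ}`** (`𝔫'₁` of `nl0_of_sheets` is its `asIdeal`). -/
def primeL (Pl : Place kA (FresBar (N' * ℓ) A)) (hPl : ContainsC hℓN hA Pl) :
    HeightOneSpectrum (CRing N' A) :=
  letI := algCFres (ℓ := ℓ) hℓN hA
  haveI := algCFres_tower (ℓ := ℓ) hℓN hA
  haveI := algCFres_frac (ℓ := ℓ) hℓN hA
  primeOfPlace (K := kA) (F := FresBar (N' * ℓ) A) Pl (containsB_of_containsC hℓN hA hPl)

/-- membership in the centre: `c ∈ 𝔫'₁ ↔` the image of `c` is a nonunit of `O_{Pl}`. -/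
theorem mem_primeL_iff (Pl : Place kA (FresBar (N' * ℓ) A)) (hPl : ContainsC hℓN hA Pl)
    (c : CRing N' A) :
    c ∈ (primeL hℓN hA Pl hPl).asIdeal ↔
      fresInclInv hℓN hA (algebraMap (CRing N' A) (FresBar N' A) c) ∈
        Pl.toValuationSubring.nonunits := by
  letI := algCFres (ℓ := ℓ) hℓN hA
  haveI := algCFres_tower (ℓ := ℓ) hℓN hA
  haveI := algCFres_frac (ℓ := ℓ) hℓN hA
  have e : (primeL hℓN hA Pl hPl).asIdeal =
      Fermat.Agent.S24_helper6.centre (K := kA) (F := FresBar (N' * ℓ) A) (B := CRing N' A) Pl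
        (containsB_of_containsC hℓN hA hPl) :=
    rfl
  rw [e, mem_centre_iff]
  constructor
  · intro hnu
    rw [ValuationSubring.mem_nonunits_iff_exists_mem_maximalIdeal]
    exact ⟨hPl c, (IsLocalRing.mem_maximalIdeal _).2 hnu⟩
  · intro hmem hu
    rw [ValuationSubring.mem_nonunits_iff_exists_mem_maximalIdeal] at hmem
    obtain ⟨hc, hm⟩ := hmem
    exact (IsLocalRing.mem_maximalIdeal _).1 hm hu

/-- **`hvE` at level `N' ℓ`** : for a place `Pl` of `F̃_{N'ℓ}` containing `C`, elements of `C`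
outside the centre of `Pl` have order `0` at `Pl`. -/
theorem hvE_level (Pl : Place kA (FresBar (N' * ℓ) A)) (hPl : ContainsC hℓN hA Pl) :
    letI := algCFres (ℓ := ℓ) hℓN hA
    ∀ e : CRing N' A, e ∉ (primeL hℓN hA Pl hPl).asIdeal →
      Pl.ord (algebraMap (CRing N' A) (FresBar (N' * ℓ) A) e) = 0 := by
  letI := algCFres (ℓ := ℓ) hℓN hA
  haveI := algCFres_tower (ℓ := ℓ) hℓN hA
  haveI := algCFres_frac (ℓ := ℓ) hℓN hA
  intro e he
  exact ord_algebraMap_eq_zero Pl (containsB_of_containsC hℓN hA hPl) he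

end Fermat.Agent.GF.KCover.Node.NodeRingK0Level
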