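/-
GATE-F / GF-KCOVER-INST, leaf (L-c), HORIZONTAL primes (helper85): **HORIZ-DIV and the `hord` binder
in GENERIC form** — helper11's `GL/Frame/{HorizDiv,HorizHord}` re-run over abstract fields, so that it
applies to the COVER `F' = F(G)`, `G ^ p = g₀`, and its `K₀`-model.

Frame: `K₀ ⊆ K̄` algebraic, characteristic `0`; `F₀ / K₀`, `F / K̄` fields, `ι : F₀ →+* F` over
`K₀ → K̄`, `F` the compositum of `ι F₀` and `K̄` (`hgen`), `F / K̄` a function field in one variable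
(`[IsGen K̄ x]`).  The Kummer condition `ι u₀ ∈ pDivUnits K̄ F m` is about the prelude places of
`F / K̄`; since a constant-field extension is unramified (`GL/Frame/ConstUnram`), it descends to every
discrete valuation ring `V ⊇ K₀` of `F₀`:

* `exists_place_over_gen` : a prelude place `P` of `F / K̄` above `V`, unramified;
* `exists_eq_zpow_mul_unit_of_mem_pDivUnits_gen` : `u₀ = t ^ (m n) · ε`, `ε ∈ Vˣ` (`𝔪_V = (t)`);
  `_dvr` the same for `[IsDiscreteValuationRing V]`, `Irreducible t`;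
* `isDiscreteValuationRing_V1'` : `V1 F₀ 𝔭 = B_𝔭` is a DVR (copy of `HorizHord`, light imports);
* `hord_horizontal_gen` : **the binder `hord` of `NodeLemma.dvd_ord_red_of_ufd` /
  `Kummer.exists_kummer_datum_of_ufd` at a horizontal height-one prime `𝔭`** (`K₀ ⊆ B_𝔭`):
  `∃ z ≠ 0, UnitAt 𝔭 (u₀ * z ^ m)`;
* (`[IsGen K̄ x]` for the cover `F' = F(G)`: `GF/F2Asm/KummerExt.isGen_algebraMap`, helper31;
  generic: `DS/P4/GenTower.isGen_algebraMap_of_finite`);
* `hgen_of_adjoin` : `hgen` passes from `F` to `F' ⊇ F` generated over `F` by elements of the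
  compositum (for `F' = F(G)` with `G` in the image of the `K₀`-model).
-/
import Mathlib
import Fermat.Agent.GL.Frame.ConstUnram
import Fermat.Agent.GL.Frame.KummerDatum
import Fermat.Agent.GJ.FF.ValRing
import Fermat.Agent.GJ.J2.EigIface

set_option autoImplicit false
set_option linter.unusedSectionVars false

noncomputable section

namespace Fermat.Agent.GF.KCover.Node.HorizGen

open IsLocalRing AlgebraicCurve
open Fermat.Agent.S24 Fermat.Agent.GJ.FF Fermat.Agent.GJ.KumGroup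
open Fermat.Agent.GL.KrullHeightOne Fermat.Agent.GL.Frame.HeightOne Fermat.Agent.GL.Frame.Kummer
open Fermat.Agent.GL.Frame.ConstUnram

/-! ### The place above a horizontal DVR -/

section Place

variable {K0 Kb F0 F : Type*} [Field K0] [CharZero K0] [Field Kb] [Algebra K0 Kb]
  [Algebra.IsAlgebraic K0 Kb] [Field F0] [Algebra K0 F0] [Field F] [Algebra Kb F]
  (ι : F0 →+* F)
  (hι : ∀ a : K0, ι (algebraMap K0 F0 a) = algebraMap Kb F (algebraMap K0 Kb a))
  (hgen : ∀ y : F, ∃ a ∈ compositum Kb ι, ∃ b ∈ compositum Kb ι, b ≠ 0 ∧ y * b = a)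
  (V : ValuationSubring F0) (hKV : ∀ c : K0, algebraMap K0 F0 c ∈ V) [IsNoetherianRing V]
  (t : V) (ht0 : t ≠ 0) (ht : maximalIdeal V = Ideal.span {t})

include hι hgen hKV ht0 ht in
/-- **a place of `F / K̄` above `V`, unramified**: `P.ord (ι t) = 1`, and `P` restricts to `V`. -/
theorem exists_place_over_gen (x : F) [IsGen Kb x] :
    ∃ P : Place Kb F,
      (∀ f : F0, ι f ∈ P.toValuationSubring ↔ f ∈ V) ∧
      P.ord (ι (t : F0)) = 1 ∧
      ∀ y : F, y ≠ 0 → ∃ ε : P.toValuationSubringˣ,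
        y = ι (t : F0) ^ (P.ord y) * ((ε : P.toValuationSubring) : F) := by
  obtain ⟨W, hVW, hKb, hWtop, π, hπF, hπ, hall⟩ :=
    exists_unramified_over (K0 := K0) (Kb := Kb) ι hι V hKV t ht0 ht hgen
  let P : Place Kb F := placeOf x W hKb hWtop
  have hord : ∀ y : F, y ≠ 0 → ∀ n : ℤ, ∀ ε : Wˣ,
      y = ι (t : F0) ^ n * ((ε : W) : F) → P.ord y = n := by
    intro y _ n ε hy
    rw [hy, mul_comm, ← hπF]
    exact P.ord_unit_smul_zpow ε hπ n
  refine ⟨P, hVW, ?_, ?_⟩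
  · have h1 := P.ord_coe_irreducible hπ
    rwa [hπF] at h1
  · intro y hy0
    obtain ⟨n, ε, hy⟩ := hall y hy0
    refine ⟨ε, ?_⟩
    rw [hord y hy0 n ε hy]
    exact hy

end Place

/-! ### The Kummer condition at horizontal DVRs -/

section Kummer

variable {K0 Kb F0 F : Type*} [Field K0] [CharZero K0] [Field Kb] [Algebra K0 Kb]
  [Algebra.IsAlgebraic K0 Kb] [Field F0] [Algebra K0 F0] [Field F] [Algebra Kb F]
  (ι : F0 →+* F)
  (hι : ∀ a : K0, ι (algebraMap K0 F0 a) = algebraMap Kb F (algebraMap K0 Kb a))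
  (hgen : ∀ y : F, ∃ a ∈ compositum Kb ι, ∃ b ∈ compositum Kb ι, b ≠ 0 ∧ y * b = a)
  (m : ℕ) (u₀ : F0ˣ) (hu : Units.map (ι : F0 →* F) u₀ ∈ pDivUnits Kb F m)
  (V : ValuationSubring F0) (hKV : ∀ c : K0, algebraMap K0 F0 c ∈ V)

include hι hgen hu hKV in
/-- **HORIZ-DIV, generic**: an `m`-divisible unit of `F / K̄` that is rational over `K₀` has order
divisible by `m` at every discrete valuation ring `V ⊇ K₀` of `F₀`. -/
theorem exists_eq_zpow_mul_unit_of_mem_pDivUnits_gen (x : F) [IsGen Kb x] [IsNoetherianRing V]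
    (t : V) (ht0 : t ≠ 0) (ht : maximalIdeal V = Ideal.span {t}) :
    ∃ n : ℤ, ∃ ε : Vˣ, (u₀ : F0) = (t : F0) ^ ((m : ℤ) * n) * ((ε : V) : F0) := by
  obtain ⟨P, hVP, hP1, hPall⟩ := exists_place_over_gen ι hι hgen V hKV t ht0 ht x
  have hu0 : ι (u₀ : F0) ≠ 0 := (map_ne_zero ι).mpr u₀.ne_zero
  obtain ⟨n, hn⟩ : (m : ℤ) ∣ P.ord (ι (u₀ : F0)) := hu P
  obtain ⟨ε, hε⟩ := hPall _ hu0
  rw [hn] at hε
  have htF : (t : F0) ≠ 0 := fun h => ht0 (Subtype.ext h)
  set e : F0 := (u₀ : F0) / (t : F0) ^ ((m : ℤ) * n) with he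
  have hιt : ι (t : F0) ≠ 0 := (map_ne_zero ι).mpr htF
  have hιe : ι e = ((ε : P.toValuationSubring) : F) := by
    rw [he, map_div₀, map_zpow₀, hε]
    field_simp
  have heV : e ∈ V := (hVP e).1 (by rw [hιe]; exact (ε : P.toValuationSubring).2)
  have heiV : e⁻¹ ∈ V := by
    refine (hVP e⁻¹).1 ?_
    rw [map_inv₀, hιe]
    have h1 : ((ε : P.toValuationSubring) : F) *
        (((ε⁻¹ : P.toValuationSubringˣ) : P.toValuationSubring) : F) = 1 :=
      congrArg Subtype.val ε.mul_inv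
    rw [← eq_inv_of_mul_eq_one_right h1]
    exact ((ε⁻¹ : P.toValuationSubringˣ) : P.toValuationSubring).2
  have he0 : e ≠ 0 := by
    rw [he]
    exact div_ne_zero u₀.ne_zero (zpow_ne_zero _ htF)
  refine ⟨n, ⟨⟨e, heV⟩, ⟨e⁻¹, heiV⟩, Subtype.ext (mul_inv_cancel₀ he0),
    Subtype.ext (inv_mul_cancel₀ he0)⟩, ?_⟩
  show (u₀ : F0) = _ * e
  rw [he]
  field_simp

include hι hgen hu hKV in
/-- the same for a discrete valuation ring and an irreducible element. -/
theorem exists_eq_zpow_mul_unit_of_mem_pDivUnits_gen_dvr (x : F) [IsGen Kb x]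
    [IsDiscreteValuationRing V] (t : V) (ht : Irreducible t) :
    ∃ n : ℤ, ∃ ε : Vˣ, (u₀ : F0) = (t : F0) ^ ((m : ℤ) * n) * ((ε : V) : F0) :=
  exists_eq_zpow_mul_unit_of_mem_pDivUnits_gen ι hι hgen m u₀ hu V hKV x t ht.ne_zero
    ((IsDiscreteValuationRing.irreducible_iff_uniformizer t).mp ht)

end Kummer

/-! ### `V1 F 𝔭` is a DVR -/

section DVR

variable {B F : Type*} [CommRing B] [IsDomain B] [Field F] [Algebra B F] [IsFractionRing B F]
  [IsNoetherianRing B] [IsIntegrallyClosed B]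

/-- `B_𝔭` as a subalgebra and as a valuation subring: the same ring. -/
def locSubEquivV1' (𝔭 : HtOne B) : ↥(locSub F 𝔭.1) ≃+* ↥(V1 F 𝔭) where
  toFun y := ⟨y.1, y.2⟩
  invFun y := ⟨y.1, y.2⟩
  left_inv _ := rfl
  right_inv _ := rfl
  map_mul' _ _ := rfl
  map_add' _ _ := rfl

/-- **`V1 F 𝔭` is a discrete valuation ring.** -/
theorem isDiscreteValuationRing_V1' (𝔭 : HtOne B) : IsDiscreteValuationRing ↥(V1 F 𝔭) := by
  have := isDiscreteValuationRing_locSub (F := F) 𝔭.1 𝔭.2.2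
  exact IsDiscreteValuationRing.RingEquivClass.isDiscreteValuationRing
    (locSubEquivV1' (F := F) 𝔭)

end DVR

/-! ### The `hord` binder at horizontal primes -/

section Hord

variable {K0 Kb F0 F : Type*} [Field K0] [CharZero K0] [Field Kb] [Algebra K0 Kb]
  [Algebra.IsAlgebraic K0 Kb] [Field F0] [Algebra K0 F0] [Field F] [Algebra Kb F]
  (ι : F0 →+* F)
  (hι : ∀ a : K0, ι (algebraMap K0 F0 a) = algebraMap Kb F (algebraMap K0 Kb a))
  (hgen : ∀ y : F, ∃ a ∈ compositum Kb ι, ∃ b ∈ compositum Kb ι, b ≠ 0 ∧ y * b = a)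
  {B : Type*} [CommRing B] [IsDomain B] [Algebra B F0] [IsFractionRing B F0] [IsNoetherianRing B]
  [IsIntegrallyClosed B]

include hι hgen in
/-- **the `hord` binder at a horizontal height-one prime, generic**: if `ι u₀` is an `m`-divisible
unit of `F / K̄` and `K₀ ⊆ B_𝔭`, then `u₀` is a unit of `B_𝔭` times an `m`-th power. -/
theorem hord_horizontal_gen (x : F) [IsGen Kb x] (m : ℕ) (u₀ : F0ˣ)
    (hu : Units.map (ι : F0 →* F) u₀ ∈ pDivUnits Kb F m) (𝔭 : HtOne B)
    (hK0 : ∀ c : K0, algebraMap K0 F0 c ∈ V1 F0 𝔭) :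
    ∃ z : F0, z ≠ 0 ∧ UnitAt 𝔭 ((u₀ : F0) * z ^ m) := by
  have hdvr := isDiscreteValuationRing_V1' (F := F0) 𝔭
  obtain ⟨t, ht⟩ := IsDiscreteValuationRing.exists_irreducible ↥(V1 F0 𝔭)
  obtain ⟨n, ε, h⟩ := exists_eq_zpow_mul_unit_of_mem_pDivUnits_gen_dvr ι hι hgen m u₀ hu
    (V1 F0 𝔭) hK0 x t ht
  have htF : (t : F0) ≠ 0 := fun h0 => ht.ne_zero (Subtype.ext h0)
  refine ⟨(t : F0) ^ (-n), zpow_ne_zero _ htF, ?_⟩
  have h1 : (u₀ : F0) * ((t : F0) ^ (-n)) ^ m = ((ε : V1 F0 𝔭) : F0) := by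
    rw [h, ← zpow_natCast, ← zpow_mul, mul_comm _ ((ε : V1 F0 𝔭) : F0), mul_assoc,
      ← zpow_add₀ htF]
    have : (m : ℤ) * n + -n * (m : ℤ) = 0 := by ring
    rw [this, zpow_zero, mul_one]
  rw [h1]
  refine ⟨(ε : V1 F0 𝔭).2, ?_⟩
  have h2 : ((ε : V1 F0 𝔭) : F0) * (((ε⁻¹ : (V1 F0 𝔭)ˣ) : V1 F0 𝔭) : F0) = 1 :=
    congrArg Subtype.val ε.mul_inv
  rw [← eq_inv_of_mul_eq_one_right h2]
  exact ((ε⁻¹ : (V1 F0 𝔭)ˣ) : V1 F0 𝔭).2

end Hord

/-! ### `hgen` passes to a finitely generated extension (the cover `F' = F(G)`) -/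

section Adjoin

variable {Kb F0 F F0' F' : Type*} [Field Kb] [Field F0] [Field F] [Algebra Kb F]
  [Field F0'] [Field F'] [Algebra Kb F'] [Algebra F F'] [IsScalarTower Kb F F']
  (ι : F0 →+* F) (ι' : F0' →+* F')

/-- the compositum downstairs maps into the compositum upstairs as soon as `ι' ⊇ ι`. -/
theorem algebraMap_mem_compositum (hF : ∀ r : F0, algebraMap F F' (ι r) ∈ compositum Kb ι')
    {a : F} (ha : a ∈ compositum Kb ι) : algebraMap F F' a ∈ compositum Kb ι' := by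
  have hle : compositum Kb ι ≤ (compositum Kb ι').comap (algebraMap F F') := by
    unfold compositum
    rw [Subring.closure_le]
    rintro y (⟨r, rfl⟩ | ⟨c, rfl⟩)
    · exact hF r
    · show algebraMap F F' (algebraMap Kb F c) ∈
        Subring.closure (Set.range ι' ∪ Set.range (algebraMap Kb F'))
      rw [← IsScalarTower.algebraMap_apply]
      exact Subring.subset_closure (Or.inr ⟨c, rfl⟩)
  exact hle ha

/-- **`hgen` for the cover**: if `F` is the compositum of `ι F₀` and `K̄`, `ι'` extends `ι`, and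
`F'` is generated over `F` by elements of the compositum of `ι' F₀'` and `K̄` (for `F' = F(G)`:
`G`, or any primitive element coming from the `K₀`-model), then `F'` is the compositum of `ι' F₀'`
and `K̄`. -/
theorem hgen_of_adjoin
    (hgen : ∀ y : F, ∃ a ∈ compositum Kb ι, ∃ b ∈ compositum Kb ι, b ≠ 0 ∧ y * b = a)
    (hF : ∀ r : F0, algebraMap F F' (ι r) ∈ compositum Kb ι')
    (T : Set F') (hT : Algebra.adjoin F T = ⊤) (hTS : T ⊆ compositum Kb ι') (y : F') :
    ∃ a ∈ compositum Kb ι', ∃ b ∈ compositum Kb ι', b ≠ 0 ∧ y * b = a := by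
  have hy : y ∈ Algebra.adjoin F T := by rw [hT]; trivial
  induction hy using Algebra.adjoin_induction with
  | mem z hz =>
    exact ⟨z, hTS hz, 1, Subring.one_mem _, one_ne_zero, mul_one z⟩
  | algebraMap r =>
    obtain ⟨a, ha, b, hb, hb0, hab⟩ := hgen r
    refine ⟨algebraMap F F' a, algebraMap_mem_compositum ι ι' hF ha, algebraMap F F' b,
      algebraMap_mem_compositum ι ι' hF hb, ?_, ?_⟩
    · exact (map_ne_zero (algebraMap F F')).mpr hb0
    · rw [← map_mul, hab]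
  | add z w _ _ hz hw =>
    obtain ⟨a, ha, b, hb, hb0, hab⟩ := hz
    obtain ⟨a', ha', b', hb', hb0', hab'⟩ := hw
    refine ⟨a * b' + a' * b, Subring.add_mem _ (Subring.mul_mem _ ha hb')
      (Subring.mul_mem _ ha' hb), b * b', Subring.mul_mem _ hb hb', mul_ne_zero hb0 hb0', ?_⟩
    rw [← hab, ← hab']
    ring
  | mul z w _ _ hz hw =>
    obtain ⟨a, ha, b, hb, hb0, hab⟩ := hz
    obtain ⟨a', ha', b', hb', hb0', hab'⟩ := hw
    refine ⟨a * a', Subring.mul_mem _ ha ha', b * b', Subring.mul_mem _ hb hb',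
      mul_ne_zero hb0 hb0', ?_⟩
    rw [← hab, ← hab']
    ring

end Adjoin

end Fermat.Agent.GF.KCover.Node.HorizGen
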