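/-
GATE-F / GF-KCOVER-INST, leaf (L-c), HORIZONTAL primes, file 2 (helper85): the hypothesis `hgen` of
`HorizGen` for a cover of PRIME degree (`F' = F(G)`, `G ^ p = g₀`), from ONE element of the
`K₀`-model that is not in `F`.

* `adjoin_singleton_eq_top_of_finrank_prime` : `[F' : F]` prime, `y ∉ F` ⟹ `F[y] = F'`;
* `hgen_of_finrank_prime` : `F` the compositum of `ι F₀` and `K̄`, `ι'` extends `ι`, `[F' : F]` prime
  and `ι' θ₀ ∉ F` for some `θ₀ : F₀'` ⟹ `F'` is the compositum of `ι' F₀'` and `K̄`
  (in the gate: `θ₀ = Tr_Δ~ (Z')`, which takes `p` distinct residues on the `p` sheets, while every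
  element of `F` has the same image under all the embeddings `emb k`);
* `not_mem_range_of_emb_ne` : that criterion — two ring homs `F' → L` which agree on `F` and differ
  at `y` show `y ∉ F`.
-/
import Mathlib
import Fermat.Agent.GF.KCover.Node.HorizGen

set_option autoImplicit false
set_option linter.unusedSectionVars false

noncomputable section

namespace Fermat.Agent.GF.KCover.Node.HorizPrime

open Fermat.Agent.GL.Frame.ConstUnram Fermat.Agent.GF.KCover.Node.HorizGen

section Prime

variable {F F' : Type*} [Field F] [Field F'] [Algebra F F']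

/-- in an extension of prime degree every element outside the base field is a generator. -/
theorem adjoin_singleton_eq_top_of_finrank_prime (h : (Module.finrank F F').Prime) {y : F'}
    (hy : y ∉ Set.range (algebraMap F F')) : Algebra.adjoin F {y} = ⊤ := by
  have hfd : FiniteDimensional F F' := Module.finite_of_finrank_pos h.pos
  have hso : IsSimpleOrder (IntermediateField F F') :=
    IntermediateField.isSimpleOrder_of_finrank_prime F F' h
  have hint : IsAlgebraic F y := (Algebra.IsIntegral.isIntegral y).isAlgebraic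
  have htop : IntermediateField.adjoin F {y} = ⊤ := by
    rcases eq_bot_or_eq_top (IntermediateField.adjoin F {y}) with h0 | h1
    · exfalso
      apply hy
      have hmem : y ∈ IntermediateField.adjoin F {y} :=
        IntermediateField.mem_adjoin_simple_self F y
      rw [h0, IntermediateField.mem_bot] at hmem
      exact hmem
    · exact h1
  rw [← IntermediateField.adjoin_simple_toSubalgebra_of_isAlgebraic hint, htop,
    IntermediateField.top_toSubalgebra]

/-- two ring homs out of `F'` agreeing on `F` and differing at `y` show that `y ∉ F`. -/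
theorem not_mem_range_of_emb_ne {L : Type*} [Semiring L] (e₁ e₂ : F' →+* L)
    (hF : ∀ a : F, e₁ (algebraMap F F' a) = e₂ (algebraMap F F' a)) {y : F'}
    (hy : e₁ y ≠ e₂ y) : y ∉ Set.range (algebraMap F F') := by
  rintro ⟨a, rfl⟩
  exact hy (hF a)

end Prime

section Hgen

variable {Kb F0 F F0' F' : Type*} [Field Kb] [Field F0] [Field F] [Algebra Kb F]
  [Field F0'] [Field F'] [Algebra Kb F'] [Algebra F F'] [IsScalarTower Kb F F']
  (ι : F0 →+* F) (ι' : F0' →+* F')

/-- **`hgen` for a cover of prime degree.** -/
theorem hgen_of_finrank_prime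
    (hgen : ∀ y : F, ∃ a ∈ compositum Kb ι, ∃ b ∈ compositum Kb ι, b ≠ 0 ∧ y * b = a)
    (hF : ∀ r : F0, algebraMap F F' (ι r) ∈ compositum Kb ι')
    (hdeg : (Module.finrank F F').Prime) (θ₀ : F0')
    (hθ : ι' θ₀ ∉ Set.range (algebraMap F F')) (y : F') :
    ∃ a ∈ compositum Kb ι', ∃ b ∈ compositum Kb ι', b ≠ 0 ∧ y * b = a :=
  hgen_of_adjoin ι ι' hgen hF {ι' θ₀} (adjoin_singleton_eq_top_of_finrank_prime hdeg hθ)
    (by
      rintro z rfl
      exact Subring.subset_closure (Or.inl ⟨θ₀, rfl⟩)) y

end Hgen

end Fermat.Agent.GF.KCover.Node.HorizPrime
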