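/-
GATE-F (S44) / GF-KCOVER-INST, node side (helper84): **the horizontal binder `hhor` of
`Upstairs.nl0` / `NL0Asm` from divisibility of the orders at the places ABOVE `V` only.**

helper85's `HorizGen.exists_eq_zpow_mul_unit_of_mem_pDivUnits_gen` asks `ι u ∈ pDivUnits K̄ F m`
(every place).  The node lemma is applied to products of powers of `f = a u h ^ p`, a constant `ϖ`
and the η-quotient `θ`, whose divisor is supported on the cusps: its orders are divisible by `m`
only at the places where `j` is regular.  The proof of helper85 uses the ONE place `P` above `V`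
(`exists_place_over_gen`), so the hypothesis can be restricted to the places whose valuation ring
restricts to `V`; when `j ∈ V` these are non-cuspidal.

* `exists_unit_mul_pow_of_dvd_ord` : `V` a DVR of `F₀ ⊇ K₀`, `m ∣ P.ord (ι u)` for the places `P` of
  `F / K̄` with `P ∩ F₀ = V` ⟹ `∃ z ≠ 0, u z ^ m ∈ Vˣ` — the conclusion of the binder `hhor` VERBATIM.
-/
import Fermat.Agent.GF.KCover.Node.HorizGen

set_option autoImplicit false
set_option linter.unusedSectionVars false

noncomputable section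

namespace Fermat.Agent.GF.KCover.Node.HorizSub

open IsLocalRing AlgebraicCurve
open Fermat.Agent.S24 Fermat.Agent.GJ.FF Fermat.Agent.GJ.KumGroup
open Fermat.Agent.GL.Frame.ConstUnram Fermat.Agent.GF.KCover.Node.HorizGen

variable {K0 Kb F0 F : Type*} [Field K0] [CharZero K0] [Field Kb] [Algebra K0 Kb]
  [Algebra.IsAlgebraic K0 Kb] [Field F0] [Algebra K0 F0] [Field F] [Algebra Kb F]
  (ι : F0 →+* F)
  (hι : ∀ a : K0, ι (algebraMap K0 F0 a) = algebraMap Kb F (algebraMap K0 Kb a))
  (hgen : ∀ y : F, ∃ a ∈ compositum Kb ι, ∃ b ∈ compositum Kb ι, b ≠ 0 ∧ y * b = a)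
  (V : ValuationSubring F0) (hKV : ∀ c : K0, algebraMap K0 F0 c ∈ V)

include hι hgen hKV in
/-- **the binder `hhor` at ONE horizontal discrete valuation ring `V`**, from the orders at the
places above `V`. -/
theorem exists_unit_mul_pow_of_dvd_ord (x : F) [IsGen Kb x] [IsDiscreteValuationRing V]
    (m : ℕ) (u : F0) (hu0 : u ≠ 0)
    (hu : ∀ P : Place Kb F, (∀ f : F0, ι f ∈ P.toValuationSubring ↔ f ∈ V) →
      (m : ℤ) ∣ P.ord (ι u)) :
    ∃ z : F0, z ≠ 0 ∧ u * z ^ m ∈ V ∧ (u * z ^ m)⁻¹ ∈ V := by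
  obtain ⟨t, ht⟩ := IsDiscreteValuationRing.exists_irreducible ↥V
  have ht0 : t ≠ 0 := ht.ne_zero
  have htm : maximalIdeal ↥V = Ideal.span {t} :=
    (IsDiscreteValuationRing.irreducible_iff_uniformizer t).mp ht
  obtain ⟨P, hVP, hP1, hPall⟩ := exists_place_over_gen ι hι hgen V hKV t ht0 htm x
  have hιu0 : ι u ≠ 0 := (map_ne_zero ι).mpr hu0
  obtain ⟨n, hn⟩ : (m : ℤ) ∣ P.ord (ι u) := hu P hVP
  obtain ⟨ε, hε⟩ := hPall _ hιu0
  rw [hn] at hε
  have htF : (t : F0) ≠ 0 := fun h => ht0 (Subtype.ext h)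
  set e : F0 := u / (t : F0) ^ ((m : ℤ) * n) with he
  have hιt : ι (t : F0) ≠ 0 := (map_ne_zero ι).mpr htF
  have hιe : ι e = ((ε : P.toValuationSubring) : F) := by
    rw [he, map_div₀, map_zpow₀, hε]
    field_simp
  have heV : e ∈ V := (hVP e).1 (by rw [hιe]; exact (ε : P.toValuationSubring).2)
  have heiV : e⁻¹ ∈ V := by
    refine (hVP e⁻¹).1 ?_
    rw [map_inv₀, hιe]
    have h1 : ((ε : P.toValuationSubring) : F) *
        (((ε⁻¹ : P.toValuationSubringˣ) : P.toValuationSubring) : F) = 1 :=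
      congrArg Subtype.val ε.mul_inv
    rw [← eq_inv_of_mul_eq_one_right h1]
    exact ((ε⁻¹ : P.toValuationSubringˣ) : P.toValuationSubring).2
  refine ⟨(t : F0) ^ (-n), zpow_ne_zero _ htF, ?_⟩
  have h1 : u * ((t : F0) ^ (-n)) ^ m = e := by
    rw [he, ← zpow_natCast, ← zpow_mul, div_eq_mul_inv, ← zpow_neg]
    congr 2
    ring
  rw [h1]
  exact ⟨heV, heiV⟩

end Fermat.Agent.GF.KCover.Node.HorizSub
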