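/-
GATE-F (S40/S44) / GF-KCOVER-INST, leaf (L-c)/(L-e) glue (helper42): **the node relation `hNR` of
`F2Asm.Asm.IsCoverDatum` / `Inst.TameDatum.econst` from the node lemma NL**, with the node order
spelled by `OrdRedExt.nodeOrd` and the tropical coordinate by `GF/Trop/OrdRed.trop`.

Data at the `ℚ̄`-level: `R` the reduction datum of the first Gauss valuation of `F`, `R1 k`
(`k : ℤ/p`) the reduction data of the `p` sheets of the cover above it (`RedExt R (R1 k)`, same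
residue function field), `P s` the nodes.  `n_{s,j} := nodeOrd (R1 (j + a s)) (P s)` on the
`K'`-rational functions `fixedUnits Γ F'`.

Inputs: `ϖ` (a `K'`-rational constant, `w = 1`), the η-quotient `θ = algebraMap θ₀` (`θ₀ ∈ F`:
`(w₁, w₂) = (0, T)` upstairs, node order `N0 s` DOWNSTAIRS), `T = E s · N0 s`, `p ∤ N0 s`, and NL at
every node `(s, j)`.  Output, for every `K'`-rational `f = a · u · h ^ p`:

  `(w₂ (j + b s) f − w₁ (j + a s) f : ZMod p) = E s · trop R hun p P [u] s`.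
-/
import Fermat.Agent.GF.KCover.Frame
import Fermat.Agent.GF.KCover.Node.Arith
import Fermat.Agent.GF.KCover.Node.OrdRedExt

set_option autoImplicit false
set_option linter.unusedSectionVars false

noncomputable section

open AlgebraicCurve

namespace Fermat.Agent.GF.KCover.Node.NodeRel

open Fermat.Agent.GJ.J1 Fermat.Agent.GJ.KumGroup Fermat.Agent.S24 Fermat.Agent.GF.Trop
open Fermat.Agent.GF.KCover Fermat.Agent.GF.KCover.Node.OrdRedExt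

variable {K F F' k Ft : Type*} [Field K] [Field F] [Algebra K F] [Field F'] [Algebra K F']
  [Algebra F F'] [IsScalarTower K F F'] [Field k] [Field Ft] [Algebra k Ft]
  {p : ℕ} {Γ : Type*} [Group Γ] [MulSemiringAction Γ F'] {C : Subfield F'}

/-- **the node relation at ONE node** `(s, j)`: `w1 = w₁ (j + a s)`, `w2 = w₂ (j + b s)`,
`R' = R1 (j + a s)`, `Pl = P s`. -/
theorem nodeRel_at (w1 w2 : fixedUnits Γ F' → ℤ)
    (h1 : ∀ y z, w1 (y * z) = w1 y + w1 z) (h2 : ∀ y z, w2 (y * z) = w2 y + w2 z)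
    (R : RedData K F k Ft) (hun : Unram R) (R' : RedData K F' k Ft) (hun' : Unram R')
    (hext : RedExt R R') (Pl : Place k Ft)
    (ϖ θ : fixedUnits Γ F') {ϖ₀ : K} (hϖ : ((ϖ : F'ˣ) : F') = algebraMap K F' ϖ₀)
    (hϖ1 : w1 ϖ = 1) (hϖ2 : w2 ϖ = 1)
    {θ₀ : F} (hθ : ((θ : F'ˣ) : F') = algebraMap F F' θ₀)
    {T N0 E : ℤ} (hθ1 : w1 θ = 0) (hθ2 : w2 θ = T) (hθn : ordRed R hun Pl θ₀ = N0)
    (hT : T = E * N0) (hN0 : IsCoprime (p : ℤ) N0)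
    (NL : ∀ y : fixedUnits Γ F', w1 y = 0 → w2 y = 0 →
      (p : ℤ) ∣ nodeOrd R' hun' Pl (fixedUnits Γ F') y)
    (u : F) (f : fixedUnits Γ F') {a : K} {h : F'} (ha : a ≠ 0) (hu : u ≠ 0) (hh : h ≠ 0)
    (hf : ((f : F'ˣ) : F') = algebraMap K F' a * algebraMap F F' u * h ^ p) :
    ((w2 f - w1 f : ℤ) : ZMod p) = ((E : ℤ) : ZMod p) * ((ordRed R hun Pl u : ℤ) : ZMod p) := by
  have hθn' : nodeOrd R' hun' Pl (fixedUnits Γ F') θ = N0 := by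
    unfold nodeOrd
    rw [hθ, ordRed_algebraMap_eq hext hun hun' Pl θ₀, hθn]
  have key := Arith.node_congr_zmod (p := p) w1 w2 (nodeOrd R' hun' Pl (fixedUnits Γ F')) h1 h2
    (nodeOrd_mul R' hun' Pl _) hϖ1 hϖ2 (nodeOrd_const R' hun' Pl _ ϖ hϖ) hθ1 hθ2 hθn' hT hN0 NL f
  rw [key]
  congr 1
  exact ordRed_kummer_rep hext hun hun' Pl p ha hu hh hf

/-- **the binder `hNR`** of `F2Asm.Asm.IsCoverDatum` (for ONE `K'`-rational Kummer function `f`). -/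
theorem nodeRel (Φ : CoverFrame p Γ F' C)
    (R : RedData K F k Ft) (hun : Unram R) {ι : Type*} (P : ι → Place k Ft)
    (as bs : ι → ZMod p)
    (R1 : ZMod p → RedData K F' k Ft) (hun1 : ∀ i, Unram (R1 i)) (hext : ∀ i, RedExt R (R1 i))
    (ϖ θ : fixedUnits Γ F') {ϖ₀ : K} (hϖ : ((ϖ : F'ˣ) : F') = algebraMap K F' ϖ₀)
    (hϖ1 : ∀ i, Φ.w₁ i ϖ = 1) (hϖ2 : ∀ i, Φ.w₂ i ϖ = 1)
    {θ₀ : F} (hθ : ((θ : F'ˣ) : F') = algebraMap F F' θ₀)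
    (T : ℤ) (N0 E : ι → ℤ) (hθ1 : ∀ i, Φ.w₁ i θ = 0) (hθ2 : ∀ i, Φ.w₂ i θ = T)
    (hθn : ∀ s, ordRed R hun (P s) θ₀ = N0 s)
    (hT : ∀ s, T = E s * N0 s) (hN0 : ∀ s, IsCoprime (p : ℤ) (N0 s))
    (NL : ∀ s j, ∀ y : fixedUnits Γ F', Φ.w₁ (j + as s) y = 0 → Φ.w₂ (j + bs s) y = 0 →
      (p : ℤ) ∣ nodeOrd (R1 (j + as s)) (hun1 _) (P s) (fixedUnits Γ F') y)
    (u : pDivUnits K F p) (f : fixedUnits Γ F') {a : K} {h : F'} (ha : a ≠ 0) (hh : h ≠ 0)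
    (hf : ((f : F'ˣ) : F') = algebraMap K F' a * algebraMap F F' ((u : Fˣ) : F) * h ^ p) :
    ∀ s j, ((Φ.w₂ (j + bs s) f - Φ.w₁ (j + as s) f : ℤ) : ZMod p) =
      ((E s : ℤ) : ZMod p) * trop R hun p P (Additive.ofMul (Kum.mk u)) s := by
  intro s j
  rw [trop_mk]
  exact nodeRel_at (Φ.w₁ (j + as s)) (Φ.w₂ (j + bs s)) (Φ.w₁_mul _) (Φ.w₂_mul _) R hun
    (R1 (j + as s)) (hun1 _) (hext _) (P s) ϖ θ hϖ (hϖ1 _) (hϖ2 _) hθ (hθ1 _) (hθ2 _) (hθn s)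
    (hT s) (hN0 s) (NL s j) ((u : Fˣ) : F) f ha (u : Fˣ).ne_zero hh hf

/-- the same for the shape `1 * u * h ^ p` of `KumDesc.Cover.exists_frame_binders`, i.e. the binder
`hNR` of `Inst.TameDatum.econst` VERBATIM (with `E s` cast from `ℤ`). -/
theorem nodeRel_one (Φ : CoverFrame p Γ F' C)
    (R : RedData K F k Ft) (hun : Unram R) {ι : Type*} (P : ι → Place k Ft)
    (as bs : ι → ZMod p)
    (R1 : ZMod p → RedData K F' k Ft) (hun1 : ∀ i, Unram (R1 i)) (hext : ∀ i, RedExt R (R1 i))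
    (ϖ θ : fixedUnits Γ F') {ϖ₀ : K} (hϖ : ((ϖ : F'ˣ) : F') = algebraMap K F' ϖ₀)
    (hϖ1 : ∀ i, Φ.w₁ i ϖ = 1) (hϖ2 : ∀ i, Φ.w₂ i ϖ = 1)
    {θ₀ : F} (hθ : ((θ : F'ˣ) : F') = algebraMap F F' θ₀)
    (T : ℤ) (N0 E : ι → ℤ) (hθ1 : ∀ i, Φ.w₁ i θ = 0) (hθ2 : ∀ i, Φ.w₂ i θ = T)
    (hθn : ∀ s, ordRed R hun (P s) θ₀ = N0 s)
    (hT : ∀ s, T = E s * N0 s) (hN0 : ∀ s, IsCoprime (p : ℤ) (N0 s))
    (NL : ∀ s j, ∀ y : fixedUnits Γ F', Φ.w₁ (j + as s) y = 0 → Φ.w₂ (j + bs s) y = 0 →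
      (p : ℤ) ∣ nodeOrd (R1 (j + as s)) (hun1 _) (P s) (fixedUnits Γ F') y)
    (u : pDivUnits K F p) :
    ∀ f : fixedUnits Γ F',
      (∃ h : F', h ≠ 0 ∧ ((f : F'ˣ) : F') = 1 * algebraMap F F' ((u : Fˣ) : F) * h ^ p) →
      ∀ s j, ((Φ.w₂ (j + bs s) f - Φ.w₁ (j + as s) f : ℤ) : ZMod p) =
        ((E s : ℤ) : ZMod p) * trop R hun p P (Additive.ofMul (Kum.mk u)) s := by
  rintro f ⟨h, hh, hf⟩
  refine nodeRel Φ R hun P as bs R1 hun1 hext ϖ θ hϖ hϖ1 hϖ2 hθ T N0 E hθ1 hθ2 hθn hT hN0 NL u f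
    (a := 1) one_ne_zero hh ?_
  rw [hf, map_one]

end Fermat.Agent.GF.KCover.Node.NodeRel

end
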