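/-
GATE-F (S44) / GF-KCOVER-INST, node side (helper84): **the node relation `hNR` from the node lemma
NL RESTRICTED TO A SUBGROUP** (correction of the quantifier of `NodeRel.nodeRel*`).

The node lemma `w₁ y = 0 → w₂ y = 0 → p ∣ n_{s,j} y` is FALSE for an arbitrary `K'`-rational unit
`y` of the cover (e.g. `y = x₁ + x₂`, the sum of the two branch equations: a unit on both branches
whose reduction has a simple zero at the node).  It holds for the `y` whose divisor is divisible by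
`p` at the HORIZONTAL primes through the node (binder `hhor` of `Upstairs.nl0` / `NL0Asm`), e.g. for
`y` in `Us := {y | ∀ P : Place K̄ F', j ∈ P → p ∣ P.ord y}` (cusps do not specialise to supersingular
points).  `Arith.node_congr` only applies NL to `f ^ T * ϖ ^ (−aT) * θ ^ (−(b−a))`, so any subgroup
`Us` containing `ϖ`, `θ` (the η-quotient: divisor supported on the cusps) and `f = a u h ^ p`
(`u ∈ pDivUnits`) does.

Same statements as `NodeRel.nodeRel_at / nodeRel / nodeRel_one` (helper42) with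
`(Us : Subgroup (fixedUnits Γ F'))`, memberships of `ϖ θ f`, and NL only on `Us`.
-/
import Fermat.Agent.GF.KCover.Node.NodeRel

set_option autoImplicit false
set_option linter.unusedSectionVars false

noncomputable section

open AlgebraicCurve

namespace Fermat.Agent.GF.KCover.Node.NodeRelSub

open Fermat.Agent.GJ.J1 Fermat.Agent.GJ.KumGroup Fermat.Agent.S24 Fermat.Agent.GF.Trop
open Fermat.Agent.GF.KCover Fermat.Agent.GF.KCover.Node.OrdRedExt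

variable {K F F' k Ft : Type*} [Field K] [Field F] [Algebra K F] [Field F'] [Algebra K F']
  [Algebra F F'] [IsScalarTower K F F'] [Field k] [Field Ft] [Algebra k Ft]
  {p : ℕ} {Γ : Type*} [Group Γ] [MulSemiringAction Γ F'] {C : Subfield F'}

/-- **the node relation at ONE node, NL on a subgroup `Us`.** -/
theorem nodeRel_at_sub (Us : Subgroup (fixedUnits Γ F')) (w1 w2 : fixedUnits Γ F' → ℤ)
    (h1 : ∀ y z, w1 (y * z) = w1 y + w1 z) (h2 : ∀ y z, w2 (y * z) = w2 y + w2 z)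
    (R : RedData K F k Ft) (hun : Unram R) (R' : RedData K F' k Ft) (hun' : Unram R')
    (hext : RedExt R R') (Pl : Place k Ft)
    (ϖ θ : fixedUnits Γ F') (hϖU : ϖ ∈ Us) (hθU : θ ∈ Us)
    {ϖ₀ : K} (hϖ : ((ϖ : F'ˣ) : F') = algebraMap K F' ϖ₀)
    (hϖ1 : w1 ϖ = 1) (hϖ2 : w2 ϖ = 1)
    {θ₀ : F} (hθ : ((θ : F'ˣ) : F') = algebraMap F F' θ₀)
    {T N0 E : ℤ} (hθ1 : w1 θ = 0) (hθ2 : w2 θ = T) (hθn : ordRed R hun Pl θ₀ = N0)
    (hT : T = E * N0) (hN0 : IsCoprime (p : ℤ) N0)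
    (NL : ∀ y : fixedUnits Γ F', y ∈ Us → w1 y = 0 → w2 y = 0 →
      (p : ℤ) ∣ nodeOrd R' hun' Pl (fixedUnits Γ F') y)
    (u : F) (f : fixedUnits Γ F') (hfU : f ∈ Us) {a : K} {h : F'} (ha : a ≠ 0) (hu : u ≠ 0)
    (hh : h ≠ 0)
    (hf : ((f : F'ˣ) : F') = algebraMap K F' a * algebraMap F F' u * h ^ p) :
    ((w2 f - w1 f : ℤ) : ZMod p) = ((E : ℤ) : ZMod p) * ((ordRed R hun Pl u : ℤ) : ZMod p) := by
  have hθn' : nodeOrd R' hun' Pl (fixedUnits Γ F') θ = N0 := by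
    unfold nodeOrd
    rw [hθ, ordRed_algebraMap_eq hext hun hun' Pl θ₀, hθn]
  have key := Arith.node_congr_zmod (p := p) (U := ↥Us)
    (fun y => w1 (y : fixedUnits Γ F')) (fun y => w2 (y : fixedUnits Γ F'))
    (fun y => nodeOrd R' hun' Pl (fixedUnits Γ F') (y : fixedUnits Γ F'))
    (fun y z => by rw [Subgroup.coe_mul, h1]) (fun y z => by rw [Subgroup.coe_mul, h2])
    (fun y z => by rw [Subgroup.coe_mul, nodeOrd_mul])
    (ϖ := ⟨ϖ, hϖU⟩) (θ := ⟨θ, hθU⟩) hϖ1 hϖ2 (nodeOrd_const R' hun' Pl _ ϖ hϖ) hθ1 hθ2 hθn' hT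
    hN0 (fun y hy1 hy2 => NL (y : fixedUnits Γ F') y.2 hy1 hy2) ⟨f, hfU⟩
  rw [key]
  congr 1
  exact ordRed_kummer_rep hext hun hun' Pl p ha hu hh hf

/-- **the binder `hNR`** (ONE `K'`-rational Kummer function `f`), NL on subgroups `Us s j`. -/
theorem nodeRel_sub (Φ : CoverFrame p Γ F' C)
    (R : RedData K F k Ft) (hun : Unram R) {ι : Type*} (P : ι → Place k Ft)
    (as bs : ι → ZMod p) (Us : ι → ZMod p → Subgroup (fixedUnits Γ F'))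
    (R1 : ZMod p → RedData K F' k Ft) (hun1 : ∀ i, Unram (R1 i)) (hext : ∀ i, RedExt R (R1 i))
    (ϖ θ : fixedUnits Γ F') (hϖU : ∀ s j, ϖ ∈ Us s j) (hθU : ∀ s j, θ ∈ Us s j)
    {ϖ₀ : K} (hϖ : ((ϖ : F'ˣ) : F') = algebraMap K F' ϖ₀)
    (hϖ1 : ∀ i, Φ.w₁ i ϖ = 1) (hϖ2 : ∀ i, Φ.w₂ i ϖ = 1)
    {θ₀ : F} (hθ : ((θ : F'ˣ) : F') = algebraMap F F' θ₀)
    (T : ℤ) (N0 E : ι → ℤ) (hθ1 : ∀ i, Φ.w₁ i θ = 0) (hθ2 : ∀ i, Φ.w₂ i θ = T)
    (hθn : ∀ s, ordRed R hun (P s) θ₀ = N0 s)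
    (hT : ∀ s, T = E s * N0 s) (hN0 : ∀ s, IsCoprime (p : ℤ) (N0 s))
    (NL : ∀ s j, ∀ y : fixedUnits Γ F', y ∈ Us s j →
      Φ.w₁ (j + as s) y = 0 → Φ.w₂ (j + bs s) y = 0 →
      (p : ℤ) ∣ nodeOrd (R1 (j + as s)) (hun1 _) (P s) (fixedUnits Γ F') y)
    (u : pDivUnits K F p) (f : fixedUnits Γ F') (hfU : ∀ s j, f ∈ Us s j) {a : K} {h : F'}
    (ha : a ≠ 0) (hh : h ≠ 0)
    (hf : ((f : F'ˣ) : F') = algebraMap K F' a * algebraMap F F' ((u : Fˣ) : F) * h ^ p) :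
    ∀ s j, ((Φ.w₂ (j + bs s) f - Φ.w₁ (j + as s) f : ℤ) : ZMod p) =
      ((E s : ℤ) : ZMod p) * trop R hun p P (Additive.ofMul (Kum.mk u)) s := by
  intro s j
  rw [trop_mk]
  exact nodeRel_at_sub (Us s j) (Φ.w₁ (j + as s)) (Φ.w₂ (j + bs s)) (Φ.w₁_mul _) (Φ.w₂_mul _)
    R hun (R1 (j + as s)) (hun1 _) (hext _) (P s) ϖ θ (hϖU s j) (hθU s j) hϖ (hϖ1 _) (hϖ2 _) hθ
    (hθ1 _) (hθ2 _) (hθn s) (hT s) (hN0 s) (NL s j) ((u : Fˣ) : F) f (hfU s j) ha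
    (u : Fˣ).ne_zero hh hf

/-- the shape `1 * u * h ^ p` of `KumDesc.Cover.exists_frame_binders` = the binder `hNR` of
`Inst.TameDatum.econst`, NL on subgroups. -/
theorem nodeRel_one_sub (Φ : CoverFrame p Γ F' C)
    (R : RedData K F k Ft) (hun : Unram R) {ι : Type*} (P : ι → Place k Ft)
    (as bs : ι → ZMod p) (Us : ι → ZMod p → Subgroup (fixedUnits Γ F'))
    (R1 : ZMod p → RedData K F' k Ft) (hun1 : ∀ i, Unram (R1 i)) (hext : ∀ i, RedExt R (R1 i))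
    (ϖ θ : fixedUnits Γ F') (hϖU : ∀ s j, ϖ ∈ Us s j) (hθU : ∀ s j, θ ∈ Us s j)
    {ϖ₀ : K} (hϖ : ((ϖ : F'ˣ) : F') = algebraMap K F' ϖ₀)
    (hϖ1 : ∀ i, Φ.w₁ i ϖ = 1) (hϖ2 : ∀ i, Φ.w₂ i ϖ = 1)
    {θ₀ : F} (hθ : ((θ : F'ˣ) : F') = algebraMap F F' θ₀)
    (T : ℤ) (N0 E : ι → ℤ) (hθ1 : ∀ i, Φ.w₁ i θ = 0) (hθ2 : ∀ i, Φ.w₂ i θ = T)
    (hθn : ∀ s, ordRed R hun (P s) θ₀ = N0 s)
    (hT : ∀ s, T = E s * N0 s) (hN0 : ∀ s, IsCoprime (p : ℤ) (N0 s))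
    (NL : ∀ s j, ∀ y : fixedUnits Γ F', y ∈ Us s j →
      Φ.w₁ (j + as s) y = 0 → Φ.w₂ (j + bs s) y = 0 →
      (p : ℤ) ∣ nodeOrd (R1 (j + as s)) (hun1 _) (P s) (fixedUnits Γ F') y)
    (u : pDivUnits K F p)
    (hUf : ∀ f : fixedUnits Γ F',
      (∃ h : F', h ≠ 0 ∧ ((f : F'ˣ) : F') = 1 * algebraMap F F' ((u : Fˣ) : F) * h ^ p) →
      ∀ s j, f ∈ Us s j) :
    ∀ f : fixedUnits Γ F',
      (∃ h : F', h ≠ 0 ∧ ((f : F'ˣ) : F') = 1 * algebraMap F F' ((u : Fˣ) : F) * h ^ p) →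
      ∀ s j, ((Φ.w₂ (j + bs s) f - Φ.w₁ (j + as s) f : ℤ) : ZMod p) =
        ((E s : ℤ) : ZMod p) * trop R hun p P (Additive.ofMul (Kum.mk u)) s := by
  intro f hfex
  obtain ⟨h, hh, hf⟩ := hfex
  refine nodeRel_sub Φ R hun P as bs Us R1 hun1 hext ϖ θ hϖU hθU hϖ hϖ1 hϖ2 hθ T N0 E hθ1 hθ2
    hθn hT hN0 NL u f (hUf f ⟨h, hh, hf⟩) (a := 1) one_ne_zero hh ?_
  rw [hf, map_one]

end Fermat.Agent.GF.KCover.Node.NodeRelSub

end
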