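/-
GATE-F (S44) / GF-KCOVER-INST, node side, leaf (U6) (helper57; statement of helper84, board
6584 [E] / 6607): **the subgroup `Us` of `NodeRelSub.nodeRel_one_sub`.**

Generic in `(Kb, F', J, p)`:

* `regDiv Kb J p : Subgroup F'ˣ` := the units `y` with `p ∣ ord_P y` at every place `P` of `F'/Kb`
  at which `J` is regular (`J ∈ P.toValuationSubring`);
* memberships: constants (`const_mem_regDiv`), units of order `0` where `J` is regular
  (`mem_regDiv_of_ord_eq_zero`), `p`-th powers, units with divisor divisible by `p` everywhere,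
  `f = a · u · h ^ p` (`mem_regDiv_of_eq_mul_pow`, and the literal `1 * u * h ^ p` shape);
* stability under a ring automorphism permuting the places where `J` is regular
  (`map_mem_regDiv`, hypothesis form) and under a `SemilinearAut Kb F'` fixing `J`
  (`smul_mem_regDiv`, unconditional, from the prelude action on places);
* pull-back along `F ⊆ F'` algebraic (`J = algebraMap j`): images of `pDivUnits Kb F p`
  (`algebraMap_mem_regDiv_of_pDiv`) and of functions of order `0` where `j` is regular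
  (`algebraMap_mem_regDiv_of_ord_eq_zero`, e.g. the η-quotient: cuspidal divisor);
* `Us Kb Γ J p : Subgroup (fixedUnits Γ F')` := the preimage, with the three binders of
  `nodeRel_one_sub` for the CONSTANT family `fun _ _ => Us Kb Γ J p`:
  `const_mem_Us` (= `hϖU`), `algebraMap_mem_Us_of_ord_eq_zero` (= `hθU`), `hUf_Us` (= `hUf`
  VERBATIM), and `dvd_ord_of_mem_Us` (what `hhor` consumes);
* `nodeRel_one_Us` : `NodeRelSub.nodeRel_one_sub` with this `Us` plugged in (compile-checked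
  seam): the only new binder is `hθ₀ : ∀ Q, j ∈ Q → Q.ord θ₀ = 0`.
-/
import Mathlib
import Fermat.Agent.GF.KCover.Node.NodeRelSub
import Fermat.Agent.GJ.J1.DescPlace
import Fermat.Agent.S24.PlaceBasic
import Fermat.Prelude.Def_AlgebraicCurve_BaseChangeGalois

set_option autoImplicit false
set_option linter.unusedSectionVars false

open AlgebraicCurve

namespace Fermat.Agent.GF.KCover.Node.UsGroup

open Fermat.Agent.GF.KCover Fermat.Agent.GJ.KumGroup Fermat.Agent.S24
open Fermat.Agent.GJ.J1.Desc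

section Generic

variable (Kb : Type*) {F' : Type*} [Field Kb] [Field F'] [Algebra Kb F']

/-- the units of `F'` whose divisor is divisible by `p` at every place where `J` is regular. -/
def regDiv (J : F') (p : ℕ) : Subgroup F'ˣ where
  carrier := {y | ∀ P : Place Kb F', J ∈ P.toValuationSubring → (p : ℤ) ∣ P.ord (y : F')}
  one_mem' := fun P _ => by
    rw [Units.val_one, Place.ord_one]
    exact dvd_zero _
  mul_mem' := by
    intro a b ha hb P hP
    rw [Units.val_mul, Place.ord_mul _ a.ne_zero b.ne_zero]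
    exact dvd_add (ha P hP) (hb P hP)
  inv_mem' := by
    intro a ha P hP
    rw [Units.val_inv_eq_inv_val, Place.ord_inv]
    exact (dvd_neg).2 (ha P hP)

variable {Kb} {J : F'} {p : ℕ}

theorem mem_regDiv {y : F'ˣ} : y ∈ regDiv Kb J p ↔
    ∀ P : Place Kb F', J ∈ P.toValuationSubring → (p : ℤ) ∣ P.ord (y : F') := Iff.rfl

/-- nonzero constants. -/
theorem const_mem_regDiv {y : F'ˣ} {c : Kb} (hy : (y : F') = algebraMap Kb F' c) :
    y ∈ regDiv Kb J p := by
  intro P _
  have hc : c ≠ 0 := by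
    rintro rfl
    rw [map_zero] at hy
    exact y.ne_zero hy
  rw [hy, PlaceB.ord_algebraMap P hc]
  exact dvd_zero _

/-- units of order `0` at every place where `J` is regular. -/
theorem mem_regDiv_of_ord_eq_zero {y : F'ˣ}
    (hy : ∀ P : Place Kb F', J ∈ P.toValuationSubring → P.ord (y : F') = 0) :
    y ∈ regDiv Kb J p := by
  intro P hP
  rw [hy P hP]
  exact dvd_zero _

/-- units whose divisor is divisible by `p` everywhere. -/
theorem mem_regDiv_of_forall_dvd {y : F'ˣ} (hy : ∀ P : Place Kb F', (p : ℤ) ∣ P.ord (y : F')) :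
    y ∈ regDiv Kb J p := fun P _ => hy P

/-- `p`-th powers. -/
theorem pow_mem_regDiv (z : F'ˣ) : z ^ p ∈ regDiv Kb J p := by
  intro P _
  rw [Units.val_pow_eq_pow_val, ← zpow_natCast, Place.ord_zpow]
  exact dvd_mul_right _ _

/-- `p`-th powers, field form. -/
theorem dvd_ord_pow (P : Place Kb F') (h : F') : (p : ℤ) ∣ P.ord (h ^ p) := by
  rw [← zpow_natCast, Place.ord_zpow]
  exact dvd_mul_right _ _

/-- `f = a · u · h ^ p` with `a` a constant and `p ∣ ord u` where `J` is regular. -/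
theorem mem_regDiv_of_eq_mul_pow {f : F'ˣ} {a : Kb} {u h : F'}
    (hf : (f : F') = algebraMap Kb F' a * u * h ^ p)
    (hu : ∀ P : Place Kb F', J ∈ P.toValuationSubring → (p : ℤ) ∣ P.ord u) :
    f ∈ regDiv Kb J p := by
  intro P hP
  have hf0 : algebraMap Kb F' a * u * h ^ p ≠ 0 := hf ▸ f.ne_zero
  have ha0 : algebraMap Kb F' a ≠ 0 := left_ne_zero_of_mul (left_ne_zero_of_mul hf0)
  have hu0 : u ≠ 0 := right_ne_zero_of_mul (left_ne_zero_of_mul hf0)
  have hh0 : h ^ p ≠ 0 := right_ne_zero_of_mul hf0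
  have ha : a ≠ 0 := by
    rintro rfl
    exact ha0 (map_zero _)
  rw [hf, P.ord_mul (mul_ne_zero ha0 hu0) hh0, P.ord_mul ha0 hu0, PlaceB.ord_algebraMap P ha,
    zero_add]
  exact dvd_add (hu P hP) (dvd_ord_pow P h)

/-- the literal shape `1 * u * h ^ p` of `KumDesc.Cover.exists_frame_binders`. -/
theorem mem_regDiv_of_eq_one_mul_pow {f : F'ˣ} {u h : F'}
    (hf : (f : F') = 1 * u * h ^ p)
    (hu : ∀ P : Place Kb F', J ∈ P.toValuationSubring → (p : ℤ) ∣ P.ord u) :
    f ∈ regDiv Kb J p := by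
  refine mem_regDiv_of_eq_mul_pow (a := 1) (h := h) ?_ hu
  rw [hf, map_one]

/-- **stability, hypothesis form**: a ring automorphism `σ` of `F'` such that every place `P`
where `J` is regular has a companion `P'` where `J` is regular with `ord_P (σ y) = ord_{P'} y`. -/
theorem map_mem_regDiv (σ : F' ≃+* F')
    (hσ : ∀ P : Place Kb F', J ∈ P.toValuationSubring →
      ∃ P' : Place Kb F', J ∈ P'.toValuationSubring ∧ ∀ y : F', P.ord (σ y) = P'.ord y)
    {y : F'ˣ} (hy : y ∈ regDiv Kb J p) :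
    Units.map (σ : F' →* F') y ∈ regDiv Kb J p := by
  intro P hP
  obtain ⟨P', hP', hord⟩ := hσ P hP
  have : ((Units.map (σ : F' →* F') y : F'ˣ) : F') = σ (y : F') := rfl
  rw [this, hord]
  exact hy P' hP'

/-- **stability under a semilinear automorphism fixing `J`** (prelude action on places). -/
theorem smul_mem_regDiv (g : SemilinearAut Kb F') (hgJ : g • J = J) {y : F'ˣ}
    (hy : y ∈ regDiv Kb J p) :
    Units.map ((SemilinearAut.toRingAut g : F' ≃+* F') : F' →* F') y ∈ regDiv Kb J p := by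
  apply map_mem_regDiv (SemilinearAut.toRingAut g) _ hy
  intro P hP
  refine ⟨g⁻¹ • P, ?_, fun z => ?_⟩
  · rw [SemilinearAut.smul_toValuationSubring,
      ValuationSubring.mem_pointwise_smul_iff_inv_smul_mem, inv_inv, hgJ]
    exact hP
  · have h := SemilinearAut.ord_smul g (g⁻¹ • P) z
    rw [smul_inv_smul] at h
    exact h

/-- what `hhor` consumes. -/
theorem dvd_ord_of_mem_regDiv {y : F'ˣ} (hy : y ∈ regDiv Kb J p) (P : Place Kb F')
    (hP : J ∈ P.toValuationSubring) : (p : ℤ) ∣ P.ord (y : F') := hy P hP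

end Generic

section Tower

variable {Kb F F' : Type*} [Field Kb] [Field F] [Algebra Kb F] [Field F'] [Algebra Kb F']
  [Algebra F F'] [IsScalarTower Kb F F'] [Algebra.IsAlgebraic F F'] {p : ℕ}

/-- orders of functions of `F` at a place of `F'` are multiples of the orders at the place
below. -/
theorem dvd_ord_algebraMap (P' : Place Kb F') {u : F} {n : ℤ} (hu : n ∣ (below F P').ord u) :
    n ∣ P'.ord (algebraMap F F' u) := by
  obtain ⟨e, -, he⟩ := exists_ord_algebraMap (F := F) P'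
  rw [he u]
  exact Dvd.dvd.mul_left hu e

/-- the image of `pDivUnits Kb F p` has divisor divisible by `p` on `F'`. -/
theorem dvd_ord_algebraMap_of_pDiv (u : pDivUnits Kb F p) (P' : Place Kb F') :
    (p : ℤ) ∣ P'.ord (algebraMap F F' ((u : Fˣ) : F)) :=
  dvd_ord_algebraMap P' (u.2 (below F P'))

/-- functions of `F` of order `0` wherever `j` is regular have order `0` on `F'` wherever
`algebraMap j` is regular. -/
theorem ord_algebraMap_eq_zero {j θ₀ : F}
    (hθ₀ : ∀ P : Place Kb F, j ∈ P.toValuationSubring → P.ord θ₀ = 0) (P' : Place Kb F')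
    (hP' : algebraMap F F' j ∈ P'.toValuationSubring) : P'.ord (algebraMap F F' θ₀) = 0 := by
  obtain ⟨e, -, he⟩ := exists_ord_algebraMap (F := F) P'
  have hj : j ∈ (below F P').toValuationSubring := by
    rw [below_toValuationSubring]
    exact hP'
  rw [he θ₀, hθ₀ (below F P') hj, mul_zero]

end Tower

section Us

variable (Kb : Type*) {F' : Type*} [Field Kb] [Field F'] [Algebra Kb F']
  (Γ : Type*) [Group Γ] [MulSemiringAction Γ F']

/-- **the subgroup `Us` of `nodeRel_one_sub`** (one subgroup for all `(s, j)`). -/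
def Us (J : F') (p : ℕ) : Subgroup (fixedUnits Γ F') :=
  (regDiv Kb J p).subgroupOf (fixedUnits Γ F')

variable {Kb Γ} {J : F'} {p : ℕ}

theorem mem_Us {y : fixedUnits Γ F'} : y ∈ Us Kb Γ J p ↔
    ∀ P : Place Kb F', J ∈ P.toValuationSubring → (p : ℤ) ∣ P.ord ((y : F'ˣ) : F') :=
  Iff.rfl

/-- what `hhor` consumes. -/
theorem dvd_ord_of_mem_Us {y : fixedUnits Γ F'} (hy : y ∈ Us Kb Γ J p) (P : Place Kb F')
    (hP : J ∈ P.toValuationSubring) : (p : ℤ) ∣ P.ord ((y : F'ˣ) : F') := hy P hP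

/-- `= hϖU` of `nodeRel_one_sub`. -/
theorem const_mem_Us {ϖ : fixedUnits Γ F'} {ϖ₀ : Kb}
    (hϖ : ((ϖ : F'ˣ) : F') = algebraMap Kb F' ϖ₀) : ϖ ∈ Us Kb Γ J p :=
  Subgroup.mem_subgroupOf.mpr (const_mem_regDiv hϖ)

theorem mem_Us_of_ord_eq_zero {θ : fixedUnits Γ F'}
    (hθ : ∀ P : Place Kb F', J ∈ P.toValuationSubring → P.ord ((θ : F'ˣ) : F') = 0) :
    θ ∈ Us Kb Γ J p :=
  Subgroup.mem_subgroupOf.mpr (mem_regDiv_of_ord_eq_zero hθ)

/-- stability of `Us`, hypothesis form: `y' = σ y` both `Γ`-fixed. -/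
theorem mem_Us_of_eq_map (σ : F' ≃+* F')
    (hσ : ∀ P : Place Kb F', J ∈ P.toValuationSubring →
      ∃ P' : Place Kb F', J ∈ P'.toValuationSubring ∧ ∀ y : F', P.ord (σ y) = P'.ord y)
    {y y' : fixedUnits Γ F'} (hy : y ∈ Us Kb Γ J p)
    (hyy' : ((y' : F'ˣ) : F') = σ ((y : F'ˣ) : F')) : y' ∈ Us Kb Γ J p := by
  have h := map_mem_regDiv σ hσ (Subgroup.mem_subgroupOf.mp hy)
  intro P hP
  show (p : ℤ) ∣ P.ord ((y' : F'ˣ) : F')
  rw [hyy']
  exact h P hP

/-- stability of `Us` under a semilinear automorphism fixing `J`. -/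
theorem mem_Us_of_eq_smul (g : SemilinearAut Kb F') (hgJ : g • J = J)
    {y y' : fixedUnits Γ F'} (hy : y ∈ Us Kb Γ J p)
    (hyy' : ((y' : F'ˣ) : F') = g • ((y : F'ˣ) : F')) : y' ∈ Us Kb Γ J p := by
  have h := smul_mem_regDiv g hgJ (Subgroup.mem_subgroupOf.mp hy)
  intro P hP
  show (p : ℤ) ∣ P.ord ((y' : F'ˣ) : F')
  rw [hyy']
  exact h P hP

section Tower

variable {F : Type*} [Field F] [Algebra Kb F] [Algebra F F'] [IsScalarTower Kb F F']
  [Algebra.IsAlgebraic F F']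

/-- `= hθU` of `nodeRel_one_sub`: `θ = algebraMap θ₀`, `θ₀` of order `0` wherever `j` is
regular (the η-quotient: divisor supported on the cusps), `J = algebraMap j`. -/
theorem algebraMap_mem_Us_of_ord_eq_zero {θ : fixedUnits Γ F'} {j θ₀ : F}
    (hθ : ((θ : F'ˣ) : F') = algebraMap F F' θ₀)
    (hθ₀ : ∀ P : Place Kb F, j ∈ P.toValuationSubring → P.ord θ₀ = 0) :
    θ ∈ Us Kb Γ (algebraMap F F' j) p :=
  mem_Us_of_ord_eq_zero fun P' hP' => by rw [hθ]; exact ord_algebraMap_eq_zero hθ₀ P' hP'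

/-- `= hUf` of `nodeRel_one_sub` VERBATIM for the constant family `fun _ _ => Us Kb Γ J p`. -/
theorem hUf_Us {ι : Type*} (J : F') (u : pDivUnits Kb F p) :
    ∀ f : fixedUnits Γ F',
      (∃ h : F', h ≠ 0 ∧ ((f : F'ˣ) : F') = 1 * algebraMap F F' ((u : Fˣ) : F) * h ^ p) →
      ∀ (_ : ι) (_ : ZMod p), f ∈ Us Kb Γ J p := by
  rintro f ⟨h, -, hf⟩ _ _
  exact Subgroup.mem_subgroupOf.mpr
    (mem_regDiv_of_eq_one_mul_pow hf fun P' _ => dvd_ord_algebraMap_of_pDiv u P')

end Tower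

end Us

section Plug

open Fermat.Agent.GJ.J1 Fermat.Agent.GF.Trop Fermat.Agent.GF.KCover.Node.OrdRedExt

variable {K F F' k Ft : Type*} [Field K] [Field F] [Algebra K F] [Field F'] [Algebra K F']
  [Algebra F F'] [IsScalarTower K F F'] [Algebra.IsAlgebraic F F'] [Field k] [Field Ft]
  [Algebra k Ft] {p : ℕ} {Γ : Type*} [Group Γ] [MulSemiringAction Γ F'] {C : Subfield F'}

/-- **`NodeRelSub.nodeRel_one_sub` with `Us := Us K Γ (algebraMap j) p` plugged in**: the binders
`hϖU hθU hUf` are discharged; the new binder is `hθ₀` (`θ₀` has order `0` wherever `j` is regular: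
the η-quotient has a cuspidal divisor), and `NL` is only asked on `Us`. -/
theorem nodeRel_one_Us (Φ : CoverFrame p Γ F' C)
    (R : RedData K F k Ft) (hun : Unram R) {ι : Type*} (P : ι → Place k Ft)
    (as bs : ι → ZMod p) (j : F)
    (R1 : ZMod p → RedData K F' k Ft) (hun1 : ∀ i, Unram (R1 i)) (hext : ∀ i, RedExt R (R1 i))
    (ϖ θ : fixedUnits Γ F')
    {ϖ₀ : K} (hϖ : ((ϖ : F'ˣ) : F') = algebraMap K F' ϖ₀)
    (hϖ1 : ∀ i, Φ.w₁ i ϖ = 1) (hϖ2 : ∀ i, Φ.w₂ i ϖ = 1)
    {θ₀ : F} (hθ : ((θ : F'ˣ) : F') = algebraMap F F' θ₀)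
    (hθ₀ : ∀ Q : Place K F, j ∈ Q.toValuationSubring → Q.ord θ₀ = 0)
    (T : ℤ) (N0 E : ι → ℤ) (hθ1 : ∀ i, Φ.w₁ i θ = 0) (hθ2 : ∀ i, Φ.w₂ i θ = T)
    (hθn : ∀ s, ordRed R hun (P s) θ₀ = N0 s)
    (hT : ∀ s, T = E s * N0 s) (hN0 : ∀ s, IsCoprime (p : ℤ) (N0 s))
    (NL : ∀ s i, ∀ y : fixedUnits Γ F', y ∈ Us K Γ (algebraMap F F' j) p →
      Φ.w₁ (i + as s) y = 0 → Φ.w₂ (i + bs s) y = 0 →
      (p : ℤ) ∣ nodeOrd (R1 (i + as s)) (hun1 _) (P s) (fixedUnits Γ F') y)
    (u : pDivUnits K F p) :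
    ∀ f : fixedUnits Γ F',
      (∃ h : F', h ≠ 0 ∧ ((f : F'ˣ) : F') = 1 * algebraMap F F' ((u : Fˣ) : F) * h ^ p) →
      ∀ s i, ((Φ.w₂ (i + bs s) f - Φ.w₁ (i + as s) f : ℤ) : ZMod p) =
        ((E s : ℤ) : ZMod p) * trop R hun p P (Additive.ofMul (Kum.mk u)) s :=
  NodeRelSub.nodeRel_one_sub Φ R hun P as bs (fun _ _ => Us K Γ (algebraMap F F' j) p) R1 hun1
    hext ϖ θ (fun _ _ => const_mem_Us hϖ)
    (fun _ _ => algebraMap_mem_Us_of_ord_eq_zero hθ hθ₀) hϖ hϖ1 hϖ2 hθ T N0 E hθ1 hθ2 hθn hT hN0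
    NL u (hUf_Us (algebraMap F F' j) u)

end Plug

end Fermat.Agent.GF.KCover.Node.UsGroup
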