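/-
GATE-F (S40) / GF-KCOVER-INST, node side (helper84), file 5: **the node lemma NL (I3b)**, abstract
form of `GB/A/A4/ChartStep.dvd_ord_of_ufd` (no modular curve).

`B` a noetherian integrally closed domain with fraction field `F` (upstairs: `B := S_𝔫` of
`EtaleUFD.lean`, or a chart ring of the cover), `𝔫` a prime with `B_𝔫` factorial; `W ⊇ B` the
valuation ring of ONE branch through `𝔫` (`B ∩ 𝔪_W ⊆ 𝔫`), `ρ : W → F̄` its residue map,
`v : F̄ → ℤ` the order at the point `𝔫` of the branch (additive on nonzero elements, `0` on the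
image of `B ∖ 𝔫`).  If `u ∈ Fˣ` is a `W`-unit and, at every height-one prime `𝔭 ≤ 𝔫`, a unit times
an `m`-th power (the other branch: `u` a unit; horizontal primes: `m ∣ ord`), then

  `m ∣ v (ρ u)`.
-/
import Fermat.Agent.GL.Frame.KummerDatum

set_option autoImplicit false
set_option linter.unusedSectionVars false

namespace Fermat.Agent.GF.KCover.Node.NodeLemma

open Fermat.Agent.GL.KrullHeightOne Fermat.Agent.GL.KrullFrame Fermat.Agent.GL.Frame.HeightOne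
  Fermat.Agent.GL.Frame.Kummer

section VS

variable {F : Type*} [Field F] (W : ValuationSubring F)

theorem val_eq_one_of_mem {x : F} (h0 : x ≠ 0) (hx : x ∈ W) (hx' : x⁻¹ ∈ W) :
    W.valuation x = 1 := by
  have h1 : W.valuation x ≤ 1 := (W.valuation_le_one_iff x).2 hx
  have h2 : W.valuation x⁻¹ ≤ 1 := (W.valuation_le_one_iff _).2 hx'
  rw [map_inv₀] at h2
  have hv0 : W.valuation x ≠ 0 := (Valuation.ne_zero_iff _).2 h0
  have h3 : 1 ≤ W.valuation x := (inv_le_one₀ (zero_lt_iff.2 hv0)).1 h2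
  exact le_antisymm h1 h3

theorem mem_of_val_eq_one {x : F} (hx : W.valuation x = 1) : x ∈ W ∧ x⁻¹ ∈ W := by
  refine ⟨(W.valuation_le_one_iff x).1 hx.le, (W.valuation_le_one_iff _).1 ?_⟩
  rw [map_inv₀, hx, inv_one]

theorem not_mem_nonunits {x : F} (h0 : x ≠ 0) (hx : x ∈ W) (hx' : x⁻¹ ∈ W) :
    x ∉ W.nonunits := by
  intro h
  have h1 : W.valuation x < 1 := (ValuationSubring.mem_nonunits_iff W).1 h
  rw [val_eq_one_of_mem W h0 hx hx'] at h1
  exact lt_irrefl _ h1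

theorem inv_mem_of_not_mem {x : F} (hx : x ∈ W) (hx' : x ∉ W.nonunits) : x⁻¹ ∈ W := by
  have h1 : ¬ W.valuation x < 1 := fun h => hx' ((ValuationSubring.mem_nonunits_iff W).2 h)
  have h2 : W.valuation x ≤ 1 := (W.valuation_le_one_iff x).2 hx
  have h3 : W.valuation x = 1 := le_antisymm h2 (not_lt.1 h1)
  exact (mem_of_val_eq_one W h3).2

theorem unit_of_pow_mul_eq {g a c : F} {m : ℕ} (hm : m ≠ 0) (ha0 : a ≠ 0) (hc0 : c ≠ 0)
    (ha : a ∈ W) (ha' : a⁻¹ ∈ W)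
    (hc : c ∈ W) (hc' : c⁻¹ ∈ W) (h : g ^ m * a = c) : g ∈ W ∧ g⁻¹ ∈ W := by
  apply mem_of_val_eq_one
  have h1 := congrArg W.valuation h
  rw [map_mul, map_pow, val_eq_one_of_mem W ha0 ha ha',
    val_eq_one_of_mem W hc0 hc hc', mul_one] at h1
  rcases lt_trichotomy (W.valuation g) 1 with h2 | h2 | h2
  · exact absurd h1 (ne_of_lt (pow_lt_one₀ zero_le h2 hm))
  · exact h2
  · exact absurd h1 (ne_of_gt (one_lt_pow₀ h2 hm))

end VS

section Ord

variable {Fb : Type*} [Field Fb] (v : Fb → ℤ)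
  (hv : ∀ a b : Fb, a ≠ 0 → b ≠ 0 → v (a * b) = v a + v b)

include hv in
theorem ord_one : v 1 = 0 := by
  have h := hv 1 1 one_ne_zero one_ne_zero
  rw [mul_one] at h
  linarith

include hv in
theorem ord_pow {a : Fb} (ha : a ≠ 0) (k : ℕ) : v (a ^ k) = k * v a := by
  induction k with
  | zero => rw [pow_zero, ord_one v hv]; simp
  | succ k ih => rw [pow_succ, hv _ _ (pow_ne_zero k ha) ha, ih]; push_cast; ring

end Ord

variable {B F : Type*} [CommRing B] [IsDomain B] [Field F] [Algebra B F] [IsFractionRing B F]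
  [IsNoetherianRing B] [IsIntegrallyClosed B]

/-- **(I3b) the node lemma.** -/
theorem dvd_ord_red_of_ufd (𝔫 : Ideal B) [𝔫.IsPrime]
    [UniqueFactorizationMonoid (Localization.AtPrime 𝔫)]
    (W : ValuationSubring F) (hBW : ∀ b : B, algebraMap B F b ∈ W)
    (hW𝔫 : ∀ b : B, algebraMap B F b ∈ W.nonunits → b ∈ 𝔫)
    {Fb : Type*} [Field Fb] (ρ : W →+* Fb) (hρ : ∀ x : W, ρ x = 0 ↔ (x : F) ∈ W.nonunits)
    (v : Fb → ℤ) (hv : ∀ a b : Fb, a ≠ 0 → b ≠ 0 → v (a * b) = v a + v b)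
    (hvB : ∀ b : B, b ∉ 𝔫 → v (ρ ⟨algebraMap B F b, hBW b⟩) = 0)
    (m : ℕ) (u : F) (hu0 : u ≠ 0) (huW : u ∈ W) (huW' : u⁻¹ ∈ W)
    (hord : ∀ 𝔭 : HtOne B, 𝔭.1 ≤ 𝔫 → ∃ z : F, z ≠ 0 ∧ UnitAt 𝔭 (u * z ^ m)) :
    (m : ℤ) ∣ v (ρ ⟨u, huW⟩) := by
  obtain ⟨g₁, c, s, hc, hs, hgcs⟩ := exists_kummer_datum_of_ufd 𝔫 (Localization.AtPrime 𝔫) m
    u hu0 hord
  have hs' : (algebraMap B F s)⁻¹ ∈ W :=
    inv_mem_of_not_mem W (hBW s) fun hh => hs (hW𝔫 s hh)
  have hc' : (algebraMap B F c)⁻¹ ∈ W :=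
    inv_mem_of_not_mem W (hBW c) fun hh => hc (hW𝔫 c hh)
  have hs0 : algebraMap B F s ≠ 0 := fun h0 =>
    hs (((map_eq_zero_iff _ (IsFractionRing.injective B F)).1 h0) ▸ Ideal.zero_mem _)
  have hc0 : algebraMap B F c ≠ 0 := fun h0 =>
    hc (((map_eq_zero_iff _ (IsFractionRing.injective B F)).1 h0) ▸ Ideal.zero_mem _)
  obtain ⟨g, hgcs', hg0, hgW, hgW'⟩ : ∃ g : F, g ^ m * u * algebraMap B F s = algebraMap B F c ∧
      g ≠ 0 ∧ g ∈ W ∧ g⁻¹ ∈ W := by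
    by_cases hm : m = 0
    · refine ⟨1, ?_, one_ne_zero, W.one_mem, by rw [inv_one]; exact W.one_mem⟩
      have := hgcs
      rw [hm, pow_zero] at this
      rw [hm, pow_zero]
      exact this
    · have hg0 : g₁ ≠ 0 := by
        intro h0
        have := hgcs
        rw [h0, zero_pow hm, zero_mul, zero_mul] at this
        exact hc0 this.symm
      refine ⟨g₁, hgcs, hg0, ?_⟩
      refine unit_of_pow_mul_eq W hm (a := u * algebraMap B F s) (c := algebraMap B F c)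
        (mul_ne_zero hu0 hs0) hc0 (W.mul_mem _ _ huW (hBW s)) ?_ (hBW c) hc' ?_
      · rw [mul_inv]
        exact W.mul_mem _ _ huW' hs'
      · rw [← mul_assoc]
        exact hgcs
  have hprod : (⟨g, hgW⟩ : W) ^ m * ⟨u, huW⟩ * ⟨algebraMap B F s, hBW s⟩ =
      ⟨algebraMap B F c, hBW c⟩ := Subtype.ext hgcs'
  have hρeq := congrArg ρ hprod
  rw [map_mul, map_mul, map_pow] at hρeq
  have hub : ρ ⟨u, huW⟩ ≠ 0 := by
    rw [Ne, hρ]
    exact not_mem_nonunits W hu0 huW huW'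
  have hgb : ρ ⟨g, hgW⟩ ≠ 0 := by
    rw [Ne, hρ]
    exact not_mem_nonunits W hg0 hgW hgW'
  have hsb : ρ ⟨algebraMap B F s, hBW s⟩ ≠ 0 := by
    rw [Ne, hρ]
    exact not_mem_nonunits W hs0 (hBW s) hs'
  have h1 := congrArg v hρeq
  rw [hv _ _ (mul_ne_zero (pow_ne_zero m hgb) hub) hsb, hv _ _ (pow_ne_zero m hgb) hub,
    ord_pow v hv hgb, hvB s hs, hvB c hc] at h1
  exact ⟨-v (ρ ⟨g, hgW⟩), by linarith⟩

end Fermat.Agent.GF.KCover.Node.NodeLemma
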