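/-
GATE-F (S40/S44) / GF-KCOVER-INST, leaf (L-c) (helper42, third seat of helper84): **the node lemma
`NodeLemma.dvd_ord_red_of_ufd` in the `ordRed` spelling** (dictionary `W, ρ, v` ↔ `R', Pl`).

`F0` = the `K0`-model of the cover (`Frac B`, `B` the node ring upstairs, e.g. `locSub` of
`O_s[θ]` at `𝔫`), `ι' : F0 →+* F'` its embedding into the cover over `ℚ̄`, `R'` the reduction datum
of ONE branch through the node upstairs (`OrdRedExt.comapRed` of the completion along `emb k`),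
`Pl` the place of the residue function field at the node.  With

  `W := R'.Rw.comap ι'`,  `ρ := R'.red ∘ ι'`,  `Fb := Ft`,  `v := Pl.ord`

the binders `hρ`, `hv` of the node lemma are automatic and its conclusion reads
`m ∣ ordRed R' hun' Pl (ι' u)`, i.e. `m ∣ n_{s,j} (ι' u)` for the additive node order
`OrdRedExt.nodeOrd`.  What remains modular: `hBW` (`B` is integral for the branch), `hW𝔫` (the centre
of the branch on `B` lies in `𝔫`), `hvB` (`Pl` is centred at `𝔫`), `hord` (the other branch and the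
horizontal primes; `HorizGen.hord_horizontal_gen`).
-/
import Fermat.Agent.GF.KCover.Node.NodeLemma
import Fermat.Agent.GF.KCover.Node.OrdRedExt

set_option autoImplicit false
set_option linter.unusedSectionVars false

noncomputable section

open AlgebraicCurve

namespace Fermat.Agent.GF.KCover.Node.NLOrdRed

open Fermat.Agent.GJ.J1 Fermat.Agent.S24 Fermat.Agent.GF.Trop
open Fermat.Agent.GL.KrullHeightOne Fermat.Agent.GL.KrullFrame Fermat.Agent.GL.Frame.HeightOne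
  Fermat.Agent.GL.Frame.Kummer
open Fermat.Agent.GF.KCover.Node.NodeLemma

variable {K F' k Ft : Type*} [Field K] [Field F'] [Algebra K F'] [Field k] [Field Ft] [Algebra k Ft]

section Hom

variable {F0 : Type*} [Field F0] (ι' : F0 →+* F') (R' : RedData K F' k Ft)

/-- the residue map of the branch on the `K0`-model -/
def resHom : ↥(R'.Rw.comap ι') →+* Ft :=
  R'.red.comp (ι'.restrict (R'.Rw.comap ι') R'.Rw fun _ hx => hx)

theorem resHom_apply (x : F0) (hx : x ∈ R'.Rw.comap ι') :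
    resHom ι' R' ⟨x, hx⟩ = R'.red ⟨ι' x, hx⟩ := rfl

theorem resHom_eq_zero_iff (x : ↥(R'.Rw.comap ι')) :
    resHom ι' R' x = 0 ↔ (x : F0) ∈ (R'.Rw.comap ι').nonunits := by
  obtain ⟨x, hx⟩ := x
  rw [resHom_apply, R'.red_eq_zero_iff, ← ValuationSubring.coe_mem_nonunits_iff,
    ValuationSubring.mem_nonunits_iff_or, ValuationSubring.mem_nonunits_iff_or,
    ValuationSubring.mem_comap]
  show ι' x = 0 ∨ (ι' x)⁻¹ ∉ R'.Rw ↔ x = 0 ∨ ι' x⁻¹ ∉ R'.Rw
  rw [map_eq_zero_iff ι' ι'.injective, map_inv₀]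

end Hom

variable {B F0 : Type*} [CommRing B] [IsDomain B] [Field F0] [Algebra B F0] [IsFractionRing B F0]
  [IsNoetherianRing B] [IsIntegrallyClosed B]

/-- **the node lemma in the `ordRed` spelling.** -/
theorem dvd_ordRed_of_ufd (𝔫 : Ideal B) [𝔫.IsPrime]
    [UniqueFactorizationMonoid (Localization.AtPrime 𝔫)]
    (ι' : F0 →+* F') (R' : RedData K F' k Ft) (hun' : Unram R') (Pl : Place k Ft)
    (hBW : ∀ b : B, ι' (algebraMap B F0 b) ∈ R'.Rw)
    (hW𝔫 : ∀ b : B, R'.red ⟨ι' (algebraMap B F0 b), hBW b⟩ = 0 → b ∈ 𝔫)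
    (hvB : ∀ b : B, b ∉ 𝔫 → Pl.ord (R'.red ⟨ι' (algebraMap B F0 b), hBW b⟩) = 0)
    (m : ℕ) (u : F0) (hu0 : u ≠ 0) (huW : IsU R' (ι' u))
    (hord : ∀ 𝔭 : HtOne B, 𝔭.1 ≤ 𝔫 → ∃ z : F0, z ≠ 0 ∧ UnitAt 𝔭 (u * z ^ m)) :
    (m : ℤ) ∣ ordRed R' hun' Pl (ι' u) := by
  have huW1 : u ∈ R'.Rw.comap ι' := huW.2.1
  have huW2 : u⁻¹ ∈ R'.Rw.comap ι' := by
    show ι' u⁻¹ ∈ R'.Rw
    rw [map_inv₀]
    exact huW.2.2
  have key := dvd_ord_red_of_ufd (B := B) (F := F0) 𝔫 (R'.Rw.comap ι') hBW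
    (fun b hb => hW𝔫 b ((resHom_eq_zero_iff ι' R' ⟨algebraMap B F0 b, hBW b⟩).2 hb))
    (resHom ι' R') (resHom_eq_zero_iff ι' R') (fun y => Pl.ord y)
    (fun a b ha hb => Place.ord_mul Pl ha hb) (fun b hb => hvB b hb) m u hu0 huW1 huW2 hord
  rw [ordRed_of_isU hun' Pl huW]
  exact key

/-- the same with the conclusion on the additive node order `nodeOrd` of a subgroup of units. -/
theorem dvd_nodeOrd_of_ufd (𝔫 : Ideal B) [𝔫.IsPrime]
    [UniqueFactorizationMonoid (Localization.AtPrime 𝔫)]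
    (ι' : F0 →+* F') (R' : RedData K F' k Ft) (hun' : Unram R') (Pl : Place k Ft)
    (hBW : ∀ b : B, ι' (algebraMap B F0 b) ∈ R'.Rw)
    (hW𝔫 : ∀ b : B, R'.red ⟨ι' (algebraMap B F0 b), hBW b⟩ = 0 → b ∈ 𝔫)
    (hvB : ∀ b : B, b ∉ 𝔫 → Pl.ord (R'.red ⟨ι' (algebraMap B F0 b), hBW b⟩) = 0)
    (m : ℕ) (S : Subgroup F'ˣ) (y : S) (u : F0) (hyu : ((y : F'ˣ) : F') = ι' u)
    (huW : IsU R' (ι' u))
    (hord : ∀ 𝔭 : HtOne B, 𝔭.1 ≤ 𝔫 → ∃ z : F0, z ≠ 0 ∧ UnitAt 𝔭 (u * z ^ m)) :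
    (m : ℤ) ∣ OrdRedExt.nodeOrd R' hun' Pl S y := by
  have hu0 : u ≠ 0 := by
    rintro rfl
    rw [map_zero] at hyu
    exact (y : F'ˣ).ne_zero hyu
  unfold OrdRedExt.nodeOrd
  rw [hyu]
  exact dvd_ordRed_of_ufd 𝔫 ι' R' hun' Pl hBW hW𝔫 hvB m u hu0 huW hord

end Fermat.Agent.GF.KCover.Node.NLOrdRed

end
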