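/-
GATE-F (S44) / GF-KCOVER-INST, node side (helper84), leaf (L-c) ABSTRACT, file 1:
**the node lemma NL0 at a node of the cover, from a factorial local ring with TWO branches.**

`O` = the local ring of the `K₀`-model of the cover at a node `(s, j)` (a noetherian local UFD:
`EtaleUFD.ufd_of_split` / `ASEtale`), `K = Frac O` the `K₀`-function field of the cover,
`W₁ W₂ ⊇ O` the valuation rings of the two branches `(1, j + a_s)`, `(2, j + b_s)`,
`x y ∈ O` local equations of the branches (`O ∩ 𝔪(W₂) = x O`, `O ∩ 𝔪(W₁) = y O`: the binder `hker`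
of `EtaleUFD`), `p0 ∣ x y` the residue characteristic (every VERTICAL height-one prime is a branch).

* `eq_V1_of_branch` : a height-one prime of `O` containing `x` has `V1 = W₂`;
* `nl0_local` : `u ∈ Kˣ` a unit of `W₁` and `W₂` with `hord` at the HORIZONTAL height-one primes
  (`p0 ∉ 𝔭`; helper85 `HorizGen.hord_horizontal_gen` with `B := O`) ⟹ `m ∣ v (ρ u)`, `ρ` the residue
  map of `W₁`, `v` the order at the node on the branch.
* `ufd_locSub`, `dvd_of_mem_nonunits_locSub` : plumbing from `S`, `𝔫` (the shape of `EtaleUFD`) to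
  `O := locSub K 𝔫 ⊆ K` (`GL/Alg/KrullHeightOne`).
-/
import Fermat.Agent.GF.KCover.Node.NodeLemma
import Fermat.Agent.GL.Frame.HeightOneFrame

set_option autoImplicit false
set_option linter.unusedSectionVars false

noncomputable section

namespace Fermat.Agent.GF.KCover.Node.Upstairs

open IsLocalRing
open Fermat.Agent.GL.KrullHeightOne Fermat.Agent.GL.KrullFrame Fermat.Agent.GL.Frame.HeightOne
  Fermat.Agent.GL.Frame.Kummer

section Local

variable {O K : Type*} [CommRing O] [IsDomain O] [IsLocalRing O] [IsNoetherianRing O]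
  [UniqueFactorizationMonoid O] [Field K] [Algebra O K] [IsFractionRing O K]

/-- a height-one prime of `O` containing the local equation `x` of the branch `W` has `V1 = W`. -/
theorem eq_V1_of_branch (W : ValuationSubring K) (hOW : ∀ a : O, algebraMap O K a ∈ W)
    (hW : W ≠ ⊤) {x : O} (hker : ∀ a : O, algebraMap O K a ∈ W.nonunits → x ∣ a)
    (𝔭 : HtOne O) (hx𝔭 : x ∈ 𝔭.1) : W = V1 K 𝔭 := by
  refine eq_V1_of_le 𝔭 W ?_ hW
  intro f hf
  obtain ⟨s, hs, a, ha⟩ := (mem_V1_iff 𝔭).1 hf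
  have hsW : algebraMap O K s ∉ W.nonunits := fun h => by
    obtain ⟨b, rfl⟩ := hker s h
    exact hs (𝔭.1.mul_mem_right _ hx𝔭)
  have hs0 : algebraMap O K s ≠ 0 := fun h0 =>
    hs (((map_eq_zero_iff _ (IsFractionRing.injective O K)).1 h0) ▸ 𝔭.1.zero_mem)
  have hsinv : (algebraMap O K s)⁻¹ ∈ W := NodeLemma.inv_mem_of_not_mem W (hOW s) hsW
  have hfe : f = algebraMap O K a * (algebraMap O K s)⁻¹ := by
    have ha' : algebraMap O K a = algebraMap O K s * f := by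
      rw [ha, Algebra.smul_def]
    rw [ha']
    field_simp
  rw [hfe]
  exact W.mul_mem _ _ (hOW a) hsinv

/-- **NL0 at a node of the cover.** -/
theorem nl0_local (W₁ W₂ : ValuationSubring K)
    (hOW₁ : ∀ a : O, algebraMap O K a ∈ W₁) (hOW₂ : ∀ a : O, algebraMap O K a ∈ W₂)
    (hW₁ : W₁ ≠ ⊤) (hW₂ : W₂ ≠ ⊤) {x y p0 : O}
    (hker₁ : ∀ a : O, algebraMap O K a ∈ W₁.nonunits → y ∣ a)
    (hker₂ : ∀ a : O, algebraMap O K a ∈ W₂.nonunits → x ∣ a)
    (hxy : p0 ∣ x * y)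
    {Fb : Type*} [Field Fb] (ρ : W₁ →+* Fb) (hρ : ∀ w : W₁, ρ w = 0 ↔ (w : K) ∈ W₁.nonunits)
    (v : Fb → ℤ) (hv : ∀ a b : Fb, a ≠ 0 → b ≠ 0 → v (a * b) = v a + v b)
    (hvO : ∀ a : O, IsUnit a → v (ρ ⟨algebraMap O K a, hOW₁ a⟩) = 0)
    (m : ℕ) (u : K) (hu0 : u ≠ 0) (hu1 : u ∈ W₁) (hu1' : u⁻¹ ∈ W₁) (hu2 : u ∈ W₂)
    (hu2' : u⁻¹ ∈ W₂)
    (hhor : ∀ 𝔭 : HtOne O, p0 ∉ 𝔭.1 → ∃ z : K, z ≠ 0 ∧ UnitAt 𝔭 (u * z ^ m)) :
    (m : ℤ) ∣ v (ρ ⟨u, hu1⟩) := by
  -- `O` is its own localisation at the maximal ideal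
  have hloc : IsLocalization.AtPrime O (maximalIdeal O) :=
    IsLocalization.of_le_isUnit fun s hs => by
      have : s ∉ maximalIdeal O := hs
      rw [mem_maximalIdeal, mem_nonunits_iff, not_not] at this
      exact this
  have hufd : UniqueFactorizationMonoid (Localization.AtPrime (maximalIdeal O)) :=
    (IsLocalization.algEquiv (maximalIdeal O).primeCompl O
      (Localization.AtPrime (maximalIdeal O))).toMulEquiv.uniqueFactorizationMonoid inferInstance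
  refine NodeLemma.dvd_ord_red_of_ufd (maximalIdeal O) W₁ hOW₁ ?_ ρ hρ v hv ?_ m u hu0 hu1 hu1' ?_
  · intro b hb
    by_contra hbm
    rw [mem_maximalIdeal, mem_nonunits_iff, not_not] at hbm
    obtain ⟨c, hc⟩ := hbm.exists_right_inv
    have h1 : algebraMap O K b * algebraMap O K c = 1 := by rw [← map_mul, hc, map_one]
    have hb0 : algebraMap O K b ≠ 0 := left_ne_zero_of_mul_eq_one h1
    have h2 : (algebraMap O K b)⁻¹ = algebraMap O K c := (eq_inv_of_mul_eq_one_right h1).symm ▸ rfl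
    exact NodeLemma.not_mem_nonunits W₁ hb0 (hOW₁ b) (h2 ▸ hOW₁ c) hb
  · intro b hb
    refine hvO b ?_
    rw [mem_maximalIdeal, mem_nonunits_iff, not_not] at hb
    exact hb
  · intro 𝔭 _
    by_cases hp : p0 ∈ 𝔭.1
    · have hxy𝔭 : x * y ∈ 𝔭.1 := by
        obtain ⟨c, hc⟩ := hxy
        rw [hc]
        exact 𝔭.1.mul_mem_right _ hp
      rcases 𝔭.2.1.mem_or_mem hxy𝔭 with h | h
      · have hW := eq_V1_of_branch W₂ hOW₂ hW₂ hker₂ 𝔭 h
        refine hord_of_unitAt m ?_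
        unfold UnitAt
        rw [← hW]
        exact ⟨hu2, hu2'⟩
      · have hW := eq_V1_of_branch W₁ hOW₁ hW₁ hker₁ 𝔭 h
        refine hord_of_unitAt m ?_
        unfold UnitAt
        rw [← hW]
        exact ⟨hu1, hu1'⟩
    · exact hhor 𝔭 hp

end Local

/-! ### From `(S, 𝔫)` (the shape of `EtaleUFD`) to the local ring `locSub K 𝔫 ⊆ K` -/

section LocSub

variable {S K : Type*} [CommRing S] [IsDomain S] [IsNoetherianRing S] [Field K] [Algebra S K]
  [IsFractionRing S K] (𝔫 : Ideal S) [𝔫.IsPrime]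

theorem isLocalRing_locSub : IsLocalRing (locSub K 𝔫) :=
  IsLocalization.AtPrime.isLocalRing (locSub K 𝔫) 𝔫

theorem isNoetherianRing_locSub : IsNoetherianRing (locSub K 𝔫) :=
  IsLocalization.isNoetherianRing 𝔫.primeCompl (locSub K 𝔫) inferInstance

theorem ufd_locSub [UniqueFactorizationMonoid (Localization.AtPrime 𝔫)] :
    UniqueFactorizationMonoid (locSub K 𝔫) :=
  (IsLocalization.algEquiv 𝔫.primeCompl (Localization.AtPrime 𝔫)
    (locSub K 𝔫)).toMulEquiv.uniqueFactorizationMonoid inferInstance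

/-- every element of `locSub K 𝔫` is `a / s` with `s ∉ 𝔫`. -/
theorem exists_eq_div_of_mem_locSub (o : locSub K 𝔫) :
    ∃ a s : S, s ∉ 𝔫 ∧ algebraMap S K s * (o : K) = algebraMap S K a := by
  obtain ⟨s, hs, a, ha⟩ := (mem_locSub_iff (F := K) 𝔫).1 o.2
  refine ⟨a, s, hs, ?_⟩
  rw [ha, Algebra.smul_def]

variable {𝔫}

/-- `locSub K 𝔫 ⊆ W` as soon as `S ⊆ W` and the centre of `W` on `S` is inside `𝔫`. -/
theorem locSub_le (W : ValuationSubring K) (hSW : ∀ a : S, algebraMap S K a ∈ W)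
    (hc : ∀ a : S, algebraMap S K a ∈ W.nonunits → a ∈ 𝔫) (o : locSub K 𝔫) : (o : K) ∈ W := by
  obtain ⟨a, s, hs, h⟩ := exists_eq_div_of_mem_locSub 𝔫 o
  have hs0 : algebraMap S K s ≠ 0 := algebraMap_ne_zero_of_not_mem (F := K) 𝔫 hs
  have hsinv : (algebraMap S K s)⁻¹ ∈ W :=
    NodeLemma.inv_mem_of_not_mem W (hSW s) fun hh => hs (hc s hh)
  have : (o : K) = algebraMap S K a * (algebraMap S K s)⁻¹ := by
    rw [← h]
    field_simp
  rw [this]
  exact W.mul_mem _ _ (hSW a) hsinv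

/-- the binder `hker` of `EtaleUFD` passes to the local ring: `O ∩ 𝔪(W) = x O`. -/
theorem dvd_of_mem_nonunits_locSub (W : ValuationSubring K)
    (hSW : ∀ a : S, algebraMap S K a ∈ W) {x : S}
    (hker : ∀ a : S, algebraMap S K a ∈ W.nonunits → ∃ s : S, s ∉ 𝔫 ∧ x ∣ s * a)
    (o : locSub K 𝔫) (ho : (o : K) ∈ W.nonunits) :
    algebraMap S (locSub K 𝔫) x ∣ o := by
  obtain ⟨a, s, hs, h⟩ := exists_eq_div_of_mem_locSub 𝔫 o
  have hsW : algebraMap S K s ∈ W := hSW s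
  have haW : algebraMap S K a ∈ W.nonunits := by
    rw [← h, W.mem_nonunits_iff, map_mul]
    have h1 : W.valuation (algebraMap S K s) ≤ 1 := (W.valuation_le_one_iff _).2 hsW
    have h2 : W.valuation (o : K) < 1 := (W.mem_nonunits_iff).1 ho
    calc W.valuation (algebraMap S K s) * W.valuation (o : K)
        ≤ 1 * W.valuation (o : K) := mul_le_mul' h1 le_rfl
      _ = W.valuation (o : K) := one_mul _
      _ < 1 := h2
  obtain ⟨t, ht, b, hb⟩ := hker a haW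
  -- `s t o = x b` in `K`, and `s t` is a unit of `locSub K 𝔫`
  have hu : IsUnit (algebraMap S (locSub K 𝔫) (s * t)) := by
    have hst : s * t ∉ 𝔫 := fun hh =>
      ((inferInstance : 𝔫.IsPrime).mem_or_mem hh).elim hs ht
    exact IsLocalization.map_units (locSub K 𝔫) (⟨s * t, hst⟩ : 𝔫.primeCompl)
  rw [← hu.dvd_mul_right]
  refine ⟨algebraMap S (locSub K 𝔫) b, ?_⟩
  apply Subtype.ext
  have hb' := congrArg (algebraMap S K) hb
  rw [map_mul, map_mul] at hb'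
  show (o : K) * algebraMap S K (s * t) = algebraMap S K x * algebraMap S K b
  rw [← hb', ← h, map_mul]
  ring

/-- a unit of `locSub K 𝔫` is `a / s` with `a, s ∉ 𝔫`. -/
theorem exists_eq_div_of_isUnit {o : locSub K 𝔫} (ho : IsUnit o) :
    ∃ a s : S, a ∉ 𝔫 ∧ s ∉ 𝔫 ∧ algebraMap S K s * (o : K) = algebraMap S K a := by
  obtain ⟨a, s, hs, h⟩ := exists_eq_div_of_mem_locSub 𝔫 o
  refine ⟨a, s, fun ha => ?_, hs, h⟩
  have hsu : IsUnit (algebraMap S (locSub K 𝔫) s) :=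
    IsLocalization.map_units (locSub K 𝔫) (⟨s, hs⟩ : 𝔫.primeCompl)
  have hau : IsUnit (algebraMap S (locSub K 𝔫) a) := by
    have e : algebraMap S (locSub K 𝔫) a = algebraMap S (locSub K 𝔫) s * o := Subtype.ext h.symm
    rw [e]
    exact hsu.mul ho
  exact (IsLocalization.AtPrime.isUnit_to_map_iff (locSub K 𝔫) 𝔫 a).1 hau ha

/-- `V1 K 𝔭` is a discrete valuation ring (light-import copy of helper11's statement). -/
theorem isDiscreteValuationRing_V1_aux {B F : Type*} [CommRing B] [IsDomain B] [Field F]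
    [Algebra B F] [IsFractionRing B F] [IsNoetherianRing B] [IsIntegrallyClosed B] (𝔭 : HtOne B) :
    IsDiscreteValuationRing ↥(V1 F 𝔭) := by
  have := isDiscreteValuationRing_locSub (F := F) 𝔭.1 𝔭.2.2
  let e : ↥(locSub F 𝔭.1) ≃+* ↥(V1 F 𝔭) :=
    { toFun := fun y => ⟨y.1, y.2⟩
      invFun := fun y => ⟨y.1, y.2⟩
      left_inv := fun _ => rfl
      right_inv := fun _ => rfl
      map_mul' := fun _ _ => rfl
      map_add' := fun _ _ => rfl }
  exact IsDiscreteValuationRing.RingEquivClass.isDiscreteValuationRing e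

set_option maxHeartbeats 1000000 in
/-- **NL0 at a node of the cover, from `(S, 𝔫)`**: `S` a noetherian domain with fraction field `K`
(e.g. `S = O_s[θ]`), `𝔫` a prime with `S_𝔫` factorial (`EtaleUFD.ufd_of_split`), the two branch
valuation rings `W₁ W₂ ⊇ S` centred inside `𝔫` with local equations `y`, `x` (binders `hker`),
`p0 ∣ x y`.  If `u` is a unit of `W₁` and of `W₂` and, at every discrete valuation ring `V ⊇ S` of
`K` centred inside `𝔫` in which `p0` is invertible (horizontal), a unit times an `m`-th power, then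
`m ∣ v (ρ u)`. -/
theorem nl0 [UniqueFactorizationMonoid (Localization.AtPrime 𝔫)] (W₁ W₂ : ValuationSubring K)
    (hSW₁ : ∀ a : S, algebraMap S K a ∈ W₁) (hSW₂ : ∀ a : S, algebraMap S K a ∈ W₂)
    (hc₁ : ∀ a : S, algebraMap S K a ∈ W₁.nonunits → a ∈ 𝔫)
    (hc₂ : ∀ a : S, algebraMap S K a ∈ W₂.nonunits → a ∈ 𝔫)
    (hW₁ : W₁ ≠ ⊤) (hW₂ : W₂ ≠ ⊤) {x y p0 : S}
    (hker₁ : ∀ a : S, algebraMap S K a ∈ W₁.nonunits → ∃ s : S, s ∉ 𝔫 ∧ y ∣ s * a)
    (hker₂ : ∀ a : S, algebraMap S K a ∈ W₂.nonunits → ∃ s : S, s ∉ 𝔫 ∧ x ∣ s * a)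
    (hxy : p0 ∣ x * y)
    {Fb : Type*} [Field Fb] (ρ : W₁ →+* Fb) (hρ : ∀ w : W₁, ρ w = 0 ↔ (w : K) ∈ W₁.nonunits)
    (v : Fb → ℤ) (hv : ∀ a b : Fb, a ≠ 0 → b ≠ 0 → v (a * b) = v a + v b)
    (hv𝔫 : ∀ a : S, a ∉ 𝔫 → v (ρ ⟨algebraMap S K a, hSW₁ a⟩) = 0)
    (m : ℕ) (u : K) (hu0 : u ≠ 0) (hu1 : u ∈ W₁) (hu1' : u⁻¹ ∈ W₁) (hu2 : u ∈ W₂)
    (hu2' : u⁻¹ ∈ W₂)
    (hhor : ∀ V : ValuationSubring K, IsDiscreteValuationRing V →
      (∀ a : S, algebraMap S K a ∈ V) → (∀ a : S, algebraMap S K a ∈ V.nonunits → a ∈ 𝔫) →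
      (algebraMap S K p0)⁻¹ ∈ V → ∃ z : K, z ≠ 0 ∧ u * z ^ m ∈ V ∧ (u * z ^ m)⁻¹ ∈ V) :
    (m : ℤ) ∣ v (ρ ⟨u, hu1⟩) := by
  have hL : IsLocalRing (locSub K 𝔫) := isLocalRing_locSub 𝔫
  have hN : IsNoetherianRing (locSub K 𝔫) := isNoetherianRing_locSub 𝔫
  have hU : UniqueFactorizationMonoid (locSub K 𝔫) := ufd_locSub 𝔫
  have hO₁ : ∀ o : locSub K 𝔫, algebraMap (locSub K 𝔫) K o ∈ W₁ := locSub_le W₁ hSW₁ hc₁
  have hO₂ : ∀ o : locSub K 𝔫, algebraMap (locSub K 𝔫) K o ∈ W₂ := locSub_le W₂ hSW₂ hc₂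
  have hunit_iff : ∀ a : S, IsUnit (algebraMap S (locSub K 𝔫) a) ↔ a ∉ 𝔫 := fun a =>
    IsLocalization.AtPrime.isUnit_to_map_iff (locSub K 𝔫) 𝔫 a
  refine nl0_local (O := locSub K 𝔫) W₁ W₂ hO₁ hO₂ hW₁ hW₂
    (x := algebraMap S (locSub K 𝔫) x) (y := algebraMap S (locSub K 𝔫) y)
    (p0 := algebraMap S (locSub K 𝔫) p0)
    (dvd_of_mem_nonunits_locSub W₁ hSW₁ hker₁) (dvd_of_mem_nonunits_locSub W₂ hSW₂ hker₂)
    (by rw [← map_mul]; exact map_dvd _ hxy) ρ hρ v hv ?_ m u hu0 hu1 hu1' hu2 hu2' ?_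
  · -- units of the local ring have order zero
    intro o ho
    obtain ⟨a, s, ha, hs, h⟩ := exists_eq_div_of_isUnit ho
    have hsnu : algebraMap S K s ∉ W₁.nonunits := fun hh => hs (hc₁ s hh)
    have hanu : algebraMap S K a ∉ W₁.nonunits := fun hh => ha (hc₁ a hh)
    have hρs : ρ ⟨algebraMap S K s, hSW₁ s⟩ ≠ 0 := by rw [Ne, hρ]; exact hsnu
    have hρa : ρ ⟨algebraMap S K a, hSW₁ a⟩ ≠ 0 := by rw [Ne, hρ]; exact hanu
    have hprod : (⟨algebraMap S K s, hSW₁ s⟩ : W₁) * ⟨algebraMap (locSub K 𝔫) K o, hO₁ o⟩ =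
        ⟨algebraMap S K a, hSW₁ a⟩ := Subtype.ext h
    have hρeq := congrArg ρ hprod
    rw [map_mul] at hρeq
    have hρo : ρ ⟨algebraMap (locSub K 𝔫) K o, hO₁ o⟩ ≠ 0 := by
      intro h0
      rw [h0, mul_zero] at hρeq
      exact hρa hρeq.symm
    have h1 := congrArg v hρeq
    rw [hv _ _ hρs hρo, hv𝔫 s hs, hv𝔫 a ha] at h1
    linarith
  · -- horizontal height-one primes
    intro 𝔭 hp
    have hdvr := isDiscreteValuationRing_V1_aux (F := K) 𝔭
    have hmax : 𝔭.1 ≤ maximalIdeal (locSub K 𝔫) := IsLocalRing.le_maximalIdeal 𝔭.2.1.ne_top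
    obtain ⟨z, hz0, hz1, hz2⟩ := hhor (V1 K 𝔭) hdvr
      (fun a => algebraMap_mem_V1 𝔭 (algebraMap S (locSub K 𝔫) a))
      (fun a ha => by
        have h1 : algebraMap S (locSub K 𝔫) a ∈ 𝔭.1 :=
          (algebraMap_mem_nonunits_V1_iff 𝔭 _).1 ha
        have h2 : ¬ IsUnit (algebraMap S (locSub K 𝔫) a) := (mem_maximalIdeal _).1 (hmax h1)
        by_contra h3
        exact h2 ((hunit_iff a).2 h3))
      (inv_algebraMap_mem_V1 𝔭 hp)
    exact ⟨z, hz0, hz1, hz2⟩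

end LocSub

end Fermat.Agent.GF.KCover.Node.Upstairs
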