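/-
GATE-F (S40/S44) / GF-KCOVER-INST, leaf (L-c) (helper42, third seat of helper84; answer to 6432):
**`Upstairs.nl0` (NL0 at a node of the cover from `(S, 𝔫)` and the TWO branches) in the `ordRed`
spelling.**

`K0` = the `K₀`-model of the cover (`Frac S`, `S = O_s[θ]`), `ι' : K0 →+* F'` its embedding into the
cover over `ℚ̄`, `R₁ R₂` the reduction data of the two branches `(1, j + a_s)`, `(2, j + b_s)`
through the node (`OrdRedExt.comapRed` of the completions along `emb`), `Pl` the place of the first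
residue function field at the node.  With

  `W_i := R_i.Rw.comap ι'`,  `ρ := R₁.red ∘ ι'`,  `Fb := Ft`,  `v := Pl.ord`

the binders `hρ`, `hv` of `Upstairs.nl0` are automatic, the membership binders are stated through
`R_i.red (ι' a) = 0`, and the conclusion reads `m ∣ ordRed R₁ hun₁ Pl (ι' u)`
(`= nodeOrd R₁ hun₁ Pl S y` for `y = ι' u`): NL0 in the spelling `NodeRel.nodeRel_one` and
`Field/Act.nl_of_fixedTame` consume.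
-/
import Fermat.Agent.GF.KCover.Node.Upstairs
import Fermat.Agent.GF.KCover.Node.NLOrdRed

set_option autoImplicit false
set_option linter.unusedSectionVars false

noncomputable section

open AlgebraicCurve

namespace Fermat.Agent.GF.KCover.Node.NL0OrdRed

open Fermat.Agent.GJ.J1 Fermat.Agent.S24 Fermat.Agent.GF.Trop
open Fermat.Agent.GF.KCover.Node.NLOrdRed

variable {K F' k Ft Ft₂ : Type*} [Field K] [Field F'] [Algebra K F'] [Field k] [Field Ft]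
  [Algebra k Ft] [Field Ft₂] [Algebra k Ft₂]

variable {S K0 : Type*} [CommRing S] [IsDomain S] [IsNoetherianRing S] [Field K0] [Algebra S K0]
  [IsFractionRing S K0]

theorem comap_ne_top (ι' : K0 →+* F') (R' : RedData K F' k Ft) (hne : ∃ t : K0, ι' t ∉ R'.Rw) :
    R'.Rw.comap ι' ≠ ⊤ := by
  obtain ⟨t, ht⟩ := hne
  intro h
  apply ht
  have : t ∈ R'.Rw.comap ι' := by
    rw [h]
    exact ValuationSubring.mem_top t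
  exact this

theorem mem_nonunits_comap_iff (ι' : K0 →+* F') (R' : RedData K F' k Ft) (t : K0)
    (ht : ι' t ∈ R'.Rw) : t ∈ (R'.Rw.comap ι').nonunits ↔ R'.red ⟨ι' t, ht⟩ = 0 :=
  (resHom_eq_zero_iff ι' R' ⟨t, ht⟩).symm

/-- **NL0 at a node of the cover in the `ordRed` spelling.** -/
theorem nl0_ordRed (𝔫 : Ideal S) [𝔫.IsPrime] [UniqueFactorizationMonoid (Localization.AtPrime 𝔫)]
    (ι' : K0 →+* F') (R₁ : RedData K F' k Ft) (hun₁ : Unram R₁) (R₂ : RedData K F' k Ft₂)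
    (Pl : Place k Ft)
    (hSW₁ : ∀ a : S, ι' (algebraMap S K0 a) ∈ R₁.Rw)
    (hSW₂ : ∀ a : S, ι' (algebraMap S K0 a) ∈ R₂.Rw)
    (hc₁ : ∀ a : S, R₁.red ⟨ι' (algebraMap S K0 a), hSW₁ a⟩ = 0 → a ∈ 𝔫)
    (hc₂ : ∀ a : S, R₂.red ⟨ι' (algebraMap S K0 a), hSW₂ a⟩ = 0 → a ∈ 𝔫)
    (hne₁ : ∃ t : K0, ι' t ∉ R₁.Rw) (hne₂ : ∃ t : K0, ι' t ∉ R₂.Rw) {x y p0 : S}
    (hker₁ : ∀ a : S, R₁.red ⟨ι' (algebraMap S K0 a), hSW₁ a⟩ = 0 → ∃ s : S, s ∉ 𝔫 ∧ y ∣ s * a)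
    (hker₂ : ∀ a : S, R₂.red ⟨ι' (algebraMap S K0 a), hSW₂ a⟩ = 0 → ∃ s : S, s ∉ 𝔫 ∧ x ∣ s * a)
    (hxy : p0 ∣ x * y)
    (hv𝔫 : ∀ a : S, a ∉ 𝔫 → Pl.ord (R₁.red ⟨ι' (algebraMap S K0 a), hSW₁ a⟩) = 0)
    (m : ℕ) (u : K0) (hu0 : u ≠ 0) (hu1 : IsU R₁ (ι' u)) (hu2 : IsU R₂ (ι' u))
    (hhor : ∀ V : ValuationSubring K0, IsDiscreteValuationRing V →
      (∀ a : S, algebraMap S K0 a ∈ V) → (∀ a : S, algebraMap S K0 a ∈ V.nonunits → a ∈ 𝔫) →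
      (algebraMap S K0 p0)⁻¹ ∈ V → ∃ z : K0, z ≠ 0 ∧ u * z ^ m ∈ V ∧ (u * z ^ m)⁻¹ ∈ V) :
    (m : ℤ) ∣ ordRed R₁ hun₁ Pl (ι' u) := by
  have hu1' : u⁻¹ ∈ R₁.Rw.comap ι' := by
    show ι' u⁻¹ ∈ R₁.Rw
    rw [map_inv₀]
    exact hu1.2.2
  have hu2' : u⁻¹ ∈ R₂.Rw.comap ι' := by
    show ι' u⁻¹ ∈ R₂.Rw
    rw [map_inv₀]
    exact hu2.2.2
  have key := Upstairs.nl0 (S := S) (K := K0) (𝔫 := 𝔫) (R₁.Rw.comap ι') (R₂.Rw.comap ι') hSW₁ hSW₂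
    (fun a ha => hc₁ a ((mem_nonunits_comap_iff ι' R₁ _ (hSW₁ a)).1 ha))
    (fun a ha => hc₂ a ((mem_nonunits_comap_iff ι' R₂ _ (hSW₂ a)).1 ha))
    (comap_ne_top ι' R₁ hne₁) (comap_ne_top ι' R₂ hne₂)
    (fun a ha => hker₁ a ((mem_nonunits_comap_iff ι' R₁ _ (hSW₁ a)).1 ha))
    (fun a ha => hker₂ a ((mem_nonunits_comap_iff ι' R₂ _ (hSW₂ a)).1 ha))
    hxy (resHom ι' R₁) (resHom_eq_zero_iff ι' R₁) (fun z => Pl.ord z)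
    (fun a b ha hb => Place.ord_mul Pl ha hb) (fun a ha => hv𝔫 a ha) m u hu0 hu1.2.1 hu1'
    hu2.2.1 hu2' hhor
  rw [ordRed_of_isU hun₁ Pl hu1]
  exact key

/-- the same with the conclusion on the additive node order `nodeOrd` of a subgroup of units. -/
theorem nl0_nodeOrd (𝔫 : Ideal S) [𝔫.IsPrime] [UniqueFactorizationMonoid (Localization.AtPrime 𝔫)]
    (ι' : K0 →+* F') (R₁ : RedData K F' k Ft) (hun₁ : Unram R₁) (R₂ : RedData K F' k Ft₂)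
    (Pl : Place k Ft)
    (hSW₁ : ∀ a : S, ι' (algebraMap S K0 a) ∈ R₁.Rw)
    (hSW₂ : ∀ a : S, ι' (algebraMap S K0 a) ∈ R₂.Rw)
    (hc₁ : ∀ a : S, R₁.red ⟨ι' (algebraMap S K0 a), hSW₁ a⟩ = 0 → a ∈ 𝔫)
    (hc₂ : ∀ a : S, R₂.red ⟨ι' (algebraMap S K0 a), hSW₂ a⟩ = 0 → a ∈ 𝔫)
    (hne₁ : ∃ t : K0, ι' t ∉ R₁.Rw) (hne₂ : ∃ t : K0, ι' t ∉ R₂.Rw) {x y p0 : S}
    (hker₁ : ∀ a : S, R₁.red ⟨ι' (algebraMap S K0 a), hSW₁ a⟩ = 0 → ∃ s : S, s ∉ 𝔫 ∧ y ∣ s * a)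
    (hker₂ : ∀ a : S, R₂.red ⟨ι' (algebraMap S K0 a), hSW₂ a⟩ = 0 → ∃ s : S, s ∉ 𝔫 ∧ x ∣ s * a)
    (hxy : p0 ∣ x * y)
    (hv𝔫 : ∀ a : S, a ∉ 𝔫 → Pl.ord (R₁.red ⟨ι' (algebraMap S K0 a), hSW₁ a⟩) = 0)
    (m : ℕ) (U : Subgroup F'ˣ) (y' : U) (u : K0) (hyu : ((y' : F'ˣ) : F') = ι' u)
    (hu1 : IsU R₁ (ι' u)) (hu2 : IsU R₂ (ι' u))
    (hhor : ∀ V : ValuationSubring K0, IsDiscreteValuationRing V →
      (∀ a : S, algebraMap S K0 a ∈ V) → (∀ a : S, algebraMap S K0 a ∈ V.nonunits → a ∈ 𝔫) →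
      (algebraMap S K0 p0)⁻¹ ∈ V → ∃ z : K0, z ≠ 0 ∧ u * z ^ m ∈ V ∧ (u * z ^ m)⁻¹ ∈ V) :
    (m : ℤ) ∣ OrdRedExt.nodeOrd R₁ hun₁ Pl U y' := by
  have hu0 : u ≠ 0 := by
    rintro rfl
    rw [map_zero] at hyu
    exact (y' : F'ˣ).ne_zero hyu
  unfold OrdRedExt.nodeOrd
  rw [hyu]
  exact nl0_ordRed 𝔫 ι' R₁ hun₁ R₂ Pl hSW₁ hSW₂ hc₁ hc₂ hne₁ hne₂ hker₁ hker₂ hxy hv𝔫 m u hu0
    hu1 hu2 hhor

end Fermat.Agent.GF.KCover.Node.NL0OrdRed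

end
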