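/-
GATE-F (S44) / GF-KCOVER-INST, node side (helper84), leaf (L-c), file 3: **the node lemma NL on a
subgroup `Us`, in the `ordRed` / `nodeOrd` spelling, from the residue-map form of NL0 and the tame
norm** — the ONE theorem the integrator calls per node `(s, j)`; its conclusion is the binder `NL`
of `NodeRelSub.nodeRel_one_sub` at `(s, j)` VERBATIM.

* `dvd_prod_of_coeff` : the binder `hsplit` of `NL0Asm` from a polynomial `h` with `h(θ) = 0` and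
  `h ≡ ∏ k, (X − α k)` coefficientwise modulo `x` (`MinpolyCongr*` output);
* `nl0_residue_ordRed` : `NL0Asm.nl0_of_residue` with `W_i := R_i.Rw.comap ι'`,
  `ρ := R₁.red ∘ ι'`, `v := Pl.ord` (the dictionary of helper42's `NL0OrdRed`);
* `nl_of_fixed_iter` : the tame norm (I2) for ONE endomorphism `a` of the group with `a^[d] = id`
  (no group action instance needed);
* `nl_on_subgroup` : the composition.
-/
import Fermat.Agent.GF.KCover.Node.NL0Asm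
import Fermat.Agent.GF.KCover.Node.NL0OrdRed

set_option autoImplicit false
set_option linter.unusedSectionVars false
set_option linter.unusedVariables false

noncomputable section

open AlgebraicCurve

namespace Fermat.Agent.GF.KCover.Node.NL0Plug

open Polynomial IsLocalRing
open Fermat.Agent.GJ.J1 Fermat.Agent.S24 Fermat.Agent.GF.Trop
open Fermat.Agent.GF.KCover.Node.NLOrdRed

/-! ### `hsplit` from a coefficientwise congruence -/

section Split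

variable {R S : Type*} [CommRing R] [CommRing S] [Algebra R S] {ι : Type*} [Fintype ι]

/-- **the binder `hsplit`**: `h(θ) = 0` and `h ≡ ∏ k, (X − α k) mod x` coefficientwise give
`∏ k, (θ − α k) ∈ x S`. -/
theorem dvd_prod_of_coeff {θ : S} {h : R[X]} (hroot : aeval θ h = 0) (x : R) (α : ι → R)
    (hcong : ∀ n, x ∣ (h - ∏ k, (X - C (α k))).coeff n) :
    algebraMap R S x ∣ ∏ k, (θ - algebraMap R S (α k)) := by
  have hdvd : C x ∣ h - ∏ k, (X - C (α k)) := (C_dvd_iff_dvd_coeff _ _).2 hcong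
  obtain ⟨T, hT⟩ := hdvd
  have h2 := congrArg (aeval θ) hT
  rw [map_sub, hroot, map_mul, aeval_C, map_prod] at h2
  refine ⟨-aeval θ T, ?_⟩
  have h3 : ∏ k, aeval θ (X - C (α k)) = ∏ k, (θ - algebraMap R S (α k)) :=
    Finset.prod_congr rfl fun c _ => by rw [map_sub, aeval_X, aeval_C]
  rw [← h3]
  linear_combination -h2

end Split

/-! ### NL0 with residue maps, `ordRed` spelling -/

section OrdRed

variable {K F' k Ft Ft₂ : Type*} [Field K] [Field F'] [Algebra K F'] [Field k] [Field Ft]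
  [Algebra k Ft] [Field Ft₂] [Algebra k Ft₂]

variable {R S K0 D₁ D₂ : Type*} [CommRing R] [IsLocalRing R] [CommRing S] [IsDomain S]
  [IsNoetherianRing S] [Algebra R S] [Field K0] [Algebra S K0] [IsFractionRing S K0]
  [CommRing D₁] [IsDomain D₁] [ValuationRing D₁] [IsIntegrallyClosed D₁]
  [CommRing D₂] [IsDomain D₂] [ValuationRing D₂] [IsIntegrallyClosed D₂]
  [Algebra D₁ Ft] [IsFractionRing D₁ Ft] [Algebra D₂ Ft₂] [IsFractionRing D₂ Ft₂]
  {ι : Type*} [Fintype ι] [DecidableEq ι]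

set_option maxHeartbeats 1000000 in
/-- **NL0 at a point of the cover, residue-map form, in the `ordRed` spelling.** -/
theorem nl0_residue_ordRed (ι' : K0 →+* F') (R₁ : RedData K F' k Ft) (hun₁ : Unram R₁)
    (R₂ : RedData K F' k Ft₂) (Pl : Place k Ft)
    {θ : S} (hθ : Algebra.adjoin R {θ} = ⊤) (hint : IsIntegral R θ)
    (x₁ x₂ p0 : R) (hxy : p0 ∣ x₂ * x₁)
    (hx₁0 : algebraMap R S x₁ ≠ 0) (hx₂0 : algebraMap R S x₂ ≠ 0)
    (π₁ : R →+* D₁) (hπ₁ : Function.Surjective π₁) (hπx₁ : ∀ c : R, π₁ c = 0 ↔ x₁ ∣ c)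
    (π₂ : R →+* D₂) (hπ₂ : Function.Surjective π₂) (hπx₂ : ∀ c : R, π₂ c = 0 ↔ x₂ ∣ c)
    (hSW₁ : ∀ a : S, ι' (algebraMap S K0 a) ∈ R₁.Rw)
    (hSW₂ : ∀ a : S, ι' (algebraMap S K0 a) ∈ R₂.Rw)
    (hρπ₁ : ∀ r : R, R₁.red ⟨ι' (algebraMap S K0 (algebraMap R S r)), hSW₁ _⟩ =
      algebraMap D₁ Ft (π₁ r))
    (hρπ₂ : ∀ r : R, R₂.red ⟨ι' (algebraMap S K0 (algebraMap R S r)), hSW₂ _⟩ =
      algebraMap D₂ Ft₂ (π₂ r))
    (α₁ : ι → R) (hsplit₁ : algebraMap R S x₁ ∣ ∏ i, (θ - algebraMap R S (α₁ i)))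
    (j₁ : ι) (hθ₁ : R₁.red ⟨ι' (algebraMap S K0 θ), hSW₁ θ⟩ = algebraMap D₁ Ft (π₁ (α₁ j₁)))
    (hα₁ : ∀ i, i ≠ j₁ → IsUnit (π₁ (α₁ j₁) - π₁ (α₁ i)))
    (α₂ : ι → R) (hsplit₂ : algebraMap R S x₂ ∣ ∏ i, (θ - algebraMap R S (α₂ i)))
    (j₂ : ι) (hθ₂ : R₂.red ⟨ι' (algebraMap S K0 θ), hSW₂ θ⟩ = algebraMap D₂ Ft₂ (π₂ (α₂ j₂)))
    (hα₂ : ∀ i, i ≠ j₂ → IsUnit (π₂ (α₂ j₂) - π₂ (α₂ i)))
    (hnode : α₁ j₁ - α₂ j₂ ∈ maximalIdeal R)
    (hvD : ∀ d : D₁, IsUnit d → Pl.ord (algebraMap D₁ Ft d) = 0)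
    (m : ℕ) (u : K0) (hu0 : u ≠ 0) (hu1 : IsU R₁ (ι' u)) (hu2 : IsU R₂ (ι' u))
    (hhor : ∀ V : ValuationSubring K0, IsDiscreteValuationRing V →
      (∀ a : S, algebraMap S K0 a ∈ V) →
      (algebraMap S K0 (algebraMap R S p0))⁻¹ ∈ V →
      ∃ z : K0, z ≠ 0 ∧ u * z ^ m ∈ V ∧ (u * z ^ m)⁻¹ ∈ V) :
    (m : ℤ) ∣ ordRed R₁ hun₁ Pl (ι' u) := by
  have hu1' : u⁻¹ ∈ R₁.Rw.comap ι' := by
    show ι' u⁻¹ ∈ R₁.Rw
    rw [map_inv₀]
    exact hu1.2.2
  have hu2' : u⁻¹ ∈ R₂.Rw.comap ι' := by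
    show ι' u⁻¹ ∈ R₂.Rw
    rw [map_inv₀]
    exact hu2.2.2
  -- the residue map of the second branch on `S`
  let Φ₂ : S →+* Ft₂ := (resHom ι' R₂).comp
    ((algebraMap S K0).codRestrict (R₂.Rw.comap ι').toSubring fun a => hSW₂ a)
  have hΦ₂ : ∀ a : S, Φ₂ a = R₂.red ⟨ι' (algebraMap S K0 a), hSW₂ a⟩ := fun a => rfl
  have key := NL0Asm.nl0_of_residue (R := R) (S := S) (K := K0) (D₁ := D₁) (D₂ := D₂)
    (κ₁ := Ft) (κ₂ := Ft₂) hθ hint x₁ x₂ p0 hxy hx₁0 hx₂0 π₁ hπ₁ hπx₁ π₂ hπ₂ hπx₂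
    (R₁.Rw.comap ι') (R₂.Rw.comap ι') hSW₁ hSW₂ (resHom ι' R₁) (resHom_eq_zero_iff ι' R₁)
    (fun r => hρπ₁ r) Φ₂
    (fun a => by
      rw [hΦ₂]
      exact NL0OrdRed.mem_nonunits_comap_iff ι' R₂ _ (hSW₂ a))
    (fun r => by rw [hΦ₂]; exact hρπ₂ r)
    α₁ hsplit₁ j₁ hθ₁ hα₁ α₂ hsplit₂ j₂ (by rw [hΦ₂]; exact hθ₂) hα₂ hnode
    (fun z => Pl.ord z) (fun a b ha hb => Place.ord_mul Pl ha hb) hvD m u hu0 hu1.2.1 hu1'
    hu2.2.1 hu2' hhor
  rw [ordRed_of_isU hun₁ Pl hu1]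
  exact key

end OrdRed

/-! ### the tame norm for one endomorphism -/

section Iter

variable {U : Type*} [CommGroup U]

/-- the norm `∏_{i<d} a^[i] u`. -/
def nrmIter (a : U →* U) (d : ℕ) (u : U) : U := ∏ i ∈ Finset.range d, a^[i] u

theorem map_nrmIter (a : U →* U) {d : ℕ} {u : U} (hd : a^[d] u = u) :
    a (nrmIter a d u) = nrmIter a d u := by
  unfold nrmIter
  rw [map_prod]
  have h1 : ∀ i, a (a^[i] u) = a^[i + 1] u := fun i => (Function.iterate_succ_apply' a i u).symm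
  simp only [h1]
  cases d with
  | zero => simp
  | succ n =>
    rw [Finset.prod_range_succ, Finset.prod_range_succ' (fun i => a^[i] u), hd]
    rfl

theorem val_nrmIter (a : U →* U) (d : ℕ) (w : U → ℤ) (hmul : ∀ y z, w (y * z) = w y + w z)
    (hinv : ∀ u, w (a u) = w u) (u : U) : w (nrmIter a d u) = (d : ℤ) * w u := by
  have h1 : w 1 = 0 := by
    have h := hmul 1 1
    rw [mul_one] at h
    linarith
  have hit : ∀ i, w (a^[i] u) = w u := by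
    intro i
    induction i with
    | zero => rfl
    | succ i ih => rw [Function.iterate_succ_apply', hinv, ih]
  unfold nrmIter
  induction d with
  | zero => simp [h1]
  | succ n ih =>
    rw [Finset.prod_range_succ, hmul, ih, hit]
    push_cast
    ring

/-- **(I2) for one endomorphism**: the node lemma descends from the `a`-fixed elements. -/
theorem nl_of_fixed_iter (a : U →* U) {d p : ℕ} (hd : ∀ u, a^[d] u = u)
    (hcop : IsCoprime (p : ℤ) (d : ℤ)) (w1 w2 n : U → ℤ)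
    (h1 : ∀ y z, w1 (y * z) = w1 y + w1 z) (h2 : ∀ y z, w2 (y * z) = w2 y + w2 z)
    (hn : ∀ y z, n (y * z) = n y + n z)
    (i1 : ∀ u, w1 (a u) = w1 u) (i2 : ∀ u, w2 (a u) = w2 u) (inn : ∀ u, n (a u) = n u)
    (NL0 : ∀ u : U, a u = u → w1 u = 0 → w2 u = 0 → (p : ℤ) ∣ n u)
    (u : U) (hu1 : w1 u = 0) (hu2 : w2 u = 0) : (p : ℤ) ∣ n u := by
  have h := NL0 (nrmIter a d u) (map_nrmIter a (hd u))
    (by rw [val_nrmIter a d w1 h1 i1, hu1, mul_zero])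
    (by rw [val_nrmIter a d w2 h2 i2, hu2, mul_zero])
  rw [val_nrmIter a d n hn inn] at h
  exact hcop.dvd_of_dvd_mul_left h

end Iter

/-! ### NL on a subgroup, `nodeOrd` spelling -/

section Top

variable {K F' k Ft : Type*} [Field K] [Field F'] [Algebra K F'] [Field k] [Field Ft]
  [Algebra k Ft]

/-- **the node lemma NL on a subgroup `Us` of a group `G ≤ F'ˣ` of units** (`G = fixedUnits Γ F'`):
`a` the tame generator on `Us` (`a^[d] = id`, `p ∤ d`), `w1 w2` the two branch valuations,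
`n = nodeOrd R₁ hun₁ Pl G`, all `a`-invariant; the `a`-fixed elements of `Us` are rational over
the `K₀`-model `K0` (`hfix`) and satisfy NL0 there (`NL0`: `nl0_residue_ordRed`).  Conclusion = the
binder `NL` of `NodeRelSub.nodeRel_one_sub` at one node. -/
theorem nl_on_subgroup {K0 : Type*} [Field K0] (ι' : K0 →+* F') (R₁ : RedData K F' k Ft)
    (hun₁ : Unram R₁) (Pl : Place k Ft) (G : Subgroup F'ˣ) (Us : Subgroup G)
    (a : Us →* Us) {d p : ℕ} (hd : ∀ u, a^[d] u = u) (hcop : IsCoprime (p : ℤ) (d : ℤ))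
    (w1 w2 : G → ℤ)
    (h1 : ∀ y z, w1 (y * z) = w1 y + w1 z) (h2 : ∀ y z, w2 (y * z) = w2 y + w2 z)
    (i1 : ∀ u : Us, w1 (a u : G) = w1 (u : G)) (i2 : ∀ u : Us, w2 (a u : G) = w2 (u : G))
    (inn : ∀ u : Us, OrdRedExt.nodeOrd R₁ hun₁ Pl G (a u : G) =
      OrdRedExt.nodeOrd R₁ hun₁ Pl G (u : G))
    (hfix : ∀ u : Us, a u = u → ∃ u₀ : K0, (((u : G) : F'ˣ) : F') = ι' u₀)
    (NL0 : ∀ (u : Us) (u₀ : K0), (((u : G) : F'ˣ) : F') = ι' u₀ → w1 (u : G) = 0 →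
      w2 (u : G) = 0 → (p : ℤ) ∣ ordRed R₁ hun₁ Pl (ι' u₀))
    (y : G) (hy : y ∈ Us) (hy1 : w1 y = 0) (hy2 : w2 y = 0) :
    (p : ℤ) ∣ OrdRedExt.nodeOrd R₁ hun₁ Pl G y := by
  refine nl_of_fixed_iter (U := ↥Us) a hd hcop (fun u => w1 (u : G)) (fun u => w2 (u : G))
    (fun u => OrdRedExt.nodeOrd R₁ hun₁ Pl G (u : G))
    (fun y z => by rw [Subgroup.coe_mul, h1]) (fun y z => by rw [Subgroup.coe_mul, h2])
    (fun y z => by rw [Subgroup.coe_mul, OrdRedExt.nodeOrd_mul]) i1 i2 inn ?_ ⟨y, hy⟩ hy1 hy2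
  intro u hau hu1 hu2
  obtain ⟨u₀, hu₀⟩ := hfix u hau
  have := NL0 u u₀ hu₀ hu1 hu2
  unfold OrdRedExt.nodeOrd
  rw [hu₀]
  exact this

end Top

end Fermat.Agent.GF.KCover.Node.NL0Plug

end
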