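/-
GATE-F (S44) / node GF-KCOVER-INST, leaf (U9) of helper84 (board 6629), helper37.
**Deck-fixed elements of a Kummer cover lie in the base** (no Galois theory: uniqueness of the
reduced representative).

On helper3's vocabulary (`GF/KCover/Field/Lift`): `F' = F₁(G)`, `G ^ p = g₀`,
`H : IsAdjoinRoot F' (X ^ p - C g₀ : F₁[X])`, `ζ : F₁` a primitive `p`-th root of unity,
`deck H hζ : F' →+* F'` (`G ↦ ζ G`, identity on `F₁`).

* `deck_map` : `δ (H.map q) = H.map (q(ζ X))`;
* `exists_eq_algebraMap_of_deck_fixed'` (`p ≠ 0` only) / `exists_eq_algebraMap_of_deck_fixed`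
  (the announced binders) : `δ y = y ⟹ y = algebraMap F₁ F' a`;
* `deck_fixed_iff` : `δ y = y ↔ y ∈ (algebraMap F₁ F').range`;
* `mem_of_fixed_both` (`x : F' →+* F'` over `τ : F₁ →+* F₁`), `mem_of_fixed_both_equiv`
  (`x : F' ≃+* F'`, `τ : F₁ ≃+* F₁`) : `δ y = y`, `x y = y` ⟹ `y = algebraMap F₁ F' a`, `τ a = a`;
* `deckEquiv` : the deck transformation as a `RingEquiv` (`equivOfPowEqOne`), with
  `deckEquiv_apply`, `deckEquiv_pow_p`, and the `FixedGen` shape `hF0_of_range`.
-/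
import Mathlib
import Fermat.Agent.GF.KCover.Field.Lift

set_option autoImplicit false

noncomputable section

namespace Fermat.Agent.GF.KCover.Node.DeckFixed

open Polynomial Fermat.Agent.GF.KCover.Field

variable {F₁ F' : Type*} [Field F₁] [Field F'] [Algebra F₁ F']
variable {p : ℕ} {g₀ : F₁} (H : IsAdjoinRoot F' (X ^ p - C g₀ : F₁[X]))
variable {ζ : F₁} (hζ : IsPrimitiveRoot ζ p)

/-- the deck transformation in the polynomial presentation: `δ (H.map q) = H.map (q(ζ X))`. -/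
theorem deck_map (q : F₁[X]) : deck H hζ (H.map q) = H.map (q.comp (C ζ * X)) := by
  have h1 : deck H hζ (H.map q) =
      q.eval₂ (algebraMap F₁ F') (algebraMap F₁ F' ζ * H.root) := by
    unfold deck liftTo
    exact H.lift_map _ q
  have h2 : H.map (q.comp (C ζ * X)) = aeval H.root (q.comp (C ζ * X)) := by
    rw [H.aeval_root_eq_map]
  rw [h1, h2, aeval_comp, map_mul, aeval_C, aeval_X, aeval_def]

/-- `q(ζ X)` has the coefficients `c_n ζ ^ n`. -/
theorem coeff_comp_C_mul_X (q : F₁[X]) (n : ℕ) :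
    (q.comp (C ζ * X)).coeff n = q.coeff n * ζ ^ n :=
  comp_C_mul_X_coeff

include H hζ in
/-- **deck-fixed elements lie in the base** (only `p ≠ 0` is needed). -/
theorem exists_eq_algebraMap_of_deck_fixed' (hp : p ≠ 0) {y : F'} (hy : deck H hζ y = y) :
    ∃ a : F₁, y = algebraMap F₁ F' a := by
  have hmonic : (X ^ p - C g₀ : F₁[X]).Monic := monic_X_pow_sub_C g₀ hp
  have hdegf : (X ^ p - C g₀ : F₁[X]).degree = p := degree_X_pow_sub_C (Nat.pos_of_ne_zero hp) g₀
  let H' : IsAdjoinRootMonic F' (X ^ p - C g₀ : F₁[X]) := { H with monic := hmonic }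
  set q₀ : F₁[X] := H'.modByMonicHom y with hq₀
  have hq₀y : H.map q₀ = y := H'.map_modByMonicHom y
  have hdeg : q₀.degree < (p : WithBot ℕ) := by
    have : q₀ = q₀ %ₘ (X ^ p - C g₀ : F₁[X]) := by
      have h := H'.modByMonicHom_map q₀
      rw [show H'.map q₀ = y from hq₀y] at h
      exact h
    rw [this, ← hdegf]
    exact degree_modByMonic_lt _ hmonic
  have hcoeff_big : ∀ n, p ≤ n → q₀.coeff n = 0 := fun n hn =>
    (degree_lt_iff_coeff_zero q₀ p).mp hdeg n hn
  -- the scaled polynomial is another reduced representative of `y`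
  set q₁ : F₁[X] := q₀.comp (C ζ * X) with hq₁
  have hq₁y : H.map q₁ = y := by rw [hq₁, ← deck_map H hζ, hq₀y, hy]
  have hdeg₁ : q₁.degree < (X ^ p - C g₀ : F₁[X]).degree := by
    rw [hdegf, degree_lt_iff_coeff_zero]
    intro n hn
    rw [hq₁, coeff_comp_C_mul_X, hcoeff_big n hn, zero_mul]
  have heq : q₁ = q₀ := by
    have h2 := H'.modByMonicHom_map q₁
    rw [show H'.map q₁ = y from hq₁y, (modByMonic_eq_self_iff hmonic).mpr hdeg₁] at h2
    exact h2.symm
  -- all coefficients except the constant one vanish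
  have hcoeff : ∀ n, n ≠ 0 → q₀.coeff n = 0 := by
    intro n hn
    by_cases hnp : p ≤ n
    · exact hcoeff_big n hnp
    · have h1 : q₀.coeff n * ζ ^ n = q₀.coeff n := by
        rw [← coeff_comp_C_mul_X, ← hq₁, heq]
      have h2 : ζ ^ n ≠ 1 :=
        hζ.pow_ne_one_of_pos_of_lt hn (not_le.mp hnp)
      by_contra h0
      exact h2 (mul_left_cancel₀ h0 (by rw [h1, mul_one]))
  have hC : q₀ = C (q₀.coeff 0) := by
    ext n
    rcases Nat.eq_zero_or_pos n with rfl | hn
    · rw [coeff_C_zero]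
    · rw [hcoeff n hn.ne', coeff_C, if_neg hn.ne']
  refine ⟨q₀.coeff 0, ?_⟩
  rw [H.algebraMap_apply, ← hC, hq₀y]

include H hζ in
/-- **(U9)** deck-fixed elements of the Kummer cover lie in the base (announced binders;
`hp.ne_zero` is all that is used). -/
theorem exists_eq_algebraMap_of_deck_fixed (hp : p.Prime) (_hg₀ : g₀ ≠ 0) {y : F'}
    (hy : deck H hζ y = y) : ∃ a : F₁, y = algebraMap F₁ F' a :=
  exists_eq_algebraMap_of_deck_fixed' H hζ hp.ne_zero hy

include H hζ in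
/-- the fixed field of the deck transformation is the base. -/
theorem deck_fixed_iff (hp : p ≠ 0) {y : F'} :
    deck H hζ y = y ↔ y ∈ (algebraMap F₁ F').range := by
  constructor
  · intro hy
    obtain ⟨a, ha⟩ := exists_eq_algebraMap_of_deck_fixed' H hζ hp hy
    exact ⟨a, ha.symm⟩
  · rintro ⟨a, rfl⟩
    exact deck_algebraMap H hζ a

include H hζ in
/-- **(U9), corollary**: an element fixed by the deck transformation and by a semilinear
endomorphism `x` over `τ` comes from a `τ`-fixed element of the base. -/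
theorem mem_of_fixed_both' (hp : p ≠ 0) {x : F' →+* F'} {τ : F₁ →+* F₁} (hx : IsOver x τ)
    {y : F'} (hy : deck H hζ y = y) (hxy : x y = y) :
    ∃ a : F₁, τ a = a ∧ y = algebraMap F₁ F' a := by
  obtain ⟨a, rfl⟩ := exists_eq_algebraMap_of_deck_fixed' H hζ hp hy
  refine ⟨a, (algebraMap F₁ F').injective ?_, rfl⟩
  rw [← hx a, hxy]

include H hζ in
/-- `mem_of_fixed_both'` with the announced binders. -/
theorem mem_of_fixed_both (hp : p.Prime) (_hg₀ : g₀ ≠ 0) {x : F' →+* F'} {τ : F₁ →+* F₁}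
    (hx : IsOver x τ) {y : F'} (hy : deck H hζ y = y) (hxy : x y = y) :
    ∃ a : F₁, τ a = a ∧ y = algebraMap F₁ F' a :=
  mem_of_fixed_both' H hζ hp.ne_zero hx hy hxy

include H hζ in
/-- `mem_of_fixed_both` for ring automorphisms `x : F' ≃+* F'`, `τ : F₁ ≃+* F₁`. -/
theorem mem_of_fixed_both_equiv (hp : p.Prime) (_hg₀ : g₀ ≠ 0) (x : F' ≃+* F') (τ : F₁ ≃+* F₁)
    (hx : IsOver (x : F' →+* F') (τ : F₁ →+* F₁)) {y : F'} (hy : deck H hζ y = y)
    (hxy : x y = y) : ∃ a : F₁, τ a = a ∧ y = algebraMap F₁ F' a :=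
  mem_of_fixed_both' H hζ hp.ne_zero hx hy hxy

/-! ### the deck transformation as a ring automorphism (the `δ` of `FixedGen`) -/

/-- the deck transformation as a `RingEquiv`. -/
def deckEquiv (hp : p ≠ 0) : F' ≃+* F' :=
  equivOfPowEqOne (deck H hζ) hp (deck_pow_p H hζ)

@[simp] theorem deckEquiv_apply (hp : p ≠ 0) (y : F') : deckEquiv H hζ hp y = deck H hζ y := rfl

theorem deckEquiv_pow_p (hp : p ≠ 0) : deckEquiv H hζ hp ^ p = 1 :=
  equivOfPowEqOne_pow_eq_one _ hp _

theorem deckEquiv_pow_apply (hp : p ≠ 0) (n : ℕ) (y : F') :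
    (deckEquiv H hζ hp ^ n) y = (deck H hζ ^ n) y :=
  equivOfPowEqOne_pow _ hp _ n y

theorem deckEquiv_algebraMap (hp : p ≠ 0) (a : F₁) :
    deckEquiv H hζ hp (algebraMap F₁ F' a) = algebraMap F₁ F' a :=
  deck_algebraMap H hζ a

/-- the binder `hF0` of `FixedGen.exists_poly_of_fixed` / `isFractionRing_adjoin` for any subfield
`F0` containing the image of the `τ`-fixed elements of the base. -/
theorem hF0_of_range (hp : p ≠ 0) (x : F' ≃+* F') {τ : F₁ →+* F₁}
    (hx : IsOver (x : F' →+* F') τ) (F0 : Subfield F')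
    (hF0 : ∀ a : F₁, τ a = a → algebraMap F₁ F' a ∈ F0) :
    ∀ y, deckEquiv H hζ hp y = y → x y = y → y ∈ F0 := by
  intro y hy hxy
  obtain ⟨a, ha, rfl⟩ := mem_of_fixed_both' H hζ hp hx hy hxy
  exact hF0 a ha

/-- the subfield of the elements fixed by two ring automorphisms. -/
def fixedBoth (δ x : F' ≃+* F') : Subfield F' where
  carrier := {y | δ y = y ∧ x y = y}
  mul_mem' := by
    rintro a b ⟨ha, ha'⟩ ⟨hb, hb'⟩
    exact ⟨by rw [map_mul, ha, hb], by rw [map_mul, ha', hb']⟩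
  one_mem' := ⟨map_one _, map_one _⟩
  add_mem' := by
    rintro a b ⟨ha, ha'⟩ ⟨hb, hb'⟩
    exact ⟨by rw [map_add, ha, hb], by rw [map_add, ha', hb']⟩
  zero_mem' := ⟨map_zero _, map_zero _⟩
  neg_mem' := by
    rintro a ⟨ha, ha'⟩
    exact ⟨by rw [map_neg, ha], by rw [map_neg, ha']⟩
  inv_mem' := by
    rintro a ⟨ha, ha'⟩
    exact ⟨by rw [map_inv₀, ha], by rw [map_inv₀, ha']⟩

theorem mem_fixedBoth {δ x : F' ≃+* F'} {y : F'} : y ∈ fixedBoth δ x ↔ δ y = y ∧ x y = y :=
  Iff.rfl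

/-- **`fixedBoth δ x` is the image of the `τ`-fixed elements of the base** (`δ` the deck
transformation, `x` over `τ`). -/
theorem mem_fixedBoth_deck_iff (hp : p ≠ 0) (x : F' ≃+* F') {τ : F₁ →+* F₁}
    (hx : IsOver (x : F' →+* F') τ) {y : F'} :
    y ∈ fixedBoth (deckEquiv H hζ hp) x ↔ ∃ a : F₁, τ a = a ∧ y = algebraMap F₁ F' a := by
  constructor
  · rintro ⟨hy, hxy⟩
    exact mem_of_fixed_both' H hζ hp hx hy hxy
  · rintro ⟨a, ha, rfl⟩
    refine ⟨deck_algebraMap H hζ a, ?_⟩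
    have := hx a
    rw [ha] at this
    exact this

end Fermat.Agent.GF.KCover.Node.DeckFixed
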