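/-
GATE-F (S40) / GF-KCOVER-INST, node side (helper84), file 4: **the node rings of the cover are
factorial (I3a)**, abstract form.

Downstairs: `R` = (a localisation of) the chart ring at a node `s`, `x ∈ R` a local equation of one
branch, `R ⧸ (x)` a DVR.  Upstairs: `S = R[θ]` (finite étale over `R` near `s`); the branch `x = 0`
is SPLIT in the cover: `∏ i, (θ − α i) ∈ x S` with `α i − α j ∈ Rˣ`.  For each `j` the point
`𝔫_j = (𝔪, θ − α j)` of `S` has a factorial local ring, in which `x` is a prime element with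
`S_{𝔫_j} ⧸ (x) ≃ R ⧸ (x)`.

* `ufd_localization_of_quotient` (the core, no `R`): `S` a noetherian domain, `φ : S ↠ D` onto a
  valuation ring, `φ x = 0`, `ker φ` generated by `x` at `𝔫` (`hker`), `S ∖ 𝔫 → Dˣ`
  ⟹ `S_𝔫` is a UFD and `x` is prime in it;
* `exists_dvd_of_split` : the hypothesis `hker` from the splitting `∏ i, (θ − α i) ∈ x S`;
* `ufd_of_split` : the two combined, `𝔫 := φ⁻¹ 𝔪_D`.

The output feeds `GL/Frame/KummerDatum.exists_kummer_datum_of_ufd` (`NodeLemma.lean`).
-/
import Fermat.Agent.GL.Frame.LocTypeI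

set_option autoImplicit false
set_option linter.unusedSectionVars false

noncomputable section

namespace Fermat.Agent.GF.KCover.Node.EtaleUFD

open IsLocalRing Polynomial

section Core

variable {S D : Type*} [CommRing S] [IsDomain S] [CommRing D] [IsDomain D]
  (φ : S →+* D) (𝔫 : Ideal S) [𝔫.IsPrime] (h𝔫 : ∀ s : S, s ∉ 𝔫 → IsUnit (φ s))

/-- the map induced by `φ` on the local ring at `𝔫`. -/
def locMap : Localization.AtPrime 𝔫 →+* D :=
  IsLocalization.lift (M := 𝔫.primeCompl) (g := φ) fun y => h𝔫 y y.2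

theorem locMap_algebraMap (a : S) :
    locMap φ 𝔫 h𝔫 (algebraMap S (Localization.AtPrime 𝔫) a) = φ a :=
  IsLocalization.lift_eq _ a

include h𝔫 in
theorem locMap_surjective (hφ : Function.Surjective φ) : Function.Surjective (locMap φ 𝔫 h𝔫) := by
  intro d
  obtain ⟨a, rfl⟩ := hφ d
  exact ⟨_, locMap_algebraMap φ 𝔫 h𝔫 a⟩

theorem ker_locMap {x : S} (hx : φ x = 0)
    (hker : ∀ a : S, φ a = 0 → ∃ s : S, s ∉ 𝔫 ∧ x ∣ s * a) :
    RingHom.ker (locMap φ 𝔫 h𝔫) =
      Ideal.span {algebraMap S (Localization.AtPrime 𝔫) x} := by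
  apply le_antisymm
  · intro o ho
    rw [RingHom.mem_ker] at ho
    obtain ⟨⟨a, s⟩, hos⟩ := IsLocalization.surj 𝔫.primeCompl o
    have hos' : o * algebraMap S (Localization.AtPrime 𝔫) (s : S) =
        algebraMap S (Localization.AtPrime 𝔫) a := hos
    have h1 := congrArg (locMap φ 𝔫 h𝔫) hos'
    rw [map_mul, ho, zero_mul, locMap_algebraMap] at h1
    obtain ⟨s', hs', b, hb⟩ := hker a h1.symm
    rw [Ideal.mem_span_singleton]
    have hu : IsUnit (algebraMap S (Localization.AtPrime 𝔫) ((s : S) * s')) := by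
      rw [map_mul]
      exact (IsLocalization.map_units _ s).mul
        (IsLocalization.map_units _ (⟨s', hs'⟩ : 𝔫.primeCompl))
    rw [← hu.dvd_mul_right]
    refine ⟨algebraMap S _ b, ?_⟩
    have hb' := congrArg (algebraMap S (Localization.AtPrime 𝔫)) hb
    rw [map_mul, map_mul] at hb'
    rw [← hb', map_mul, ← hos']
    ring
  · rw [Ideal.span_le, Set.singleton_subset_iff]
    show _ ∈ RingHom.ker _
    rw [RingHom.mem_ker, locMap_algebraMap, hx]

variable [ValuationRing D]

include h𝔫 in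
/-- **the core**: `x` is a prime element of `S_𝔫`. -/
theorem prime_algebraMap {x : S} (hx0 : x ≠ 0) (hx : φ x = 0)
    (hker : ∀ a : S, φ a = 0 → ∃ s : S, s ∉ 𝔫 ∧ x ∣ s * a) :
    Prime (algebraMap S (Localization.AtPrime 𝔫) x) := by
  have hinj : Function.Injective (algebraMap S (Localization.AtPrime 𝔫)) :=
    IsLocalization.injective _ 𝔫.primeCompl_le_nonZeroDivisors
  have hX0 : algebraMap S (Localization.AtPrime 𝔫) x ≠ 0 := fun h =>
    hx0 (hinj (by rw [h, map_zero]))
  rw [← Ideal.span_singleton_prime hX0, ← ker_locMap φ 𝔫 h𝔫 hx hker]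
  exact RingHom.ker_isPrime _

include h𝔫 in
/-- **the core**: `S_𝔫` is factorial. -/
theorem ufd_localization_of_quotient [IsNoetherianRing S] (hφ : Function.Surjective φ) {x : S}
    (hx0 : x ≠ 0) (hx : φ x = 0)
    (hker : ∀ a : S, φ a = 0 → ∃ s : S, s ∉ 𝔫 ∧ x ∣ s * a) :
    UniqueFactorizationMonoid (Localization.AtPrime 𝔫) := by
  have hprime := prime_algebraMap φ 𝔫 h𝔫 hx0 hx hker
  have hkerEq := ker_locMap φ 𝔫 h𝔫 hx hker
  have : IsNoetherianRing (Localization.AtPrime 𝔫) :=
    IsLocalization.isNoetherianRing 𝔫.primeCompl _ inferInstance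
  have hIP : (Ideal.span {algebraMap S (Localization.AtPrime 𝔫) x}).IsPrime :=
    (Ideal.span_singleton_prime hprime.ne_zero).2 hprime
  have : IsDomain (Localization.AtPrime 𝔫 ⧸
      Ideal.span {algebraMap S (Localization.AtPrime 𝔫) x}) := Ideal.Quotient.isDomain _
  let e : (Localization.AtPrime 𝔫 ⧸ Ideal.span {algebraMap S (Localization.AtPrime 𝔫) x}) ≃+* D :=
    (Ideal.quotEquivOfEq hkerEq.symm).trans
      (RingHom.quotientKerEquivOfSurjective (locMap_surjective φ 𝔫 h𝔫 hφ))
  have : ValuationRing (Localization.AtPrime 𝔫 ⧸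
      Ideal.span {algebraMap S (Localization.AtPrime 𝔫) x}) :=
    Function.Surjective.valuationRing (e.symm : D →+* _) e.symm.surjective
  exact Fermat.Agent.GL.Frame.LocTypeI.ufd_of_prime_valuationRing hprime

end Core

section Split

variable {R S D : Type*} [CommRing R] [CommRing S] [Algebra R S] [CommRing D]
  {ι : Type*} [Fintype ι] [DecidableEq ι]

/-- **the hypothesis `hker` from the splitting of the branch in the cover.** -/
theorem exists_dvd_of_split {θ : S} (hθ : Algebra.adjoin R {θ} = ⊤) (x : R) (α : ι → R)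
    (hsplit : algebraMap R S x ∣ ∏ i, (θ - algebraMap R S (α i)))
    (j : ι) (φ : S →+* D) (hφθ : φ θ = φ (algebraMap R S (α j)))
    (hφx : ∀ c : R, φ (algebraMap R S c) = 0 → x ∣ c)
    (𝔫 : Ideal S) [𝔫.IsPrime] (hα𝔫 : ∀ i, i ≠ j → θ - algebraMap R S (α i) ∉ 𝔫)
    (a : S) (ha : φ a = 0) : ∃ s : S, s ∉ 𝔫 ∧ algebraMap R S x ∣ s * a := by
  refine ⟨∏ i ∈ Finset.univ.erase j, (θ - algebraMap R S (α i)), ?_, ?_⟩
  · intro hmem
    obtain ⟨i, hi, hi'⟩ := (Ideal.IsPrime.prod_mem_iff (p := 𝔫)).1 hmem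
    exact hα𝔫 i (Finset.ne_of_mem_erase hi) hi'
  · have ha' : a ∈ Algebra.adjoin R {θ} := by rw [hθ]; exact Algebra.mem_top
    rw [Algebra.adjoin_singleton_eq_range_aeval] at ha'
    obtain ⟨P, rfl⟩ := ha'
    obtain ⟨Q, hQ⟩ := X_sub_C_dvd_sub_C_eval (a := α j) (p := P)
    have hP : P = (X - C (α j)) * Q + C (P.eval (α j)) := by rw [← hQ]; ring
    have hPa : aeval θ P = (θ - algebraMap R S (α j)) * aeval θ Q +
        algebraMap R S (P.eval (α j)) := by
      conv_lhs => rw [hP]
      simp only [map_add, map_mul, map_sub, aeval_X, aeval_C]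
    have hc : φ (algebraMap R S (P.eval (α j))) = 0 := by
      have h1 : φ (aeval θ P) = 0 := ha
      rw [hPa, map_add, map_mul, map_sub, hφθ, sub_self, zero_mul, zero_add] at h1
      exact h1
    obtain ⟨c', hc'⟩ := hφx _ hc
    obtain ⟨r, hr⟩ := hsplit
    refine ⟨r * aeval θ Q + (∏ i ∈ Finset.univ.erase j, (θ - algebraMap R S (α i))) *
      algebraMap R S c', ?_⟩
    have hprod : (∏ i ∈ Finset.univ.erase j, (θ - algebraMap R S (α i))) *
        (θ - algebraMap R S (α j)) = ∏ i, (θ - algebraMap R S (α i)) :=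
      Finset.prod_erase_mul _ _ (Finset.mem_univ j)
    show _ * (aeval θ P) = _
    rw [hPa, hc', map_mul, mul_add, ← mul_assoc, hprod, hr]
    ring

variable [IsDomain S] [IsNoetherianRing S] [IsDomain D] [ValuationRing D]

/-- **(I3a)**: the local ring of `S = R[θ]` at the point `θ = α j` over the node is factorial and
`x` is a prime element of it. -/
theorem ufd_of_split {θ : S} (hθ : Algebra.adjoin R {θ} = ⊤) (x : R)
    (hx0 : algebraMap R S x ≠ 0) (α : ι → R)
    (hsplit : algebraMap R S x ∣ ∏ i, (θ - algebraMap R S (α i)))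
    (j : ι) (φ : S →+* D) (hφθ : φ θ = φ (algebraMap R S (α j)))
    (hα : ∀ i, i ≠ j → IsUnit (φ (algebraMap R S (α j)) - φ (algebraMap R S (α i))))
    (hφR : Function.Surjective (φ.comp (algebraMap R S)))
    (hφx : ∀ c : R, φ (algebraMap R S c) = 0 ↔ x ∣ c) :
    UniqueFactorizationMonoid (Localization.AtPrime (Ideal.comap φ (maximalIdeal D))) ∧
      Prime (algebraMap S (Localization.AtPrime (Ideal.comap φ (maximalIdeal D)))
        (algebraMap R S x)) := by
  have h𝔫 : ∀ s : S, s ∉ Ideal.comap φ (maximalIdeal D) → IsUnit (φ s) := by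
    intro s hs
    rw [Ideal.mem_comap, mem_maximalIdeal, mem_nonunits_iff, not_not] at hs
    exact hs
  have hφ : Function.Surjective φ := fun d => by
    obtain ⟨c, hc⟩ := hφR d
    exact ⟨algebraMap R S c, hc⟩
  have hx : φ (algebraMap R S x) = 0 := (hφx x).2 dvd_rfl
  have hα𝔫 : ∀ i, i ≠ j → θ - algebraMap R S (α i) ∉ Ideal.comap φ (maximalIdeal D) := by
    intro i hij hmem
    rw [Ideal.mem_comap, mem_maximalIdeal, mem_nonunits_iff, map_sub, hφθ] at hmem
    exact hmem (hα i hij)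
  have hker := exists_dvd_of_split hθ x α hsplit j φ hφθ (fun c hc => (hφx c).1 hc)
    (Ideal.comap φ (maximalIdeal D)) hα𝔫
  exact ⟨ufd_localization_of_quotient φ _ h𝔫 hφ hx0 hx hker, prime_algebraMap φ _ h𝔫 hx0 hx hker⟩

end Split

end Fermat.Agent.GF.KCover.Node.EtaleUFD
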