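/-
GATE-F (S44) / GF-KCOVER-INST, leaf (L-b)-ABSTRACT (helper47; GO helper13 6208, contract helper84
6058/6155): **the Artin–Schreier normal form at a node gives the split étale presentation needed by
`EtaleUFD.ufd_of_split`.**

`R` the node ring downstairs, `ϖ = 1 - ζ ∈ R`, `p = ε₀ ϖ^(p-1)` (`ε₀` a unit), `g₁ ∈ R`,
`S = R[θ]` with `(1 + ϖ θ) ^ p = 1 + ϖ ^ p g₁` (`G = c (1 + ϖ θ)`, `g₀ = c ^ p (1 + ϖ ^ p g₁)`).

* `asPoly p ϖ ε₀ g₁ : R[X]` : the explicit monic polynomial of degree `p` with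
  `ϖ ^ p · asPoly = (1 + ϖ X) ^ p - 1 - ϖ ^ p g₁` (`asPoly_identity`), hence `asPoly(θ) = 0`;
  `asPoly ≡ X ^ p + ε₀ X - g₁ mod ϖ` (`map_asPoly`), derivative `≡ ε₀` (`map_derivative_asPoly`):
  `R[θ]` is finite étale over `R` wherever `ε₀` is a unit and `ϖ` is not.
* `map_asPoly_eq_prod` : over a domain `D` of characteristic `p` in which `ϖ = 0`, with ONE root
  `β` and `η ^ (p-1) = -ε̄₀`: `asPoly = ∏_{c ∈ 𝔽_p} (X - (β + c η))`.
* `ufd_of_artinSchreier` : **the conclusion of `EtaleUFD.ufd_of_split`** from ONE ring hom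
  `φ : R[θ] → D` extending the quotient map `R → D = R/(x)` (the residue map of the branch valuation
  upstairs): `β := φ θ` is automatically a root, the other roots are `β + c η`.
-/
import Fermat.Agent.GF.KCover.Node.EtaleUFD

set_option autoImplicit false
set_option linter.unusedSectionVars false

noncomputable section

namespace Fermat.Agent.GF.KCover.Node.ASEtale

open Polynomial IsLocalRing

section Poly

variable {R : Type*} [CommRing R] (p : ℕ) (ϖ ε₀ g₁ : R)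

/-- the coefficient of `X ^ k`, `1 ≤ k < p`, of the Artin–Schreier polynomial. -/
def asCoeff (k : ℕ) : R := ((p.choose k / p : ℕ) : R) * ε₀ * ϖ ^ (k - 1)

/-- **the Artin–Schreier polynomial** `((1 + ϖ X) ^ p - 1 - ϖ ^ p g₁) / ϖ ^ p`. -/
def asPoly : R[X] :=
  X ^ p + ∑ k ∈ Finset.Ico 1 p, C (asCoeff p ϖ ε₀ k) * X ^ k - C g₁

theorem asCoeff_one (hp : p ≠ 0) : asCoeff p ϖ ε₀ 1 = ε₀ := by
  unfold asCoeff
  rw [Nat.choose_one_right, Nat.div_self (Nat.pos_of_ne_zero hp), Nat.cast_one, one_mul,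
    Nat.sub_self, pow_zero, mul_one]

theorem dvd_asCoeff {k : ℕ} (hk : 2 ≤ k) : ϖ ∣ asCoeff p ϖ ε₀ k := by
  unfold asCoeff
  obtain ⟨m, rfl⟩ : ∃ m, k = m + 2 := ⟨k - 2, by omega⟩
  refine Dvd.dvd.mul_left ?_ _
  rw [show m + 2 - 1 = m + 1 by omega, pow_succ]
  exact Dvd.intro_left _ rfl

variable {p}

/-- **the defining identity**: `ϖ ^ p · asPoly = (1 + ϖ X) ^ p - 1 - ϖ ^ p g₁`. -/
theorem asPoly_identity (hpp : p.Prime) (hp : (p : R) = ε₀ * ϖ ^ (p - 1)) :
    C (ϖ ^ p) * asPoly p ϖ ε₀ g₁ = (1 + C ϖ * X) ^ p - 1 - C (ϖ ^ p * g₁) := by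
  have hp1 : 1 ≤ p := hpp.one_lt.le
  have key : ∀ k ∈ Finset.Ico 1 p,
      (C ϖ * X) ^ k * (1 : R[X]) ^ (p - k) * ((p.choose k : ℕ) : R[X])
        = C (ϖ ^ p) * (C (asCoeff p ϖ ε₀ k) * X ^ k) := by
    intro k hk
    rw [Finset.mem_Ico] at hk
    obtain ⟨q, hq⟩ : p ∣ p.choose k := hpp.dvd_choose_self (by omega) hk.2
    have hq' : p.choose k / p = q := by
      rw [hq, Nat.mul_div_cancel_left _ hpp.pos]
    have hk1 : ϖ ^ k * ϖ ^ (p - 1) = ϖ ^ p * ϖ ^ (k - 1) := by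
      rw [← pow_add, ← pow_add]
      congr 1
      omega
    unfold asCoeff
    rw [hq', one_pow, mul_one, mul_pow, ← C_pow, hq, Nat.cast_mul, ← C_eq_natCast,
      ← C_eq_natCast, ← C_mul, hp]
    rw [mul_comm (C (ϖ ^ k)) (X ^ k), mul_assoc, ← C_mul, ← mul_assoc (C (ϖ ^ p)), ← C_mul,
      mul_comm (X ^ k)]
    congr 2
    calc ϖ ^ k * (ε₀ * ϖ ^ (p - 1) * (q : R)) = (ϖ ^ k * ϖ ^ (p - 1)) * (ε₀ * (q : R)) := by ring
      _ = (ϖ ^ p * ϖ ^ (k - 1)) * (ε₀ * (q : R)) := by rw [hk1]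
      _ = ϖ ^ p * ((q : R) * ε₀ * ϖ ^ (k - 1)) := by ring
  have hexp : (1 + C ϖ * X) ^ p
      = 1 + (∑ k ∈ Finset.Ico 1 p, C (ϖ ^ p) * (C (asCoeff p ϖ ε₀ k) * X ^ k))
        + C (ϖ ^ p) * X ^ p := by
    rw [add_comm (1 : R[X]) (C ϖ * X), add_pow, Finset.sum_range_succ, Finset.range_eq_Ico,
      Finset.sum_eq_sum_Ico_succ_bot (by omega : 0 < p)]
    rw [Finset.sum_congr rfl key]
    simp only [pow_zero, Nat.sub_zero, one_pow, mul_one, Nat.choose_zero_right, Nat.cast_one,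
      Nat.sub_self, Nat.choose_self, mul_pow, C_pow]
  rw [hexp]
  unfold asPoly
  rw [mul_sub, mul_add, Finset.mul_sum, C_mul]
  ring

theorem asPoly_eq_add (g : R) :
    asPoly p ϖ ε₀ g = X ^ p + (∑ k ∈ Finset.Ico 1 p, C (asCoeff p ϖ ε₀ k) * X ^ k - C g) := by
  unfold asPoly
  ring

theorem degree_tail_lt [Nontrivial R] (hp1 : 1 ≤ p) :
    (∑ k ∈ Finset.Ico 1 p, C (asCoeff p ϖ ε₀ k) * X ^ k - C g₁).degree < (p : WithBot ℕ) := by
  rw [← mem_degreeLT]
  refine Submodule.sub_mem _ (Submodule.sum_mem _ fun k hk => ?_) ?_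
  · rw [Finset.mem_Ico] at hk
    rw [mem_degreeLT]
    refine lt_of_le_of_lt (degree_C_mul_X_pow_le k _) ?_
    exact_mod_cast hk.2
  · rw [mem_degreeLT]
    refine lt_of_le_of_lt degree_C_le ?_
    exact_mod_cast hp1

theorem monic_asPoly [Nontrivial R] (hp1 : 1 ≤ p) : (asPoly p ϖ ε₀ g₁).Monic := by
  rw [asPoly_eq_add]
  exact monic_X_pow_add (degree_tail_lt ϖ ε₀ g₁ hp1)

theorem natDegree_asPoly [Nontrivial R] (hp1 : 1 ≤ p) : (asPoly p ϖ ε₀ g₁).natDegree = p := by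
  rw [asPoly_eq_add, natDegree_add_eq_left_of_degree_lt, natDegree_X_pow]
  rw [degree_X_pow]
  exact degree_tail_lt ϖ ε₀ g₁ hp1

/-- `θ` with `(1 + ϖ θ) ^ p = 1 + ϖ ^ p g₁` is a root of the Artin–Schreier polynomial. -/
theorem aeval_asPoly_eq_zero {S : Type*} [CommRing S] [IsDomain S] [Algebra R S] (hpp : p.Prime)
    (hp : (p : R) = ε₀ * ϖ ^ (p - 1)) {θ : S} (hϖ0 : algebraMap R S ϖ ≠ 0)
    (hAS : (1 + algebraMap R S ϖ * θ) ^ p = 1 + algebraMap R S (ϖ ^ p * g₁)) :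
    aeval θ (asPoly p ϖ ε₀ g₁) = 0 := by
  have h := congrArg (aeval θ) (asPoly_identity ϖ ε₀ g₁ hpp hp)
  simp only [map_mul, map_sub, map_pow, map_add, map_one, aeval_C, aeval_X] at h
  rw [hAS] at h
  have h0 : algebraMap R S ϖ ^ p * aeval θ (asPoly p ϖ ε₀ g₁) = 0 := by
    rw [h, map_mul, map_pow]
    ring
  exact (mul_eq_zero.1 h0).resolve_left (pow_ne_zero _ hϖ0)

/-- **reduction mod `ϖ`**: `asPoly ≡ X ^ p + ε₀ X - g₁`. -/
theorem map_asPoly {D : Type*} [CommRing D] (π : R →+* D) (hπ : π ϖ = 0) (hp2 : 2 ≤ p) :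
    (asPoly p ϖ ε₀ g₁).map π = X ^ p + C (π ε₀) * X - C (π g₁) := by
  unfold asPoly
  rw [Polynomial.map_sub, Polynomial.map_add, Polynomial.map_pow, map_X, map_C,
    Polynomial.map_sum]
  congr 2
  rw [Finset.sum_eq_single_of_mem 1 (Finset.mem_Ico.2 ⟨le_rfl, hp2⟩)]
  · rw [Polynomial.map_mul, map_C, Polynomial.map_pow, map_X, pow_one,
      asCoeff_one p ϖ ε₀ (by omega)]
  · intro k hk hk1
    rw [Finset.mem_Ico] at hk
    obtain ⟨c, hc⟩ := dvd_asCoeff p ϖ ε₀ (k := k) (by omega)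
    rw [Polynomial.map_mul, map_C, hc, map_mul, hπ, zero_mul, C_0, zero_mul]

/-- `p = 0` wherever `ϖ = 0`. -/
theorem map_natCast_eq_zero {D : Type*} [CommRing D] (π : R →+* D) (hπ : π ϖ = 0) (hp2 : 2 ≤ p)
    (hp : (p : R) = ε₀ * ϖ ^ (p - 1)) : (p : D) = 0 := by
  have h := congrArg π hp
  rwa [map_natCast, map_mul, map_pow, hπ, zero_pow (by omega), mul_zero] at h

/-- **the derivative mod `ϖ` is the unit `ε₀`** (`R[θ]` is étale over `R` along `ϖ = 0`). -/
theorem map_derivative_asPoly {D : Type*} [CommRing D] (π : R →+* D) (hπ : π ϖ = 0)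
    (hp2 : 2 ≤ p) (hp : (p : R) = ε₀ * ϖ ^ (p - 1)) :
    (derivative (asPoly p ϖ ε₀ g₁)).map π = C (π ε₀) := by
  rw [← derivative_map, map_asPoly ϖ ε₀ g₁ π hπ hp2]
  have hpD : (p : D) = 0 := map_natCast_eq_zero ϖ ε₀ π hπ hp2 hp
  rw [derivative_sub, derivative_add, derivative_X_pow, derivative_C, derivative_C_mul,
    derivative_X, mul_one, sub_zero, hpD, C_0, zero_mul, zero_add]

end Poly

section Split

variable {D : Type*} [CommRing D] [IsDomain D] {p : ℕ} [Fact p.Prime] [CharP D p]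

/-- the `p` roots `β + c η`, `c ∈ 𝔽_p`, of `X ^ p + e X - g` (`η ^ (p-1) = -e`). -/
def asRoot (β η : D) (c : ZMod p) : D := β + ZMod.castHom (dvd_refl p) D c * η

theorem asRoot_zero (β η : D) : asRoot (p := p) β η 0 = β := by
  unfold asRoot
  rw [map_zero, zero_mul, add_zero]

theorem asRoot_zero_sub (β η : D) (c : ZMod p) :
    asRoot (p := p) β η 0 - asRoot β η c = -(ZMod.castHom (dvd_refl p) D c * η) := by
  unfold asRoot
  rw [map_zero, zero_mul, add_zero]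
  ring

theorem asRoot_injective (β : D) {η : D} (hη0 : η ≠ 0) :
    Function.Injective (asRoot (p := p) β η) := by
  intro c c' h
  unfold asRoot at h
  exact (ZMod.castHom (dvd_refl p) D).injective (mul_right_cancel₀ hη0 (add_left_cancel h))

theorem eval_asRoot {e g β η : D} (hβ : β ^ p + e * β - g = 0) (hη : η ^ (p - 1) = -e)
    (c : ZMod p) : (X ^ p + C e * X - C g : D[X]).eval (asRoot β η c) = 0 := by
  have hp1 : p - 1 + 1 = p := Nat.sub_add_cancel (Fact.out : p.Prime).one_lt.le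
  have hηp : η ^ p = -e * η := by
    rw [← hp1, pow_succ, hη]
  have hc : (ZMod.castHom (dvd_refl p) D c) ^ p = ZMod.castHom (dvd_refl p) D c := by
    rw [← map_pow, ZMod.pow_card]
  rw [eval_sub, eval_add, eval_mul, eval_pow, eval_X, eval_C, eval_C]
  unfold asRoot
  rw [add_pow_char, mul_pow, hc, hηp]
  linear_combination hβ

/-- **the Artin–Schreier polynomial splits over a domain of characteristic `p` as soon as it has
ONE root** (and `-e` is a `(p-1)`-th power). -/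
theorem as_eq_prod {e g β η : D} (hβ : β ^ p + e * β - g = 0) (hη : η ^ (p - 1) = -e)
    (hη0 : η ≠ 0) :
    (X ^ p + C e * X - C g : D[X]) = ∏ c : ZMod p, (X - C (asRoot β η c)) := by
  have hpp : p.Prime := Fact.out
  have hcard : (Finset.univ : Finset (ZMod p)).card = p := by
    rw [Finset.card_univ, ZMod.card]
  have hQ : (X ^ p + C e * X - C g : D[X]) = X ^ p + (C e * X - C g) := by ring
  have hlt : (C e * X - C g : D[X]).degree < (p : WithBot ℕ) := by
    refine lt_of_le_of_lt (degree_sub_le _ _) (max_lt ?_ ?_)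
    · refine lt_of_le_of_lt (degree_C_mul_X_le e) ?_
      exact_mod_cast hpp.one_lt
    · refine lt_of_le_of_lt degree_C_le ?_
      exact_mod_cast hpp.pos
  have hmonQ : (X ^ p + C e * X - C g : D[X]).Monic := by
    rw [hQ]
    exact monic_X_pow_add hlt
  have hdegQ : (X ^ p + C e * X - C g : D[X]).natDegree = p := by
    rw [hQ, natDegree_add_eq_left_of_degree_lt, natDegree_X_pow]
    rw [degree_X_pow]
    exact hlt
  have hmonP : (∏ c : ZMod p, (X - C (asRoot β η c)) : D[X]).Monic :=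
    monic_prod_of_monic _ _ fun c _ => monic_X_sub_C _
  have hdegP : (∏ c : ZMod p, (X - C (asRoot β η c)) : D[X]).natDegree = p := by
    rw [natDegree_finsetProd_X_sub_C_eq_card, hcard]
  refine eq_of_degree_sub_lt_of_eval_index_eq (Finset.univ : Finset (ZMod p))
    (v := asRoot β η) ((asRoot_injective β hη0).injOn) ?_ ?_
  · rw [hcard]
    have hd : (X ^ p + C e * X - C g : D[X]).degree = (p : WithBot ℕ) := by
      rw [degree_eq_natDegree hmonQ.ne_zero, hdegQ]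
    rw [← hd]
    refine degree_sub_lt_left ?_ hmonQ.ne_zero ?_
    · rw [degree_eq_natDegree hmonQ.ne_zero, degree_eq_natDegree hmonP.ne_zero, hdegQ, hdegP]
    · rw [hmonQ.leadingCoeff, hmonP.leadingCoeff]
  · intro c _
    rw [eval_asRoot hβ hη c, eval_prod]
    refine (Finset.prod_eq_zero (Finset.mem_univ c) ?_).symm
    rw [eval_sub, eval_X, eval_C, sub_self]

end Split

section Main

variable {p : ℕ} [Fact p.Prime] {R S D : Type*} [CommRing R] [CommRing S] [Algebra R S]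
  [CommRing D] [IsDomain S] [IsDomain D]

/-- `x ∣ ϖ`, `ker (R → S → D) = (x)` ⟹ `D` has characteristic `p`. -/
theorem charP_of_artinSchreier {ϖ ε₀ x : R} (hp : (p : R) = ε₀ * ϖ ^ (p - 1)) (hxϖ : x ∣ ϖ)
    (φ : S →+* D) (hφx : ∀ c : R, φ (algebraMap R S c) = 0 ↔ x ∣ c) : CharP D p := by
  have hpp : p.Prime := Fact.out
  have hπ : (φ.comp (algebraMap R S)) ϖ = 0 := (hφx ϖ).2 hxϖ
  exact (CharP.charP_iff_prime_eq_zero hpp).2
    (map_natCast_eq_zero ϖ ε₀ (φ.comp (algebraMap R S)) hπ hpp.two_le hp)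

/-- **the splitting of the branch in the Artin–Schreier cover**: with `α c` ANY lifts to `R` of the
`p` roots `φ θ + c η` of `asPoly mod x`, `∏ c, (θ - α c) ∈ x S`. -/
theorem dvd_prod_of_artinSchreier [CharP D p] {ϖ ε₀ g₁ x : R}
    (hp : (p : R) = ε₀ * ϖ ^ (p - 1)) (hxϖ : x ∣ ϖ) {θ : S}
    (hAS : (1 + algebraMap R S ϖ * θ) ^ p = 1 + algebraMap R S (ϖ ^ p * g₁))
    (hϖ0 : algebraMap R S ϖ ≠ 0) (φ : S →+* D)
    (hφx : ∀ c : R, φ (algebraMap R S c) = 0 ↔ x ∣ c) {η : D}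
    (hη : η ^ (p - 1) = -φ (algebraMap R S ε₀)) (hη0 : η ≠ 0) (α : ZMod p → R)
    (hα : ∀ c, φ (algebraMap R S (α c)) = asRoot (φ θ) η c) :
    algebraMap R S x ∣ ∏ c : ZMod p, (θ - algebraMap R S (α c)) := by
  have hpp : p.Prime := Fact.out
  set π : R →+* D := φ.comp (algebraMap R S) with hπdef
  have hπ : π ϖ = 0 := (hφx ϖ).2 hxϖ
  have hroot : aeval θ (asPoly p ϖ ε₀ g₁) = 0 := aeval_asPoly_eq_zero ϖ ε₀ g₁ hpp hp hϖ0 hAS
  -- `β := φ θ` is a root of the reduction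
  have hβ : (φ θ) ^ p + π ε₀ * φ θ - π g₁ = 0 := by
    have h1 : φ (aeval θ (asPoly p ϖ ε₀ g₁)) = 0 := by rw [hroot, map_zero]
    rw [aeval_def, hom_eval₂, ← eval_map, map_asPoly ϖ ε₀ g₁ π hπ hpp.two_le] at h1
    rw [eval_sub, eval_add, eval_mul, eval_pow, eval_X, eval_C, eval_C] at h1
    exact h1
  have hprod := as_eq_prod (p := p) hβ hη hη0
  -- the difference of the two polynomials has all its coefficients in `(x)`
  have hmap : (asPoly p ϖ ε₀ g₁ - ∏ c : ZMod p, (X - C (α c))).map π = 0 := by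
    rw [Polynomial.map_sub, map_asPoly ϖ ε₀ g₁ π hπ hpp.two_le, hprod, Polynomial.map_prod,
      sub_eq_zero]
    refine Finset.prod_congr rfl fun c _ => ?_
    rw [Polynomial.map_sub, map_X, map_C]
    congr 2
    exact (hα c).symm
  have hdvd : C x ∣ asPoly p ϖ ε₀ g₁ - ∏ c : ZMod p, (X - C (α c)) := by
    rw [C_dvd_iff_dvd_coeff]
    intro n
    refine (hφx _).1 ?_
    have h := congrArg (fun P : D[X] => P.coeff n) hmap
    simp only [coeff_map, coeff_zero] at h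
    exact h
  obtain ⟨T, hT⟩ := hdvd
  have h2 := congrArg (aeval θ) hT
  rw [map_sub, hroot, map_mul, aeval_C, map_prod] at h2
  refine ⟨-aeval θ T, ?_⟩
  have h3 : ∏ c : ZMod p, aeval θ (X - C (α c)) = ∏ c : ZMod p, (θ - algebraMap R S (α c)) :=
    Finset.prod_congr rfl fun c _ => by rw [map_sub, aeval_X, aeval_C]
  rw [← h3]
  linear_combination -h2

variable [IsNoetherianRing S] [ValuationRing D]

/-- **(L-b)-ABSTRACT: the node rings of the Artin–Schreier cover are factorial.**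
`R` the node ring, `p = ε₀ ϖ ^ (p-1)`, `S = R[θ]` a noetherian domain with
`(1 + ϖ θ) ^ p = 1 + ϖ ^ p g₁`; `x ∣ ϖ` a local equation of a branch, `φ : S → D` ONE ring hom onto
a valuation ring restricting to `R ↠ R/(x) ≃ D`, `ε₀` a unit in `D` and `-ε₀ = η ^ (p-1)` in `D`.
Then the local ring of `S` at `φ⁻¹ 𝔪_D` is a UFD in which `x` is prime — the conclusion of
`EtaleUFD.ufd_of_split` VERBATIM. -/
theorem ufd_of_artinSchreier {ϖ ε₀ g₁ x : R}
    (hp : (p : R) = ε₀ * ϖ ^ (p - 1)) (hxϖ : x ∣ ϖ) {θ : S}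
    (hθ : Algebra.adjoin R {θ} = ⊤)
    (hAS : (1 + algebraMap R S ϖ * θ) ^ p = 1 + algebraMap R S (ϖ ^ p * g₁))
    (hϖ0 : algebraMap R S ϖ ≠ 0) (φ : S →+* D)
    (hφR : Function.Surjective (φ.comp (algebraMap R S)))
    (hφx : ∀ c : R, φ (algebraMap R S c) = 0 ↔ x ∣ c) {η : D}
    (hη : η ^ (p - 1) = -φ (algebraMap R S ε₀)) (hε : IsUnit (φ (algebraMap R S ε₀))) :
    UniqueFactorizationMonoid (Localization.AtPrime (Ideal.comap φ (maximalIdeal D))) ∧
      Prime (algebraMap S (Localization.AtPrime (Ideal.comap φ (maximalIdeal D)))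
        (algebraMap R S x)) := by
  have hpp : p.Prime := Fact.out
  have : CharP D p := charP_of_artinSchreier hp hxϖ φ hφx
  have hηu : IsUnit η := by
    have h1 : IsUnit (η ^ (p - 1)) := by rw [hη]; exact hε.neg
    exact (isUnit_pow_iff (Nat.sub_ne_zero_of_lt hpp.one_lt)).1 h1
  have hx0 : algebraMap R S x ≠ 0 := by
    intro h0
    obtain ⟨y, rfl⟩ := hxϖ
    exact hϖ0 (by rw [map_mul, h0, zero_mul])
  choose α hα using fun c : ZMod p => hφR (asRoot (φ θ) η c)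
  have hα' : ∀ c, φ (algebraMap R S (α c)) = asRoot (φ θ) η c := hα
  refine EtaleUFD.ufd_of_split hθ x hx0 α
    (dvd_prod_of_artinSchreier hp hxϖ hAS hϖ0 φ hφx hη hηu.ne_zero α hα') 0 φ ?_ ?_ hφR hφx
  · rw [hα' 0, asRoot_zero]
  · intro c hc
    rw [hα' 0, hα' c, asRoot_zero_sub]
    exact (((Ne.isUnit hc).map (ZMod.castHom (dvd_refl p) D)).mul hηu).neg

end Main

section Adjoin

variable {R K : Type*} [CommRing R] [CommRing K] [Algebra R K]

/-- `R[θ] ⊆ K` is noetherian when `R` is (Hilbert's basis theorem). -/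
theorem isNoetherianRing_adjoin_singleton [IsNoetherianRing R] (θ : K) :
    IsNoetherianRing (Algebra.adjoin R {θ}) := by
  have hfg : (Algebra.adjoin R ({θ} : Set K)).FG :=
    ⟨{θ}, by rw [Finset.coe_singleton]⟩
  have : Algebra.FiniteType R (Algebra.adjoin R ({θ} : Set K)) :=
    (Subalgebra.fg_iff_finiteType _).1 hfg
  exact Algebra.FiniteType.isNoetherianRing R _

/-- the generator `θ` of `R[θ] ⊆ K` as an element of `R[θ]`. -/
def adjoinGen (θ : K) : Algebra.adjoin R ({θ} : Set K) :=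
  ⟨θ, Algebra.self_mem_adjoin_singleton R θ⟩

theorem adjoin_adjoinGen (θ : K) :
    Algebra.adjoin R {adjoinGen (R := R) θ} = ⊤ := by
  have h := Algebra.adjoin_adjoin_coe_preimage (R := R) (s := ({θ} : Set K))
  have hset : ((↑) : Algebra.adjoin R ({θ} : Set K) → K) ⁻¹' {θ} = {adjoinGen (R := R) θ} := by
    ext y
    simp only [Set.mem_preimage, Set.mem_singleton_iff, adjoinGen, Subtype.ext_iff]
  rw [hset] at h
  exact h

variable {p : ℕ} [Fact p.Prime] {D : Type*} [CommRing D] [IsDomain D] [ValuationRing D]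
  [IsDomain K] [IsNoetherianRing R]

/-- **(L-b)-ABSTRACT, subalgebra form**: `S := R[θ] ⊆ K` (`K` a domain, e.g. the function field of
the cover), `R` noetherian: no instance or generation hypothesis left. -/
theorem ufd_of_artinSchreier_adjoin {ϖ ε₀ g₁ x : R}
    (hp : (p : R) = ε₀ * ϖ ^ (p - 1)) (hxϖ : x ∣ ϖ) {θ : K}
    (hAS : (1 + algebraMap R K ϖ * θ) ^ p = 1 + algebraMap R K (ϖ ^ p * g₁))
    (hϖ0 : algebraMap R K ϖ ≠ 0) (φ : Algebra.adjoin R ({θ} : Set K) →+* D)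
    (hφR : Function.Surjective (φ.comp (algebraMap R (Algebra.adjoin R ({θ} : Set K)))))
    (hφx : ∀ c : R, φ (algebraMap R (Algebra.adjoin R ({θ} : Set K)) c) = 0 ↔ x ∣ c) {η : D}
    (hη : η ^ (p - 1) = -φ (algebraMap R (Algebra.adjoin R ({θ} : Set K)) ε₀))
    (hε : IsUnit (φ (algebraMap R (Algebra.adjoin R ({θ} : Set K)) ε₀))) :
    UniqueFactorizationMonoid (Localization.AtPrime (Ideal.comap φ (maximalIdeal D))) ∧
      Prime (algebraMap (Algebra.adjoin R ({θ} : Set K))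
        (Localization.AtPrime (Ideal.comap φ (maximalIdeal D)))
        (algebraMap R (Algebra.adjoin R ({θ} : Set K)) x)) := by
  have : IsNoetherianRing (Algebra.adjoin R ({θ} : Set K)) := isNoetherianRing_adjoin_singleton θ
  refine ufd_of_artinSchreier (g₁ := g₁) (θ := adjoinGen (R := R) θ) hp hxϖ (adjoin_adjoinGen θ) ?_ ?_ φ hφR
    hφx hη hε
  · apply Subtype.ext
    simpa only [adjoinGen, Subalgebra.coe_pow, Subalgebra.coe_add, Subalgebra.coe_mul,
      Subalgebra.coe_one, Subalgebra.coe_algebraMap] using hAS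
  · intro h0
    apply hϖ0
    have := congrArg (Subtype.val) h0
    simpa only [Subalgebra.coe_algebraMap, Subalgebra.coe_zero] using this

end Adjoin

end Fermat.Agent.GF.KCover.Node.ASEtale
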