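/-
GATE-F (S44) / GF-KCOVER-INST, leaf (L-b)-PHI (helper47): **the ring hom `φ : R[θ] → D` of
`ASEtale.ufd_of_artinSchreier` from a residue map into a field.**

`Φ : S = R[θ] → κ` a ring hom into a FIELD (the residue map of the branch valuation `w_{i,k}` of the
cover, restricted to `R[θ]`), `D` a normal domain with `κ = Frac D` (the DVR `O_{C_i,s} = R/(x)`;
`κ(w_{i,k}) = κ(w_i) = Frac D` since `w_i` splits), `π : R → D` with `Φ|_R = π`.  Since `θ` is
integral over `R` (root of the monic `asPoly`), `Φ θ` is integral over `D`, hence in `D`: `Φ`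
factors through `φ : S → D`.

* `exists_hom_of_isIntegral` : the factorisation, for any integral generator;
* `isIntegral_of_artinSchreier` : `θ` is integral over `R`;
* `ufd_of_artinSchreier_residue` : `ASEtale.ufd_of_artinSchreier` with `φ` produced from `Φ`;
* `ufd_of_artinSchreier_residue_adjoin` : the same for `S := Algebra.adjoin R {θ}` in a domain.
-/
import Fermat.Agent.GF.KCover.Node.ASEtale

set_option autoImplicit false
set_option linter.unusedSectionVars false

noncomputable section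

namespace Fermat.Agent.GF.KCover.Node.ASResidue

open Polynomial IsLocalRing

section Factor

variable {R S κ D : Type*} [CommRing R] [CommRing S] [Algebra R S] [Field κ] [CommRing D]
  [IsDomain D] [IsIntegrallyClosed D] [Algebra D κ] [IsFractionRing D κ]

/-- the image of an `R`-integral element under `Φ` is integral over `D`. -/
theorem isIntegral_map {θ : S} (hint : IsIntegral R θ) (Φ : S →+* κ) (π : R →+* D)
    (hΦπ : ∀ r, Φ (algebraMap R S r) = algebraMap D κ (π r)) : IsIntegral D (Φ θ) := by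
  obtain ⟨P, hP, hroot⟩ := hint
  refine ⟨P.map π, hP.map π, ?_⟩
  have h1 : Φ (eval₂ (algebraMap R S) θ P) = 0 := by rw [hroot, map_zero]
  rw [hom_eval₂] at h1
  rw [eval₂_map]
  have hcomp : (algebraMap D κ).comp π = Φ.comp (algebraMap R S) := by
    ext r
    exact (hΦπ r).symm
  rw [hcomp]
  exact h1

/-- every element of `S = R[θ]` lands in `D`. -/
theorem mem_range_of_isIntegral {θ : S} (hθ : Algebra.adjoin R {θ} = ⊤) (hint : IsIntegral R θ)
    (Φ : S →+* κ) (π : R →+* D) (hΦπ : ∀ r, Φ (algebraMap R S r) = algebraMap D κ (π r)) (s : S) :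
    Φ s ∈ (algebraMap D κ).range := by
  have hθD : Φ θ ∈ (algebraMap D κ).range :=
    (IsIntegrallyClosed.isIntegral_iff (R := D) (K := κ)).1 (isIntegral_map hint Φ π hΦπ)
  have hs : s ∈ Algebra.adjoin R {θ} := by rw [hθ]; exact Algebra.mem_top
  induction hs using Algebra.adjoin_induction with
  | mem y hy =>
    rw [Set.mem_singleton_iff] at hy
    rw [hy]
    exact hθD
  | algebraMap r => exact ⟨π r, (hΦπ r).symm⟩
  | add y z _ _ hy hz =>
    rw [map_add]
    exact Subring.add_mem _ hy hz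
  | mul y z _ _ hy hz =>
    rw [map_mul]
    exact Subring.mul_mem _ hy hz

/-- **the factorisation of `Φ` through `D`.** -/
theorem exists_hom_of_isIntegral {θ : S} (hθ : Algebra.adjoin R {θ} = ⊤) (hint : IsIntegral R θ)
    (Φ : S →+* κ) (π : R →+* D) (hΦπ : ∀ r, Φ (algebraMap R S r) = algebraMap D κ (π r)) :
    ∃ φ : S →+* D, (∀ s, algebraMap D κ (φ s) = Φ s) ∧ φ.comp (algebraMap R S) = π := by
  have hinj : Function.Injective (algebraMap D κ) := IsFractionRing.injective D κ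
  let e : D ≃+* (algebraMap D κ).range := RingEquiv.ofBijective (algebraMap D κ).rangeRestrict
    ⟨fun a b hab => hinj (congrArg Subtype.val hab), (algebraMap D κ).rangeRestrict_surjective⟩
  let Φ' : S →+* (algebraMap D κ).range :=
    Φ.codRestrict _ (mem_range_of_isIntegral hθ hint Φ π hΦπ)
  have hφ : ∀ s, algebraMap D κ ((e.symm : _ →+* D).comp Φ' s) = Φ s := by
    intro s
    have h1 : e ((e.symm : _ →+* D).comp Φ' s) = Φ' s := by
      simp only [RingHom.comp_apply, RingEquiv.coe_toRingHom, RingEquiv.apply_symm_apply]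
    have h2 := congrArg Subtype.val h1
    exact h2
  refine ⟨(e.symm : _ →+* D).comp Φ', hφ, ?_⟩
  ext r
  apply hinj
  rw [← hΦπ]
  exact hφ (algebraMap R S r)

end Factor

section Packaged

variable {p : ℕ} [Fact p.Prime] {R S κ D : Type*} [CommRing R] [CommRing S] [Algebra R S]
  [Field κ] [CommRing D] [IsDomain S] [IsDomain D] [IsNoetherianRing S] [ValuationRing D]
  [Algebra D κ] [IsFractionRing D κ]

/-- `θ` is integral over `R` (root of the monic Artin–Schreier polynomial). -/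
theorem isIntegral_of_artinSchreier {ϖ ε₀ g₁ : R} (hp : (p : R) = ε₀ * ϖ ^ (p - 1)) {θ : S}
    (hAS : (1 + algebraMap R S ϖ * θ) ^ p = 1 + algebraMap R S (ϖ ^ p * g₁))
    (hϖ0 : algebraMap R S ϖ ≠ 0) : IsIntegral R θ := by
  have hpp : p.Prime := Fact.out
  have : Nontrivial R := by
    refine ⟨⟨ϖ, 0, fun h => hϖ0 (by rw [h, map_zero])⟩⟩
  exact ⟨ASEtale.asPoly p ϖ ε₀ g₁, ASEtale.monic_asPoly ϖ ε₀ g₁ hpp.one_lt.le,
    ASEtale.aeval_asPoly_eq_zero ϖ ε₀ g₁ hpp hp hϖ0 hAS⟩

/-- **(L-b)-ABSTRACT with `φ` produced from a residue map `Φ : R[θ] → κ = Frac D`.** -/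
theorem ufd_of_artinSchreier_residue {ϖ ε₀ g₁ x : R}
    (hp : (p : R) = ε₀ * ϖ ^ (p - 1)) (hxϖ : x ∣ ϖ) {θ : S}
    (hθ : Algebra.adjoin R {θ} = ⊤)
    (hAS : (1 + algebraMap R S ϖ * θ) ^ p = 1 + algebraMap R S (ϖ ^ p * g₁))
    (hϖ0 : algebraMap R S ϖ ≠ 0) (Φ : S →+* κ) (π : R →+* D)
    (hΦπ : ∀ r, Φ (algebraMap R S r) = algebraMap D κ (π r))
    (hπ : Function.Surjective π) (hπx : ∀ c : R, π c = 0 ↔ x ∣ c) {η : D}
    (hη : η ^ (p - 1) = -π ε₀) (hε : IsUnit (π ε₀)) :
    ∃ φ : S →+* D, (∀ s, algebraMap D κ (φ s) = Φ s) ∧ φ.comp (algebraMap R S) = π ∧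
      UniqueFactorizationMonoid (Localization.AtPrime (Ideal.comap φ (maximalIdeal D))) ∧
      Prime (algebraMap S (Localization.AtPrime (Ideal.comap φ (maximalIdeal D)))
        (algebraMap R S x)) := by
  obtain ⟨φ, hφΦ, hφπ⟩ := exists_hom_of_isIntegral hθ
    (isIntegral_of_artinSchreier (g₁ := g₁) hp hAS hϖ0) Φ π hΦπ
  have hφπ' : ∀ r, φ (algebraMap R S r) = π r := fun r => by
    rw [← hφπ]
    rfl
  refine ⟨φ, hφΦ, hφπ, ?_⟩
  refine ASEtale.ufd_of_artinSchreier (g₁ := g₁) hp hxϖ hθ hAS hϖ0 φ ?_ ?_ (η := η) ?_ ?_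
  · rw [hφπ]
    exact hπ
  · intro c
    rw [hφπ' c]
    exact hπx c
  · rw [hφπ' ε₀]
    exact hη
  · rw [hφπ' ε₀]
    exact hε

end Packaged

section Adjoin

variable {p : ℕ} [Fact p.Prime] {R K κ D : Type*} [CommRing R] [IsNoetherianRing R] [CommRing K]
  [IsDomain K] [Algebra R K] [Field κ] [CommRing D] [IsDomain D] [ValuationRing D]
  [Algebra D κ] [IsFractionRing D κ]

/-- **subalgebra form**: `S := R[θ] ⊆ K` (`K` a domain), `R` noetherian. -/
theorem ufd_of_artinSchreier_residue_adjoin {ϖ ε₀ g₁ x : R}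
    (hp : (p : R) = ε₀ * ϖ ^ (p - 1)) (hxϖ : x ∣ ϖ) {θ : K}
    (hAS : (1 + algebraMap R K ϖ * θ) ^ p = 1 + algebraMap R K (ϖ ^ p * g₁))
    (hϖ0 : algebraMap R K ϖ ≠ 0) (Φ : Algebra.adjoin R ({θ} : Set K) →+* κ) (π : R →+* D)
    (hΦπ : ∀ r, Φ (algebraMap R (Algebra.adjoin R ({θ} : Set K)) r) = algebraMap D κ (π r))
    (hπ : Function.Surjective π) (hπx : ∀ c : R, π c = 0 ↔ x ∣ c) {η : D}
    (hη : η ^ (p - 1) = -π ε₀) (hε : IsUnit (π ε₀)) :
    ∃ φ : Algebra.adjoin R ({θ} : Set K) →+* D, (∀ s, algebraMap D κ (φ s) = Φ s) ∧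
      φ.comp (algebraMap R (Algebra.adjoin R ({θ} : Set K))) = π ∧
      UniqueFactorizationMonoid (Localization.AtPrime (Ideal.comap φ (maximalIdeal D))) ∧
      Prime (algebraMap (Algebra.adjoin R ({θ} : Set K))
        (Localization.AtPrime (Ideal.comap φ (maximalIdeal D)))
        (algebraMap R (Algebra.adjoin R ({θ} : Set K)) x)) := by
  have : IsNoetherianRing (Algebra.adjoin R ({θ} : Set K)) :=
    ASEtale.isNoetherianRing_adjoin_singleton θ
  refine ufd_of_artinSchreier_residue (g₁ := g₁) (θ := ASEtale.adjoinGen (R := R) θ) hp hxϖ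
    (ASEtale.adjoin_adjoinGen θ) ?_ ?_ Φ π hΦπ hπ hπx hη hε
  · apply Subtype.ext
    simpa only [ASEtale.adjoinGen, Subalgebra.coe_pow, Subalgebra.coe_add, Subalgebra.coe_mul,
      Subalgebra.coe_one, Subalgebra.coe_algebraMap] using hAS
  · intro h0
    apply hϖ0
    have := congrArg (Subtype.val) h0
    simpa only [Subalgebra.coe_algebraMap, Subalgebra.coe_zero] using this

end Adjoin

end Fermat.Agent.GF.KCover.Node.ASResidue
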