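import Mathlib

/-!
# GATE-F / GF-KCOVER-NODE-MINPOLYCONGR (helper84 6355 [2](c), abstract, Mathlib-only)

`θ` integral over an integrally closed domain `R` (`F₀ = Frac R`), `n = [F₀(θ) : F₀]`, and `n`
`F₀`-embeddings `ε k : F' → L` with pairwise distinct `ε k θ`:

* `map_minpoly_eq_prod` : `(minpoly F₀ θ).map (F₀ → L) = ∏ k, (X - C (ε k θ))`;
* `map_minpoly_int_eq_prod` : the same for `minpoly R θ` (coefficients in `R`);
* `map_minpoly_residue_eq_prod` : for a subring `O ⊆ L` containing the image of `R` and the
  conjugates `ε k θ`, and ANY ring hom `ρ : O → κ` (the residue map of a valuation ring):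
  `(minpoly R θ).map (ρ ∘ (R → O)) = ∏ k, (X - C (ρ (ε k θ)))` — the reduction of the minimal
  polynomial is the product over the RESIDUES of the conjugates;
* `dvd_coeff_minpoly_sub_of_residue` : if moreover the residual product is the reduction of
  `Q ∈ R[X]` and `ker (R → κ) ⊆ x R` then `x ∣ (minpoly R θ - Q).coeff i` for all `i`
  (= the binder `hcong` of `ASCongr.ufd_of_artinSchreier_congr` with `Q = X ^ p + C e₀ * X - C g`);
* `coeff_prod_sub_prod_mem`, `dvd_coeff_sub_trans` : congruences of products, transitivity.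
-/

namespace Fermat.Agent.GF.KCover.Node.MinpolyCongr

open Polynomial

section Field

variable {F₀ F' L ι : Type*} [Field F₀] [Field F'] [Field L] [Algebra F₀ F'] [Algebra F₀ L]
  [Fintype ι]

/-- a monic polynomial of degree `card ι` with the pairwise distinct roots `a k` is
`∏ k, (X - C (a k))`. -/
theorem eq_prod_of_monic_of_roots {P : L[X]} (hmon : P.Monic) (a : ι → L)
    (hroot : ∀ k, P.IsRoot (a k)) (hdeg : P.natDegree = Fintype.card ι)
    (hinj : Function.Injective a) : P = ∏ k, (X - C (a k)) := by
  classical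
  set s : Finset L := Finset.univ.image a with hs
  have hscard : s.card = Fintype.card ι := by
    rw [hs, Finset.card_image_of_injective _ hinj, Finset.card_univ]
  have hP0 : P ≠ 0 := hmon.ne_zero
  have hle : s.val ≤ P.roots := by
    rw [Multiset.le_iff_subset s.nodup]
    intro b hb
    rw [Finset.mem_val, hs, Finset.mem_image] at hb
    obtain ⟨k, -, rfl⟩ := hb
    exact (mem_roots hP0).mpr (hroot k)
  have hcard : Multiset.card P.roots ≤ Multiset.card s.val := by
    rw [Finset.card_val, hscard, ← hdeg]
    exact P.card_roots'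
  have heq : s.val = P.roots := Multiset.eq_of_le_of_card_le hle hcard
  have hrc : Multiset.card P.roots = P.natDegree := by
    rw [← heq, Finset.card_val, hscard, hdeg]
  have h1 := prod_multiset_X_sub_C_of_monic_of_roots_card_eq hmon hrc
  rw [← h1, ← heq]
  show (s.val.map fun b => X - C b).prod = _
  rw [← Finset.prod_eq_multiset_prod, hs, Finset.prod_image fun x _ y _ hxy => hinj hxy]

/-- **(M1)** the minimal polynomial splits over `L` as the product over the conjugates. -/
theorem map_minpoly_eq_prod (θ : F') (hθ : IsIntegral F₀ θ) (ε : ι → (F' →ₐ[F₀] L))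
    (hdeg : (minpoly F₀ θ).natDegree = Fintype.card ι)
    (hinj : Function.Injective fun k => ε k θ) :
    (minpoly F₀ θ).map (algebraMap F₀ L) = ∏ k, (X - C (ε k θ)) := by
  refine eq_prod_of_monic_of_roots ((minpoly.monic hθ).map _) (fun k => ε k θ) ?_ ?_ hinj
  · intro k
    rw [IsRoot, eval_map, ← aeval_def, aeval_algHom_apply, minpoly.aeval, map_zero]
  · rw [(minpoly.monic hθ).natDegree_map, hdeg]

/-- the degree of the minimal polynomial from `card ι` pairwise distinct conjugates and
`[F' : F₀] = card ι`. -/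
theorem natDegree_minpoly_eq_card [FiniteDimensional F₀ F'] (θ : F')
    (ε : ι → (F' →ₐ[F₀] L)) (hrank : Module.finrank F₀ F' = Fintype.card ι)
    (hinj : Function.Injective fun k => ε k θ) :
    (minpoly F₀ θ).natDegree = Fintype.card ι := by
  classical
  have hθ : IsIntegral F₀ θ := IsIntegral.of_finite F₀ θ
  apply le_antisymm
  · rw [← hrank]
    exact minpoly.natDegree_le θ
  · set P := (minpoly F₀ θ).map (algebraMap F₀ L) with hP
    have hmon : P.Monic := (minpoly.monic hθ).map _
    have hP0 : P ≠ 0 := hmon.ne_zero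
    set s : Finset L := Finset.univ.image (fun k => ε k θ) with hs
    have hscard : s.card = Fintype.card ι := by
      rw [hs, Finset.card_image_of_injective _ hinj, Finset.card_univ]
    have hle : s.val ≤ P.roots := by
      rw [Multiset.le_iff_subset s.nodup]
      intro b hb
      rw [Finset.mem_val, hs, Finset.mem_image] at hb
      obtain ⟨k, -, rfl⟩ := hb
      refine (mem_roots hP0).mpr ?_
      rw [IsRoot, hP, eval_map, ← aeval_def, aeval_algHom_apply, minpoly.aeval, map_zero]
    calc Fintype.card ι = Multiset.card s.val := by rw [Finset.card_val, hscard]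
      _ ≤ Multiset.card P.roots := Multiset.card_le_card hle
      _ ≤ P.natDegree := P.card_roots'
      _ = (minpoly F₀ θ).natDegree := (minpoly.monic hθ).natDegree_map _

end Field

section Integral

variable {R F₀ F' L ι : Type*} [CommRing R] [IsDomain R] [IsIntegrallyClosed R] [Field F₀]
  [Algebra R F₀] [IsFractionRing R F₀] [Field F'] [Algebra F₀ F'] [Algebra R F']
  [IsScalarTower R F₀ F'] [Field L] [Algebra F₀ L] [Fintype ι]

/-- **(M1), integral form**: `minpoly R θ` maps to the product over the conjugates. -/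
theorem map_minpoly_int_eq_prod (θ : F') (hθ : IsIntegral R θ) (ε : ι → (F' →ₐ[F₀] L))
    (hdeg : (minpoly R θ).natDegree = Fintype.card ι)
    (hinj : Function.Injective fun k => ε k θ) :
    (minpoly R θ).map ((algebraMap F₀ L).comp (algebraMap R F₀)) = ∏ k, (X - C (ε k θ)) := by
  have h1 : minpoly F₀ θ = (minpoly R θ).map (algebraMap R F₀) :=
    minpoly.isIntegrallyClosed_eq_field_fractions' F₀ hθ
  have hdeg' : (minpoly F₀ θ).natDegree = Fintype.card ι := by
    rw [h1, (minpoly.monic hθ).natDegree_map, hdeg]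
  have h2 := map_minpoly_eq_prod θ hθ.tower_top ε hdeg' hinj
  rw [h1, Polynomial.map_map] at h2
  exact h2

/-- **(M3)** the reduction of the minimal polynomial is the product over the residues of the
conjugates: `O ⊆ L` a subring containing the image of `R` and the conjugates, `ρ : O → κ` any
ring hom. -/
theorem map_minpoly_residue_eq_prod {κ : Type*} [CommRing κ] (θ : F') (hθ : IsIntegral R θ)
    (ε : ι → (F' →ₐ[F₀] L)) (hdeg : (minpoly R θ).natDegree = Fintype.card ι)
    (hinj : Function.Injective fun k => ε k θ) (O : Subring L) (j : R →+* O)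
    (hj : ∀ r : R, ((j r : O) : L) = algebraMap F₀ L (algebraMap R F₀ r))
    (hεO : ∀ k, ε k θ ∈ O) (ρ : O →+* κ) :
    (minpoly R θ).map (ρ.comp j) = ∏ k, (X - C (ρ ⟨ε k θ, hεO k⟩)) := by
  have hO : (minpoly R θ).map j = ∏ k, (X - C (⟨ε k θ, hεO k⟩ : O)) := by
    apply Polynomial.map_injective O.subtype Subtype.val_injective
    rw [Polynomial.map_map, Polynomial.map_prod]
    have hcomp : O.subtype.comp j = (algebraMap F₀ L).comp (algebraMap R F₀) := by
      ext r
      exact hj r
    rw [hcomp, map_minpoly_int_eq_prod θ hθ ε hdeg hinj]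
    refine Finset.prod_congr rfl fun k _ => ?_
    rw [Polynomial.map_sub, map_X, map_C]
    rfl
  rw [← Polynomial.map_map, hO, Polynomial.map_prod]
  refine Finset.prod_congr rfl fun k _ => ?_
  rw [Polynomial.map_sub, map_X, map_C]

/-- **(M3), divisibility form** = the binder `hcong` of `ufd_of_artinSchreier_congr`:
if the product over the residues of the conjugates is the reduction of `Q ∈ R[X]` and the kernel
of `R → κ` is contained in `x R`, then `minpoly R θ ≡ Q` modulo `x`, coefficientwise. -/
theorem dvd_coeff_minpoly_sub_of_residue {κ : Type*} [CommRing κ] (θ : F') (hθ : IsIntegral R θ)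
    (ε : ι → (F' →ₐ[F₀] L)) (hdeg : (minpoly R θ).natDegree = Fintype.card ι)
    (hinj : Function.Injective fun k => ε k θ) (O : Subring L) (j : R →+* O)
    (hj : ∀ r : R, ((j r : O) : L) = algebraMap F₀ L (algebraMap R F₀ r))
    (hεO : ∀ k, ε k θ ∈ O) (ρ : O →+* κ) (x : R) (hker : ∀ r : R, ρ (j r) = 0 → x ∣ r)
    (Q : R[X]) (hQ : Q.map (ρ.comp j) = ∏ k, (X - C (ρ ⟨ε k θ, hεO k⟩))) (i : ℕ) :
    x ∣ (minpoly R θ - Q).coeff i := by
  apply hker
  have h1 := map_minpoly_residue_eq_prod θ hθ ε hdeg hinj O j hj hεO ρ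
  have h2 : (minpoly R θ - Q).map (ρ.comp j) = 0 := by
    rw [Polynomial.map_sub, h1, hQ, sub_self]
  have h3 := congrArg (fun P : κ[X] => P.coeff i) h2
  simpa [coeff_map] using h3

end Integral

section Congruence

variable {O ι : Type*} [CommRing O] [Fintype ι]

/-- **(M2)** congruent roots give coefficientwise congruent products. -/
theorem coeff_prod_sub_prod_mem (m : Ideal O) (a b : ι → O) (hab : ∀ k, a k - b k ∈ m) (i : ℕ) :
    (∏ k, (X - C (a k)) - ∏ k, (X - C (b k))).coeff i ∈ m := by
  have h1 : (∏ k, (X - C (a k))).map (Ideal.Quotient.mk m) =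
      (∏ k, (X - C (b k))).map (Ideal.Quotient.mk m) := by
    rw [Polynomial.map_prod, Polynomial.map_prod]
    refine Finset.prod_congr rfl fun k _ => ?_
    rw [Polynomial.map_sub, Polynomial.map_sub, map_X, map_C, map_C]
    congr 2
    exact (Ideal.Quotient.eq).mpr (hab k)
  have h2 : (∏ k, (X - C (a k)) - ∏ k, (X - C (b k))).map (Ideal.Quotient.mk m) = 0 := by
    rw [Polynomial.map_sub, h1, sub_self]
  have h3 := congrArg (fun P : (O ⧸ m)[X] => P.coeff i) h2
  simp only [coeff_map, coeff_zero] at h3
  exact Ideal.Quotient.eq_zero_iff_mem.mp h3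

/-- transitivity of coefficientwise congruence modulo `x`. -/
theorem dvd_coeff_sub_trans {x : O} {P Q S : O[X]} (h1 : ∀ i, x ∣ (P - Q).coeff i)
    (h2 : ∀ i, x ∣ (Q - S).coeff i) (i : ℕ) : x ∣ (P - S).coeff i := by
  have : P - S = (P - Q) + (Q - S) := by ring
  rw [this, coeff_add]
  exact dvd_add (h1 i) (h2 i)

end Congruence

end Fermat.Agent.GF.KCover.Node.MinpolyCongr
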