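import Mathlib
import Fermat.Agent.GF.KCover.Node.MinpolyCongr

/-!
# GATE-F / GF-KCOVER-NODE-MINPOLYCONGR, file 2: the `RingHom` spelling of helper84 6432 (U1)

`R` integrally closed domain, `F₀ = Frac R`, `F₀'/F₀` fields, `θ ∈ F₀'` integral over `R`,
`h := minpoly R θ`; `L` a field, `j : F₀ →+* L`, `ψ : ι → (F₀' →+* L)` with
`(ψ k).comp (algebraMap F₀ F₀') = j`, `card ι = h.natDegree`, `ψ k θ` pairwise distinct.

* `map_minpoly_eq_prod_hom` : `h.map (j.comp (algebraMap R F₀)) = ∏ k, (X - C (ψ k θ))`;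
* `coeff_minpoly_sub_prod_mem_nonunits` : `Ô` a valuation subring of `L` with `j(R) ⊆ Ô` and
  `α : ι → R` with `ψ k θ - j (α k) ∈ Ô.nonunits`: every coefficient `c_i` of
  `h - ∏ k, (X - C (α k))` has `j (c_i) ∈ Ô.nonunits`;
* `dvd_coeff_minpoly_sub_prod` : if moreover `∀ r : R, j r ∈ Ô.nonunits → x ∣ r` then
  `x ∣ (h - ∏ k, (X - C (α k))).coeff i`;
* `natDegree_minpoly_eq_card_hom` : `card ι = [F₀' : F₀]` and distinct conjugates give the degree.
-/

set_option linter.style.haveILetI false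

namespace Fermat.Agent.GF.KCover.Node.MinpolyCongr

open Polynomial

variable {R F₀ F₀' L ι : Type*} [CommRing R] [IsDomain R] [IsIntegrallyClosed R] [Field F₀]
  [Algebra R F₀] [IsFractionRing R F₀] [Field F₀'] [Algebra F₀ F₀'] [Algebra R F₀']
  [IsScalarTower R F₀ F₀'] [Field L] [Fintype ι]

/-- a ring hom `ψ : F₀' →+* L` over `j : F₀ →+* L` as an algebra hom for `j.toAlgebra`. -/
def homOver (j : F₀ →+* L) (ψ : F₀' →+* L) (hψ : ψ.comp (algebraMap F₀ F₀') = j) :
    letI := j.toAlgebra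
    F₀' →ₐ[F₀] L :=
  letI := j.toAlgebra
  { ψ with commutes' := fun r => RingHom.congr_fun hψ r }

theorem homOver_apply (j : F₀ →+* L) (ψ : F₀' →+* L) (hψ : ψ.comp (algebraMap F₀ F₀') = j)
    (y : F₀') :
    letI := j.toAlgebra
    homOver j ψ hψ y = ψ y := rfl

/-- **(U1), first statement.** -/
theorem map_minpoly_eq_prod_hom (θ : F₀') (hθ : IsIntegral R θ) (j : F₀ →+* L)
    (ψ : ι → (F₀' →+* L)) (hψ : ∀ k, (ψ k).comp (algebraMap F₀ F₀') = j)
    (hdeg : Fintype.card ι = (minpoly R θ).natDegree)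
    (hinj : Function.Injective fun k => ψ k θ) :
    (minpoly R θ).map (j.comp (algebraMap R F₀)) = ∏ k, (X - C (ψ k θ)) := by
  letI := j.toAlgebra
  exact map_minpoly_int_eq_prod θ hθ (fun k => homOver j (ψ k) (hψ k)) hdeg.symm hinj

/-- the degree of `minpoly R θ` from `card ι = [F₀' : F₀]` and pairwise distinct conjugates. -/
theorem natDegree_minpoly_eq_card_hom [FiniteDimensional F₀ F₀'] (θ : F₀') (hθ : IsIntegral R θ)
    (j : F₀ →+* L) (ψ : ι → (F₀' →+* L)) (hψ : ∀ k, (ψ k).comp (algebraMap F₀ F₀') = j)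
    (hrank : Module.finrank F₀ F₀' = Fintype.card ι)
    (hinj : Function.Injective fun k => ψ k θ) :
    Fintype.card ι = (minpoly R θ).natDegree := by
  letI := j.toAlgebra
  have h1 : minpoly F₀ θ = (minpoly R θ).map (algebraMap R F₀) :=
    minpoly.isIntegrallyClosed_eq_field_fractions' F₀ hθ
  have h2 := natDegree_minpoly_eq_card θ (fun k => homOver j (ψ k) (hψ k)) hrank hinj
  rw [h1, (minpoly.monic hθ).natDegree_map] at h2
  exact h2.symm

/-- **(U1), second statement**: coefficientwise congruence modulo the maximal ideal of a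
valuation subring `Ô` of `L`. -/
theorem coeff_minpoly_sub_prod_mem_nonunits (θ : F₀') (hθ : IsIntegral R θ) (j : F₀ →+* L)
    (ψ : ι → (F₀' →+* L)) (hψ : ∀ k, (ψ k).comp (algebraMap F₀ F₀') = j)
    (hdeg : Fintype.card ι = (minpoly R θ).natDegree)
    (hinj : Function.Injective fun k => ψ k θ) (Oh : ValuationSubring L)
    (hjR : ∀ r : R, j (algebraMap R F₀ r) ∈ Oh) (α : ι → R)
    (hα : ∀ k, ψ k θ - j (algebraMap R F₀ (α k)) ∈ Oh.nonunits) (i : ℕ) :
    j (algebraMap R F₀ ((minpoly R θ - ∏ k, (X - C (α k))).coeff i)) ∈ Oh.nonunits := by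
  have hψO : ∀ k, ψ k θ ∈ Oh := by
    intro k
    have h1 : ψ k θ = (ψ k θ - j (algebraMap R F₀ (α k))) + j (algebraMap R F₀ (α k)) := by ring
    rw [h1]
    exact Oh.add_mem _ _ (Oh.nonunits_le (hα k)) (hjR (α k))
  set a : ι → Oh := fun k => ⟨ψ k θ, hψO k⟩ with ha
  set b : ι → Oh := fun k => ⟨j (algebraMap R F₀ (α k)), hjR (α k)⟩ with hb
  have hab : ∀ k, a k - b k ∈ IsLocalRing.maximalIdeal Oh := by
    intro k
    obtain ⟨hmem, hmax⟩ := (Oh.mem_nonunits_iff_exists_mem_maximalIdeal).mp (hα k)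
    exact hmax
  have hmem := coeff_prod_sub_prod_mem (IsLocalRing.maximalIdeal Oh) a b hab i
  -- identify the coefficient
  have hmap : (minpoly R θ - ∏ k, (X - C (α k))).map (j.comp (algebraMap R F₀)) =
      (∏ k, (X - C (a k)) - ∏ k, (X - C (b k))).map Oh.subtype := by
    rw [Polynomial.map_sub, Polynomial.map_sub, map_minpoly_eq_prod_hom θ hθ j ψ hψ hdeg hinj,
      Polynomial.map_prod, Polynomial.map_prod, Polynomial.map_prod]
    congr 1
    · refine Finset.prod_congr rfl fun k _ => ?_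
      rw [Polynomial.map_sub, map_X, map_C]
      rfl
    · refine Finset.prod_congr rfl fun k _ => ?_
      rw [Polynomial.map_sub, Polynomial.map_sub, map_X, map_X, map_C, map_C]
      rfl
  have hcoeff := congrArg (fun P : L[X] => P.coeff i) hmap
  simp only [coeff_map] at hcoeff
  have hc : j (algebraMap R F₀ ((minpoly R θ - ∏ k, (X - C (α k))).coeff i)) =
      (((∏ k, (X - C (a k)) - ∏ k, (X - C (b k))).coeff i : Oh) : L) := hcoeff
  rw [hc]
  exact (Oh.mem_nonunits_iff_exists_mem_maximalIdeal).mpr ⟨Subtype.property _, hmem⟩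

/-- **(U1), divisibility form**: with `R ∩ 𝔪(Ô) ⊆ x R`. -/
theorem dvd_coeff_minpoly_sub_prod (θ : F₀') (hθ : IsIntegral R θ) (j : F₀ →+* L)
    (ψ : ι → (F₀' →+* L)) (hψ : ∀ k, (ψ k).comp (algebraMap F₀ F₀') = j)
    (hdeg : Fintype.card ι = (minpoly R θ).natDegree)
    (hinj : Function.Injective fun k => ψ k θ) (Oh : ValuationSubring L)
    (hjR : ∀ r : R, j (algebraMap R F₀ r) ∈ Oh) (α : ι → R)
    (hα : ∀ k, ψ k θ - j (algebraMap R F₀ (α k)) ∈ Oh.nonunits) (x : R)
    (hker : ∀ r : R, j (algebraMap R F₀ r) ∈ Oh.nonunits → x ∣ r) (i : ℕ) :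
    x ∣ (minpoly R θ - ∏ k, (X - C (α k))).coeff i :=
  hker _ (coeff_minpoly_sub_prod_mem_nonunits θ hθ j ψ hψ hdeg hinj Oh hjR α hα i)

end Fermat.Agent.GF.KCover.Node.MinpolyCongr
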