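import Mathlib
import Fermat.Agent.GF.KCover.Node.MinpolyCongrHom

/-!
# GATE-F / (U9) SplitAsm: `hcong` / `hsplit` / `halpha` of `NL0Asm.nl0_of_residue` from the sheet
residues (abstract glue of TraceRes (U2) + SheetRes (U7) + MinpolyCongr (U1) + NodePkg (Q4))

`R` integrally closed (`= O_s`), `F₀ = Frac R`, `[F₀' : F₀] = p`, `θ ∈ F₀'` integral over `R`;
`L` a field with a valuation subring `Ô`, `j : F₀ →+* L` with `j(R) ⊆ Ô`, `p ∈ 𝔪(Ô)`;
`p` ring homs `ψ k : F₀' →+* L` over `j` (`k : ZMod p`, the sheets) with residues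
`ψ k θ ≡ d * (a + k)` (`a : R`, `d : ℕ` prime to `p`): output of `TraceRes ∘ SheetRes`.

* `natCast_sub_notMem_nonunits` : for `k ≠ k'` in `ZMod p` and `p ∤ d`, `d * (k.val - k'.val)`
  is a unit of `Ô`;
* `injective_of_sheet_residues` : the conjugates `ψ k θ` are pairwise distinct;
* `dvd_coeff_of_sheet_residues` : with `R ∩ 𝔪(Ô) ⊆ x R`:
  `x ∣ (minpoly R θ - ∏ k, (X - C (d * (a + k.val)))).coeff n` (= `hcong`, then
  `NL0Plug.dvd_prod_of_coeff` gives `hsplit`);
* `isUnit_intCast_of_not_dvd`, `isUnit_sheet_diff` : in a local ring `D` of characteristic `p`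
  (or any ring where `p` is in the Jacobson radical... here: `[CharP D p]`), the differences
  `π (α j) - π (α k)` of the sheet residues are units (= `halpha`).
-/

set_option linter.unusedSectionVars false

namespace Fermat.Agent.GF.KCover.Node.SplitAsm

open Polynomial Fermat.Agent.GF.KCover.Node.MinpolyCongr

section Units

variable {L : Type*} [Field L] (Oh : ValuationSubring L) {p : ℕ} [Fact p.Prime]

/-- an integer prime to `p` is not in `𝔪(Ô)` when `p` is. -/
theorem intCast_notMem_nonunits (hpO : (p : L) ∈ Oh.nonunits) {n : ℤ} (hn : ¬ (p : ℤ) ∣ n) :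
    (n : L) ∉ Oh.nonunits := by
  have hp : p.Prime := Fact.out
  intro hmem
  have hcop : IsCoprime n (p : ℤ) := by
    rw [Int.isCoprime_iff_gcd_eq_one]
    have := (Int.prime_iff_natAbs_prime.mpr (by simpa using hp)).coprime_iff_not_dvd.mpr hn
    rw [Int.isCoprime_iff_gcd_eq_one] at this
    rwa [Int.gcd_comm]
  obtain ⟨u, v, huv⟩ := hcop
  have h1 : ((u : L) * (n : L) + (v : L) * (p : L)) = 1 := by
    have := congrArg (fun z : ℤ => (z : L)) huv
    push_cast at this
    exact this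
  have hval : Oh.valuation (1 : L) < 1 := by
    rw [← h1]
    refine lt_of_le_of_lt (Oh.valuation.map_add _ _) (max_lt ?_ ?_)
    · rw [map_mul]
      have hu : Oh.valuation (u : L) ≤ 1 := (Oh.valuation_le_one_iff _).mpr (intCast_mem Oh u)
      exact lt_of_le_of_lt (mul_le_of_le_one_left' hu) (Oh.mem_nonunits_iff.mp hmem)
    · rw [map_mul]
      have hv : Oh.valuation (v : L) ≤ 1 := (Oh.valuation_le_one_iff _).mpr (intCast_mem Oh v)
      exact lt_of_le_of_lt (mul_le_of_le_one_left' hv) (Oh.mem_nonunits_iff.mp hpO)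
  rw [map_one] at hval
  exact lt_irrefl _ hval

/-- for `k ≠ k'` in `ZMod p` the integer `k.val - k'.val` is prime to `p`. -/
theorem not_dvd_val_sub_val {k k' : ZMod p} (hkk : k ≠ k') :
    ¬ (p : ℤ) ∣ ((k.val : ℤ) - (k'.val : ℤ)) := by
  intro hdvd
  apply hkk
  have h1 : ((((k.val : ℤ) - (k'.val : ℤ)) : ℤ) : ZMod p) = 0 :=
    (ZMod.intCast_zmod_eq_zero_iff_dvd _ p).mpr hdvd
  push_cast at h1
  rw [ZMod.natCast_zmod_val, ZMod.natCast_zmod_val, sub_eq_zero] at h1
  exact h1

/-- `d * (k.val - k'.val)` is not in `𝔪(Ô)` for `k ≠ k'`, `p ∤ d`. -/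
theorem natCast_sub_notMem_nonunits (hpO : (p : L) ∈ Oh.nonunits) {d : ℕ} (hd : ¬ p ∣ d)
    {k k' : ZMod p} (hkk : k ≠ k') :
    (d : L) * ((k.val : L) - (k'.val : L)) ∉ Oh.nonunits := by
  have hp : p.Prime := Fact.out
  have hn : ¬ (p : ℤ) ∣ (d : ℤ) * ((k.val : ℤ) - (k'.val : ℤ)) := by
    intro h
    rcases (Int.prime_iff_natAbs_prime.mpr (by simpa using hp)).dvd_or_dvd h with h1 | h1
    · exact hd (by exact_mod_cast h1)
    · exact not_dvd_val_sub_val hkk h1
  have := intCast_notMem_nonunits Oh hpO hn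
  push_cast at this
  exact this

end Units

section Main

variable {R F₀ F₀' L : Type*} [CommRing R] [IsDomain R] [IsIntegrallyClosed R] [Field F₀]
  [Algebra R F₀] [IsFractionRing R F₀] [Field F₀'] [Algebra F₀ F₀'] [Algebra R F₀']
  [IsScalarTower R F₀ F₀'] [Field L] {p : ℕ} [Fact p.Prime]

/-- the sheet residues `α k := d * (a + k.val)`. -/
def sheetRes (p : ℕ) (d : ℕ) (a : R) (k : ZMod p) : R := (d : R) * (a + (k.val : R))

theorem map_sheetRes (j : F₀ →+* L) (d : ℕ) (a : R) (k : ZMod p) :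
    j (algebraMap R F₀ (sheetRes p d a k)) =
      (d : L) * (j (algebraMap R F₀ a) + (k.val : L)) := by
  unfold sheetRes
  rw [map_mul, map_mul, map_add, map_add, map_natCast, map_natCast, map_natCast, map_natCast]

/-- **the conjugates are pairwise distinct.** -/
theorem injective_of_sheet_residues (θ : F₀') (j : F₀ →+* L) (ψ : ZMod p → (F₀' →+* L))
    (Oh : ValuationSubring L) (hpO : (p : L) ∈ Oh.nonunits) {d : ℕ} (hd : ¬ p ∣ d) (a : R)
    (hres : ∀ k : ZMod p,
      ψ k θ - j (algebraMap R F₀ (sheetRes p d a k)) ∈ Oh.nonunits) :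
    Function.Injective fun k => ψ k θ := by
  intro k k' hkk'
  by_contra hne
  have h1 := natCast_sub_notMem_nonunits Oh hpO hd hne
  apply h1
  have h2 : (d : L) * ((k.val : L) - (k'.val : L)) =
      (ψ k' θ - j (algebraMap R F₀ (sheetRes p d a k'))) -
        (ψ k θ - j (algebraMap R F₀ (sheetRes p d a k))) := by
    rw [map_sheetRes, map_sheetRes]
    have : ψ k θ = ψ k' θ := hkk'
    rw [this]
    ring
  rw [h2]
  have hk := hres k
  have hk' := hres k'
  rw [ValuationSubring.mem_nonunits_iff_exists_mem_maximalIdeal] at hk hk' ⊢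
  obtain ⟨m1, hm1⟩ := hk
  obtain ⟨m2, hm2⟩ := hk'
  exact ⟨sub_mem m2 m1, (IsLocalRing.maximalIdeal Oh).sub_mem hm2 hm1⟩

/-- **`hcong` from the sheet residues.** -/
theorem dvd_coeff_of_sheet_residues [FiniteDimensional F₀ F₀']
    (hrank : Module.finrank F₀ F₀' = p) (θ : F₀') (hθ : IsIntegral R θ) (j : F₀ →+* L)
    (ψ : ZMod p → (F₀' →+* L)) (hψ : ∀ k, (ψ k).comp (algebraMap F₀ F₀') = j)
    (Oh : ValuationSubring L) (hjR : ∀ r : R, j (algebraMap R F₀ r) ∈ Oh)
    (hpO : (p : L) ∈ Oh.nonunits) {d : ℕ} (hd : ¬ p ∣ d) (a : R)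
    (hres : ∀ k : ZMod p,
      ψ k θ - j (algebraMap R F₀ (sheetRes p d a k)) ∈ Oh.nonunits)
    (x : R) (hker : ∀ r : R, j (algebraMap R F₀ r) ∈ Oh.nonunits → x ∣ r) (n : ℕ) :
    x ∣ (minpoly R θ - ∏ k : ZMod p, (X - C (sheetRes p d a k))).coeff n := by
  have hinj := injective_of_sheet_residues θ j ψ Oh hpO hd a hres
  have hcard : Module.finrank F₀ F₀' = Fintype.card (ZMod p) := by rw [ZMod.card, hrank]
  have hdeg := natDegree_minpoly_eq_card_hom θ hθ j ψ hψ hcard hinj
  exact dvd_coeff_minpoly_sub_prod θ hθ j ψ hψ hdeg hinj Oh hjR (sheetRes p d a) hres x hker n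

/-- the degree of `minpoly R θ` is `p`. -/
theorem natDegree_minpoly_of_sheet_residues [FiniteDimensional F₀ F₀']
    (hrank : Module.finrank F₀ F₀' = p) (θ : F₀') (hθ : IsIntegral R θ) (j : F₀ →+* L)
    (ψ : ZMod p → (F₀' →+* L)) (hψ : ∀ k, (ψ k).comp (algebraMap F₀ F₀') = j)
    (Oh : ValuationSubring L) (hpO : (p : L) ∈ Oh.nonunits) {d : ℕ} (hd : ¬ p ∣ d) (a : R)
    (hres : ∀ k : ZMod p,
      ψ k θ - j (algebraMap R F₀ (sheetRes p d a k)) ∈ Oh.nonunits) :
    (minpoly R θ).natDegree = p := by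
  have hinj := injective_of_sheet_residues θ j ψ Oh hpO hd a hres
  have hcard : Module.finrank F₀ F₀' = Fintype.card (ZMod p) := by rw [ZMod.card, hrank]
  rw [← natDegree_minpoly_eq_card_hom θ hθ j ψ hψ hcard hinj, ZMod.card]

end Main

section Halpha

variable {R D : Type*} [CommRing R] [CommRing D] {p : ℕ} [Fact p.Prime] [CharP D p]

/-- in characteristic `p` an integer prime to `p` is a unit. -/
theorem isUnit_intCast_of_not_dvd {n : ℤ} (hn : ¬ (p : ℤ) ∣ n) : IsUnit ((n : ℤ) : D) := by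
  have hp : p.Prime := Fact.out
  have hcop : IsCoprime n (p : ℤ) := by
    have := (Int.prime_iff_natAbs_prime.mpr (by simpa using hp)).coprime_iff_not_dvd.mpr hn
    exact this.symm
  obtain ⟨u, v, huv⟩ := hcop
  have h1 : ((u : D) * (n : D) + (v : D) * ((p : ℤ) : D)) = 1 := by
    have := congrArg (fun z : ℤ => (z : D)) huv
    push_cast at this
    push_cast
    exact this
  have hp0 : (((p : ℤ)) : D) = 0 := by
    push_cast
    exact CharP.cast_eq_zero D p
  rw [hp0, mul_zero, add_zero] at h1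
  exact IsUnit.of_mul_eq_one _ (by rw [mul_comm]; exact h1)

/-- **`halpha`**: the sheet residues are pairwise distinct modulo the node:
`π (α j) - π (α k)` is a unit of `D` for `j ≠ k`. -/
theorem isUnit_sheet_diff (π : R →+* D) {d : ℕ} (hd : ¬ p ∣ d) (a : R) {j k : ZMod p}
    (hjk : k ≠ j) : IsUnit (π (sheetRes p d a j) - π (sheetRes p d a k)) := by
  have hp : p.Prime := Fact.out
  have hn : ¬ (p : ℤ) ∣ (d : ℤ) * ((j.val : ℤ) - (k.val : ℤ)) := by
    intro h
    rcases (Int.prime_iff_natAbs_prime.mpr (by simpa using hp)).dvd_or_dvd h with h1 | h1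
    · exact hd (by exact_mod_cast h1)
    · exact not_dvd_val_sub_val (Ne.symm hjk) h1
  have h1 := isUnit_intCast_of_not_dvd (D := D) hn
  have h2 : π (sheetRes p d a j) - π (sheetRes p d a k) =
      (((d : ℤ) * ((j.val : ℤ) - (k.val : ℤ)) : ℤ) : D) := by
    unfold sheetRes
    push_cast
    rw [map_mul, map_mul, map_add, map_add, map_natCast, map_natCast, map_natCast]
    ring
  rw [h2]
  exact h1

end Halpha

end Fermat.Agent.GF.KCover.Node.SplitAsm
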