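/-
GATE-F (S44) / GF-KCOVER-INST, node side, leaf (U10) GF-KCOVER-NODE-U10-PKGASM (helper45):
**the downstairs binders of `NL0Plug.nl0_residue_ordRed` discharged from `B`-level data.**

Downstairs we have the chart ring `B` (a domain; consumer: `BRingK0`), the centre `𝔫` of the point,
`R` ANY ring with `[IsLocalization.AtPrime R 𝔫]` (consumer: `KrullHeightOne.locSub F0 𝔫`), the two
reductions `rd_i : B ↠ E_i` onto the coordinate rings of the two components (consumer: `redC1K0`,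
`redC2K0` onto `CRing`), the primes `𝔫'_i` of `E_i` with `rd_i⁻¹ 𝔫'_i = 𝔫`, local generators
`y_i ∈ B` of `ker rd_i` in the `hker` shape of `Upstairs.nl0` (helper75 `exists_gen_i`) and the
thickness-one equation `ℓ · s = c · y₂ · y₁` with `s c ∉ 𝔫` (helper75 `thickness_one`).

With `x_i := algebraMap B R y_i`, `p0 := algebraMap B R ℓ`, `π_i := NodePkg.piHom …` the binders
`hxy hx_i0 hπ_i hπx_i hρπ_i hvD` of `nl0_residue_ordRed` are THEOREMS; the sheet binders are restated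
WITHOUT `π_i`, `D_i`:
  `hθ_i : R_i.red (θ) = R_i.red (α_i j_i)`, `hα_i : IsUnit (α_i j_i − α_i k)` in `R`,
  `hnode : ¬ IsUnit (α₁ j₁ − α₂ j₂)` in `R`.

* `red_eq_piHom`        : `Φ = rd` on `B` ⟹ `Φ = algebraMap D Ft ∘ π` on `R`;
* `ord_eq_zero_of_isUnit_loc` : `hvD` from `ord = 0` on `E ∖ 𝔫'`;
* `nl0_of_pkg_gen`      : general `D_i` (any `IsLocalization.AtPrime D_i 𝔫'_i`), `hxy` in `R`;
* `nl0_of_pkg_loc`      : `D_i := Localization.AtPrime 𝔫'_i`, `E_i` Dedekind, `𝔫'_i ≠ ⊥`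
                           (no `D_i`, no `π_i` in the statement), `hxy` in `R`;
* `nl0_of_pkg`          : the node, from the thickness equation `ℓ · s = c · y₂ · y₁`;
* `nl0_of_pkg_typeI`    : a smooth point (ONE branch), from `ℓ · s = c · y₁`.
-/
import Fermat.Agent.GF.KCover.Node.NL0Plug
import Fermat.Agent.GF.KCover.Node.NodePkg
import Fermat.Agent.GF.KCover.Node.SplitAsm

set_option autoImplicit false
set_option linter.unusedSectionVars false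
set_option linter.unusedVariables false

noncomputable section

open AlgebraicCurve

namespace Fermat.Agent.GF.KCover.Node.PkgAsm

open IsLocalRing
open Fermat.Agent.GJ.J1 Fermat.Agent.S24 Fermat.Agent.GF.Trop
open Fermat.Agent.GF.KCover.Node.NLOrdRed
open Fermat.Agent.GF.KCover.Node

/-! ### `Φ = rd` on `B` extends to `R = B_𝔫` -/

section RedEq

variable {B E : Type*} [CommRing B] [CommRing E]

/-- a ring hom `Φ : S → Ft` which is `rd` on `B` is `algebraMap D Ft ∘ π` on `R = B_𝔫`. -/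
theorem red_eq_piHom (𝔫 : Ideal B) [𝔫.IsPrime] (R : Type*) [CommRing R] [Algebra B R]
    [IsLocalization.AtPrime R 𝔫] (rd : B →+* E) (𝔫' : Ideal E) [𝔫'.IsPrime]
    (h𝔫 : Ideal.comap rd 𝔫' = 𝔫) (D : Type*) [CommRing D] [Algebra E D]
    [IsLocalization.AtPrime D 𝔫'] {S Ft : Type*} [CommRing S] [Algebra R S] [CommRing Ft]
    [Algebra E Ft] [Algebra D Ft] [IsScalarTower E D Ft] (Φ : S →+* Ft)
    (hΦB : ∀ b : B, Φ (algebraMap R S (algebraMap B R b)) = algebraMap E Ft (rd b)) (r : R) :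
    Φ (algebraMap R S r) = algebraMap D Ft (NodePkg.piHom 𝔫 R rd 𝔫' h𝔫 D r) := by
  have h : (Φ.comp (algebraMap R S)) = (algebraMap D Ft).comp (NodePkg.piHom 𝔫 R rd 𝔫' h𝔫 D) := by
    apply IsLocalization.ringHom_ext 𝔫.primeCompl
    apply RingHom.ext
    intro b
    rw [RingHom.comp_apply, RingHom.comp_apply, RingHom.comp_apply, RingHom.comp_apply, hΦB,
      NodePkg.piHom_algebraMap, ← IsScalarTower.algebraMap_apply]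
  exact RingHom.congr_fun h r

end RedEq

/-! ### units of `E_{𝔫'}` have order zero -/

section OrdUnit

variable {k Ft : Type*} [Field k] [Field Ft] [Algebra k Ft]

/-- `hvD`: if `ord = 0` on `E ∖ 𝔫'` then `ord = 0` on the units of `D = E_{𝔫'}`. -/
theorem ord_eq_zero_of_isUnit_loc {E : Type*} [CommRing E] [IsDomain E] (𝔫' : Ideal E)
    [𝔫'.IsPrime] (D : Type*) [CommRing D] [Algebra E D] [IsLocalization.AtPrime D 𝔫']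
    [Algebra E Ft] [Algebra D Ft] [IsScalarTower E D Ft]
    (hinj : Function.Injective (algebraMap E Ft)) (Pl : Place k Ft)
    (hvE : ∀ e : E, e ∉ 𝔫' → Pl.ord (algebraMap E Ft e) = 0) (d : D) (hd : IsUnit d) :
    Pl.ord (algebraMap D Ft d) = 0 := by
  obtain ⟨a, t, rfl⟩ := IsLocalization.exists_mk'_eq 𝔫'.primeCompl d
  have ha : a ∉ 𝔫' := (IsLocalization.AtPrime.isUnit_mk'_iff D 𝔫' a t).1 hd
  have ht : (t : E) ∉ 𝔫' := t.2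
  have hspec : algebraMap D Ft (IsLocalization.mk' D a t) * algebraMap E Ft (t : E) =
      algebraMap E Ft a := by
    rw [IsScalarTower.algebraMap_apply E D Ft (t : E), ← map_mul, IsLocalization.mk'_spec,
      ← IsScalarTower.algebraMap_apply]
  have ha0 : algebraMap E Ft a ≠ 0 := by
    intro h
    apply ha
    rw [hinj (h.trans (map_zero _).symm)]
    exact 𝔫'.zero_mem
  have ht0 : algebraMap E Ft (t : E) ≠ 0 := by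
    intro h
    apply ht
    rw [hinj (h.trans (map_zero _).symm)]
    exact 𝔫'.zero_mem
  have hd0 : algebraMap D Ft (IsLocalization.mk' D a t) ≠ 0 := by
    intro h
    rw [h, zero_mul] at hspec
    exact ha0 hspec.symm
  have h1 := Place.ord_mul Pl hd0 ht0
  rw [hspec, hvE a ha, hvE _ ht] at h1
  omega

end OrdUnit

/-! ### the downstairs block, binder for binder (one branch) -/

section Block

variable {Kc F' k Ft : Type*} [Field Kc] [Field F'] [Algebra Kc F'] [Field k] [Field Ft]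
  [Algebra k Ft]

variable {B E : Type*} [CommRing B] [IsDomain B] [CommRing E] [IsDomain E]

variable {R S K0 : Type*} [CommRing R] [CommRing S] [Algebra R S] [Field K0] [Algebra S K0]

/-- **`hρπ`** of `nl0_residue_ordRed` in the `RedData` spelling: `R'.red = rd` on `B` extends to
`R'.red = algebraMap D Ft ∘ π` on `R = B_𝔫`. -/
theorem red_eq_piHom_redData (𝔫 : Ideal B) [𝔫.IsPrime] [Algebra B R] [IsLocalization.AtPrime R 𝔫]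
    (rd : B →+* E) (𝔫' : Ideal E) [𝔫'.IsPrime] (h𝔫 : Ideal.comap rd 𝔫' = 𝔫)
    (D : Type*) [CommRing D] [Algebra E D] [IsLocalization.AtPrime D 𝔫'] [Algebra D Ft]
    [Algebra E Ft] [IsScalarTower E D Ft]
    (ι' : K0 →+* F') (R' : RedData Kc F' k Ft)
    (hSW : ∀ a : S, ι' (algebraMap S K0 a) ∈ R'.Rw)
    (hρB : ∀ b : B, R'.red ⟨ι' (algebraMap S K0 (algebraMap R S (algebraMap B R b))), hSW _⟩ =
      algebraMap E Ft (rd b)) (r : R) :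
    R'.red ⟨ι' (algebraMap S K0 (algebraMap R S r)), hSW _⟩ =
      algebraMap D Ft (NodePkg.piHom 𝔫 R rd 𝔫' h𝔫 D r) := by
  let Φ : S →+* Ft := (resHom ι' R').comp
    ((algebraMap S K0).codRestrict (R'.Rw.comap ι').toSubring fun a => hSW a)
  have hΦ : ∀ a : S, Φ a = R'.red ⟨ι' (algebraMap S K0 a), hSW a⟩ := fun a => rfl
  rw [← hΦ]
  exact red_eq_piHom 𝔫 R rd 𝔫' h𝔫 D Φ (fun b => by rw [hΦ]; exact hρB b) r

/-- **The downstairs block of `NL0Plug.nl0_residue_ordRed`, one branch, binder for binder**: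
with `x := algebraMap B R y`, `π := NodePkg.piHom 𝔫 R rd 𝔫' h𝔫 D`:
`hπ` (surjective), `hπx` (`π c = 0 ↔ x ∣ c`), `hρπ`, and `π` is local. -/
theorem branch_block (𝔫 : Ideal B) [𝔫.IsPrime] [Algebra B R] [IsLocalization.AtPrime R 𝔫]
    (rd : B →+* E) (hrd : Function.Surjective rd) (𝔫' : Ideal E) [𝔫'.IsPrime]
    (h𝔫 : Ideal.comap rd 𝔫' = 𝔫)
    (D : Type*) [CommRing D] [Algebra E D] [IsLocalization.AtPrime D 𝔫'] [Algebra D Ft]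
    [Algebra E Ft] [IsScalarTower E D Ft]
    (y : B) (hy : rd y = 0) (hgen : ∀ b : B, rd b = 0 → ∃ t : B, t ∉ 𝔫 ∧ y ∣ t * b)
    (ι' : K0 →+* F') (R' : RedData Kc F' k Ft)
    (hSW : ∀ a : S, ι' (algebraMap S K0 a) ∈ R'.Rw)
    (hρB : ∀ b : B, R'.red ⟨ι' (algebraMap S K0 (algebraMap R S (algebraMap B R b))), hSW _⟩ =
      algebraMap E Ft (rd b)) :
    Function.Surjective (NodePkg.piHom 𝔫 R rd 𝔫' h𝔫 D) ∧
    (∀ c : R, NodePkg.piHom 𝔫 R rd 𝔫' h𝔫 D c = 0 ↔ algebraMap B R y ∣ c) ∧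
    (∀ r : R, R'.red ⟨ι' (algebraMap S K0 (algebraMap R S r)), hSW _⟩ =
      algebraMap D Ft (NodePkg.piHom 𝔫 R rd 𝔫' h𝔫 D r)) ∧
    (∀ c : R, IsUnit (NodePkg.piHom 𝔫 R rd 𝔫' h𝔫 D c) ↔ IsUnit c) :=
  ⟨NodePkg.piHom_surjective 𝔫 R rd 𝔫' h𝔫 D hrd,
    NodePkg.piHom_eq_zero_iff_dvd_of_gen 𝔫 R rd 𝔫' h𝔫 D y hy hgen,
    red_eq_piHom_redData 𝔫 rd 𝔫' h𝔫 D ι' R' hSW hρB,
    NodePkg.isUnit_piHom_iff 𝔫 R rd 𝔫' h𝔫 D⟩

end Block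

/-! ### `hα` in `R` (no `CharP` instance): the sheet residues are pairwise incongruent -/

section SheetUnits

variable {R : Type*} [CommRing R] [IsLocalRing R]

/-- an integer prime to `p` is a unit of a local ring in which `p` is not a unit. -/
theorem isUnit_intCast_of_not_dvd_local {p : ℕ} (hp : p.Prime) (hpR : ¬ IsUnit ((p : ℕ) : R))
    {n : ℤ} (hn : ¬ (p : ℤ) ∣ n) : IsUnit ((n : ℤ) : R) := by
  have hcop : IsCoprime (p : ℤ) n :=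
    (Nat.prime_iff_prime_int.1 hp).irreducible.coprime_iff_not_dvd.2 hn
  obtain ⟨a, b, hab⟩ := hcop
  have h1 : ((b : ℤ) : R) * ((n : ℤ) : R) = 1 - ((a : ℤ) : R) * ((p : ℕ) : R) := by
    have := congrArg (fun z : ℤ => (z : R)) hab
    push_cast at this
    rw [← this]
    ring
  have h2 : ((a : ℤ) : R) * ((p : ℕ) : R) ∈ nonunits R := by
    have hm : ((p : ℕ) : R) ∈ maximalIdeal R := (mem_maximalIdeal _).2 hpR
    exact (mem_maximalIdeal _).1 (Ideal.mul_mem_left _ _ hm)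
  have h3 : IsUnit (((b : ℤ) : R) * ((n : ℤ) : R)) := by
    rw [h1]
    exact isUnit_one_sub_self_of_mem_nonunits _ h2
  exact isUnit_of_mul_isUnit_right h3

/-- **`hα_i` of `nl0_of_pkg` for helper50's sheet residues `α k := d · (a + k)`**, in `R` itself. -/
theorem isUnit_sheetRes_sub {p : ℕ} [Fact p.Prime] (hpR : ¬ IsUnit ((p : ℕ) : R)) {d : ℕ}
    (hd : ¬ p ∣ d) (a : R) {j k : ZMod p} (hjk : k ≠ j) :
    IsUnit (SplitAsm.sheetRes p d a j - SplitAsm.sheetRes p d a k) := by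
  have hp : p.Prime := Fact.out
  have hn : ¬ (p : ℤ) ∣ (d : ℤ) * ((j.val : ℤ) - (k.val : ℤ)) := by
    intro h
    rcases (Nat.prime_iff_prime_int.1 hp).dvd_or_dvd h with h1 | h1
    · exact hd (Int.natCast_dvd_natCast.1 h1)
    · apply hjk
      have h2 : ((k.val : ℤ) : ZMod p) = ((j.val : ℤ) : ZMod p) := by
        have h3 : (((j.val : ℤ) - (k.val : ℤ) : ℤ) : ZMod p) = 0 :=
          (ZMod.intCast_zmod_eq_zero_iff_dvd _ p).2 h1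
        push_cast at h3
        push_cast
        exact (sub_eq_zero.1 h3).symm
      push_cast at h2
      rwa [ZMod.natCast_zmod_val, ZMod.natCast_zmod_val] at h2
  have h := isUnit_intCast_of_not_dvd_local (R := R) hp hpR hn
  have e : SplitAsm.sheetRes p d a j - SplitAsm.sheetRes p d a k =
      (((d : ℤ) * ((j.val : ℤ) - (k.val : ℤ)) : ℤ) : R) := by
    unfold SplitAsm.sheetRes
    push_cast
    ring
  rw [e]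
  exact h

end SheetUnits

/-! ### the assembly -/

section Asm

variable {Kc F' k Ft Ft₂ : Type*} [Field Kc] [Field F'] [Algebra Kc F'] [Field k] [Field Ft]
  [Algebra k Ft] [Field Ft₂] [Algebra k Ft₂]

variable {B E₁ E₂ : Type*} [CommRing B] [IsDomain B] [CommRing E₁] [IsDomain E₁]
  [CommRing E₂] [IsDomain E₂]

variable {R S K0 : Type*} [CommRing R] [CommRing S] [IsDomain S]
  [IsNoetherianRing S] [Algebra R S] [Field K0] [Algebra S K0] [IsFractionRing S K0]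
  {ι : Type*} [Fintype ι] [DecidableEq ι]

set_option maxHeartbeats 1600000 in
/-- **NL0 at a point of the cover from `B`-level data, general `D_i`.** -/
theorem nl0_of_pkg_gen (𝔫 : Ideal B) [𝔫.IsPrime] [Algebra B R] [IsLocalization.AtPrime R 𝔫]
    -- branch 1 downstairs
    (rd₁ : B →+* E₁) (hrd₁ : Function.Surjective rd₁) (𝔫'₁ : Ideal E₁) [𝔫'₁.IsPrime]
    (h𝔫₁ : Ideal.comap rd₁ 𝔫'₁ = 𝔫)
    (D₁ : Type*) [CommRing D₁] [IsDomain D₁] [ValuationRing D₁] [IsIntegrallyClosed D₁]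
    [Algebra E₁ D₁] [IsLocalization.AtPrime D₁ 𝔫'₁] [Algebra D₁ Ft] [IsFractionRing D₁ Ft]
    [Algebra E₁ Ft] [IsScalarTower E₁ D₁ Ft]
    -- branch 2 downstairs
    (rd₂ : B →+* E₂) (hrd₂ : Function.Surjective rd₂) (𝔫'₂ : Ideal E₂) [𝔫'₂.IsPrime]
    (h𝔫₂ : Ideal.comap rd₂ 𝔫'₂ = 𝔫)
    (D₂ : Type*) [CommRing D₂] [IsDomain D₂] [ValuationRing D₂] [IsIntegrallyClosed D₂]
    [Algebra E₂ D₂] [IsLocalization.AtPrime D₂ 𝔫'₂] [Algebra D₂ Ft₂] [IsFractionRing D₂ Ft₂]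
    [Algebra E₂ Ft₂] [IsScalarTower E₂ D₂ Ft₂]
    -- local equations and thickness
    (y₁ y₂ l : B) (hy₁ : rd₁ y₁ = 0) (hy₂ : rd₂ y₂ = 0)
    (hgen₁ : ∀ b : B, rd₁ b = 0 → ∃ t : B, t ∉ 𝔫 ∧ y₁ ∣ t * b)
    (hgen₂ : ∀ b : B, rd₂ b = 0 → ∃ t : B, t ∉ 𝔫 ∧ y₂ ∣ t * b)
    (hxy : algebraMap B R l ∣ algebraMap B R y₂ * algebraMap B R y₁)
    -- upstairs
    (ι' : K0 →+* F') (R₁ : RedData Kc F' k Ft) (hun₁ : Unram R₁)
    (R₂ : RedData Kc F' k Ft₂) (Pl : Place k Ft)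
    {θ : S} (hθ : Algebra.adjoin R {θ} = ⊤) (hint : IsIntegral R θ)
    (hx₁0 : algebraMap R S (algebraMap B R y₁) ≠ 0)
    (hx₂0 : algebraMap R S (algebraMap B R y₂) ≠ 0)
    (hSW₁ : ∀ a : S, ι' (algebraMap S K0 a) ∈ R₁.Rw)
    (hSW₂ : ∀ a : S, ι' (algebraMap S K0 a) ∈ R₂.Rw)
    (hρB₁ : ∀ b : B, R₁.red ⟨ι' (algebraMap S K0 (algebraMap R S (algebraMap B R b))), hSW₁ _⟩ =
      algebraMap E₁ Ft (rd₁ b))
    (hρB₂ : ∀ b : B, R₂.red ⟨ι' (algebraMap S K0 (algebraMap R S (algebraMap B R b))), hSW₂ _⟩ =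
      algebraMap E₂ Ft₂ (rd₂ b))
    (hvE : ∀ e : E₁, e ∉ 𝔫'₁ → Pl.ord (algebraMap E₁ Ft e) = 0)
    -- the sheets
    (α₁ : ι → R)
    (hsplit₁ : algebraMap R S (algebraMap B R y₁) ∣ ∏ i, (θ - algebraMap R S (α₁ i)))
    (j₁ : ι)
    (hθ₁ : R₁.red ⟨ι' (algebraMap S K0 θ), hSW₁ θ⟩ =
      R₁.red ⟨ι' (algebraMap S K0 (algebraMap R S (α₁ j₁))), hSW₁ _⟩)
    (hα₁ : ∀ i, i ≠ j₁ → IsUnit (α₁ j₁ - α₁ i))
    (α₂ : ι → R)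
    (hsplit₂ : algebraMap R S (algebraMap B R y₂) ∣ ∏ i, (θ - algebraMap R S (α₂ i)))
    (j₂ : ι)
    (hθ₂ : R₂.red ⟨ι' (algebraMap S K0 θ), hSW₂ θ⟩ =
      R₂.red ⟨ι' (algebraMap S K0 (algebraMap R S (α₂ j₂))), hSW₂ _⟩)
    (hα₂ : ∀ i, i ≠ j₂ → IsUnit (α₂ j₂ - α₂ i))
    (hnode : ¬ IsUnit (α₁ j₁ - α₂ j₂))
    (m : ℕ) (u : K0) (hu0 : u ≠ 0) (hu1 : IsU R₁ (ι' u)) (hu2 : IsU R₂ (ι' u))
    (hhor : ∀ V : ValuationSubring K0, IsDiscreteValuationRing V →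
      (∀ a : S, algebraMap S K0 a ∈ V) →
      (algebraMap S K0 (algebraMap R S (algebraMap B R l)))⁻¹ ∈ V →
      ∃ z : K0, z ≠ 0 ∧ u * z ^ m ∈ V ∧ (u * z ^ m)⁻¹ ∈ V) :
    (m : ℤ) ∣ ordRed R₁ hun₁ Pl (ι' u) := by
  have hloc : IsLocalRing R := IsLocalization.AtPrime.isLocalRing R 𝔫
  -- the residue maps on `S`
  let Φ₁ : S →+* Ft := (resHom ι' R₁).comp
    ((algebraMap S K0).codRestrict (R₁.Rw.comap ι').toSubring fun a => hSW₁ a)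
  have hΦ₁ : ∀ a : S, Φ₁ a = R₁.red ⟨ι' (algebraMap S K0 a), hSW₁ a⟩ := fun a => rfl
  let Φ₂ : S →+* Ft₂ := (resHom ι' R₂).comp
    ((algebraMap S K0).codRestrict (R₂.Rw.comap ι').toSubring fun a => hSW₂ a)
  have hΦ₂ : ∀ a : S, Φ₂ a = R₂.red ⟨ι' (algebraMap S K0 a), hSW₂ a⟩ := fun a => rfl
  have hρπ₁ : ∀ r : R, R₁.red ⟨ι' (algebraMap S K0 (algebraMap R S r)), hSW₁ _⟩ =
      algebraMap D₁ Ft (NodePkg.piHom 𝔫 R rd₁ 𝔫'₁ h𝔫₁ D₁ r) := fun r => by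
    rw [← hΦ₁]
    exact red_eq_piHom 𝔫 R rd₁ 𝔫'₁ h𝔫₁ D₁ Φ₁ (fun b => by rw [hΦ₁]; exact hρB₁ b) r
  have hρπ₂ : ∀ r : R, R₂.red ⟨ι' (algebraMap S K0 (algebraMap R S r)), hSW₂ _⟩ =
      algebraMap D₂ Ft₂ (NodePkg.piHom 𝔫 R rd₂ 𝔫'₂ h𝔫₂ D₂ r) := fun r => by
    rw [← hΦ₂]
    exact red_eq_piHom 𝔫 R rd₂ 𝔫'₂ h𝔫₂ D₂ Φ₂ (fun b => by rw [hΦ₂]; exact hρB₂ b) r
  have hunit₁ : ∀ a b : R, IsUnit (a - b) →
      IsUnit (NodePkg.piHom 𝔫 R rd₁ 𝔫'₁ h𝔫₁ D₁ a - NodePkg.piHom 𝔫 R rd₁ 𝔫'₁ h𝔫₁ D₁ b) := by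
    intro a b hab
    rw [← map_sub]
    exact (NodePkg.isUnit_piHom_iff 𝔫 R rd₁ 𝔫'₁ h𝔫₁ D₁ _).2 hab
  have hunit₂ : ∀ a b : R, IsUnit (a - b) →
      IsUnit (NodePkg.piHom 𝔫 R rd₂ 𝔫'₂ h𝔫₂ D₂ a - NodePkg.piHom 𝔫 R rd₂ 𝔫'₂ h𝔫₂ D₂ b) := by
    intro a b hab
    rw [← map_sub]
    exact (NodePkg.isUnit_piHom_iff 𝔫 R rd₂ 𝔫'₂ h𝔫₂ D₂ _).2 hab
  exact NL0Plug.nl0_residue_ordRed (R := R) (S := S) (K0 := K0) (D₁ := D₁) (D₂ := D₂)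
    ι' R₁ hun₁ R₂ Pl hθ hint
    (algebraMap B R y₁) (algebraMap B R y₂) (algebraMap B R l) hxy hx₁0 hx₂0
    (NodePkg.piHom 𝔫 R rd₁ 𝔫'₁ h𝔫₁ D₁) (NodePkg.piHom_surjective 𝔫 R rd₁ 𝔫'₁ h𝔫₁ D₁ hrd₁)
    (NodePkg.piHom_eq_zero_iff_dvd_of_gen 𝔫 R rd₁ 𝔫'₁ h𝔫₁ D₁ y₁ hy₁ hgen₁)
    (NodePkg.piHom 𝔫 R rd₂ 𝔫'₂ h𝔫₂ D₂) (NodePkg.piHom_surjective 𝔫 R rd₂ 𝔫'₂ h𝔫₂ D₂ hrd₂)
    (NodePkg.piHom_eq_zero_iff_dvd_of_gen 𝔫 R rd₂ 𝔫'₂ h𝔫₂ D₂ y₂ hy₂ hgen₂)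
    hSW₁ hSW₂ hρπ₁ hρπ₂
    α₁ hsplit₁ j₁ (by rw [hθ₁]; exact hρπ₁ _) (fun i hi => hunit₁ _ _ (hα₁ i hi))
    α₂ hsplit₂ j₂ (by rw [hθ₂]; exact hρπ₂ _) (fun i hi => hunit₂ _ _ (hα₂ i hi))
    (by rw [mem_maximalIdeal, mem_nonunits_iff]; exact hnode)
    (ord_eq_zero_of_isUnit_loc 𝔫'₁ D₁ (IsFractionRing.injective D₁ Ft |> fun h => by
        intro a b hab
        have h1 : algebraMap D₁ Ft (algebraMap E₁ D₁ a) = algebraMap D₁ Ft (algebraMap E₁ D₁ b) := by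
          rw [← IsScalarTower.algebraMap_apply, ← IsScalarTower.algebraMap_apply]; exact hab
        exact IsLocalization.injective D₁ (M := 𝔫'₁.primeCompl)
          𝔫'₁.primeCompl_le_nonZeroDivisors (h h1)) Pl hvE)
    m u hu0 hu1 hu2 hhor

end Asm


/-! ### `D_i := Localization.AtPrime 𝔫'_i` over a Dedekind `E_i` -/

section LocAlg

variable {E Ft : Type*} [CommRing E] [IsDomain E] [Field Ft] [Algebra E Ft] [IsFractionRing E Ft]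

/-- the canonical map `E_{𝔫'} → Frac E`. -/
def locHom (𝔫' : Ideal E) [𝔫'.IsPrime] : Localization.AtPrime 𝔫' →+* Ft :=
  IsLocalization.lift (M := 𝔫'.primeCompl) (g := algebraMap E Ft) (fun y => by
    apply IsUnit.mk0
    intro h
    have h0 : (y : E) = 0 := IsFractionRing.injective E Ft (h.trans (map_zero _).symm)
    exact y.2 (h0 ▸ 𝔫'.zero_mem))

theorem locHom_algebraMap (𝔫' : Ideal E) [𝔫'.IsPrime] (e : E) :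
    locHom (Ft := Ft) 𝔫' (algebraMap E (Localization.AtPrime 𝔫') e) = algebraMap E Ft e := by
  unfold locHom
  exact IsLocalization.lift_eq _ e

end LocAlg

section AsmLoc

variable {Kc F' k Ft Ft₂ : Type*} [Field Kc] [Field F'] [Algebra Kc F'] [Field k] [Field Ft]
  [Algebra k Ft] [Field Ft₂] [Algebra k Ft₂]

variable {B E₁ E₂ : Type*} [CommRing B] [IsDomain B] [CommRing E₁] [IsDedekindDomain E₁]
  [CommRing E₂] [IsDedekindDomain E₂] [Algebra E₁ Ft] [IsFractionRing E₁ Ft]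
  [Algebra E₂ Ft₂] [IsFractionRing E₂ Ft₂]

variable {R S K0 : Type*} [CommRing R] [CommRing S] [IsDomain S]
  [IsNoetherianRing S] [Algebra R S] [Field K0] [Algebra S K0] [IsFractionRing S K0]
  {ι : Type*} [Fintype ι] [DecidableEq ι]

set_option maxHeartbeats 1600000 in
/-- **NL0 at a point of the cover from `B`-level data; `E_i` Dedekind, `D_i := (E_i)_{𝔫'_i}`
internal** (no `D_i`, no `π_i` in the statement). -/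
theorem nl0_of_pkg_loc (𝔫 : Ideal B) [𝔫.IsPrime] [Algebra B R] [IsLocalization.AtPrime R 𝔫]
    (rd₁ : B →+* E₁) (hrd₁ : Function.Surjective rd₁) (𝔫'₁ : Ideal E₁) [𝔫'₁.IsPrime]
    (h𝔫₁ : Ideal.comap rd₁ 𝔫'₁ = 𝔫) (h0₁ : 𝔫'₁ ≠ ⊥)
    (rd₂ : B →+* E₂) (hrd₂ : Function.Surjective rd₂) (𝔫'₂ : Ideal E₂) [𝔫'₂.IsPrime]
    (h𝔫₂ : Ideal.comap rd₂ 𝔫'₂ = 𝔫) (h0₂ : 𝔫'₂ ≠ ⊥)
    (y₁ y₂ l : B) (hy₁ : rd₁ y₁ = 0) (hy₂ : rd₂ y₂ = 0)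
    (hgen₁ : ∀ b : B, rd₁ b = 0 → ∃ t : B, t ∉ 𝔫 ∧ y₁ ∣ t * b)
    (hgen₂ : ∀ b : B, rd₂ b = 0 → ∃ t : B, t ∉ 𝔫 ∧ y₂ ∣ t * b)
    (hxy : algebraMap B R l ∣ algebraMap B R y₂ * algebraMap B R y₁)
    (ι' : K0 →+* F') (R₁ : RedData Kc F' k Ft) (hun₁ : Unram R₁)
    (R₂ : RedData Kc F' k Ft₂) (Pl : Place k Ft)
    {θ : S} (hθ : Algebra.adjoin R {θ} = ⊤) (hint : IsIntegral R θ)
    (hx₁0 : algebraMap R S (algebraMap B R y₁) ≠ 0)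
    (hx₂0 : algebraMap R S (algebraMap B R y₂) ≠ 0)
    (hSW₁ : ∀ a : S, ι' (algebraMap S K0 a) ∈ R₁.Rw)
    (hSW₂ : ∀ a : S, ι' (algebraMap S K0 a) ∈ R₂.Rw)
    (hρB₁ : ∀ b : B, R₁.red ⟨ι' (algebraMap S K0 (algebraMap R S (algebraMap B R b))), hSW₁ _⟩ =
      algebraMap E₁ Ft (rd₁ b))
    (hρB₂ : ∀ b : B, R₂.red ⟨ι' (algebraMap S K0 (algebraMap R S (algebraMap B R b))), hSW₂ _⟩ =
      algebraMap E₂ Ft₂ (rd₂ b))
    (hvE : ∀ e : E₁, e ∉ 𝔫'₁ → Pl.ord (algebraMap E₁ Ft e) = 0)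
    (α₁ : ι → R)
    (hsplit₁ : algebraMap R S (algebraMap B R y₁) ∣ ∏ i, (θ - algebraMap R S (α₁ i)))
    (j₁ : ι)
    (hθ₁ : R₁.red ⟨ι' (algebraMap S K0 θ), hSW₁ θ⟩ =
      R₁.red ⟨ι' (algebraMap S K0 (algebraMap R S (α₁ j₁))), hSW₁ _⟩)
    (hα₁ : ∀ i, i ≠ j₁ → IsUnit (α₁ j₁ - α₁ i))
    (α₂ : ι → R)
    (hsplit₂ : algebraMap R S (algebraMap B R y₂) ∣ ∏ i, (θ - algebraMap R S (α₂ i)))
    (j₂ : ι)
    (hθ₂ : R₂.red ⟨ι' (algebraMap S K0 θ), hSW₂ θ⟩ =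
      R₂.red ⟨ι' (algebraMap S K0 (algebraMap R S (α₂ j₂))), hSW₂ _⟩)
    (hα₂ : ∀ i, i ≠ j₂ → IsUnit (α₂ j₂ - α₂ i))
    (hnode : ¬ IsUnit (α₁ j₁ - α₂ j₂))
    (m : ℕ) (u : K0) (hu0 : u ≠ 0) (hu1 : IsU R₁ (ι' u)) (hu2 : IsU R₂ (ι' u))
    (hhor : ∀ V : ValuationSubring K0, IsDiscreteValuationRing V →
      (∀ a : S, algebraMap S K0 a ∈ V) →
      (algebraMap S K0 (algebraMap R S (algebraMap B R l)))⁻¹ ∈ V →
      ∃ z : K0, z ≠ 0 ∧ u * z ^ m ∈ V ∧ (u * z ^ m)⁻¹ ∈ V) :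
    (m : ℤ) ∣ ordRed R₁ hun₁ Pl (ι' u) := by
  letI alg₁ : Algebra (Localization.AtPrime 𝔫'₁) Ft := (locHom (Ft := Ft) 𝔫'₁).toAlgebra
  haveI tow₁ : IsScalarTower E₁ (Localization.AtPrime 𝔫'₁) Ft :=
    IsScalarTower.of_algebraMap_eq (fun e => (locHom_algebraMap (Ft := Ft) 𝔫'₁ e).symm)
  haveI fr₁ : IsFractionRing (Localization.AtPrime 𝔫'₁) Ft :=
    NodePkg.isFractionRing_loc 𝔫'₁ (Localization.AtPrime 𝔫'₁) Ft
  haveI dvr₁ : IsDiscreteValuationRing (Localization.AtPrime 𝔫'₁) :=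
    IsLocalization.AtPrime.isDiscreteValuationRing_of_dedekind_domain E₁ h0₁ _
  letI alg₂ : Algebra (Localization.AtPrime 𝔫'₂) Ft₂ := (locHom (Ft := Ft₂) 𝔫'₂).toAlgebra
  haveI tow₂ : IsScalarTower E₂ (Localization.AtPrime 𝔫'₂) Ft₂ :=
    IsScalarTower.of_algebraMap_eq (fun e => (locHom_algebraMap (Ft := Ft₂) 𝔫'₂ e).symm)
  haveI fr₂ : IsFractionRing (Localization.AtPrime 𝔫'₂) Ft₂ :=
    NodePkg.isFractionRing_loc 𝔫'₂ (Localization.AtPrime 𝔫'₂) Ft₂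
  haveI dvr₂ : IsDiscreteValuationRing (Localization.AtPrime 𝔫'₂) :=
    IsLocalization.AtPrime.isDiscreteValuationRing_of_dedekind_domain E₂ h0₂ _
  exact nl0_of_pkg_gen 𝔫 rd₁ hrd₁ 𝔫'₁ h𝔫₁ (Localization.AtPrime 𝔫'₁)
    rd₂ hrd₂ 𝔫'₂ h𝔫₂ (Localization.AtPrime 𝔫'₂) y₁ y₂ l hy₁ hy₂ hgen₁ hgen₂ hxy
    ι' R₁ hun₁ R₂ Pl hθ hint hx₁0 hx₂0 hSW₁ hSW₂ hρB₁ hρB₂ hvE
    α₁ hsplit₁ j₁ hθ₁ hα₁ α₂ hsplit₂ j₂ hθ₂ hα₂ hnode m u hu0 hu1 hu2 hhor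

set_option maxHeartbeats 1600000 in
/-- **NL0 at a NODE of the cover from `B`-level data**: thickness one `ℓ · s = c · y₂ · y₁`. -/
theorem nl0_of_pkg (𝔫 : Ideal B) [𝔫.IsPrime] [Algebra B R] [IsLocalization.AtPrime R 𝔫]
    (rd₁ : B →+* E₁) (hrd₁ : Function.Surjective rd₁) (𝔫'₁ : Ideal E₁) [𝔫'₁.IsPrime]
    (h𝔫₁ : Ideal.comap rd₁ 𝔫'₁ = 𝔫) (h0₁ : 𝔫'₁ ≠ ⊥)
    (rd₂ : B →+* E₂) (hrd₂ : Function.Surjective rd₂) (𝔫'₂ : Ideal E₂) [𝔫'₂.IsPrime]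
    (h𝔫₂ : Ideal.comap rd₂ 𝔫'₂ = 𝔫) (h0₂ : 𝔫'₂ ≠ ⊥)
    (y₁ y₂ l s c : B) (hy₁ : rd₁ y₁ = 0) (hy₂ : rd₂ y₂ = 0) (hy₁0 : y₁ ≠ 0) (hy₂0 : y₂ ≠ 0)
    (hgen₁ : ∀ b : B, rd₁ b = 0 → ∃ t : B, t ∉ 𝔫 ∧ y₁ ∣ t * b)
    (hgen₂ : ∀ b : B, rd₂ b = 0 → ∃ t : B, t ∉ 𝔫 ∧ y₂ ∣ t * b)
    (hs : s ∉ 𝔫) (hc : c ∉ 𝔫) (hth : l * s = c * y₂ * y₁)
    (ι' : K0 →+* F') (R₁ : RedData Kc F' k Ft) (hun₁ : Unram R₁)
    (R₂ : RedData Kc F' k Ft₂) (Pl : Place k Ft)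
    {θ : S} (hθ : Algebra.adjoin R {θ} = ⊤) (hint : IsIntegral R θ)
    (hRS : Function.Injective (algebraMap R S))
    (hSW₁ : ∀ a : S, ι' (algebraMap S K0 a) ∈ R₁.Rw)
    (hSW₂ : ∀ a : S, ι' (algebraMap S K0 a) ∈ R₂.Rw)
    (hρB₁ : ∀ b : B, R₁.red ⟨ι' (algebraMap S K0 (algebraMap R S (algebraMap B R b))), hSW₁ _⟩ =
      algebraMap E₁ Ft (rd₁ b))
    (hρB₂ : ∀ b : B, R₂.red ⟨ι' (algebraMap S K0 (algebraMap R S (algebraMap B R b))), hSW₂ _⟩ =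
      algebraMap E₂ Ft₂ (rd₂ b))
    (hvE : ∀ e : E₁, e ∉ 𝔫'₁ → Pl.ord (algebraMap E₁ Ft e) = 0)
    (α₁ : ι → R)
    (hsplit₁ : algebraMap R S (algebraMap B R y₁) ∣ ∏ i, (θ - algebraMap R S (α₁ i)))
    (j₁ : ι)
    (hθ₁ : R₁.red ⟨ι' (algebraMap S K0 θ), hSW₁ θ⟩ =
      R₁.red ⟨ι' (algebraMap S K0 (algebraMap R S (α₁ j₁))), hSW₁ _⟩)
    (hα₁ : ∀ i, i ≠ j₁ → IsUnit (α₁ j₁ - α₁ i))
    (α₂ : ι → R)
    (hsplit₂ : algebraMap R S (algebraMap B R y₂) ∣ ∏ i, (θ - algebraMap R S (α₂ i)))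
    (j₂ : ι)
    (hθ₂ : R₂.red ⟨ι' (algebraMap S K0 θ), hSW₂ θ⟩ =
      R₂.red ⟨ι' (algebraMap S K0 (algebraMap R S (α₂ j₂))), hSW₂ _⟩)
    (hα₂ : ∀ i, i ≠ j₂ → IsUnit (α₂ j₂ - α₂ i))
    (hnode : ¬ IsUnit (α₁ j₁ - α₂ j₂))
    (m : ℕ) (u : K0) (hu0 : u ≠ 0) (hu1 : IsU R₁ (ι' u)) (hu2 : IsU R₂ (ι' u))
    (hhor : ∀ V : ValuationSubring K0, IsDiscreteValuationRing V →
      (∀ a : S, algebraMap S K0 a ∈ V) →
      (algebraMap S K0 (algebraMap R S (algebraMap B R l)))⁻¹ ∈ V →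
      ∃ z : K0, z ≠ 0 ∧ u * z ^ m ∈ V ∧ (u * z ^ m)⁻¹ ∈ V) :
    (m : ℤ) ∣ ordRed R₁ hun₁ Pl (ι' u) := by
  have hBR : Function.Injective (algebraMap B R) := NodePkg.algebraMap_injective 𝔫 R
  have hne : ∀ y : B, y ≠ 0 → algebraMap R S (algebraMap B R y) ≠ 0 := by
    intro y hy h
    apply hy
    apply hBR
    apply hRS
    rw [h, map_zero, map_zero]
  exact nl0_of_pkg_loc 𝔫 rd₁ hrd₁ 𝔫'₁ h𝔫₁ h0₁ rd₂ hrd₂ 𝔫'₂ h𝔫₂ h0₂ y₁ y₂ l hy₁ hy₂ hgen₁ hgen₂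
    (NodePkg.dvd_of_thickness_eq 𝔫 R hs hc hth)
    ι' R₁ hun₁ R₂ Pl hθ hint (hne y₁ hy₁0) (hne y₂ hy₂0) hSW₁ hSW₂ hρB₁ hρB₂ hvE
    α₁ hsplit₁ j₁ hθ₁ hα₁ α₂ hsplit₂ j₂ hθ₂ hα₂ hnode m u hu0 hu1 hu2 hhor

set_option maxHeartbeats 1600000 in
/-- **NL0 at a SMOOTH point (type I) of the cover from `B`-level data**: ONE branch,
`ℓ · s = c · y₁`. -/
theorem nl0_of_pkg_typeI (𝔫 : Ideal B) [𝔫.IsPrime] [Algebra B R] [IsLocalization.AtPrime R 𝔫]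
    (rd₁ : B →+* E₁) (hrd₁ : Function.Surjective rd₁) (𝔫'₁ : Ideal E₁) [𝔫'₁.IsPrime]
    (h𝔫₁ : Ideal.comap rd₁ 𝔫'₁ = 𝔫) (h0₁ : 𝔫'₁ ≠ ⊥)
    (y₁ l s c : B) (hy₁ : rd₁ y₁ = 0) (hy₁0 : y₁ ≠ 0)
    (hgen₁ : ∀ b : B, rd₁ b = 0 → ∃ t : B, t ∉ 𝔫 ∧ y₁ ∣ t * b)
    (hs : s ∉ 𝔫) (hc : c ∉ 𝔫) (hth : l * s = c * y₁)
    (ι' : K0 →+* F') (R₁ : RedData Kc F' k Ft) (hun₁ : Unram R₁) (Pl : Place k Ft)
    {θ : S} (hθ : Algebra.adjoin R {θ} = ⊤) (hint : IsIntegral R θ)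
    (hRS : Function.Injective (algebraMap R S))
    (hSW₁ : ∀ a : S, ι' (algebraMap S K0 a) ∈ R₁.Rw)
    (hρB₁ : ∀ b : B, R₁.red ⟨ι' (algebraMap S K0 (algebraMap R S (algebraMap B R b))), hSW₁ _⟩ =
      algebraMap E₁ Ft (rd₁ b))
    (hvE : ∀ e : E₁, e ∉ 𝔫'₁ → Pl.ord (algebraMap E₁ Ft e) = 0)
    (α₁ : ι → R)
    (hsplit₁ : algebraMap R S (algebraMap B R y₁) ∣ ∏ i, (θ - algebraMap R S (α₁ i)))
    (j₁ : ι)
    (hθ₁ : R₁.red ⟨ι' (algebraMap S K0 θ), hSW₁ θ⟩ =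
      R₁.red ⟨ι' (algebraMap S K0 (algebraMap R S (α₁ j₁))), hSW₁ _⟩)
    (hα₁ : ∀ i, i ≠ j₁ → IsUnit (α₁ j₁ - α₁ i))
    (m : ℕ) (u : K0) (hu0 : u ≠ 0) (hu1 : IsU R₁ (ι' u))
    (hhor : ∀ V : ValuationSubring K0, IsDiscreteValuationRing V →
      (∀ a : S, algebraMap S K0 a ∈ V) →
      (algebraMap S K0 (algebraMap R S (algebraMap B R l)))⁻¹ ∈ V →
      ∃ z : K0, z ≠ 0 ∧ u * z ^ m ∈ V ∧ (u * z ^ m)⁻¹ ∈ V) :
    (m : ℤ) ∣ ordRed R₁ hun₁ Pl (ι' u) := by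
  have hloc : IsLocalRing R := IsLocalization.AtPrime.isLocalRing R 𝔫
  have hBR : Function.Injective (algebraMap B R) := NodePkg.algebraMap_injective 𝔫 R
  have hne : algebraMap R S (algebraMap B R y₁) ≠ 0 := by
    intro h
    apply hy₁0
    apply hBR
    apply hRS
    rw [h, map_zero, map_zero]
  have hxy : algebraMap B R l ∣ algebraMap B R y₁ * algebraMap B R y₁ :=
    Dvd.dvd.mul_right (NodePkg.associated_of_thickness_eq_single 𝔫 R hs hc hth).dvd _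
  have hnode : ¬ IsUnit (α₁ j₁ - α₁ j₁) := by
    rw [sub_self]
    exact not_isUnit_zero
  exact nl0_of_pkg_loc (E₂ := E₁) (Ft₂ := Ft) 𝔫 rd₁ hrd₁ 𝔫'₁ h𝔫₁ h0₁ rd₁ hrd₁ 𝔫'₁ h𝔫₁ h0₁
    y₁ y₁ l hy₁ hy₁ hgen₁ hgen₁ hxy ι' R₁ hun₁ R₁ Pl hθ hint hne hne hSW₁ hSW₁ hρB₁ hρB₁ hvE
    α₁ hsplit₁ j₁ hθ₁ hα₁ α₁ hsplit₁ j₁ hθ₁ hα₁ hnode m u hu0 hu1 hu1 hhor

end AsmLoc

end Fermat.Agent.GF.KCover.Node.PkgAsm
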