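/-
GATE-F (row 38) / KCOVER node lemma, leaf (U7) of helper84 6584 [E] (helper37): **the residues of the
sheets**.  Mathlib only.

`L` a field, `Ô : ValuationSubring L`, `ϖ̂ ∈ Ô.nonunits`, `ϖ̂ ≠ 0`, `ẑ ∈ Ô`:

* `sheet_formula`   : `((1 + ϖ̂)^k (1 + ϖ̂ ẑ) - 1)/ϖ̂ - (ẑ + k) ∈ Ô.nonunits`;
* `emb_sheet`       : `e_k = e₀ ∘ δ^k`, `δ(1 + ϖ Z') = ζ (1 + ϖ Z')`, `ζ = 1 + ϖ`, `δ ϖ = ϖ`,
                      `e₀ ϖ = ϖ̂` ⟹ `e_k Z' - (e₀ Z' + k) ∈ Ô.nonunits`;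
* `emb_sheet_trace` : with `e_k θ - d · e_k Z' ∈ Ô.nonunits` (TraceRes):
                      `e_k θ - d (e₀ Z' + k) ∈ Ô.nonunits`;
* `isUnit_sheet_sub`: `(p : L) ∈ Ô.nonunits`, `k ≢ k' (mod p)` ⟹ `(p - 1)(k - k')` is a unit of `Ô`
                      (the residues `a + d k` of the sheets are pairwise distinct).
-/
import Mathlib

set_option autoImplicit false

namespace Fermat.Agent.GF.KCover.Node.SheetRes

variable {L : Type*} [Field L] (O : ValuationSubring L)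

/-! ### nonunits -/

theorem mul_mem_nonunits {a b : L} (ha : a ∈ O.nonunits) (hb : b ∈ O) : a * b ∈ O.nonunits := by
  rw [O.mem_nonunits_iff] at ha ⊢
  rw [map_mul]
  exact mul_lt_one_of_lt_of_le ha ((O.valuation_le_one_iff b).2 hb)

theorem mem_of_mem_nonunits {a : L} (ha : a ∈ O.nonunits) : a ∈ O := by
  rw [O.mem_nonunits_iff] at ha
  exact (O.valuation_le_one_iff a).1 ha.le

/-- `(1 + ϖ)^k = 1 + k ϖ + ϖ² c` with `c ∈ Ô`. -/
theorem exists_one_add_pow {ϖ : L} (hϖ : ϖ ∈ O) (k : ℕ) :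
    ∃ c ∈ O, (1 + ϖ) ^ k = 1 + (k : L) * ϖ + ϖ ^ 2 * c := by
  induction k with
  | zero => exact ⟨0, zero_mem O, by simp⟩
  | succ k ih =>
    obtain ⟨c, hc, h⟩ := ih
    refine ⟨(k : L) + c + ϖ * c, add_mem (add_mem (natCast_mem O k) hc) (mul_mem hϖ hc), ?_⟩
    rw [pow_succ, h]
    push_cast
    ring

/-! ### the sheet formula -/

/-- **the sheet formula**: `((1 + ϖ̂)^k (1 + ϖ̂ ẑ) - 1)/ϖ̂ ≡ ẑ + k` modulo the maximal ideal. -/
theorem sheet_formula {ϖ z : L} (hϖ : ϖ ∈ O.nonunits) (hϖ0 : ϖ ≠ 0) (hz : z ∈ O) (k : ℕ) :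
    ((1 + ϖ) ^ k * (1 + ϖ * z) - 1) / ϖ - (z + (k : L)) ∈ O.nonunits := by
  have hϖO := mem_of_mem_nonunits O hϖ
  obtain ⟨c, hc, h⟩ := exists_one_add_pow O hϖO k
  have key : ((1 + ϖ) ^ k * (1 + ϖ * z) - 1) / ϖ - (z + (k : L))
      = ϖ * (c + (k : L) * z + ϖ * c * z) := by
    rw [h]
    field_simp
    ring
  rw [key]
  refine mul_mem_nonunits O hϖ ?_
  exact add_mem (add_mem hc (mul_mem (natCast_mem O k) hz)) (mul_mem (mul_mem hϖO hc) hz)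

/-- the same, from the relation `1 + ϖ̂ y = (1 + ϖ̂)^k (1 + ϖ̂ ẑ)`. -/
theorem sheet_of_rel {ϖ z y : L} (hϖ : ϖ ∈ O.nonunits) (hϖ0 : ϖ ≠ 0) (hz : z ∈ O) (k : ℕ)
    (hrel : 1 + ϖ * y = (1 + ϖ) ^ k * (1 + ϖ * z)) : y - (z + (k : L)) ∈ O.nonunits := by
  have hy : y = ((1 + ϖ) ^ k * (1 + ϖ * z) - 1) / ϖ := by
    rw [← hrel]
    field_simp
    ring
  rw [hy]
  exact sheet_formula O hϖ hϖ0 hz k

/-! ### the embeddings of the cover -/

section emb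

variable {F : Type*} [CommRing F]

/-- `δ^k (1 + ϖ Z') = ζ^k (1 + ϖ Z')` for `δ ζ = ζ`. -/
theorem iterate_apply_of_mul (δ : F →+* F) {ζ x : F} (hζ : δ ζ = ζ) (hx : δ x = ζ * x) (k : ℕ) :
    (δ^[k]) x = ζ ^ k * x := by
  induction k with
  | zero => simp
  | succ k ih =>
    rw [Function.iterate_succ_apply', ih, map_mul, map_pow, hζ, hx, pow_succ]
    ring

theorem iterate_apply_fixed (δ : F →+* F) {a : F} (ha : δ a = a) (k : ℕ) : (δ^[k]) a = a :=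
  Function.iterate_fixed ha k

theorem iterate_map_add (δ : F →+* F) (k : ℕ) (a b : F) : (δ^[k]) (a + b) = (δ^[k]) a + (δ^[k]) b := by
  induction k generalizing a b with
  | zero => simp
  | succ k ih => rw [Function.iterate_succ_apply, map_add, ih, ← Function.iterate_succ_apply,
      ← Function.iterate_succ_apply]

theorem iterate_map_mul (δ : F →+* F) (k : ℕ) (a b : F) : (δ^[k]) (a * b) = (δ^[k]) a * (δ^[k]) b := by
  induction k generalizing a b with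
  | zero => simp
  | succ k ih => rw [Function.iterate_succ_apply, map_mul, ih, ← Function.iterate_succ_apply,
      ← Function.iterate_succ_apply]

theorem iterate_map_one (δ : F →+* F) (k : ℕ) : (δ^[k]) (1 : F) = 1 :=
  Function.iterate_fixed (map_one δ) k

/-- **the sheets**: `e_k = e₀ ∘ δ^k` with `δ (1 + ϖ Z') = (1 + ϖ)(1 + ϖ Z')`, `δ ϖ = ϖ`,
`e₀ ϖ ∈ Ô.nonunits ∖ 0`, `e₀ Z' ∈ Ô` ⟹ `e_k Z' ≡ e₀ Z' + k`. -/
theorem emb_sheet (δ : F →+* F) (e₀ : F →+* L) {ϖ Z' : F} (hδϖ : δ ϖ = ϖ)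
    (hδ : δ (1 + ϖ * Z') = (1 + ϖ) * (1 + ϖ * Z'))
    (hϖ : e₀ ϖ ∈ O.nonunits) (hϖ0 : e₀ ϖ ≠ 0) (hz : e₀ Z' ∈ O) (k : ℕ) :
    e₀ ((δ^[k]) Z') - (e₀ Z' + (k : L)) ∈ O.nonunits := by
  have hζ : δ (1 + ϖ) = 1 + ϖ := by rw [map_add, map_one, hδϖ]
  have h1 := iterate_apply_of_mul δ hζ hδ k
  have h2 : (δ^[k]) (1 + ϖ * Z') = 1 + ϖ * (δ^[k]) Z' := by
    rw [iterate_map_add, iterate_map_mul, iterate_map_one, iterate_apply_fixed δ hδϖ]
  rw [h2] at h1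
  have h3 := congrArg e₀ h1
  simp only [map_add, map_mul, map_one, map_pow] at h3
  exact sheet_of_rel O hϖ hϖ0 hz k h3

/-- **the sheets, with the trace**: if moreover `e_k θ - d · e_k Z' ∈ Ô.nonunits` (TraceRes), then
`e_k θ ≡ d (e₀ Z' + k)`. -/
theorem emb_sheet_trace (δ : F →+* F) (e₀ : F →+* L) {ϖ Z' θ : F} (hδϖ : δ ϖ = ϖ)
    (hδ : δ (1 + ϖ * Z') = (1 + ϖ) * (1 + ϖ * Z'))
    (hϖ : e₀ ϖ ∈ O.nonunits) (hϖ0 : e₀ ϖ ≠ 0) (hz : e₀ Z' ∈ O) (k : ℕ) (d : ℕ)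
    (htr : e₀ ((δ^[k]) θ) - (d : L) * e₀ ((δ^[k]) Z') ∈ O.nonunits) :
    e₀ ((δ^[k]) θ) - (d : L) * (e₀ Z' + (k : L)) ∈ O.nonunits := by
  have h1 := emb_sheet O δ e₀ hδϖ hδ hϖ hϖ0 hz k
  have h2 : (d : L) * (e₀ ((δ^[k]) Z') - (e₀ Z' + (k : L))) ∈ O.nonunits := by
    rw [mul_comm]
    exact mul_mem_nonunits O h1 (natCast_mem O d)
  have h3 := O.nonunits.add_mem htr h2
  have h4 : e₀ ((δ^[k]) θ) - (d : L) * e₀ ((δ^[k]) Z')
      + (d : L) * (e₀ ((δ^[k]) Z') - (e₀ Z' + (k : L)))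
      = e₀ ((δ^[k]) θ) - (d : L) * (e₀ Z' + (k : L)) := by ring
  rwa [h4] at h3

end emb

/-! ### distinct sheets have distinct residues -/

/-- an integer prime to `p` is a unit of `Ô` when `p ∈ Ô.nonunits`. -/
theorem intCast_notMem_nonunits {p : ℕ} (hp : (p : L) ∈ O.nonunits) {n : ℤ}
    (hn : IsCoprime n (p : ℤ)) : (n : L) ∉ O.nonunits := by
  intro hcon
  obtain ⟨a, b, hab⟩ := hn
  have h1 : (a : L) * (n : L) + (b : L) * (p : L) = 1 := by exact_mod_cast congrArg (Int.cast (R := L)) hab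
  have h2 : (a : L) * (n : L) ∈ O.nonunits := by
    rw [mul_comm]; exact mul_mem_nonunits O hcon (intCast_mem O a)
  have h3 : (b : L) * (p : L) ∈ O.nonunits := by
    rw [mul_comm]; exact mul_mem_nonunits O hp (intCast_mem O b)
  have h4 := O.nonunits.add_mem h2 h3
  rw [h1, O.mem_nonunits_iff, map_one] at h4
  exact lt_irrefl _ h4

/-- **distinct sheets**: for `p` prime with `(p : L) ∈ Ô.nonunits` and `k ≢ k' (mod p)`, the
difference `(p - 1) (k - k')` of the residues `a + (p-1) k`, `a + (p-1) k'` is not in the maximal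
ideal. -/
theorem sheet_sub_notMem_nonunits {p : ℕ} (hpp : p.Prime) (hp : (p : L) ∈ O.nonunits) {k k' : ℕ}
    (hkk : ¬ (k : ℤ) ≡ (k' : ℤ) [ZMOD (p : ℤ)]) :
    ((p - 1 : ℕ) : L) * ((k : L) - (k' : L)) ∉ O.nonunits := by
  have hcop1 : IsCoprime (((p - 1 : ℕ) : ℤ)) (p : ℤ) := by
    have h1 : ((p - 1 : ℕ) : ℤ) = (p : ℤ) - 1 := by
      rw [Nat.cast_sub hpp.one_le]; simp
    rw [h1]
    exact ⟨-1, 1, by ring⟩
  have hcop2 : IsCoprime ((k : ℤ) - (k' : ℤ)) (p : ℤ) := by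
    have hprime : Prime (p : ℤ) := Nat.prime_iff_prime_int.1 hpp
    rw [isCoprime_comm]
    refine (Prime.coprime_iff_not_dvd hprime).2 fun hdvd => hkk ?_
    exact Int.modEq_iff_dvd.2 (by
      have := dvd_neg.2 hdvd
      simpa using this)
  have hcop := hcop1.mul_left hcop2
  have h := intCast_notMem_nonunits O hp hcop
  have hcast : ((((p - 1 : ℕ) : ℤ) * ((k : ℤ) - (k' : ℤ)) : ℤ) : L)
      = ((p - 1 : ℕ) : L) * ((k : L) - (k' : L)) := by push_cast; ring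
  rwa [hcast] at h

/-- the same as a unit of the valuation ring: the element is in `Ô` and its inverse too. -/
theorem sheet_sub_isUnit {p : ℕ} (hpp : p.Prime) (hp : (p : L) ∈ O.nonunits) {k k' : ℕ}
    (hkk : ¬ (k : ℤ) ≡ (k' : ℤ) [ZMOD (p : ℤ)]) :
    O.valuation (((p - 1 : ℕ) : L) * ((k : L) - (k' : L))) = 1 := by
  have h1 := sheet_sub_notMem_nonunits O hpp hp hkk
  rw [O.mem_nonunits_iff, not_lt] at h1
  have h2 : ((p - 1 : ℕ) : L) * ((k : L) - (k' : L)) ∈ O :=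
    mul_mem (natCast_mem O _) (sub_mem (natCast_mem O k) (natCast_mem O k'))
  exact le_antisymm ((O.valuation_le_one_iff _).2 h2) h1

/-! ### the binder `hconj` of `FixedGen` -/

section conj

variable {F : Type*} [CommRing F]

theorem ringAut_pow_apply (δ : F ≃+* F) (k : ℕ) (y : F) :
    (δ ^ k) y = ((δ : F →+* F)^[k]) y := by
  induction k with
  | zero => simp
  | succ k ih =>
    rw [pow_succ', RingAut.mul_apply, ih, Function.iterate_succ_apply']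
    rfl

/-- if `e₀ (δ^k θ) - e₀ θ - d k` lies in the maximal ideal and `d k` does not, then
`δ^k θ ≠ θ`. -/
theorem pow_apply_ne_of_sheet (δ : F ≃+* F) (e₀ : F →+* L) {θ : F} {d k : ℕ}
    (h : e₀ ((δ ^ k) θ) - e₀ θ - (d : L) * (k : L) ∈ O.nonunits)
    (hu : (d : L) * (k : L) ∉ O.nonunits) : (δ ^ k) θ ≠ θ := by
  intro heq
  rw [heq, sub_self, zero_sub] at h
  exact hu (by simpa using O.nonunits.neg_mem h)

/-- **`hconj` of `FixedGen.exists_poly_of_fixed` from the sheet residues**: `δ (1 + ϖ Z') =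
(1 + ϖ)(1 + ϖ Z')`, `δ ϖ = ϖ`, `e₀ ϖ ∈ Ô.nonunits ∖ 0`, `e₀ Z' ∈ Ô`, `(p : L) ∈ Ô.nonunits` and
`e₀ (δ^k θ) - (p-1) e₀ (δ^k Z') ∈ Ô.nonunits` for all `k` (TraceRes) ⟹ the conjugates `δ^k θ`,
`0 < k < p`, are different from `θ`. -/
theorem hconj_of_sheets (δ : F ≃+* F) (e₀ : F →+* L) {ϖ Z' θ : F} (hδϖ : δ ϖ = ϖ)
    (hδ : δ (1 + ϖ * Z') = (1 + ϖ) * (1 + ϖ * Z'))
    (hϖ : e₀ ϖ ∈ O.nonunits) (hϖ0 : e₀ ϖ ≠ 0) (hz : e₀ Z' ∈ O) {p : ℕ} (hpp : p.Prime)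
    (hp : (p : L) ∈ O.nonunits)
    (htr : ∀ k : ℕ, e₀ ((δ ^ k) θ) - ((p - 1 : ℕ) : L) * e₀ ((δ ^ k) Z') ∈ O.nonunits) :
    ∀ k, 0 < k → k < p → (δ ^ k) θ ≠ θ := by
  intro k hk0 hkp
  have hδϖ' : (δ : F →+* F) ϖ = ϖ := hδϖ
  have hδ' : (δ : F →+* F) (1 + ϖ * Z') = (1 + ϖ) * (1 + ϖ * Z') := hδ
  have hk := emb_sheet_trace O (δ : F →+* F) e₀ (θ := θ) hδϖ' hδ' hϖ hϖ0 hz k (p - 1)
    (by rw [← ringAut_pow_apply, ← ringAut_pow_apply]; exact htr k)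
  have h0 := emb_sheet_trace O (δ : F →+* F) e₀ (θ := θ) hδϖ' hδ' hϖ hϖ0 hz 0 (p - 1)
    (by rw [← ringAut_pow_apply, ← ringAut_pow_apply]; exact htr 0)
  rw [← ringAut_pow_apply] at hk h0
  rw [pow_zero, RingAut.one_apply] at h0
  have hsub := O.nonunits.sub_mem hk h0
  have hsub' : e₀ ((δ ^ k) θ) - e₀ θ - ((p - 1 : ℕ) : L) * (k : L) ∈ O.nonunits := by
    have e : e₀ ((δ ^ k) θ) - ((p - 1 : ℕ) : L) * (e₀ Z' + (k : L))
        - (e₀ θ - ((p - 1 : ℕ) : L) * (e₀ Z' + ((0 : ℕ) : L)))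
        = e₀ ((δ ^ k) θ) - e₀ θ - ((p - 1 : ℕ) : L) * (k : L) := by
      push_cast; ring
    rwa [e] at hsub
  refine pow_apply_ne_of_sheet O δ e₀ hsub' ?_
  have hkk : ¬ (k : ℤ) ≡ ((0 : ℕ) : ℤ) [ZMOD (p : ℤ)] := by
    intro hmod
    have h1 : (p : ℤ) ∣ (k : ℤ) := by
      have := (Int.modEq_zero_iff_dvd).1 (by simpa using hmod)
      exact this
    have h2 : p ∣ k := Int.natCast_dvd_natCast.1 h1
    exact absurd (Nat.le_of_dvd hk0 h2) (not_le.2 hkp)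
  have := sheet_sub_notMem_nonunits O hpp hp hkk
  simpa using this

end conj

end Fermat.Agent.GF.KCover.Node.SheetRes
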