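/-
GATE-F (S44) / GF-KCOVER-INST, node side (helper84), leaf (L-c), file 4: **NL0 at a point of the
cover from the residues of the sheets** — `PkgAsm.nl0_of_pkg` (helper45) with
`S := R[θ₀] ⊆ K0` and every upstairs binder (`hθ`, `IsFractionRing S K0`, `IsNoetherianRing S`,
`hRS`, `hSW_i`, `hsplit_i`, `hθ_i`, `hα_i`, `hnode`) DISCHARGED from

* the degree `[K0 : F₀] = p` (`F₀ = Frac R`),
* for each branch `i`: a field `L_i` with a valuation subring `Ô_i` (the completion at the Gauss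
  valuation `w_i`), the `p` sheets `e_i k : F' →+* L_i` (`k : ZMod p`), all equal to
  `jj_i : F₀ →+* L_i` on `F₀`, the reduction datum `R_i` of the sheet `j_i` being DETECTED by
  `e_i j_i` (`y ∈ R_i.Rw ↔ e_i j_i y ∈ Ô_i`; `RedCompl.mem_sheet_Rw`), and the residues
  `e_i k θ₀ ≡ d · (a_i + k)` (`SheetRes.emb_sheet_trace` + `TraceRes`),
* the meeting condition `¬ IsUnit (a₁ + j₁ − (a₂ + j₂))` in `R` (leaf (U8)).

Contents:
* `mem_nonunits_iff_of_detect`, `red_eq_zero_iff_of_detect`, `red_eq_of_sub_mem` : a reduction datum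
  detected by a ring hom into a valued field;
* `isFractionRing_adjoin_of_natDegree` : `Frac (R[θ₀]) = K0` when `deg minpoly_R θ₀ = [K0 : F₀]`;
* `dvd_of_mem_nonunits` : the binder `hker` of `SplitAsm.dvd_coeff_of_sheet_residues` from the
  `B`-level generator `y_i` (`hgen_i`) and `hρB_i`;
* **`nl0_of_sheets`** (node) and **`nl0_of_sheets_typeI`** (smooth point).
-/
import Fermat.Agent.GF.KCover.Node.PkgAsm
import Fermat.Agent.GF.KCover.Node.ASEtale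
import Fermat.Agent.GF.KCover.Node.SheetRes

set_option autoImplicit false
set_option linter.unusedSectionVars false
set_option linter.unusedVariables false

noncomputable section

open AlgebraicCurve

namespace Fermat.Agent.GF.KCover.Node.SheetAsm

open Polynomial IsLocalRing
open Fermat.Agent.GJ.J1 Fermat.Agent.S24 Fermat.Agent.GF.Trop
open Fermat.Agent.GF.KCover.Node.NLOrdRed
open Fermat.Agent.GF.KCover.Node

/-! ### a reduction datum detected by a ring hom into a valued field -/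

section Detect

variable {F' L : Type*} [Field F'] [Field L]

/-- if `e` detects the valuation subring `W` (`y ∈ W ↔ e y ∈ Ô`) it detects its nonunits. -/
theorem mem_nonunits_iff_of_detect (W : ValuationSubring F') (Oh : ValuationSubring L)
    (e : F' →+* L) (hW : ∀ y : F', y ∈ W ↔ e y ∈ Oh) (y : F') :
    y ∈ W.nonunits ↔ e y ∈ Oh.nonunits := by
  rw [ValuationSubring.mem_nonunits_iff_or, ValuationSubring.mem_nonunits_iff_or, hW, map_inv₀,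
    map_eq_zero_iff e e.injective]

variable {Kc k Ft : Type*} [Field Kc] [Algebra Kc F'] [Field k] [Field Ft] [Algebra k Ft]

theorem red_eq_zero_iff_of_detect (R' : RedData Kc F' k Ft) (Oh : ValuationSubring L)
    (e : F' →+* L) (hW : ∀ y : F', y ∈ R'.Rw ↔ e y ∈ Oh) (y : F') (hy : y ∈ R'.Rw) :
    R'.red ⟨y, hy⟩ = 0 ↔ e y ∈ Oh.nonunits := by
  rw [R'.red_eq_zero_iff, ← ValuationSubring.coe_mem_nonunits_iff]
  exact mem_nonunits_iff_of_detect R'.Rw Oh e hW y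

theorem red_eq_of_sub_mem (R' : RedData Kc F' k Ft) (Oh : ValuationSubring L)
    (e : F' →+* L) (hW : ∀ y : F', y ∈ R'.Rw ↔ e y ∈ Oh) (y z : F') (hy : y ∈ R'.Rw)
    (hz : z ∈ R'.Rw) (h : e y - e z ∈ Oh.nonunits) : R'.red ⟨y, hy⟩ = R'.red ⟨z, hz⟩ := by
  have h1 : R'.red ⟨y - z, sub_mem hy hz⟩ = 0 := by
    rw [red_eq_zero_iff_of_detect R' Oh e hW, map_sub]
    exact h
  have h2 : (⟨y - z, sub_mem hy hz⟩ : R'.Rw) = ⟨y, hy⟩ - ⟨z, hz⟩ := rfl
  rw [h2, map_sub, sub_eq_zero] at h1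
  exact h1

/-- elements of `Ô.nonunits` lie in `Ô`. -/
theorem mem_of_mem_nonunits (Oh : ValuationSubring L) {a : L} (ha : a ∈ Oh.nonunits) : a ∈ Oh := by
  rw [Oh.mem_nonunits_iff] at ha
  exact (Oh.valuation_le_one_iff a).1 ha.le

end Detect

/-! ### `Frac (R[θ₀]) = K0` from the degree -/

section Frac

variable {R F₀ K0 : Type*} [CommRing R] [IsDomain R] [IsIntegrallyClosed R] [Field F₀]
  [Algebra R F₀] [IsFractionRing R F₀] [Field K0] [Algebra F₀ K0] [Algebra R K0]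
  [IsScalarTower R F₀ K0] [FiniteDimensional F₀ K0]

/-- every element of `K0` is a polynomial in `θ₀` over `F₀` when the degrees agree. -/
theorem exists_aeval_eq_of_natDegree (θ₀ : K0) (hint : IsIntegral R θ₀)
    (hdeg : (minpoly R θ₀).natDegree = Module.finrank F₀ K0) (z : K0) :
    ∃ P : F₀[X], aeval θ₀ P = z := by
  have hintF : IsIntegral F₀ θ₀ := hint.tower_top
  have h1 : minpoly F₀ θ₀ = (minpoly R θ₀).map (algebraMap R F₀) :=
    minpoly.isIntegrallyClosed_eq_field_fractions' F₀ hint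
  have h2 : (minpoly F₀ θ₀).natDegree = Module.finrank F₀ K0 := by
    rw [h1, (minpoly.monic hint).natDegree_map, hdeg]
  have h3 : Module.finrank F₀ (IntermediateField.adjoin F₀ ({θ₀} : Set K0)) =
      Module.finrank F₀ K0 := by
    rw [IntermediateField.adjoin.finrank hintF, h2]
  have h4 : IntermediateField.adjoin F₀ ({θ₀} : Set K0) = ⊤ :=
    IntermediateField.eq_of_le_of_finrank_eq le_top (by rw [h3, IntermediateField.finrank_top'])
  have h5 : z ∈ (IntermediateField.adjoin F₀ ({θ₀} : Set K0)).toSubalgebra := by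
    rw [h4]
    exact IntermediateField.mem_top
  rw [IntermediateField.adjoin_simple_toSubalgebra_of_isAlgebraic hintF.isAlgebraic,
    Algebra.adjoin_singleton_eq_range_aeval] at h5
  obtain ⟨P, hP⟩ := h5
  exact ⟨P, hP⟩

/-- **`Frac (R[θ₀]) = K0`** when `deg minpoly_R θ₀ = [K0 : F₀]`. -/
theorem isFractionRing_adjoin_of_natDegree (θ₀ : K0) (hint : IsIntegral R θ₀)
    (hdeg : (minpoly R θ₀).natDegree = Module.finrank F₀ K0) :
    IsFractionRing (Algebra.adjoin R ({θ₀} : Set K0)) K0 := by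
  have : FaithfulSMul (Algebra.adjoin R ({θ₀} : Set K0)) K0 :=
    (faithfulSMul_iff_algebraMap_injective _ _).mpr Subtype.val_injective
  refine IsFractionRing.of_field (Algebra.adjoin R ({θ₀} : Set K0)) K0 (fun z => ?_)
  obtain ⟨P, hP⟩ := exists_aeval_eq_of_natDegree θ₀ hint hdeg z
  obtain ⟨b, hbM, hb⟩ := IsLocalization.integerNormalization_spec (nonZeroDivisors R) P
  set Q : R[X] := IsLocalization.integerNormalization (nonZeroDivisors R) P with hQ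
  have hbF : algebraMap R F₀ b ≠ 0 :=
    IsFractionRing.to_map_ne_zero_of_mem_nonZeroDivisors hbM
  have hbK : algebraMap R K0 b ≠ 0 := by
    rw [IsScalarTower.algebraMap_apply R F₀ K0]
    exact (map_ne_zero_iff _ (algebraMap F₀ K0).injective).2 hbF
  have h1 : aeval θ₀ Q = algebraMap R K0 b * z := by
    have h2 : aeval θ₀ (Q.map (algebraMap R F₀)) = aeval θ₀ Q := aeval_map_algebraMap F₀ θ₀ Q
    rw [← h2, hb, Algebra.smul_def, map_mul, hP, Polynomial.algebraMap_apply, aeval_C,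
      ← IsScalarTower.algebraMap_apply]
  have hQmem : aeval θ₀ Q ∈ Algebra.adjoin R ({θ₀} : Set K0) := by
    rw [Algebra.adjoin_singleton_eq_range_aeval]
    exact ⟨Q, rfl⟩
  refine ⟨⟨aeval θ₀ Q, hQmem⟩, algebraMap R (Algebra.adjoin R ({θ₀} : Set K0)) b, ?_⟩
  have e1 : algebraMap (Algebra.adjoin R ({θ₀} : Set K0)) K0 ⟨aeval θ₀ Q, hQmem⟩ = aeval θ₀ Q := rfl
  have e2 : algebraMap (Algebra.adjoin R ({θ₀} : Set K0)) K0
      (algebraMap R (Algebra.adjoin R ({θ₀} : Set K0)) b) = algebraMap R K0 b := rfl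
  rw [e1, e2, h1, mul_div_cancel_left₀ _ hbK]

end Frac

/-! ### the binder `hker` of `SplitAsm.dvd_coeff_of_sheet_residues` from `B`-level data -/

section Ker

variable {Kc F' k Ft : Type*} [Field Kc] [Field F'] [Algebra Kc F'] [Field k] [Field Ft]
  [Algebra k Ft]

variable {B E : Type*} [CommRing B] [IsDomain B] [CommRing E] [IsDomain E] [Algebra E Ft]
  [IsFractionRing E Ft]

variable {R F₀ K0 L : Type*} [CommRing R] [Field F₀] [Algebra R F₀] [Field K0] [Algebra F₀ K0]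
  [Algebra R K0] [IsScalarTower R F₀ K0] [Field L]

/-- the sheets agree with `jj` on `R`. -/
theorem sheet_algebraMap (ι' : K0 →+* F') (jj : F₀ →+* L) (e : F' →+* L)
    (he : ∀ a : F₀, e (ι' (algebraMap F₀ K0 a)) = jj a) (r : R) :
    e (ι' (algebraMap R K0 r)) = jj (algebraMap R F₀ r) := by
  rw [IsScalarTower.algebraMap_apply R F₀ K0, he]

/-- **`hker`**: an element of `R = B_𝔫` whose image in the completion is a nonunit is divisible by
the local equation `y` of the branch. -/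
theorem dvd_of_mem_nonunits (𝔫 : Ideal B) [𝔫.IsPrime] [Algebra B R] [IsLocalization.AtPrime R 𝔫]
    (rd : B →+* E) (y : B) (hgen : ∀ b : B, rd b = 0 → ∃ t : B, t ∉ 𝔫 ∧ y ∣ t * b)
    (ι' : K0 →+* F') (R' : RedData Kc F' k Ft) (Oh : ValuationSubring L) (jj : F₀ →+* L)
    (e : F' →+* L) (he : ∀ a : F₀, e (ι' (algebraMap F₀ K0 a)) = jj a)
    (hjR : ∀ r : R, jj (algebraMap R F₀ r) ∈ Oh)
    (hRw : ∀ z : F', z ∈ R'.Rw ↔ e z ∈ Oh)
    (hρB : ∀ (b : B) (hb : ι' (algebraMap R K0 (algebraMap B R b)) ∈ R'.Rw),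
      R'.red ⟨_, hb⟩ = algebraMap E Ft (rd b))
    (r : R) (hr : jj (algebraMap R F₀ r) ∈ Oh.nonunits) : algebraMap B R y ∣ r := by
  obtain ⟨b, t, rfl⟩ := IsLocalization.exists_mk'_eq 𝔫.primeCompl r
  have hspec : IsLocalization.mk' R b t * algebraMap B R (t : B) = algebraMap B R b :=
    IsLocalization.mk'_spec R b t
  have htu : IsUnit (algebraMap B R (t : B)) := IsLocalization.map_units R t
  -- the numerator reduces to zero
  have hb1 : jj (algebraMap R F₀ (algebraMap B R b)) ∈ Oh.nonunits := by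
    rw [← hspec, map_mul, map_mul]
    exact SheetRes.mul_mem_nonunits Oh hr (hjR _)
  have hbW : ι' (algebraMap R K0 (algebraMap B R b)) ∈ R'.Rw := by
    rw [hRw, sheet_algebraMap ι' jj e he]
    exact hjR _
  have hb2 : R'.red ⟨_, hbW⟩ = 0 := by
    rw [red_eq_zero_iff_of_detect R' Oh e hRw, sheet_algebraMap ι' jj e he]
    exact hb1
  rw [hρB b hbW] at hb2
  have hb3 : rd b = 0 := IsFractionRing.injective E Ft (hb2.trans (map_zero _).symm)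
  obtain ⟨t', ht', hdvd⟩ := hgen b hb3
  have ht'u : IsUnit (algebraMap B R t') :=
    IsLocalization.map_units R (⟨t', ht'⟩ : 𝔫.primeCompl)
  have h1 : algebraMap B R y ∣ algebraMap B R t' * algebraMap B R b := by
    rw [← map_mul]
    exact map_dvd (algebraMap B R) hdvd
  have h2 : algebraMap B R y ∣ algebraMap B R b := (ht'u.dvd_mul_left).1 h1
  rw [← hspec] at h2
  exact (htu.dvd_mul_right).1 h2

end Ker

/-! ### the assembly -/

section Asm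

variable {Kc F' k Ft Ft₂ : Type*} [Field Kc] [Field F'] [Algebra Kc F'] [Field k] [Field Ft]
  [Algebra k Ft] [Field Ft₂] [Algebra k Ft₂]

variable {B E₁ E₂ : Type*} [CommRing B] [IsDomain B] [CommRing E₁] [IsDedekindDomain E₁]
  [CommRing E₂] [IsDedekindDomain E₂] [Algebra E₁ Ft] [IsFractionRing E₁ Ft]
  [Algebra E₂ Ft₂] [IsFractionRing E₂ Ft₂]

variable {R F₀ K0 : Type*} [CommRing R] [IsDomain R] [IsIntegrallyClosed R] [IsNoetherianRing R]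
  [Field F₀] [Algebra R F₀] [IsFractionRing R F₀] [Field K0] [Algebra F₀ K0] [Algebra R K0]
  [IsScalarTower R F₀ K0] [FiniteDimensional F₀ K0]

variable {L₁ L₂ : Type*} [Field L₁] [Field L₂] {p : ℕ} [Fact p.Prime]

/-- the upstairs block for one branch: from the residues of the sheets, with `S := R[θ₀]`:
`hSW`, `hsplit`, `hθ_i`. -/
theorem sheet_block (𝔫 : Ideal B) [𝔫.IsPrime] [Algebra B R] [IsLocalization.AtPrime R 𝔫]
    (rd : B →+* E₁) (y : B) (hgen : ∀ b : B, rd b = 0 → ∃ t : B, t ∉ 𝔫 ∧ y ∣ t * b)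
    (hrank : Module.finrank F₀ K0 = p)
    (ι' : K0 →+* F') (R' : RedData Kc F' k Ft) (θ₀ : K0) (hint : IsIntegral R θ₀)
    (Oh : ValuationSubring L₁) (jj : F₀ →+* L₁) (e : ZMod p → (F' →+* L₁))
    (he : ∀ (i : ZMod p) (a : F₀), e i (ι' (algebraMap F₀ K0 a)) = jj a)
    (hjR : ∀ r : R, jj (algebraMap R F₀ r) ∈ Oh) (hpO : (p : L₁) ∈ Oh.nonunits)
    (j₁ : ZMod p) (hRw : ∀ z : F', z ∈ R'.Rw ↔ e j₁ z ∈ Oh)
    {d : ℕ} (hd : ¬ p ∣ d) (a₁ : R)
    (hres : ∀ i : ZMod p,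
      e i (ι' θ₀) - jj (algebraMap R F₀ (SplitAsm.sheetRes p d a₁ i)) ∈ Oh.nonunits)
    (hρB : ∀ (b : B) (hb : ι' (algebraMap R K0 (algebraMap B R b)) ∈ R'.Rw),
      R'.red ⟨_, hb⟩ = algebraMap E₁ Ft (rd b)) :
    (minpoly R θ₀).natDegree = p ∧
    ∃ hSW : ∀ a : Algebra.adjoin R ({θ₀} : Set K0),
        ι' (algebraMap (Algebra.adjoin R ({θ₀} : Set K0)) K0 a) ∈ R'.Rw,
      (algebraMap R (Algebra.adjoin R ({θ₀} : Set K0)) (algebraMap B R y) ∣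
        ∏ i : ZMod p, (ASEtale.adjoinGen (R := R) θ₀ -
          algebraMap R (Algebra.adjoin R ({θ₀} : Set K0)) (SplitAsm.sheetRes p d a₁ i))) ∧
      R'.red ⟨ι' (algebraMap (Algebra.adjoin R ({θ₀} : Set K0)) K0
          (ASEtale.adjoinGen (R := R) θ₀)), hSW _⟩ =
        R'.red ⟨ι' (algebraMap (Algebra.adjoin R ({θ₀} : Set K0)) K0
          (algebraMap R (Algebra.adjoin R ({θ₀} : Set K0)) (SplitAsm.sheetRes p d a₁ j₁))),
          hSW _⟩ := by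
  have hψ : ∀ i : ZMod p, ((e i).comp ι').comp (algebraMap F₀ K0) = jj := fun i =>
    RingHom.ext fun a => he i a
  have hres' : ∀ i : ZMod p, ((e i).comp ι') θ₀ -
      jj (algebraMap R F₀ (SplitAsm.sheetRes p d a₁ i)) ∈ Oh.nonunits := hres
  have hdeg : (minpoly R θ₀).natDegree = p :=
    SplitAsm.natDegree_minpoly_of_sheet_residues hrank θ₀ hint jj (fun i => (e i).comp ι') hψ Oh
      hpO hd a₁ hres'
  refine ⟨hdeg, ?_⟩
  -- `R` and `θ₀` land in the valuation ring of the sheet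
  have hRW : ∀ r : R, ι' (algebraMap R K0 r) ∈ R'.Rw := fun r => by
    rw [hRw, sheet_algebraMap ι' jj (e j₁) (he j₁)]
    exact hjR r
  have hθW : ι' θ₀ ∈ R'.Rw := by
    rw [hRw]
    have h1 := mem_of_mem_nonunits Oh (hres j₁)
    have h2 := Oh.add_mem _ _ h1 (hjR (SplitAsm.sheetRes p d a₁ j₁))
    rwa [sub_add_cancel] at h2
  have hSW : ∀ a : Algebra.adjoin R ({θ₀} : Set K0),
      ι' (algebraMap (Algebra.adjoin R ({θ₀} : Set K0)) K0 a) ∈ R'.Rw := by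
    rintro ⟨a, ha⟩
    show ι' a ∈ R'.Rw
    induction ha using Algebra.adjoin_induction with
    | mem x hx =>
      rw [Set.mem_singleton_iff] at hx
      rw [hx]
      exact hθW
    | algebraMap r => exact hRW r
    | add x z _ _ hx hz =>
      rw [map_add]
      exact R'.Rw.add_mem _ _ hx hz
    | mul x z _ _ hx hz =>
      rw [map_mul]
      exact R'.Rw.mul_mem _ _ hx hz
  refine ⟨hSW, ?_, ?_⟩
  · -- `hsplit`
    have hker := dvd_of_mem_nonunits 𝔫 rd y hgen ι' R' Oh jj (e j₁) (he j₁) hjR hRw hρB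
    have hcong := SplitAsm.dvd_coeff_of_sheet_residues hrank θ₀ hint jj (fun i => (e i).comp ι')
      hψ Oh hjR hpO hd a₁ hres' (algebraMap B R y) hker
    have hroot : aeval (ASEtale.adjoinGen (R := R) θ₀) (minpoly R θ₀) = 0 := by
      apply Subtype.ext
      rw [Subalgebra.coe_zero, ← Subalgebra.aeval_coe]
      exact minpoly.aeval R θ₀
    exact NL0Plug.dvd_prod_of_coeff hroot (algebraMap B R y) (SplitAsm.sheetRes p d a₁) hcong
  · -- `hθ_i`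
    refine red_eq_of_sub_mem R' Oh (e j₁) hRw _ _ _ _ ?_
    have h1 : e j₁ (ι' (algebraMap (Algebra.adjoin R ({θ₀} : Set K0)) K0
        (algebraMap R (Algebra.adjoin R ({θ₀} : Set K0)) (SplitAsm.sheetRes p d a₁ j₁)))) =
        jj (algebraMap R F₀ (SplitAsm.sheetRes p d a₁ j₁)) :=
      sheet_algebraMap (R := R) ι' jj (e j₁) (he j₁) (SplitAsm.sheetRes p d a₁ j₁)
    rw [h1]
    exact hres j₁

/-- `p` is not a unit of `R` when it is a nonunit of `Ô`. -/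
theorem not_isUnit_natCast (Oh : ValuationSubring L₁) (jj : F₀ →+* L₁)
    (hjR : ∀ r : R, jj (algebraMap R F₀ r) ∈ Oh) (hpO : (p : L₁) ∈ Oh.nonunits) :
    ¬ IsUnit ((p : ℕ) : R) := by
  intro hu
  obtain ⟨v, hv⟩ := hu.exists_right_inv
  have h1 : (p : L₁) * jj (algebraMap R F₀ v) = 1 := by
    have := congrArg (fun r : R => jj (algebraMap R F₀ r)) hv
    simpa only [map_mul, map_natCast, map_one] using this
  rw [ValuationSubring.mem_nonunits_iff_or] at hpO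
  rcases hpO with h0 | h0
  · rw [h0, zero_mul] at h1
    exact zero_ne_one h1
  · apply h0
    have h2 : (p : L₁)⁻¹ = jj (algebraMap R F₀ v) := inv_eq_of_mul_eq_one_right h1
    rw [h2]
    exact hjR v

/-- the two sheets do not meet transversally: the binder `hnode` from the meeting condition. -/
theorem not_isUnit_sheetRes_sub {d : ℕ} (a₁ a₂ : R) (j₁ j₂ : ZMod p)
    (hmeet : ¬ IsUnit (a₁ + (j₁.val : R) - (a₂ + (j₂.val : R)))) :
    ¬ IsUnit (SplitAsm.sheetRes p d a₁ j₁ - SplitAsm.sheetRes p d a₂ j₂) := by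
  intro hu
  apply hmeet
  have e : SplitAsm.sheetRes p d a₁ j₁ - SplitAsm.sheetRes p d a₂ j₂ =
      (d : R) * (a₁ + (j₁.val : R) - (a₂ + (j₂.val : R))) := by
    unfold SplitAsm.sheetRes
    ring
  rw [e] at hu
  exact isUnit_of_mul_isUnit_right hu

set_option maxHeartbeats 1600000 in
/-- **NL0 at a NODE of the cover from the residues of the sheets.**  `R = B_𝔫` (integrally closed,
noetherian), `F₀ = Frac R`, `[K0 : F₀] = p`, `θ₀ ∈ K0` integral over `R`; on each branch `i` the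
`p` sheets `e_i k : F' →+* L_i` agree with `jj_i` on `F₀`, the reduction datum `R_i` is detected by
the sheet `e_i j_i`, and `e_i k θ₀ ≡ d (a_i + k)`; the sheets `j₁`, `j₂` meet
(`hmeet`).  Then every `u ∈ K0ˣ`, unit at both sheets, with `p`-divisible horizontal divisor
through the point (`hhor`), has `m ∣ ord_{P_s} (red₁ u)`. -/
theorem nl0_of_sheets (𝔫 : Ideal B) [𝔫.IsPrime] [Algebra B R] [IsLocalization.AtPrime R 𝔫]
    -- downstairs (`PkgAsm.nl0_of_pkg`)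
    (rd₁ : B →+* E₁) (hrd₁ : Function.Surjective rd₁) (𝔫'₁ : Ideal E₁) [𝔫'₁.IsPrime]
    (h𝔫₁ : Ideal.comap rd₁ 𝔫'₁ = 𝔫) (h0₁ : 𝔫'₁ ≠ ⊥)
    (rd₂ : B →+* E₂) (hrd₂ : Function.Surjective rd₂) (𝔫'₂ : Ideal E₂) [𝔫'₂.IsPrime]
    (h𝔫₂ : Ideal.comap rd₂ 𝔫'₂ = 𝔫) (h0₂ : 𝔫'₂ ≠ ⊥)
    (y₁ y₂ l s c : B) (hy₁ : rd₁ y₁ = 0) (hy₂ : rd₂ y₂ = 0) (hy₁0 : y₁ ≠ 0) (hy₂0 : y₂ ≠ 0)
    (hgen₁ : ∀ b : B, rd₁ b = 0 → ∃ t : B, t ∉ 𝔫 ∧ y₁ ∣ t * b)
    (hgen₂ : ∀ b : B, rd₂ b = 0 → ∃ t : B, t ∉ 𝔫 ∧ y₂ ∣ t * b)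
    (hs : s ∉ 𝔫) (hc : c ∉ 𝔫) (hth : l * s = c * y₂ * y₁)
    -- the cover
    (hrank : Module.finrank F₀ K0 = p)
    (ι' : K0 →+* F') (R₁ : RedData Kc F' k Ft) (hun₁ : Unram R₁)
    (R₂ : RedData Kc F' k Ft₂) (Pl : Place k Ft)
    (θ₀ : K0) (hint : IsIntegral R θ₀) {d : ℕ} (hd : ¬ p ∣ d)
    -- the sheets over branch 1
    (Oh₁ : ValuationSubring L₁) (jj₁ : F₀ →+* L₁) (e₁ : ZMod p → (F' →+* L₁))
    (he₁ : ∀ (i : ZMod p) (a : F₀), e₁ i (ι' (algebraMap F₀ K0 a)) = jj₁ a)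
    (hjR₁ : ∀ r : R, jj₁ (algebraMap R F₀ r) ∈ Oh₁) (hpO₁ : (p : L₁) ∈ Oh₁.nonunits)
    (j₁ : ZMod p) (hRw₁ : ∀ z : F', z ∈ R₁.Rw ↔ e₁ j₁ z ∈ Oh₁) (a₁ : R)
    (hres₁ : ∀ i : ZMod p,
      e₁ i (ι' θ₀) - jj₁ (algebraMap R F₀ (SplitAsm.sheetRes p d a₁ i)) ∈ Oh₁.nonunits)
    (hρB₁ : ∀ (b : B) (hb : ι' (algebraMap R K0 (algebraMap B R b)) ∈ R₁.Rw),
      R₁.red ⟨_, hb⟩ = algebraMap E₁ Ft (rd₁ b))
    -- the sheets over branch 2
    (Oh₂ : ValuationSubring L₂) (jj₂ : F₀ →+* L₂) (e₂ : ZMod p → (F' →+* L₂))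
    (he₂ : ∀ (i : ZMod p) (a : F₀), e₂ i (ι' (algebraMap F₀ K0 a)) = jj₂ a)
    (hjR₂ : ∀ r : R, jj₂ (algebraMap R F₀ r) ∈ Oh₂) (hpO₂ : (p : L₂) ∈ Oh₂.nonunits)
    (j₂ : ZMod p) (hRw₂ : ∀ z : F', z ∈ R₂.Rw ↔ e₂ j₂ z ∈ Oh₂) (a₂ : R)
    (hres₂ : ∀ i : ZMod p,
      e₂ i (ι' θ₀) - jj₂ (algebraMap R F₀ (SplitAsm.sheetRes p d a₂ i)) ∈ Oh₂.nonunits)
    (hρB₂ : ∀ (b : B) (hb : ι' (algebraMap R K0 (algebraMap B R b)) ∈ R₂.Rw),
      R₂.red ⟨_, hb⟩ = algebraMap E₂ Ft₂ (rd₂ b))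
    -- the point
    (hvE : ∀ e : E₁, e ∉ 𝔫'₁ → Pl.ord (algebraMap E₁ Ft e) = 0)
    (hmeet : ¬ IsUnit (a₁ + (j₁.val : R) - (a₂ + (j₂.val : R))))
    (m : ℕ) (u : K0) (hu0 : u ≠ 0) (hu1 : IsU R₁ (ι' u)) (hu2 : IsU R₂ (ι' u))
    (hhor : ∀ V : ValuationSubring K0, IsDiscreteValuationRing V →
      (∀ r : R, algebraMap R K0 r ∈ V) → θ₀ ∈ V →
      (algebraMap R K0 (algebraMap B R l))⁻¹ ∈ V →
      ∃ z : K0, z ≠ 0 ∧ u * z ^ m ∈ V ∧ (u * z ^ m)⁻¹ ∈ V) :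
    (m : ℤ) ∣ ordRed R₁ hun₁ Pl (ι' u) := by
  have hloc : IsLocalRing R := IsLocalization.AtPrime.isLocalRing R 𝔫
  obtain ⟨hdeg, hSW₁, hsplit₁, hθ₁⟩ := sheet_block 𝔫 rd₁ y₁ hgen₁ hrank ι' R₁ θ₀ hint Oh₁ jj₁ e₁
    he₁ hjR₁ hpO₁ j₁ hRw₁ hd a₁ hres₁ hρB₁
  obtain ⟨-, hSW₂, hsplit₂, hθ₂⟩ := sheet_block 𝔫 rd₂ y₂ hgen₂ hrank ι' R₂ θ₀ hint Oh₂ jj₂ e₂
    he₂ hjR₂ hpO₂ j₂ hRw₂ hd a₂ hres₂ hρB₂
  have : IsFractionRing (Algebra.adjoin R ({θ₀} : Set K0)) K0 :=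
    isFractionRing_adjoin_of_natDegree (F₀ := F₀) θ₀ hint (hdeg.trans hrank.symm)
  have : IsNoetherianRing (Algebra.adjoin R ({θ₀} : Set K0)) :=
    ASEtale.isNoetherianRing_adjoin_singleton θ₀
  have hpR : ¬ IsUnit ((p : ℕ) : R) := not_isUnit_natCast Oh₁ jj₁ hjR₁ hpO₁
  have hRK : Function.Injective (algebraMap R K0) := by
    rw [IsScalarTower.algebraMap_eq R F₀ K0]
    exact (algebraMap F₀ K0).injective.comp (IsFractionRing.injective R F₀)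
  have hRS : Function.Injective (algebraMap R (Algebra.adjoin R ({θ₀} : Set K0))) := by
    intro a b hab
    apply hRK
    exact congrArg Subtype.val hab
  have hintS : IsIntegral R (ASEtale.adjoinGen (R := R) θ₀) := by
    rw [← isIntegral_algebraMap_iff
      (B := K0) (Subtype.val_injective : Function.Injective
        (algebraMap (Algebra.adjoin R ({θ₀} : Set K0)) K0))]
    exact hint
  exact PkgAsm.nl0_of_pkg (S := Algebra.adjoin R ({θ₀} : Set K0)) 𝔫 rd₁ hrd₁ 𝔫'₁ h𝔫₁ h0₁ rd₂ hrd₂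
    𝔫'₂ h𝔫₂ h0₂ y₁ y₂ l s c hy₁ hy₂ hy₁0 hy₂0 hgen₁ hgen₂ hs hc hth ι' R₁ hun₁ R₂ Pl
    (ASEtale.adjoin_adjoinGen θ₀) hintS hRS hSW₁ hSW₂ (fun b => hρB₁ b _) (fun b => hρB₂ b _) hvE
    (SplitAsm.sheetRes p d a₁) hsplit₁ j₁ hθ₁
    (fun i hi => PkgAsm.isUnit_sheetRes_sub hpR hd a₁ hi)
    (SplitAsm.sheetRes p d a₂) hsplit₂ j₂ hθ₂
    (fun i hi => PkgAsm.isUnit_sheetRes_sub hpR hd a₂ hi)
    (not_isUnit_sheetRes_sub a₁ a₂ j₁ j₂ hmeet) m u hu0 hu1 hu2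
    (fun V hV hSV hl => hhor V hV
      (fun r => hSV (algebraMap R (Algebra.adjoin R ({θ₀} : Set K0)) r))
      (hSV (ASEtale.adjoinGen (R := R) θ₀)) hl)

set_option maxHeartbeats 1600000 in
/-- **NL0 at a SMOOTH point (type I) of the cover from the residues of the sheets** (ONE branch,
thickness `ℓ · s = c · y₁`). -/
theorem nl0_of_sheets_typeI (𝔫 : Ideal B) [𝔫.IsPrime] [Algebra B R] [IsLocalization.AtPrime R 𝔫]
    (rd₁ : B →+* E₁) (hrd₁ : Function.Surjective rd₁) (𝔫'₁ : Ideal E₁) [𝔫'₁.IsPrime]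
    (h𝔫₁ : Ideal.comap rd₁ 𝔫'₁ = 𝔫) (h0₁ : 𝔫'₁ ≠ ⊥)
    (y₁ l s c : B) (hy₁ : rd₁ y₁ = 0) (hy₁0 : y₁ ≠ 0)
    (hgen₁ : ∀ b : B, rd₁ b = 0 → ∃ t : B, t ∉ 𝔫 ∧ y₁ ∣ t * b)
    (hs : s ∉ 𝔫) (hc : c ∉ 𝔫) (hth : l * s = c * y₁)
    (hrank : Module.finrank F₀ K0 = p)
    (ι' : K0 →+* F') (R₁ : RedData Kc F' k Ft) (hun₁ : Unram R₁) (Pl : Place k Ft)
    (θ₀ : K0) (hint : IsIntegral R θ₀) {d : ℕ} (hd : ¬ p ∣ d)
    (Oh₁ : ValuationSubring L₁) (jj₁ : F₀ →+* L₁) (e₁ : ZMod p → (F' →+* L₁))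
    (he₁ : ∀ (i : ZMod p) (a : F₀), e₁ i (ι' (algebraMap F₀ K0 a)) = jj₁ a)
    (hjR₁ : ∀ r : R, jj₁ (algebraMap R F₀ r) ∈ Oh₁) (hpO₁ : (p : L₁) ∈ Oh₁.nonunits)
    (j₁ : ZMod p) (hRw₁ : ∀ z : F', z ∈ R₁.Rw ↔ e₁ j₁ z ∈ Oh₁) (a₁ : R)
    (hres₁ : ∀ i : ZMod p,
      e₁ i (ι' θ₀) - jj₁ (algebraMap R F₀ (SplitAsm.sheetRes p d a₁ i)) ∈ Oh₁.nonunits)
    (hρB₁ : ∀ (b : B) (hb : ι' (algebraMap R K0 (algebraMap B R b)) ∈ R₁.Rw),
      R₁.red ⟨_, hb⟩ = algebraMap E₁ Ft (rd₁ b))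
    (hvE : ∀ e : E₁, e ∉ 𝔫'₁ → Pl.ord (algebraMap E₁ Ft e) = 0)
    (m : ℕ) (u : K0) (hu0 : u ≠ 0) (hu1 : IsU R₁ (ι' u))
    (hhor : ∀ V : ValuationSubring K0, IsDiscreteValuationRing V →
      (∀ r : R, algebraMap R K0 r ∈ V) → θ₀ ∈ V →
      (algebraMap R K0 (algebraMap B R l))⁻¹ ∈ V →
      ∃ z : K0, z ≠ 0 ∧ u * z ^ m ∈ V ∧ (u * z ^ m)⁻¹ ∈ V) :
    (m : ℤ) ∣ ordRed R₁ hun₁ Pl (ι' u) := by
  have hloc : IsLocalRing R := IsLocalization.AtPrime.isLocalRing R 𝔫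
  obtain ⟨hdeg, hSW₁, hsplit₁, hθ₁⟩ := sheet_block 𝔫 rd₁ y₁ hgen₁ hrank ι' R₁ θ₀ hint Oh₁ jj₁ e₁
    he₁ hjR₁ hpO₁ j₁ hRw₁ hd a₁ hres₁ hρB₁
  have : IsFractionRing (Algebra.adjoin R ({θ₀} : Set K0)) K0 :=
    isFractionRing_adjoin_of_natDegree (F₀ := F₀) θ₀ hint (hdeg.trans hrank.symm)
  have : IsNoetherianRing (Algebra.adjoin R ({θ₀} : Set K0)) :=
    ASEtale.isNoetherianRing_adjoin_singleton θ₀
  have hpR : ¬ IsUnit ((p : ℕ) : R) := not_isUnit_natCast Oh₁ jj₁ hjR₁ hpO₁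
  have hRK : Function.Injective (algebraMap R K0) := by
    rw [IsScalarTower.algebraMap_eq R F₀ K0]
    exact (algebraMap F₀ K0).injective.comp (IsFractionRing.injective R F₀)
  have hRS : Function.Injective (algebraMap R (Algebra.adjoin R ({θ₀} : Set K0))) := by
    intro a b hab
    apply hRK
    exact congrArg Subtype.val hab
  have hintS : IsIntegral R (ASEtale.adjoinGen (R := R) θ₀) := by
    rw [← isIntegral_algebraMap_iff
      (B := K0) (Subtype.val_injective : Function.Injective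
        (algebraMap (Algebra.adjoin R ({θ₀} : Set K0)) K0))]
    exact hint
  exact PkgAsm.nl0_of_pkg_typeI (S := Algebra.adjoin R ({θ₀} : Set K0)) 𝔫 rd₁ hrd₁ 𝔫'₁ h𝔫₁ h0₁
    y₁ l s c hy₁ hy₁0 hgen₁ hs hc hth ι' R₁ hun₁ Pl
    (ASEtale.adjoin_adjoinGen θ₀) hintS hRS hSW₁ (fun b => hρB₁ b _) hvE
    (SplitAsm.sheetRes p d a₁) hsplit₁ j₁ hθ₁
    (fun i hi => PkgAsm.isUnit_sheetRes_sub hpR hd a₁ hi) m u hu0 hu1
    (fun V hV hSV hl => hhor V hV
      (fun r => hSV (algebraMap R (Algebra.adjoin R ({θ₀} : Set K0)) r))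
      (hSV (ASEtale.adjoinGen (R := R) θ₀)) hl)

end Asm

end Fermat.Agent.GF.KCover.Node.SheetAsm

end
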