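/-
GATE-F (S44) / GF-KCOVER-INST, node side (helper84), leaf (U12) **ResLift**: the binder `a_i` of
`SheetAsm.nl0_of_sheets`.

* `exists_lift_of_isIntegral` : `R = B_𝔫`, `rd : B ↠ E` (`E` Dedekind, `Frac E = Ft`),
  `𝔫 = rd⁻¹ 𝔫'`, `φ : R →+* F'` with `φ(R) ⊆ R'.Rw` and `R'.red ∘ φ = rd` on `B` (`hρB`).  If
  `z ∈ R'.Rw` is integral over `R` (root of a monic `P ∈ R[X]` through `φ`), then its residue is the
  residue of an element of `R`: `∃ a : R, R'.red z = R'.red (φ a)`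
  (the residues of `R` fill `E_{𝔫'}`, a DVR, integrally closed in `Ft`).
* `exists_sheet_lift` : the same in the vocabulary of `SheetAsm` (`φ = ι' ∘ algebraMap R K0`, the
  reduction datum detected by `e : F' →+* L`): `∃ a : R, e z − jj (algebraMap R F₀ a) ∈ Ô.nonunits`.
* `exists_eps` : `ζ` a primitive `p`-th root of unity in a domain: `p = ε₀ (ζ − 1)^(p−1)` with
  `ε₀` integral over `ℤ` (Mathlib `IsPrimitiveRoot.self_sub_one_pow_dvd_order`).
* `isIntegral_of_kummer_as` : `(1 + c Z')^p = 1 + c^p g₁`, `c = ζ − 1 ≠ 0`, `g₁` integral over `R`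
  ⟹ `Z'` integral over `R`.
-/
import Fermat.Agent.GF.KCover.Node.SheetAsm
import Fermat.Agent.GF.KCover.Node.ASResidue

set_option autoImplicit false
set_option linter.unusedSectionVars false
set_option linter.unusedVariables false

noncomputable section

open AlgebraicCurve

namespace Fermat.Agent.GF.KCover.Node.ResLift

open Polynomial IsLocalRing
open Fermat.Agent.GJ.J1 Fermat.Agent.S24 Fermat.Agent.GF.Trop
open Fermat.Agent.GF.KCover.Node

/-! ### lifting an integral residue -/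

section Lift

variable {Kc F' k Ft : Type*} [Field Kc] [Field F'] [Algebra Kc F'] [Field k] [Field Ft]
  [Algebra k Ft]

variable {B E : Type*} [CommRing B] [IsDomain B] [CommRing E] [IsDedekindDomain E] [Algebra E Ft]
  [IsFractionRing E Ft]

variable {R : Type*} [CommRing R]

set_option maxHeartbeats 800000 in
/-- **(U12)**: the residue of an element integral over `R = B_𝔫` is the residue of an element of
`R`. -/
theorem exists_lift_of_isIntegral (𝔫 : Ideal B) [𝔫.IsPrime] [Algebra B R]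
    [IsLocalization.AtPrime R 𝔫] (rd : B →+* E) (hrd : Function.Surjective rd) (𝔫' : Ideal E)
    [𝔫'.IsPrime] (h𝔫 : Ideal.comap rd 𝔫' = 𝔫) (h0 : 𝔫' ≠ ⊥)
    (φ : R →+* F') (R' : RedData Kc F' k Ft) (hRW : ∀ r : R, φ r ∈ R'.Rw)
    (hρB : ∀ (b : B) (hb : φ (algebraMap B R b) ∈ R'.Rw),
      R'.red ⟨_, hb⟩ = algebraMap E Ft (rd b))
    (z : F') (hz : z ∈ R'.Rw) (hintz : φ.IsIntegralElem z) :
    ∃ a : R, R'.red ⟨z, hz⟩ = R'.red ⟨φ a, hRW a⟩ := by
  obtain ⟨P, hP, hPz⟩ := hintz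
  let alg : Algebra (Localization.AtPrime 𝔫') Ft := (PkgAsm.locHom (Ft := Ft) 𝔫').toAlgebra
  have tow : IsScalarTower E (Localization.AtPrime 𝔫') Ft :=
    IsScalarTower.of_algebraMap_eq (fun e => (PkgAsm.locHom_algebraMap (Ft := Ft) 𝔫' e).symm)
  have fr : IsFractionRing (Localization.AtPrime 𝔫') Ft :=
    NodePkg.isFractionRing_loc 𝔫' (Localization.AtPrime 𝔫') Ft
  have dvr : IsDiscreteValuationRing (Localization.AtPrime 𝔫') :=
    IsLocalization.AtPrime.isDiscreteValuationRing_of_dedekind_domain E h0 _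
  -- the residue map on `R`
  let ψ : R →+* R'.Rw := φ.codRestrict R'.Rw.toSubring hRW
  let ρ : R →+* Ft := R'.red.comp ψ
  have hρ : ∀ r : R, ρ r = R'.red ⟨φ r, hRW r⟩ := fun r => rfl
  have hρπ : ∀ r : R, ρ r = algebraMap (Localization.AtPrime 𝔫') Ft
      (NodePkg.piHom 𝔫 R rd 𝔫' h𝔫 (Localization.AtPrime 𝔫') r) := by
    intro r
    exact PkgAsm.red_eq_piHom (S := R) 𝔫 R rd 𝔫' h𝔫 (Localization.AtPrime 𝔫') ρ
      (fun b => by
        rw [Algebra.algebraMap_self, RingHom.id_apply, hρ]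
        exact hρB b _) r
  -- the residue of `z` is a root of `P.map ρ`
  have hsub : (R'.Rw.subtype : R'.Rw →+* F').comp ψ = φ := RingHom.ext fun r => rfl
  have h1 : P.eval₂ ψ ⟨z, hz⟩ = 0 := by
    apply Subtype.ext
    have h2 := Polynomial.hom_eval₂ P ψ (R'.Rw.subtype : R'.Rw →+* F') ⟨z, hz⟩
    rw [hsub] at h2
    show (R'.Rw.subtype : R'.Rw →+* F') (P.eval₂ ψ ⟨z, hz⟩) = 0
    rw [h2]
    exact hPz
  have h3 : P.eval₂ ρ (R'.red ⟨z, hz⟩) = 0 := by
    have h4 := Polynomial.hom_eval₂ P ψ R'.red ⟨z, hz⟩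
    rw [h1, map_zero] at h4
    exact h4.symm
  -- integrality over `E_{𝔫'}`
  have hint : IsIntegral (Localization.AtPrime 𝔫') (R'.red ⟨z, hz⟩) := by
    refine ⟨P.map (NodePkg.piHom 𝔫 R rd 𝔫' h𝔫 (Localization.AtPrime 𝔫')), hP.map _, ?_⟩
    rw [Polynomial.eval₂_map]
    have hcomp : (algebraMap (Localization.AtPrime 𝔫') Ft).comp
        (NodePkg.piHom 𝔫 R rd 𝔫' h𝔫 (Localization.AtPrime 𝔫')) = ρ :=
      RingHom.ext fun r => (hρπ r).symm
    rw [hcomp]
    exact h3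
  obtain ⟨δ, hδ⟩ := (IsIntegrallyClosed.isIntegral_iff (R := Localization.AtPrime 𝔫')
    (K := Ft)).1 hint
  obtain ⟨a, ha⟩ := NodePkg.piHom_surjective 𝔫 R rd 𝔫' h𝔫 (Localization.AtPrime 𝔫') hrd δ
  refine ⟨a, ?_⟩
  rw [← hρ, hρπ, ha, hδ]

end Lift

/-! ### the same in the vocabulary of `SheetAsm` -/

section Sheet

variable {Kc F' k Ft : Type*} [Field Kc] [Field F'] [Algebra Kc F'] [Field k] [Field Ft]
  [Algebra k Ft]

variable {B E : Type*} [CommRing B] [IsDomain B] [CommRing E] [IsDedekindDomain E] [Algebra E Ft]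
  [IsFractionRing E Ft]

variable {R F₀ K0 L : Type*} [CommRing R] [Field F₀] [Algebra R F₀] [Field K0] [Algebra F₀ K0]
  [Algebra R K0] [IsScalarTower R F₀ K0] [Field L]

/-- **the binder `a_i` of `SheetAsm.nl0_of_sheets`**: `z ∈ F'` integral over `R` with `e z ∈ Ô`
is congruent to an element of `R` modulo the maximal ideal of `Ô`. -/
theorem exists_sheet_lift (𝔫 : Ideal B) [𝔫.IsPrime] [Algebra B R] [IsLocalization.AtPrime R 𝔫]
    (rd : B →+* E) (hrd : Function.Surjective rd) (𝔫' : Ideal E) [𝔫'.IsPrime]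
    (h𝔫 : Ideal.comap rd 𝔫' = 𝔫) (h0 : 𝔫' ≠ ⊥)
    (ι' : K0 →+* F') (R' : RedData Kc F' k Ft) (Oh : ValuationSubring L) (jj : F₀ →+* L)
    (e : F' →+* L) (he : ∀ a : F₀, e (ι' (algebraMap F₀ K0 a)) = jj a)
    (hjR : ∀ r : R, jj (algebraMap R F₀ r) ∈ Oh)
    (hRw : ∀ z : F', z ∈ R'.Rw ↔ e z ∈ Oh)
    (hρB : ∀ (b : B) (hb : ι' (algebraMap R K0 (algebraMap B R b)) ∈ R'.Rw),
      R'.red ⟨_, hb⟩ = algebraMap E Ft (rd b))
    (z : F') (hz : e z ∈ Oh) (hintz : (ι'.comp (algebraMap R K0)).IsIntegralElem z) :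
    ∃ a : R, e z - jj (algebraMap R F₀ a) ∈ Oh.nonunits := by
  have hRW : ∀ r : R, (ι'.comp (algebraMap R K0)) r ∈ R'.Rw := fun r => by
    rw [hRw, RingHom.comp_apply, SheetAsm.sheet_algebraMap ι' jj e he]
    exact hjR r
  have hzW : z ∈ R'.Rw := (hRw z).2 hz
  obtain ⟨a, ha⟩ := exists_lift_of_isIntegral 𝔫 rd hrd 𝔫' h𝔫 h0 (ι'.comp (algebraMap R K0)) R' hRW
    (fun b hb => hρB b hb) z hzW hintz
  refine ⟨a, ?_⟩
  have h1 : R'.red ⟨z - (ι'.comp (algebraMap R K0)) a, sub_mem hzW (hRW a)⟩ = 0 := by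
    have h2 : (⟨z - (ι'.comp (algebraMap R K0)) a, sub_mem hzW (hRW a)⟩ : R'.Rw) =
        ⟨z, hzW⟩ - ⟨(ι'.comp (algebraMap R K0)) a, hRW a⟩ := rfl
    rw [h2, map_sub, ha, sub_self]
  rw [SheetAsm.red_eq_zero_iff_of_detect R' Oh e hRw, map_sub, RingHom.comp_apply,
    SheetAsm.sheet_algebraMap ι' jj e he] at h1
  exact h1

end Sheet

/-! ### integrality of the Artin–Schreier coordinate -/

section Integral

variable {R A : Type*} [CommRing R] [Field A] {p : ℕ} [Fact p.Prime]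

/-- `p = ε₀ (ζ − 1)^(p−1)` with `ε₀` integral over `ℤ`. -/
theorem exists_eps {ζ : A} (hζ : IsPrimitiveRoot ζ p) :
    ∃ ε₀ : A, IsIntegral ℤ ε₀ ∧ (p : A) = ε₀ * (ζ - 1) ^ (p - 1) := by
  have hpp : p.Prime := Fact.out
  obtain ⟨z, hz, hzp⟩ := hζ.self_sub_one_pow_dvd_order (k := p - 1) (Nat.sub_lt hpp.pos one_pos)
  refine ⟨z, ?_, hzp⟩
  have hζint : IsIntegral ℤ ζ := hζ.isIntegral hpp.pos
  have hle : Algebra.adjoin ℤ ({ζ} : Set A) ≤ integralClosure ℤ A :=
    Algebra.adjoin_le (Set.singleton_subset_iff.2 hζint)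
  exact hle hz

/-- **`Z'` is integral over `R`**: `(1 + c Z')^p = 1 + c^p g₁`, `c = ζ − 1`, `g₁` integral over
`R`. -/
theorem isIntegralElem_of_kummer_as (φ : R →+* A) {ζ c Z' g₁ : A} (hζ : IsPrimitiveRoot ζ p)
    (hc : c = ζ - 1) (hAS : (1 + c * Z') ^ p = 1 + c ^ p * g₁) (hg : φ.IsIntegralElem g₁) :
    φ.IsIntegralElem Z' := by
  have hpp : p.Prime := Fact.out
  let _ : Algebra R A := φ.toAlgebra
  have hgint : IsIntegral R g₁ := hg
  have hζint : IsIntegral R ζ := (hζ.isIntegral hpp.pos).tower_top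
  have hcint : IsIntegral R c := by
    rw [hc]
    exact hζint.sub isIntegral_one
  obtain ⟨ε₀, hε₀, hpε⟩ := exists_eps hζ
  have hεint : IsIntegral R ε₀ := hε₀.tower_top
  have hc0 : c ≠ 0 := by
    rw [hc]
    exact sub_ne_zero.2 (hζ.ne_one hpp.one_lt)
  -- work over the integral closure `T` of `R` in `A`
  let cT : integralClosure R A := ⟨c, hcint⟩
  let εT : integralClosure R A := ⟨ε₀, hεint⟩
  let gT : integralClosure R A := ⟨g₁, hgint⟩
  have hpT : ((p : ℕ) : integralClosure R A) = εT * cT ^ (p - 1) := by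
    apply Subtype.ext
    have h1 : (((p : ℕ) : integralClosure R A) : A) = (p : A) := by
      rw [← map_natCast (algebraMap (integralClosure R A) A) p]
      rfl
    rw [h1, Subalgebra.coe_mul, Subalgebra.coe_pow, hpε]
    show ε₀ * (ζ - 1) ^ (p - 1) = ε₀ * c ^ (p - 1)
    rw [hc]
  have hAST : (1 + algebraMap (integralClosure R A) A cT * Z') ^ p =
      1 + algebraMap (integralClosure R A) A (cT ^ p * gT) := by
    show (1 + c * Z') ^ p = 1 + ((cT ^ p * gT : integralClosure R A) : A)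
    rw [Subalgebra.coe_mul, Subalgebra.coe_pow]
    exact hAS
  have h1 : IsIntegral (integralClosure R A) Z' :=
    ASResidue.isIntegral_of_artinSchreier (ϖ := cT) (ε₀ := εT) (g₁ := gT) hpT hAST hc0
  exact isIntegral_trans (A := integralClosure R A) Z' h1

end Integral

end Fermat.Agent.GF.KCover.Node.ResLift

end
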