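/-
GATE-F / node GF-KCOVER-INST, hub leaf (U2) of helper84 (board 6432) — helper45.
Mathlib + helper3's `GF/KCover/Field/Fix` (`tame`, `fixedTame`).

**The tame trace `θ = Tr_Δ~(Z') = Σ_{i<d} xⁱ Z'` and its residues.**

`x : F' ≃+* F'` with `x ^ d = 1` (the tame generator), `Z' : F'`;
`e : F' →+* L` an embedding with `e ∘ x = τL ∘ e` (`Split.emb_comp_eq`), `Ô` a valuation subring of
`L` on whose residue field `τL` acts trivially (`τL y − y ∈ 𝔪̂` for `y ∈ Ô`).

* `traceTame x d Z`, `traceTame_mem_fixedTame` : `θ ∈ F'₀ = fixedTame x`;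
* `emb_traceTame` : `e θ = Σ_{i<d} τLⁱ (e Z')`;
* `emb_traceTame_mem` : `e Z' ∈ Ô → e θ ∈ Ô`;
* `emb_traceTame_sub_mem_nonunits` : `e θ − d · e Z' ∈ 𝔪̂`;
* `emb_traceTame_sub_natCast_mul_mem_nonunits` : `e Z' − a ∈ 𝔪̂ → e θ − d · a ∈ 𝔪̂`
  (the value of `θ` on the sheet is `d ·` the value of `Z'`);
* `isIntegral_traceTame` : `Z'` integral over an `x`-fixed base `R` ⟹ `θ` integral over `R`.
-/
import Mathlib
import Fermat.Agent.GF.KCover.Field.Fix

set_option autoImplicit false

noncomputable section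

namespace Fermat.Agent.GF.KCover.Node.TraceRes

open Fermat.Agent.GF.KCover.Field

variable {F' L : Type*} [Field F'] [Field L]

/-- the tame trace `θ = Σ_{i<d} xⁱ Z`. -/
def traceTame (x : F' ≃+* F') (d : ℕ) (Z : F') : F' := ∑ i ∈ Finset.range d, (x ^ i) Z

theorem traceTame_add (x : F' ≃+* F') (d : ℕ) (Y Z : F') :
    traceTame x d (Y + Z) = traceTame x d Y + traceTame x d Z := by
  simp only [traceTame, map_add, Finset.sum_add_distrib]

theorem traceTame_zero (x : F' ≃+* F') (d : ℕ) : traceTame x d 0 = 0 := by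
  simp [traceTame]

/-- `θ` lies in the fixed field of the tame group. -/
theorem traceTame_mem_fixedTame {x : F' ≃+* F'} {d : ℕ} (hd : x ^ d = 1) (Z : F') :
    traceTame x d Z ∈ fixedTame x := by
  rw [mem_fixedTame, traceTame, map_sum]
  have h1 : ∀ i, x ((x ^ i) Z) = (x ^ (i + 1)) Z := fun i => by rw [pow_succ']; rfl
  simp only [h1]
  cases d with
  | zero => simp
  | succ m =>
    rw [Finset.sum_range_succ, Finset.sum_range_succ' (fun i => (x ^ i) Z), hd, pow_zero]

/-- on the fixed field the trace is multiplication by `d`. -/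
theorem traceTame_of_mem_fixedTame {x : F' ≃+* F'} (d : ℕ) {Z : F'} (hZ : Z ∈ fixedTame x) :
    traceTame x d Z = (d : F') * Z := by
  rw [mem_fixedTame] at hZ
  have h1 : ∀ i : ℕ, (x ^ i) Z = Z := by
    intro i
    induction i with
    | zero => rfl
    | succ i ih =>
      rw [pow_succ]
      show (x ^ i) (x Z) = Z
      rw [hZ, ih]
  rw [traceTame, Finset.sum_congr rfl (fun i _ => h1 i), Finset.sum_const, Finset.card_range,
    nsmul_eq_mul]

section Emb

variable (x : F' ≃+* F') (d : ℕ) (e : F' →+* L) (τL : L ≃+* L)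

theorem emb_pow_apply (he : ∀ y, e (x y) = τL (e y)) (i : ℕ) (y : F') :
    e ((x ^ i) y) = (τL ^ i) (e y) := by
  induction i generalizing y with
  | zero => rfl
  | succ i ih =>
    rw [pow_succ, pow_succ]
    show e ((x ^ i) (x y)) = (τL ^ i) (τL (e y))
    rw [ih (x y), he]

/-- `e θ = Σ_{i<d} τLⁱ (e Z)`. -/
theorem emb_traceTame (he : ∀ y, e (x y) = τL (e y)) (Z : F') :
    e (traceTame x d Z) = ∑ i ∈ Finset.range d, (τL ^ i) (e Z) := by
  rw [traceTame, map_sum]
  exact Finset.sum_congr rfl fun i _ => emb_pow_apply x e τL he i Z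

variable (Ohat : ValuationSubring L)

theorem zero_mem_nonunits : (0 : L) ∈ Ohat.nonunits := by
  rw [ValuationSubring.mem_nonunits_iff, map_zero]
  exact zero_lt_one

theorem add_mem_nonunits {a b : L} (ha : a ∈ Ohat.nonunits) (hb : b ∈ Ohat.nonunits) :
    a + b ∈ Ohat.nonunits := by
  rw [ValuationSubring.mem_nonunits_iff] at ha hb ⊢
  exact lt_of_le_of_lt (Ohat.valuation.map_add a b) (max_lt ha hb)

theorem sum_mem_nonunits {ι : Type*} (s : Finset ι) (f : ι → L)
    (h : ∀ i ∈ s, f i ∈ Ohat.nonunits) : ∑ i ∈ s, f i ∈ Ohat.nonunits := by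
  classical
  induction s using Finset.induction_on with
  | empty => rw [Finset.sum_empty]; exact zero_mem_nonunits Ohat
  | insert a s ha ih =>
    rw [Finset.sum_insert ha]
    exact add_mem_nonunits Ohat (h a (Finset.mem_insert_self a s))
      (ih fun i hi => h i (Finset.mem_insert_of_mem hi))

theorem mem_of_mem_nonunits {a : L} (ha : a ∈ Ohat.nonunits) : a ∈ Ohat := by
  rw [ValuationSubring.mem_nonunits_iff] at ha
  exact (Ohat.valuation_le_one_iff a).mp ha.le

theorem mul_mem_nonunits_of_mem {a b : L} (ha : a ∈ Ohat) (hb : b ∈ Ohat.nonunits) :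
    a * b ∈ Ohat.nonunits := by
  rw [ValuationSubring.mem_nonunits_iff] at hb ⊢
  rw [map_mul]
  have h1 : Ohat.valuation a ≤ 1 := (Ohat.valuation_le_one_iff a).mpr ha
  calc Ohat.valuation a * Ohat.valuation b ≤ 1 * Ohat.valuation b := mul_le_mul_left h1 _
    _ = Ohat.valuation b := one_mul _
    _ < 1 := hb

variable {x e τL Ohat}

/-- trivial residue action ⟹ `τL` preserves `Ô`. -/
theorem map_mem_of_res (hres : ∀ y ∈ Ohat, τL y - y ∈ Ohat.nonunits) {y : L} (hy : y ∈ Ohat) :
    τL y ∈ Ohat := by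
  have h1 : τL y = (τL y - y) + y := by ring
  rw [h1]
  exact Ohat.add_mem _ _ (mem_of_mem_nonunits Ohat (hres y hy)) hy

/-- trivial residue action of `τL` ⟹ trivial residue action of every power. -/
theorem pow_sub_mem_nonunits (hres : ∀ y ∈ Ohat, τL y - y ∈ Ohat.nonunits) (i : ℕ) {y : L}
    (hy : y ∈ Ohat) : (τL ^ i) y - y ∈ Ohat.nonunits ∧ (τL ^ i) y ∈ Ohat := by
  induction i generalizing y with
  | zero =>
    refine ⟨?_, hy⟩
    show y - y ∈ Ohat.nonunits
    rw [sub_self]
    exact zero_mem_nonunits Ohat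
  | succ i ih =>
    have hτy : τL y ∈ Ohat := map_mem_of_res hres hy
    obtain ⟨h1, h2⟩ := ih hτy
    have h3 : (τL ^ (i + 1)) y = (τL ^ i) (τL y) := by rw [pow_succ]; rfl
    refine ⟨?_, by rw [h3]; exact h2⟩
    have h4 : (τL ^ (i + 1)) y - y = ((τL ^ i) (τL y) - τL y) + (τL y - y) := by rw [h3]; ring
    rw [h4]
    exact add_mem_nonunits Ohat h1 (hres y hy)

/-- `e Z ∈ Ô ⟹ e θ ∈ Ô`. -/
theorem emb_traceTame_mem (he : ∀ y, e (x y) = τL (e y))
    (hres : ∀ y ∈ Ohat, τL y - y ∈ Ohat.nonunits) {Z : F'} (hZ : e Z ∈ Ohat) :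
    e (traceTame x d Z) ∈ Ohat := by
  rw [emb_traceTame x d e τL he]
  exact Ohat.toSubring.sum_mem fun i _ => (pow_sub_mem_nonunits hres i hZ).2

/-- **the residue of the trace**: `e θ − d · e Z ∈ 𝔪̂`. -/
theorem emb_traceTame_sub_mem_nonunits (he : ∀ y, e (x y) = τL (e y))
    (hres : ∀ y ∈ Ohat, τL y - y ∈ Ohat.nonunits) {Z : F'} (hZ : e Z ∈ Ohat) :
    e (traceTame x d Z) - (d : L) * e Z ∈ Ohat.nonunits := by
  rw [emb_traceTame x d e τL he]
  have h1 : ∑ i ∈ Finset.range d, (τL ^ i) (e Z) - (d : L) * e Z =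
      ∑ i ∈ Finset.range d, ((τL ^ i) (e Z) - e Z) := by
    rw [Finset.sum_sub_distrib, Finset.sum_const, Finset.card_range, nsmul_eq_mul]
  rw [h1]
  exact sum_mem_nonunits Ohat _ _ fun i _ => (pow_sub_mem_nonunits hres i hZ).1

/-- the value of `θ` on the sheet is `d` times the value of `Z`: `e Z ≡ a ⟹ e θ ≡ d · a`. -/
theorem emb_traceTame_sub_natCast_mul_mem_nonunits (he : ∀ y, e (x y) = τL (e y))
    (hres : ∀ y ∈ Ohat, τL y - y ∈ Ohat.nonunits) {Z : F'} {a : L} (ha : a ∈ Ohat)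
    (hZa : e Z - a ∈ Ohat.nonunits) : e (traceTame x d Z) - (d : L) * a ∈ Ohat.nonunits := by
  have hZ : e Z ∈ Ohat := by
    have h1 : e Z = (e Z - a) + a := by ring
    rw [h1]
    exact Ohat.add_mem _ _ (mem_of_mem_nonunits Ohat hZa) ha
  have h2 : e (traceTame x d Z) - (d : L) * a =
      (e (traceTame x d Z) - (d : L) * e Z) + (d : L) * (e Z - a) := by ring
  rw [h2]
  refine add_mem_nonunits Ohat (emb_traceTame_sub_mem_nonunits (d := d) he hres hZ) ?_
  exact mul_mem_nonunits_of_mem Ohat (natCast_mem Ohat d) hZa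

end Emb

/-! ### Integrality of the trace -/

/-- the conjugates `xⁱ Z` of an element integral over an `x`-fixed base are integral. -/
theorem isIntegral_pow_apply {R : Type*} [CommRing R] [Algebra R F'] (x : F' ≃+* F')
    (hx : ∀ r : R, x (algebraMap R F' r) = algebraMap R F' r) {Z : F'} (hZ : IsIntegral R Z)
    (i : ℕ) : IsIntegral R ((x ^ i) Z) := by
  have hfix : ∀ r : R, (x ^ i) (algebraMap R F' r) = algebraMap R F' r := by
    intro r
    induction i with
    | zero => rfl
    | succ i ih =>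
      rw [pow_succ]
      show (x ^ i) (x (algebraMap R F' r)) = algebraMap R F' r
      rw [hx, ih]
  exact IsIntegral.map_of_comp_eq (RingHom.id R) ((x ^ i : F' ≃+* F') : F' →+* F')
    (by ext r; exact (hfix r).symm) hZ

/-- **`θ` is integral over every `x`-fixed base over which `Z` is integral.** -/
theorem isIntegral_traceTame {R : Type*} [CommRing R] [Algebra R F'] (x : F' ≃+* F') (d : ℕ)
    (hx : ∀ r : R, x (algebraMap R F' r) = algebraMap R F' r) {Z : F'} (hZ : IsIntegral R Z) :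
    IsIntegral R (traceTame x d Z) :=
  IsIntegral.sum _ fun i _ => isIntegral_pow_apply x hx hZ i

/-- subring form: `R'` a subring of `F'` fixed pointwise by `x`. -/
theorem isIntegral_traceTame_subring (R' : Subring F') (x : F' ≃+* F') (d : ℕ)
    (hx : ∀ r ∈ R', x r = r) {Z : F'} (hZ : IsIntegral R' Z) :
    IsIntegral R' (traceTame x d Z) :=
  isIntegral_traceTame (R := R') x d (fun r : R' => hx (r : F') r.2) hZ

end Fermat.Agent.GF.KCover.Node.TraceRes
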