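/-
GATE-F (S44) / node GF-KCOVER-INST, leaf (U5) of helper84 (board 6491), helper96.  Mathlib only.
**The fixed field of the tame generator is generated by ONE element: `fixedTame x = F₀[θ]`, by
Lagrange interpolation (no Galois theory).**

Setting: `F'` a field, `δ x : F' ≃+* F'` commuting automorphisms, `δ ^ p = 1`, `F₀ ⊆ F'` a subfield
containing every element fixed by `δ` and by `x`, `θ` an `x`-fixed element whose `p` conjugates
`δ ^ k θ` (`k < p`) are pairwise distinct.

* `exists_poly_of_fixed` : every `x`-fixed `y` is `P(θ)` with `P ∈ F₀[X]`, `deg P < p`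
  (interpolate `δ ^ k θ ↦ δ ^ k y`; the interpolation polynomial is `δ`- and `x`-invariant by
  uniqueness, so its coefficients lie in `F₀`);
* `exists_poly_of_fixed_commute` : the same with `Commute x δ`;
* `exists_clear_denominators` : `F₀ = Frac R` ⟹ `b · P(θ) ∈ R[θ]` for some `b ≠ 0` in `R`;
* `isFractionRing_adjoin` : `IsFractionRing (Algebra.adjoin R {θ}) E` for `E` the fixed field of
  `x` (`E := fixedTame x` of `GF/KCover/Field/Fix`, `mem_fixedTame`).
-/
import Mathlib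

set_option autoImplicit false

noncomputable section

namespace Fermat.Agent.GF.KCover.Node.FixedGen

open Polynomial

variable {F' : Type*} [Field F']

theorem pow_add_apply (δ : F' ≃+* F') (k l : ℕ) (z : F') :
    (δ ^ (k + l)) z = (δ ^ k) ((δ ^ l) z) := by
  rw [pow_add]; rfl

theorem pow_succ_apply (δ : F' ≃+* F') (k : ℕ) (z : F') : (δ ^ (k + 1)) z = δ ((δ ^ k) z) := by
  rw [pow_succ']; rfl

theorem pow_zero_apply (δ : F' ≃+* F') (z : F') : (δ ^ 0) z = z := by
  rw [pow_zero]; rfl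

theorem comm_pow_apply (δ x : F' ≃+* F') (hc : ∀ y, x (δ y) = δ (x y)) (k : ℕ) (y : F') :
    x ((δ ^ k) y) = (δ ^ k) (x y) := by
  induction k with
  | zero => rw [pow_zero_apply, pow_zero_apply]
  | succ k ih => rw [pow_succ_apply, hc, ih, pow_succ_apply]

/-- evaluation of `P.map φ` at `φ z` -/
theorem eval_map_ringEquiv (φ : F' ≃+* F') (P : F'[X]) (z : F') :
    (P.map (φ : F' →+* F')).eval (φ z) = φ (P.eval z) := by
  rw [Polynomial.eval_map]
  exact Polynomial.eval₂_at_apply (φ : F' →+* F') z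

/-- **(U5)** every `x`-fixed element is a polynomial of degree `< p` in `θ` with coefficients in
`F₀`. -/
theorem exists_poly_of_fixed (δ x : F' ≃+* F') (hc : ∀ y, x (δ y) = δ (x y)) {p : ℕ} (hp : 0 < p)
    (hδ : δ ^ p = 1) (F0 : Subfield F') (hF0 : ∀ y, δ y = y → x y = y → y ∈ F0) (θ : F')
    (hxθ : x θ = θ) (hconj : ∀ k, 0 < k → k < p → (δ ^ k) θ ≠ θ) (y : F') (hy : x y = y) :
    ∃ P : F0[X], P.natDegree < p ∧ y = Polynomial.aeval θ P := by
  classical
  set v : Fin p → F' := fun k => (δ ^ (k : ℕ)) θ with hv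
  set r : Fin p → F' := fun k => (δ ^ (k : ℕ)) y with hr
  have key : ∀ k l : ℕ, k < l → l < p → (δ ^ k) θ ≠ (δ ^ l) θ := by
    intro k l hkl hl heq
    have h1 : (δ ^ l) θ = (δ ^ k) ((δ ^ (l - k)) θ) := by
      rw [← pow_add_apply, Nat.add_sub_cancel' hkl.le]
    rw [h1] at heq
    exact hconj (l - k) (Nat.sub_pos_of_lt hkl) (lt_of_le_of_lt (Nat.sub_le l k) hl)
      ((δ ^ k).injective heq).symm
  have hinj : Set.InjOn v (Finset.univ : Finset (Fin p)) := by
    intro a _ b _ hab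
    by_contra hne
    have hne' : (a : ℕ) ≠ (b : ℕ) := fun h => hne (Fin.ext h)
    rcases lt_or_gt_of_ne hne' with h | h
    · exact key a b h b.2 hab
    · exact key b a h a.2 hab.symm
  set P : F'[X] := Lagrange.interpolate Finset.univ v r with hP
  have hdeg : P.degree < p := by
    have h := Lagrange.degree_interpolate_lt r hinj
    rw [Finset.card_univ, Fintype.card_fin] at h
    exact h
  have heval : ∀ k : Fin p, P.eval (v k) = r k := fun k =>
    Lagrange.eval_interpolate_at_node r hinj (Finset.mem_univ k)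
  have hδp : ∀ z, (δ ^ p) z = z := fun z => by rw [hδ]; rfl
  -- invariance under an automorphism permuting the interpolation data
  have hinv : ∀ φ : F' ≃+* F', (∀ k : Fin p, ∃ l : Fin p, φ (v l) = v k ∧ φ (r l) = r k) →
      P.map (φ : F' →+* F') = P := by
    intro φ hφ
    refine Lagrange.eq_interpolate_of_eval_eq r hinj ?_ ?_
    · rw [Finset.card_univ, Fintype.card_fin]
      exact lt_of_le_of_lt Polynomial.degree_map_le hdeg
    · intro k _
      obtain ⟨l, h1, h2⟩ := hφ k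
      rw [← h1, eval_map_ringEquiv, heval, h2]
  have hPδ : P.map (δ : F' →+* F') = P := by
    refine hinv δ (fun k => ?_)
    by_cases hk : (k : ℕ) = 0
    · refine ⟨⟨p - 1, Nat.sub_lt hp Nat.one_pos⟩, ?_, ?_⟩
      · show δ ((δ ^ (p - 1)) θ) = (δ ^ (k : ℕ)) θ
        rw [← pow_succ_apply, Nat.sub_add_cancel hp, hδp, hk, pow_zero_apply]
      · show δ ((δ ^ (p - 1)) y) = (δ ^ (k : ℕ)) y
        rw [← pow_succ_apply, Nat.sub_add_cancel hp, hδp, hk, pow_zero_apply]
    · have hk1 : (k : ℕ) - 1 + 1 = k := Nat.sub_add_cancel (Nat.pos_of_ne_zero hk)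
      refine ⟨⟨(k : ℕ) - 1, lt_of_le_of_lt (Nat.sub_le _ _) k.2⟩, ?_, ?_⟩
      · show δ ((δ ^ ((k : ℕ) - 1)) θ) = (δ ^ (k : ℕ)) θ
        rw [← pow_succ_apply, hk1]
      · show δ ((δ ^ ((k : ℕ) - 1)) y) = (δ ^ (k : ℕ)) y
        rw [← pow_succ_apply, hk1]
  have hPx : P.map (x : F' →+* F') = P := by
    refine hinv x (fun k => ⟨k, ?_, ?_⟩)
    · show x ((δ ^ (k : ℕ)) θ) = (δ ^ (k : ℕ)) θ
      rw [comm_pow_apply δ x hc, hxθ]
    · show x ((δ ^ (k : ℕ)) y) = (δ ^ (k : ℕ)) y
      rw [comm_pow_apply δ x hc, hy]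
  -- the coefficients lie in `F₀`
  have hcoeff : ∀ n, P.coeff n ∈ F0 := by
    intro n
    refine hF0 _ ?_ ?_
    · have := congrArg (fun Q : F'[X] => Q.coeff n) hPδ
      simpa [Polynomial.coeff_map] using this
    · have := congrArg (fun Q : F'[X] => Q.coeff n) hPx
      simpa [Polynomial.coeff_map] using this
  have hlift : P ∈ Polynomial.lifts F0.subtype := by
    rw [Polynomial.lifts_iff_coeff_lifts]
    intro n
    exact ⟨⟨P.coeff n, hcoeff n⟩, rfl⟩
  obtain ⟨P₀, hP₀, hdeg₀⟩ := Polynomial.exists_degree_eq_of_mem_lifts hlift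
  refine ⟨P₀, ?_, ?_⟩
  · by_cases h0 : P₀ = 0
    · rw [h0, Polynomial.natDegree_zero]; exact hp
    · rw [Polynomial.natDegree_lt_iff_degree_lt h0, hdeg₀]
      exact hdeg
  · have h0 := heval ⟨0, hp⟩
    have hv0 : v ⟨0, hp⟩ = θ := pow_zero_apply δ θ
    have hr0 : r ⟨0, hp⟩ = y := pow_zero_apply δ y
    rw [hv0, hr0] at h0
    rw [Polynomial.aeval_def, Polynomial.eval₂_eq_eval_map]
    have : P₀.map (algebraMap F0 F') = P := hP₀
    rw [this, h0]

/-- `exists_poly_of_fixed` with `Commute x δ` (the shape of `GF/KCover/Field/Tame.exists_tame`). -/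
theorem exists_poly_of_fixed_commute (δ x : F' ≃+* F') (hc : Commute x δ) {p : ℕ} (hp : 0 < p)
    (hδ : δ ^ p = 1) (F0 : Subfield F') (hF0 : ∀ y, δ y = y → x y = y → y ∈ F0) (θ : F')
    (hxθ : x θ = θ) (hconj : ∀ k, 0 < k → k < p → (δ ^ k) θ ≠ θ) (y : F') (hy : x y = y) :
    ∃ P : F0[X], P.natDegree < p ∧ y = Polynomial.aeval θ P :=
  exists_poly_of_fixed δ x (fun z => congrArg (fun e : F' ≃+* F' => e z) hc.eq) hp hδ F0 hF0 θ hxθ
    hconj y hy

/-! ### `F₀ = Frac R` : clearing denominators -/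

section Frac

variable (E : Subfield F') {R : Type*} [CommRing R] [Algebra R E] (F0 : Subfield F')
  (hfrac : ∀ c ∈ F0, ∃ a b : R, b ≠ 0 ∧
    (c : F') * ((algebraMap R E b : E) : F') = ((algebraMap R E a : E) : F'))
  (θ : E)

include hfrac in
/-- `b · P(θ) ∈ R[θ]` for some `b ≠ 0` in `R`, for every `P ∈ F₀[X]` (`F₀ = Frac R`). -/
theorem exists_clear_denominators [IsDomain R] (P : F0[X]) :
    ∃ b : R, b ≠ 0 ∧ ∃ w ∈ Algebra.adjoin R {θ},
      ((w : E) : F') = ((algebraMap R E b : E) : F') * Polynomial.aeval (θ : F') P := by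
  induction P using Polynomial.induction_on' with
  | add P Q hP hQ =>
    obtain ⟨b₁, hb₁, w₁, hw₁, h₁⟩ := hP
    obtain ⟨b₂, hb₂, w₂, hw₂, h₂⟩ := hQ
    refine ⟨b₁ * b₂, mul_ne_zero hb₁ hb₂,
      algebraMap R E b₂ * w₁ + algebraMap R E b₁ * w₂, ?_, ?_⟩
    · exact Subalgebra.add_mem _
        (Subalgebra.mul_mem _ (Subalgebra.algebraMap_mem _ b₂) hw₁)
        (Subalgebra.mul_mem _ (Subalgebra.algebraMap_mem _ b₁) hw₂)
    · rw [map_add, map_mul]
      push_cast
      rw [h₁, h₂]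
      ring
  | monomial n c =>
    obtain ⟨a, b, hb, hab⟩ := hfrac c c.2
    refine ⟨b, hb, algebraMap R E a * θ ^ n, ?_, ?_⟩
    · exact Subalgebra.mul_mem _ (Subalgebra.algebraMap_mem _ a)
        (Subalgebra.pow_mem _ (Algebra.subset_adjoin (Set.mem_singleton θ)) n)
    · rw [Polynomial.aeval_monomial]
      push_cast
      rw [← hab]
      have : algebraMap F0 F' c = (c : F') := rfl
      rw [this]
      ring

variable (δ x : F' ≃+* F') (hE : ∀ y, y ∈ E ↔ x y = y) (hc : ∀ y, x (δ y) = δ (x y))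
  {p : ℕ} (hp : 0 < p) (hδ : δ ^ p = 1) (hF0 : ∀ y, δ y = y → x y = y → y ∈ F0)
  (hconj : ∀ k, 0 < k → k < p → (δ ^ k) (θ : F') ≠ θ)

include hfrac hE hc hp hδ hF0 hconj in
/-- **(U5), the consumer form**: `E` (the fixed field of `x`) is the fraction field of `R[θ]`. -/
theorem isFractionRing_adjoin [IsDomain R] (hinj : Function.Injective (algebraMap R E)) :
    IsFractionRing (Algebra.adjoin R {θ}) E := by
  have : FaithfulSMul (Algebra.adjoin R {θ}) E :=
    (faithfulSMul_iff_algebraMap_injective _ _).mpr Subtype.val_injective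
  refine IsFractionRing.of_field (Algebra.adjoin R {θ}) E (fun z => ?_)
  have hz : x (z : F') = z := (hE _).1 z.2
  have hθ : x (θ : F') = θ := (hE _).1 θ.2
  obtain ⟨P, -, hP⟩ := exists_poly_of_fixed δ x hc hp hδ F0 hF0 (θ : F') hθ hconj (z : F') hz
  obtain ⟨b, hb, w, hw, hwb⟩ := exists_clear_denominators E F0 hfrac θ P
  have hb' : algebraMap R E b ≠ 0 := fun h0 => hb (hinj (by rw [h0, map_zero]))
  refine ⟨⟨w, hw⟩, algebraMap R (Algebra.adjoin R {θ}) b, ?_⟩
  have h1 : algebraMap (Algebra.adjoin R {θ}) E ⟨w, hw⟩ = w := rfl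
  have h2 : algebraMap (Algebra.adjoin R {θ}) E (algebraMap R (Algebra.adjoin R {θ}) b) =
      algebraMap R E b := rfl
  rw [h1, h2, eq_div_iff hb']
  apply Subtype.ext
  push_cast
  rw [hwb, ← hP]
  ring

end Frac

end Fermat.Agent.GF.KCover.Node.FixedGen
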