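/-
GATE-F (S44) / node GF-KCOVER-INST, node side (L-c): plug of leaf (U5) (helper96 `FixedGen`) on the
abstract Kummer frame of helper3 (`GF/KCover/Field/Lift`), helper37.

**`K = Frac S`: the fixed field of the tame generator `x` is the fraction field of `R[θ]`,
`θ = Tr_Δ~(Z') = traceTame x d Z'`.**  Everything `FixedGen.isFractionRing_adjoin` asks is produced
from the landed leaves:

* `δ := DeckFixed.deckEquiv H hζ _` (the deck transformation as a ring automorphism),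
  `hδ := DeckFixed.deckEquiv_pow_p`;
* `F0 := DeckFixed.fixedBoth δ x`, `hF0` by definition, and `hfrac` from (U9)
  `DeckFixed.mem_fixedBoth_deck_iff` (an element fixed by `δ` and `x` is a `τ`-fixed element of the
  base) and the single hypothesis `hfracBase` (`τ`-fixed elements of the base are fractions of `R`);
* `hconj` from (U7) `SheetRes` and (U2) `TraceRes`: on ONE embedding `e₀ : F' →+* L` (a sheet of
  the cover in the completion) the residues of `θ` on the `p` sheets `e₀ ∘ δ ^ k` are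
  `d · (ẑ + k)`, pairwise distinct because `d · k` is a unit for `0 < k < p`
  (`d` ANY tame order prime to `p`, not only `p - 1`).

* `natCast_mul_natCast_notMem_nonunits`, `hconj_of_sheets_d` : general `d`;
* `deckEquiv_const`, `deckEquiv_one_add_mul` : the binders `hδϖ`, `hδ` of `SheetRes` for the deck
  transformation (`ζ = 1 + c`, `G = H.root = 1 + c Z'`);
* `comm_apply`, `emb_deck_pow_mem` (`e₀ (δ ^ k Z') ∈ Ô`), `htr_traceTame`, `hconj_traceTame`;
* **`isFractionRing_adjoin_traceTame`**.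
-/
import Mathlib
import Fermat.Agent.GF.KCover.Node.DeckFixed
import Fermat.Agent.GF.KCover.Node.SheetRes
import Fermat.Agent.GF.KCover.Node.FixedGen
import Fermat.Agent.GF.KCover.Node.TraceRes

set_option autoImplicit false

noncomputable section

namespace Fermat.Agent.GF.KCover.Node.FixedGenPlug

open Polynomial
open Fermat.Agent.GF.KCover.Field
open Fermat.Agent.GF.KCover.Node

/-! ### `hconj` for a general tame order `d` prime to `p` -/

section general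

variable {L : Type*} [Field L] (O : ValuationSubring L)

/-- `d · k` is not in the maximal ideal when `p ∤ d`, `p ∤ k` and `p ∈ 𝔪̂`. -/
theorem natCast_mul_natCast_notMem_nonunits {p : ℕ} (hpp : p.Prime) (hp : (p : L) ∈ O.nonunits)
    {d k : ℕ} (hd : ¬ p ∣ d) (hk : ¬ p ∣ k) : (d : L) * (k : L) ∉ O.nonunits := by
  have hprime : Prime (p : ℤ) := Nat.prime_iff_prime_int.1 hpp
  have hcop1 : IsCoprime (d : ℤ) (p : ℤ) := by
    rw [isCoprime_comm]
    exact (Prime.coprime_iff_not_dvd hprime).2 fun h => hd (Int.natCast_dvd_natCast.1 h)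
  have hcop2 : IsCoprime (k : ℤ) (p : ℤ) := by
    rw [isCoprime_comm]
    exact (Prime.coprime_iff_not_dvd hprime).2 fun h => hk (Int.natCast_dvd_natCast.1 h)
  have h := SheetRes.intCast_notMem_nonunits O hp (hcop1.mul_left hcop2)
  have hcast : (((d : ℤ) * (k : ℤ) : ℤ) : L) = (d : L) * (k : L) := by push_cast; ring
  rwa [hcast] at h

variable {F : Type*} [CommRing F]

/-- **`hconj` of `FixedGen` from the sheet residues, general `d`** (`SheetRes.hconj_of_sheets` is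
the case `d = p - 1`). -/
theorem hconj_of_sheets_d (δ : F ≃+* F) (e₀ : F →+* L) {ϖ Z' θ : F} (hδϖ : δ ϖ = ϖ)
    (hδ : δ (1 + ϖ * Z') = (1 + ϖ) * (1 + ϖ * Z'))
    (hϖ : e₀ ϖ ∈ O.nonunits) (hϖ0 : e₀ ϖ ≠ 0) (hz : e₀ Z' ∈ O) {p : ℕ} (hpp : p.Prime)
    (hp : (p : L) ∈ O.nonunits) {d : ℕ} (hd : ¬ p ∣ d)
    (htr : ∀ k : ℕ, e₀ ((δ ^ k) θ) - (d : L) * e₀ ((δ ^ k) Z') ∈ O.nonunits) :
    ∀ k, 0 < k → k < p → (δ ^ k) θ ≠ θ := by
  intro k hk0 hkp
  have hδϖ' : (δ : F →+* F) ϖ = ϖ := hδϖ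
  have hδ' : (δ : F →+* F) (1 + ϖ * Z') = (1 + ϖ) * (1 + ϖ * Z') := hδ
  have hk := SheetRes.emb_sheet_trace O (δ : F →+* F) e₀ (θ := θ) hδϖ' hδ' hϖ hϖ0 hz k d
    (by rw [← SheetRes.ringAut_pow_apply, ← SheetRes.ringAut_pow_apply]; exact htr k)
  have h0 := SheetRes.emb_sheet_trace O (δ : F →+* F) e₀ (θ := θ) hδϖ' hδ' hϖ hϖ0 hz 0 d
    (by rw [← SheetRes.ringAut_pow_apply, ← SheetRes.ringAut_pow_apply]; exact htr 0)
  rw [← SheetRes.ringAut_pow_apply] at hk h0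
  rw [pow_zero, RingAut.one_apply] at h0
  have hsub := O.nonunits.sub_mem hk h0
  have hsub' : e₀ ((δ ^ k) θ) - e₀ θ - (d : L) * (k : L) ∈ O.nonunits := by
    have e : e₀ ((δ ^ k) θ) - (d : L) * (e₀ Z' + (k : L))
        - (e₀ θ - (d : L) * (e₀ Z' + ((0 : ℕ) : L)))
        = e₀ ((δ ^ k) θ) - e₀ θ - (d : L) * (k : L) := by
      push_cast; ring
    rwa [e] at hsub
  refine SheetRes.pow_apply_ne_of_sheet O δ e₀ hsub' ?_
  exact natCast_mul_natCast_notMem_nonunits O hpp hp hd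
    fun h => absurd (Nat.le_of_dvd hk0 h) (not_le.2 hkp)

end general

/-! ### the Kummer frame -/

section kummer

variable {F₁ F' : Type*} [Field F₁] [Field F'] [Algebra F₁ F']
variable {p : ℕ} {g₀ : F₁} (H : IsAdjoinRoot F' (X ^ p - C g₀ : F₁[X]))
variable {ζ : F₁} (hζ : IsPrimitiveRoot ζ p)

/-- `hδϖ` of `SheetRes`: the deck transformation fixes the constants. -/
theorem deckEquiv_const (hp : p ≠ 0) (c : F₁) :
    DeckFixed.deckEquiv H hζ hp (algebraMap F₁ F' c) = algebraMap F₁ F' c :=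
  DeckFixed.deckEquiv_algebraMap H hζ hp c

/-- `hδ` of `SheetRes`: `ζ = 1 + c`, `G = 1 + c Z'` ⟹ `δ (1 + c Z') = (1 + c)(1 + c Z')`. -/
theorem deckEquiv_one_add_mul (hp : p ≠ 0) {c : F₁} (hζc : ζ = 1 + c) {Z' : F'}
    (hZ' : H.root = 1 + algebraMap F₁ F' c * Z') :
    DeckFixed.deckEquiv H hζ hp (1 + algebraMap F₁ F' c * Z') =
      (1 + algebraMap F₁ F' c) * (1 + algebraMap F₁ F' c * Z') := by
  rw [← hZ', DeckFixed.deckEquiv_apply, deck_root, hζc, map_add, map_one]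

/-- pointwise commutation of `x` with the deck automorphism from `Commute` of the ring homs
(the output of `Lift.commute_deck` / `Lift.exists_lift_pow_eq_one`). -/
theorem comm_apply (hp : p ≠ 0) (x : F' ≃+* F')
    (hcomm : Commute (x : F' →+* F') (deck H hζ)) (y : F') :
    x (DeckFixed.deckEquiv H hζ hp y) = DeckFixed.deckEquiv H hζ hp (x y) := by
  have := congrArg (fun f : F' →+* F' => f y) hcomm.eq
  exact this

variable {L : Type*} [Field L] (O : ValuationSubring L)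

/-- the images of `Z'` on all the sheets are integral: `e₀ (δ ^ k Z') ∈ Ô`. -/
theorem emb_deck_pow_mem (hp : p ≠ 0) (e₀ : F' →+* L) {c : F₁} (hζc : ζ = 1 + c) {Z' : F'}
    (hZ' : H.root = 1 + algebraMap F₁ F' c * Z')
    (hϖ : e₀ (algebraMap F₁ F' c) ∈ O.nonunits) (hϖ0 : e₀ (algebraMap F₁ F' c) ≠ 0)
    (hz : e₀ Z' ∈ O) (k : ℕ) : e₀ ((DeckFixed.deckEquiv H hζ hp ^ k) Z') ∈ O := by
  have h := SheetRes.emb_sheet O ((DeckFixed.deckEquiv H hζ hp : F' ≃+* F') : F' →+* F') e₀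
    (ϖ := algebraMap F₁ F' c) (Z' := Z') (deckEquiv_const H hζ hp c)
    (deckEquiv_one_add_mul H hζ hp hζc hZ') hϖ hϖ0 hz k
  rw [← SheetRes.ringAut_pow_apply] at h
  have h1 := SheetRes.mem_of_mem_nonunits O h
  have h2 : e₀ Z' + (k : L) ∈ O := add_mem hz (natCast_mem O k)
  have h3 := add_mem h1 h2
  rwa [sub_add_cancel] at h3

/-- **the residue of the tame trace on every sheet** (`htr` of `hconj_of_sheets_d`):
`e₀ (δ ^ k θ) − d · e₀ (δ ^ k Z') ∈ 𝔪̂` for `θ = traceTame x d Z'`. -/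
theorem htr_traceTame (hp : p ≠ 0) (x : F' ≃+* F')
    (hcomm : Commute (x : F' →+* F') (deck H hζ)) (d : ℕ) (e₀ : F' →+* L) (τL : L ≃+* L)
    (he : ∀ y, e₀ (x y) = τL (e₀ y)) (hres : ∀ y ∈ O, τL y - y ∈ O.nonunits)
    {c : F₁} (hζc : ζ = 1 + c) {Z' : F'} (hZ' : H.root = 1 + algebraMap F₁ F' c * Z')
    (hϖ : e₀ (algebraMap F₁ F' c) ∈ O.nonunits) (hϖ0 : e₀ (algebraMap F₁ F' c) ≠ 0)
    (hz : e₀ Z' ∈ O) (k : ℕ) :
    e₀ ((DeckFixed.deckEquiv H hζ hp ^ k) (TraceRes.traceTame x d Z'))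
      - (d : L) * e₀ ((DeckFixed.deckEquiv H hζ hp ^ k) Z') ∈ O.nonunits := by
  set δ := DeckFixed.deckEquiv H hζ hp with hδdef
  have hek : ∀ y, (e₀.comp ((δ ^ k : F' ≃+* F') : F' →+* F')) (x y) =
      τL ((e₀.comp ((δ ^ k : F' ≃+* F') : F' →+* F')) y) := by
    intro y
    show e₀ ((δ ^ k) (x y)) = τL (e₀ ((δ ^ k) y))
    rw [← FixedGen.comm_pow_apply δ x (comm_apply H hζ hp x hcomm) k y, he]
  have hZk : (e₀.comp ((δ ^ k : F' ≃+* F') : F' →+* F')) Z' ∈ O :=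
    emb_deck_pow_mem H hζ O hp e₀ hζc hZ' hϖ hϖ0 hz k
  exact TraceRes.emb_traceTame_sub_mem_nonunits (x := x) (d := d)
    (e := e₀.comp ((δ ^ k : F' ≃+* F') : F' →+* F')) (τL := τL) hek hres hZk

/-- **`hconj` of `FixedGen` for the tame trace**: the `p` conjugates `δ ^ k θ` are distinct. -/
theorem hconj_traceTame (hpp : p.Prime) (x : F' ≃+* F')
    (hcomm : Commute (x : F' →+* F') (deck H hζ)) {d : ℕ} (hd : ¬ p ∣ d) (e₀ : F' →+* L)
    (τL : L ≃+* L) (he : ∀ y, e₀ (x y) = τL (e₀ y)) (hres : ∀ y ∈ O, τL y - y ∈ O.nonunits)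
    {c : F₁} (hζc : ζ = 1 + c) {Z' : F'} (hZ' : H.root = 1 + algebraMap F₁ F' c * Z')
    (hϖ : e₀ (algebraMap F₁ F' c) ∈ O.nonunits) (hϖ0 : e₀ (algebraMap F₁ F' c) ≠ 0)
    (hz : e₀ Z' ∈ O) (hpO : (p : L) ∈ O.nonunits) :
    ∀ k, 0 < k → k < p →
      (DeckFixed.deckEquiv H hζ hpp.ne_zero ^ k) (TraceRes.traceTame x d Z') ≠
        TraceRes.traceTame x d Z' :=
  hconj_of_sheets_d O (DeckFixed.deckEquiv H hζ hpp.ne_zero) e₀
    (deckEquiv_const H hζ hpp.ne_zero c) (deckEquiv_one_add_mul H hζ hpp.ne_zero hζc hZ')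
    hϖ hϖ0 hz hpp hpO hd
    (htr_traceTame H hζ O hpp.ne_zero x hcomm d e₀ τL he hres hζc hZ' hϖ hϖ0 hz)

/-- **(U5) on the Kummer frame, the consumer form `K = Frac S`**: the fixed field `E` of the tame
generator `x` is the fraction field of `R[θ]`, `θ = traceTame x d Z'`, as soon as the `τ`-fixed
elements of the base `F₁` are fractions of elements of `R`. -/
theorem isFractionRing_adjoin_traceTame (hpp : p.Prime) (x : F' ≃+* F') {τ : F₁ →+* F₁}
    (hx : IsOver (x : F' →+* F') τ) (hcomm : Commute (x : F' →+* F') (deck H hζ))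
    {d : ℕ} (hd : ¬ p ∣ d) (e₀ : F' →+* L) (τL : L ≃+* L) (he : ∀ y, e₀ (x y) = τL (e₀ y))
    (hres : ∀ y ∈ O, τL y - y ∈ O.nonunits)
    {c : F₁} (hζc : ζ = 1 + c) {Z' : F'} (hZ' : H.root = 1 + algebraMap F₁ F' c * Z')
    (hϖ : e₀ (algebraMap F₁ F' c) ∈ O.nonunits) (hϖ0 : e₀ (algebraMap F₁ F' c) ≠ 0)
    (hz : e₀ Z' ∈ O) (hpO : (p : L) ∈ O.nonunits)
    (E : Subfield F') (hE : ∀ y, y ∈ E ↔ x y = y) {R : Type*} [CommRing R] [IsDomain R]
    [Algebra R E] (hinj : Function.Injective (algebraMap R E))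
    (hfracBase : ∀ a : F₁, τ a = a → ∃ r b : R, b ≠ 0 ∧
      algebraMap F₁ F' a * ((algebraMap R E b : E) : F') = ((algebraMap R E r : E) : F'))
    (θ : E) (hθ : (θ : F') = TraceRes.traceTame x d Z') :
    IsFractionRing (Algebra.adjoin R {θ}) E := by
  set δ := DeckFixed.deckEquiv H hζ hpp.ne_zero with hδdef
  refine FixedGen.isFractionRing_adjoin E (DeckFixed.fixedBoth δ x) ?_ θ δ x hE
    (comm_apply H hζ hpp.ne_zero x hcomm) hpp.pos (DeckFixed.deckEquiv_pow_p H hζ hpp.ne_zero)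
    (fun y hy hxy => DeckFixed.mem_fixedBoth.2 ⟨hy, hxy⟩) ?_ hinj
  · intro y hy
    obtain ⟨a, ha, rfl⟩ := (DeckFixed.mem_fixedBoth_deck_iff H hζ hpp.ne_zero x hx).1 hy
    exact hfracBase a ha
  · rw [hθ]
    exact hconj_traceTame H hζ O hpp x hcomm hd e₀ τL he hres hζc hZ' hϖ hϖ0 hz hpO

end kummer

end Fermat.Agent.GF.KCover.Node.FixedGenPlug
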