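/-
GATE-F (S44) / GF-KCOVER-INST, node side (L-c), leaf GF-KCOVER-NLNODE (helper42):
**the per-node theorem `NL on Us` in the abstract Kummer frame** — the composition
`NL0Plug.nl_on_subgroup ∘ PkgAsm.nl0_of_pkg ∘ BridgeTau.inn_sheetK ∘ Pack.wv_tame ∘
Bridge.isU_sheetK_of_wv_eq_zero`.

Frame (= `Compl/Bridge`, used for BOTH Gauss reductions `Ra`, `Rb` of the big field `F`):
`E₁ ⊂ F` the `K'`-rational functions (`incl`), `E' = E₁(g₀^{1/p})` (`H₁`), `F' = F(g₀^{1/p})` (`H`),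
`incl' : E' →+* F'`; `va vb` the two discrete valuations of `E₁` (`hA hB : IsDisc _ ϖ`), with the
`p`-th roots `γa γb` of `g₀` in the completions; sheets
`R₁ := sheetK Ra … k₁`, `R₂ := sheetK Rb … k₂`.
Tame generator: `x : E' ≃+* E'` over `τ : E₁ ≃+* E₁`, `σ : F ≃+* F` with `incl ∘ τ = σ ∘ incl`,
inertial for `Ra`; `E` the fixed field of `x` (`K0 := E`, `ι' := incl' ∘ E.subtype`).
Group: `G ≤ F'ˣ` with representatives `toE : G → E'`, `Us ≤ G`, `a : Us →* Us` with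
`toE (a u) = x (toE u)`; `w1 y = wv hA … k₁ (toE y)`, `w2 y = wv hB … k₂ (toE y)`.

* `iterate_toE`, `iterate_eq_self` : `a^[d] u = u` from `x ^ d = 1`;
* `w_tame` : `w (a u) = w u` (`i1`, `i2` of `nl_on_subgroup`);
* `mem_fixed_of_act_eq` : `a u = u → toE u ∈ E` (`hfix`);
* **`nl_node_abs`** : the binders that remain are EXACTLY the downstairs/sheet block of
  `PkgAsm.nl0_of_pkg` (at `K0 := E`) and `hhor` for the `x`-fixed elements of `Us`; conclusion =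
  the `NL` clause of `F2Plug.NodeSupply` / `NodeRelSub.nodeRel_one_sub` at one `(s, j)` VERBATIM.
-/
import Fermat.Agent.GF.KCover.Node.PkgAsm
import Fermat.Agent.GF.KCover.Compl.BridgeTau

set_option autoImplicit false
set_option linter.unusedSectionVars false
set_option linter.unusedVariables false

noncomputable section

open Polynomial AlgebraicCurve

namespace Fermat.Agent.GF.KCover.Node.NlNode

open Fermat.Agent.GJ.J1 Fermat.Agent.S24 Fermat.Agent.GF.Trop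
open Fermat.Agent.GF.KCover.Field Fermat.Agent.GF.KCover.Field.Disc
  Fermat.Agent.GF.KCover.Field.Pack
open Fermat.Agent.GF.KCover.Compl Fermat.Agent.GF.KCover.Compl.Bridge
  Fermat.Agent.GF.KCover.Compl.RedCompl Fermat.Agent.GF.KCover.Compl.RedAut
  Fermat.Agent.GF.KCover.Compl.BridgeTau
open Fermat.Agent.GF.KCover.Node.OrdRedExt Fermat.Agent.GF.KCover.Node

/-! ### the group side: `a` on `Us` is `x` on representatives -/

section Group

variable {F' E' : Type*} [Field F'] [Field E'] (incl' : E' →+* F') (x : E' ≃+* E')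
  (G : Subgroup F'ˣ) (Us : Subgroup G) (a : Us →* Us) (toE : G → E')
  (htoE : ∀ y : G, incl' (toE y) = ((y : F'ˣ) : F'))
  (ha : ∀ u : Us, toE ((a u : Us) : G) = x (toE (u : G)))

include ha in
theorem iterate_toE (i : ℕ) (u : Us) : toE (((a^[i]) u : Us) : G) = (x^[i]) (toE (u : G)) := by
  induction i generalizing u with
  | zero => rfl
  | succ i ih =>
    rw [Function.iterate_succ_apply, ih, ha, ← Function.iterate_succ_apply]

include htoE in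
theorem ext_of_toE {y z : G} (h : toE y = toE z) : y = z := by
  apply Subtype.ext
  apply Units.ext
  rw [← htoE y, ← htoE z, h]

include htoE ha in
theorem iterate_eq_self {d : ℕ} (hxd : (x : E' →+* E') ^ d = 1) (u : Us) : (a^[d]) u = u := by
  apply Subtype.ext
  apply ext_of_toE incl' G toE htoE
  rw [iterate_toE x G Us a toE ha]
  have h1 : ((x : E' →+* E') ^ d) (toE (u : G)) = toE (u : G) := by
    rw [hxd]
    rfl
  rw [RingHom.coe_pow] at h1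
  exact h1

include htoE in
theorem toE_ne_zero (y : G) : toE y ≠ 0 := by
  intro h
  have h1 := htoE y
  rw [h, map_zero] at h1
  exact (y : F'ˣ).ne_zero h1.symm

include ha in
/-- `hfix` of `nl_on_subgroup`: the `a`-fixed elements have `x`-fixed representatives. -/
theorem toE_fixed_of_act_eq (u : Us) (hu : a u = u) : x (toE (u : G)) = toE (u : G) := by
  rw [← ha, hu]

end Group

/-! ### the per-node theorem -/

section Main

variable {K F k Ft Ft₂ : Type*} [Field K] [Field F] [Algebra K F] [Field k] [Field Ft]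
  [Algebra k Ft] [Field Ft₂] [Algebra k Ft₂]
variable (Ra : RedData K F k Ft) (Rb : RedData K F k Ft₂)
variable {F' : Type*} [Field F'] [Algebra K F'] [Algebra F F'] [IsScalarTower K F F']
variable {E₁ : Type*} [Field E₁] {ϖ : E₁}
  {va : Valuation E₁ (ValuationSubring.ValueGroup Ra.Rw)}
  {vb : Valuation E₁ (ValuationSubring.ValueGroup Rb.Rw)}
variable (incl : E₁ →+* F) (hincA : ∀ a : E₁, Ra.Rw.valuation (incl a) = va a)
  (hincB : ∀ a : E₁, Rb.Rw.valuation (incl a) = vb a)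
variable (hA : IsDisc va ϖ) (hB : IsDisc vb ϖ)
variable (harchA : ∀ γ : ValuationSubring.ValueGroup Ra.Rw, γ ≠ 0 → ∃ n : ℕ, va ϖ ^ n < γ)
  (harchB : ∀ γ : ValuationSubring.ValueGroup Rb.Rw, γ ≠ 0 → ∃ n : ℕ, vb ϖ ^ n < γ)
variable {E' : Type*} [Field E'] [Algebra E₁ E'] {p : ℕ} [NeZero p] {g₀ : E₁}
  (H₁ : IsAdjoinRoot E' (X ^ p - C g₀ : E₁[X])) {ζ : E₁} (hζ : IsPrimitiveRoot ζ p)
  {γa : Lc hA} (hγa : γa ^ p = jc hA g₀) {γb : Lc hB} (hγb : γb ^ p = jc hB g₀)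
  (H : IsAdjoinRoot F' (X ^ p - C (incl g₀) : F[X]))
  (incl' : E' →+* F')
  (hincl' : ∀ a : E₁, incl' (algebraMap E₁ E' a) = algebraMap F F' (incl a))
  (hroot : incl' H₁.root = H.root)

/-- the inclusion of the fixed field of the tame generator in the big cover. -/
def iotaE (E : Subfield E') : E →+* F' := incl'.comp E.subtype

@[simp] theorem iotaE_apply (E : Subfield E') (u : E) : iotaE incl' E u = incl' (u : E') := rfl

variable {B C₁ C₂ : Type*} [CommRing B] [IsDomain B] [CommRing C₁] [IsDedekindDomain C₁]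
  [CommRing C₂] [IsDedekindDomain C₂] [Algebra C₁ Ft] [IsFractionRing C₁ Ft]
  [Algebra C₂ Ft₂] [IsFractionRing C₂ Ft₂]
variable {R S : Type*} [CommRing R] [CommRing S] [IsDomain S] [IsNoetherianRing S] [Algebra R S]
  {ι : Type*} [Fintype ι] [DecidableEq ι]

include hincl' hroot in
set_option maxHeartbeats 1600000 in
/-- **The per-node theorem, abstract frame.**  Conclusion = the `NL` clause of
`F2Plug.NodeSupply` at one `(s, j)`; remaining binders = frame + tame generator + the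
downstairs/sheet block of `PkgAsm.nl0_of_pkg` at `K0 := E` + `hhor` on the `x`-fixed elements. -/
theorem nl_node_abs (hunA : Unram Ra)
    -- the tame generator
    (τ : E₁ ≃+* E₁) (hτA : ∀ a, va (τ a) = va a) (hτB : ∀ a, vb (τ a) = vb a)
    (σ : F ≃+* F) (hσA : ∀ y : F, Ra.Rw.valuation (σ y) = Ra.Rw.valuation y)
    (hσK : ∀ c : K, ∃ c' : K, σ (algebraMap K F c) = algebraMap K F c')
    (hresA : ∀ (a : F) (ha : a ∈ Ra.Rw), Ra.red ⟨σ a, map_mem_Rw Ra σ hσA ha⟩ = Ra.red ⟨a, ha⟩)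
    (hcomm : ∀ a : E₁, incl (τ a) = σ (incl a))
    {x : E' ≃+* E'} (hx : IsOver (x : E' →+* E') (τ : E₁ →+* E₁))
    (hxδ : Commute (x : E' →+* E') (deck H₁ hζ)) (hg₀ : g₀ ≠ 0) {d : ℕ}
    (hd : Nat.Coprime d p) (hxd : (x : E' →+* E') ^ d = 1) (hτd : τ ^ d = 1)
    (E : Subfield E') (hE : ∀ y, y ∈ E ↔ x y = y)
    [Algebra S E] [IsFractionRing S E]
    -- the group
    (G : Subgroup F'ˣ) (Us : Subgroup G) (a : Us →* Us) (toE : G → E')
    (htoE : ∀ y : G, incl' (toE y) = ((y : F'ˣ) : F'))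
    (hmul : ∀ y z : G, toE (y * z) = toE y * toE z)
    (ha : ∀ u : Us, toE ((a u : Us) : G) = x (toE (u : G)))
    (k₁ k₂ : ZMod p) (w1 w2 : G → ℤ)
    (hw1 : ∀ y : G, w1 y = wv hA H₁ hζ hγa k₁ (toE y))
    (hw2 : ∀ y : G, w2 y = wv hB H₁ hζ hγb k₂ (toE y))
    (Pl : Place k Ft)
    -- the downstairs block (`PkgAsm.nl0_of_pkg`)
    (𝔫 : Ideal B) [𝔫.IsPrime] [Algebra B R] [IsLocalization.AtPrime R 𝔫]
    (rd₁ : B →+* C₁) (hrd₁ : Function.Surjective rd₁) (𝔫'₁ : Ideal C₁) [𝔫'₁.IsPrime]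
    (h𝔫₁ : Ideal.comap rd₁ 𝔫'₁ = 𝔫) (h0₁ : 𝔫'₁ ≠ ⊥)
    (rd₂ : B →+* C₂) (hrd₂ : Function.Surjective rd₂) (𝔫'₂ : Ideal C₂) [𝔫'₂.IsPrime]
    (h𝔫₂ : Ideal.comap rd₂ 𝔫'₂ = 𝔫) (h0₂ : 𝔫'₂ ≠ ⊥)
    (y₁ y₂ l s c : B) (hy₁ : rd₁ y₁ = 0) (hy₂ : rd₂ y₂ = 0) (hy₁0 : y₁ ≠ 0) (hy₂0 : y₂ ≠ 0)
    (hgen₁ : ∀ b : B, rd₁ b = 0 → ∃ t : B, t ∉ 𝔫 ∧ y₁ ∣ t * b)
    (hgen₂ : ∀ b : B, rd₂ b = 0 → ∃ t : B, t ∉ 𝔫 ∧ y₂ ∣ t * b)
    (hs : s ∉ 𝔫) (hc : c ∉ 𝔫) (hth : l * s = c * y₂ * y₁)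
    -- the cover over the node: `S = R[θ] ⊂ E`
    {θ : S} (hθ : Algebra.adjoin R {θ} = ⊤) (hint : IsIntegral R θ)
    (hRS : Function.Injective (algebraMap R S))
    (hSW₁ : ∀ b : S, iotaE incl' E (algebraMap S E b) ∈
      (sheetK Ra incl hincA hA harchA hζ hγa H k₁).Rw)
    (hSW₂ : ∀ b : S, iotaE incl' E (algebraMap S E b) ∈
      (sheetK Rb incl hincB hB harchB hζ hγb H k₂).Rw)
    (hρB₁ : ∀ b : B, (sheetK Ra incl hincA hA harchA hζ hγa H k₁).red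
        ⟨iotaE incl' E (algebraMap S E (algebraMap R S (algebraMap B R b))), hSW₁ _⟩ =
      algebraMap C₁ Ft (rd₁ b))
    (hρB₂ : ∀ b : B, (sheetK Rb incl hincB hB harchB hζ hγb H k₂).red
        ⟨iotaE incl' E (algebraMap S E (algebraMap R S (algebraMap B R b))), hSW₂ _⟩ =
      algebraMap C₂ Ft₂ (rd₂ b))
    (hvE : ∀ e : C₁, e ∉ 𝔫'₁ → Pl.ord (algebraMap C₁ Ft e) = 0)
    -- the sheets
    (α₁ : ι → R)
    (hsplit₁ : algebraMap R S (algebraMap B R y₁) ∣ ∏ i, (θ - algebraMap R S (α₁ i)))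
    (j₁ : ι)
    (hθ₁ : (sheetK Ra incl hincA hA harchA hζ hγa H k₁).red
        ⟨iotaE incl' E (algebraMap S E θ), hSW₁ θ⟩ =
      (sheetK Ra incl hincA hA harchA hζ hγa H k₁).red
        ⟨iotaE incl' E (algebraMap S E (algebraMap R S (α₁ j₁))), hSW₁ _⟩)
    (hα₁ : ∀ i, i ≠ j₁ → IsUnit (α₁ j₁ - α₁ i))
    (α₂ : ι → R)
    (hsplit₂ : algebraMap R S (algebraMap B R y₂) ∣ ∏ i, (θ - algebraMap R S (α₂ i)))
    (j₂ : ι)
    (hθ₂ : (sheetK Rb incl hincB hB harchB hζ hγb H k₂).red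
        ⟨iotaE incl' E (algebraMap S E θ), hSW₂ θ⟩ =
      (sheetK Rb incl hincB hB harchB hζ hγb H k₂).red
        ⟨iotaE incl' E (algebraMap S E (algebraMap R S (α₂ j₂))), hSW₂ _⟩)
    (hα₂ : ∀ i, i ≠ j₂ → IsUnit (α₂ j₂ - α₂ i))
    (hnode : ¬ IsUnit (α₁ j₁ - α₂ j₂))
    -- horizontal primes: on the `x`-fixed elements of `Us`
    (hhor : ∀ (u : Us) (u₀ : E), toE (u : G) = (u₀ : E') →
      ∀ V : ValuationSubring E, IsDiscreteValuationRing V →
      (∀ b : S, algebraMap S E b ∈ V) →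
      (algebraMap S E (algebraMap R S (algebraMap B R l)))⁻¹ ∈ V →
      ∃ z : E, z ≠ 0 ∧ u₀ * z ^ p ∈ V ∧ (u₀ * z ^ p)⁻¹ ∈ V)
    (y : G) (hy : y ∈ Us) (hy1 : w1 y = 0) (hy2 : w2 y = 0) :
    (p : ℤ) ∣ nodeOrd (sheetK Ra incl hincA hA harchA hζ hγa H k₁)
      (unram_sheetK Ra incl hincA hA harchA hζ hγa H hunA k₁) Pl G y := by
  have hne := toE_ne_zero incl' G toE htoE
  have hcop : IsCoprime (p : ℤ) (d : ℤ) := by
    exact_mod_cast (Nat.isCoprime_iff_coprime.2 hd.symm)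
  refine NL0Plug.nl_on_subgroup (K0 := E) (iotaE incl' E)
    (sheetK Ra incl hincA hA harchA hζ hγa H k₁)
    (unram_sheetK Ra incl hincA hA harchA hζ hγa H hunA k₁) Pl G Us a
    (iterate_eq_self incl' x G Us a toE htoE ha hxd) hcop w1 w2 ?_ ?_ ?_ ?_ ?_ ?_ ?_ y hy hy1 hy2
  · -- h1
    intro y z
    rw [hw1, hw1, hw1, hmul]
    exact wv_mul hA H₁ hζ hγa k₁ (hne y) (hne z)
  · -- h2
    intro y z
    rw [hw2, hw2, hw2, hmul]
    exact wv_mul hB H₁ hζ hγb k₂ (hne y) (hne z)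
  · -- i1
    intro u
    rw [hw1, hw1, ha]
    exact wv_tame hA H₁ hζ hγa τ hτA hx hxδ hg₀ hd hxd hτd k₁ (hne _)
  · -- i2
    intro u
    rw [hw2, hw2, ha]
    exact wv_tame hB H₁ hζ hγb τ hτB hx hxδ hg₀ hd hxd hτd k₂ (hne _)
  · -- inn
    refine inn_sheetK Ra incl hincA hA harchA H₁ hζ hγa H incl' hincl' hroot τ hτA σ hσA hx hxδ
      hunA hσK hresA hcomm hg₀ hd hxd hτd k₁ Pl G Us a ?_
    intro u
    exact ⟨toE (u : G), (htoE _).symm, by rw [← htoE, ha]⟩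
  · -- hfix
    intro u hu
    have hfix := toE_fixed_of_act_eq x G Us a toE ha u hu
    exact ⟨⟨toE (u : G), (hE _).2 hfix⟩, (htoE _).symm⟩
  · -- NL0
    intro u u₀ hu hu1 hu2
    have hinj : Function.Injective incl' := incl'.injective
    have htu : toE (u : G) = (u₀ : E') := by
      apply hinj
      rw [htoE]
      exact hu
    have hu₀E : (u₀ : E') ≠ 0 := by
      rw [← htu]
      exact hne _
    have hu₀ : u₀ ≠ 0 := fun h => hu₀E (by rw [h]; rfl)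
    have hwa : wv hA H₁ hζ hγa k₁ (u₀ : E') = 0 := by
      rw [← htu, ← hw1]
      exact hu1
    have hwb : wv hB H₁ hζ hγb k₂ (u₀ : E') = 0 := by
      rw [← htu, ← hw2]
      exact hu2
    have hU1 : IsU (sheetK Ra incl hincA hA harchA hζ hγa H k₁) (iotaE incl' E u₀) :=
      isU_sheetK_of_wv_eq_zero Ra incl hincA hA harchA H₁ hζ hγa H incl' hincl' hroot k₁ hu₀E hwa
    have hU2 : IsU (sheetK Rb incl hincB hB harchB hζ hγb H k₂) (iotaE incl' E u₀) :=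
      isU_sheetK_of_wv_eq_zero Rb incl hincB hB harchB H₁ hζ hγb H incl' hincl' hroot k₂ hu₀E hwb
    exact PkgAsm.nl0_of_pkg (K0 := E) 𝔫 rd₁ hrd₁ 𝔫'₁ h𝔫₁ h0₁ rd₂ hrd₂ 𝔫'₂ h𝔫₂ h0₂
      y₁ y₂ l s c hy₁ hy₂ hy₁0 hy₂0 hgen₁ hgen₂ hs hc hth (iotaE incl' E)
      (sheetK Ra incl hincA hA harchA hζ hγa H k₁)
      (unram_sheetK Ra incl hincA hA harchA hζ hγa H hunA k₁)
      (sheetK Rb incl hincB hB harchB hζ hγb H k₂) Pl hθ hint hRS hSW₁ hSW₂ hρB₁ hρB₂ hvE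
      α₁ hsplit₁ j₁ hθ₁ hα₁ α₂ hsplit₂ j₂ hθ₂ hα₂ hnode p u₀ hu₀ hU1 hU2 (hhor u u₀ htu)

end Main

end Fermat.Agent.GF.KCover.Node.NlNode

end
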