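/-
GATE-F (S44) / GF-KCOVER-INST, node side (helper84), leaf (U13) **SheetIdx**: the binder `hres_i`
of `SheetAsm.nl0_of_sheets` — the residues of the tame trace `θ = traceTame x d Z'` on the `p`
sheets `emb k` (`k : ZMod p`) of a split Kummer cover.

Split frame (helper3 `Field/Split`): `F' = F₁(G)`, `G^p = g₀`, `ζ = 1 + c`, `G = 1 + c Z'`,
`j : F₁ →+* L`, `γ^p = j g₀`, `emb k : F' →+* L`, `G ↦ (j ζ)^k γ`; `Ô : ValuationSubring L`.

* `emb_zero_iterate`, `emb_eq_iterate` : `emb k = emb 0 ∘ δ^[k.val]` (`δ = deck`);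
* `deckEquiv_pow_eq_iterate` : `(deckEquiv ^ n) y = δ^[n] y`;
* **`emb_traceTame_sub_mem`** : `emb 0 ∘ x = τL ∘ emb 0`, `τL` trivial on the residue field of `Ô`,
  `j c ∈ 𝔪̂ ∖ 0`, `emb 0 Z' ≡ A` ⟹ `emb k θ ≡ d (A + k)` for every `k : ZMod p`
  (= `SheetRes.emb_sheet_trace` ∘ `FixedGenPlug.htr_traceTame` re-indexed by `ZMod p`);
* **`emb_traceTame_sub_sheetRes_mem`** : the same with `A = j (algebraMap R F₁ a)`, in the spelling
  `SplitAsm.sheetRes p d a k` of `nl0_of_sheets`.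
-/
import Fermat.Agent.GF.KCover.Node.FixedGenPlug
import Fermat.Agent.GF.KCover.Node.SplitAsm
import Fermat.Agent.GF.KCover.Field.Split

set_option autoImplicit false
set_option linter.unusedSectionVars false
set_option linter.unusedVariables false

noncomputable section

namespace Fermat.Agent.GF.KCover.Node.SheetIdx

open Polynomial
open Fermat.Agent.GF.KCover.Field
open Fermat.Agent.GF.KCover.Node

variable {F₁ F' L : Type*} [Field F₁] [Field F'] [Algebra F₁ F'] [Field L]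
variable {p : ℕ} [NeZero p] {g₀ : F₁} (H : IsAdjoinRoot F' (X ^ p - C g₀ : F₁[X]))
variable {ζ : F₁} (hζ : IsPrimitiveRoot ζ p)
variable (j : F₁ →+* L) {γ : L} (hγ : γ ^ p = j g₀)

/-- `emb 0 ∘ δ^[n] = emb n`. -/
theorem emb_zero_iterate (n : ℕ) (y : F') :
    emb H hζ j hγ 0 ((deck H hζ)^[n] y) = emb H hζ j hγ (n : ZMod p) y := by
  induction n generalizing y with
  | zero => rw [Function.iterate_zero, id_eq, Nat.cast_zero]
  | succ n ih =>
    rw [Function.iterate_succ_apply, ih (deck H hζ y), emb_deck_apply, Nat.cast_succ]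

/-- **`emb k = emb 0 ∘ δ^[k.val]`.** -/
theorem emb_eq_iterate (k : ZMod p) (y : F') :
    emb H hζ j hγ k y = emb H hζ j hγ 0 ((deck H hζ)^[k.val] y) := by
  rw [emb_zero_iterate, ZMod.natCast_zmod_val]

/-- the powers of the deck automorphism are the iterates of `deck`. -/
theorem deckEquiv_pow_eq_iterate (hp : p ≠ 0) (n : ℕ) (y : F') :
    (DeckFixed.deckEquiv H hζ hp ^ n) y = (deck H hζ)^[n] y := by
  rw [DeckFixed.deckEquiv_pow_apply, RingHom.coe_pow]

/-- **the residues of the tame trace on the `p` sheets, indexed by `ZMod p`.** -/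
theorem emb_traceTame_sub_mem (O : ValuationSubring L) (x : F' ≃+* F')
    (hcomm : Commute (x : F' →+* F') (deck H hζ)) (d : ℕ) (τL : L ≃+* L)
    (he : ∀ y, emb H hζ j hγ 0 (x y) = τL (emb H hζ j hγ 0 y))
    (hres : ∀ y ∈ O, τL y - y ∈ O.nonunits)
    {c : F₁} (hζc : ζ = 1 + c) {Z' : F'} (hZ' : H.root = 1 + algebraMap F₁ F' c * Z')
    (hϖ : j c ∈ O.nonunits) (hϖ0 : c ≠ 0) (hz : emb H hζ j hγ 0 Z' ∈ O) {A : L}
    (hA : emb H hζ j hγ 0 Z' - A ∈ O.nonunits) (k : ZMod p) :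
    emb H hζ j hγ k (TraceRes.traceTame x d Z') - (d : L) * (A + (k.val : L)) ∈ O.nonunits := by
  have hp : p ≠ 0 := NeZero.ne p
  have hϖ' : emb H hζ j hγ 0 (algebraMap F₁ F' c) ∈ O.nonunits := by
    rw [emb_algebraMap]; exact hϖ
  have hϖ0' : emb H hζ j hγ 0 (algebraMap F₁ F' c) ≠ 0 := by
    rw [emb_algebraMap]
    exact (map_ne_zero_iff j j.injective).2 hϖ0
  have htr := FixedGenPlug.htr_traceTame H hζ O hp x hcomm d (emb H hζ j hγ 0) τL he hres hζc hZ'
    hϖ' hϖ0' hz k.val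
  rw [deckEquiv_pow_eq_iterate, deckEquiv_pow_eq_iterate] at htr
  have hδ : deck H hζ (1 + algebraMap F₁ F' c * Z') =
      (1 + algebraMap F₁ F' c) * (1 + algebraMap F₁ F' c * Z') := by
    rw [← hZ', deck_root, hζc, map_add, map_one]
  have h1 := SheetRes.emb_sheet_trace O (deck H hζ) (emb H hζ j hγ 0) (θ := TraceRes.traceTame x d Z')
    (deck_algebraMap H hζ c) hδ hϖ' hϖ0' hz k.val d htr
  rw [emb_eq_iterate]
  have h2 : (d : L) * (emb H hζ j hγ 0 Z' - A) ∈ O.nonunits := by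
    rw [mul_comm]
    exact SheetRes.mul_mem_nonunits O hA (natCast_mem O d)
  have h3 := O.nonunits.add_mem h1 h2
  have h4 : emb H hζ j hγ 0 ((deck H hζ)^[k.val] (TraceRes.traceTame x d Z'))
        - (d : L) * (emb H hζ j hγ 0 Z' + (k.val : L)) + (d : L) * (emb H hζ j hγ 0 Z' - A)
      = emb H hζ j hγ 0 ((deck H hζ)^[k.val] (TraceRes.traceTame x d Z'))
        - (d : L) * (A + (k.val : L)) := by ring
  rwa [h4] at h3

/-- **`hres_i` of `SheetAsm.nl0_of_sheets`** (with `e_i k := emb k`, `jj_i := j ∘ algebraMap`). -/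
theorem emb_traceTame_sub_sheetRes_mem {R : Type*} [CommRing R] [Algebra R F₁]
    (O : ValuationSubring L) (x : F' ≃+* F')
    (hcomm : Commute (x : F' →+* F') (deck H hζ)) (d : ℕ) (τL : L ≃+* L)
    (he : ∀ y, emb H hζ j hγ 0 (x y) = τL (emb H hζ j hγ 0 y))
    (hres : ∀ y ∈ O, τL y - y ∈ O.nonunits)
    {c : F₁} (hζc : ζ = 1 + c) {Z' : F'} (hZ' : H.root = 1 + algebraMap F₁ F' c * Z')
    (hϖ : j c ∈ O.nonunits) (hϖ0 : c ≠ 0) (hz : emb H hζ j hγ 0 Z' ∈ O) (a : R)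
    (hA : emb H hζ j hγ 0 Z' - j (algebraMap R F₁ a) ∈ O.nonunits) (k : ZMod p) :
    emb H hζ j hγ k (TraceRes.traceTame x d Z') -
      j (algebraMap R F₁ (SplitAsm.sheetRes p d a k)) ∈ O.nonunits := by
  have h := emb_traceTame_sub_mem H hζ j hγ O x hcomm d τL he hres hζc hZ' hϖ hϖ0 hz hA k
  have e : j (algebraMap R F₁ (SplitAsm.sheetRes p d a k)) =
      (d : L) * (j (algebraMap R F₁ a) + (k.val : L)) := by
    unfold SplitAsm.sheetRes
    rw [map_mul, map_mul, map_add, map_add, map_natCast, map_natCast, map_natCast, map_natCast]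
  rw [e]
  exact h

end Fermat.Agent.GF.KCover.Node.SheetIdx

end
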