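/-
GATE-F (S44) / GF-KCOVER-INST, node side (L-c), leaf GF-KCOVER-NLNODE (helper42), file 2:
**the per-node theorem `NL on Us` in the abstract Kummer frame, from the residues of the sheets**
(`SheetAsm.nl0_of_sheets`, helper84).

* `nl_node_of_nl0` : `NL0Plug.nl_on_subgroup` in the frame of `Compl/Bridge` (both Gauss
  reductions) with `a^[d] = id`, `hcop`, `h1 h2`, `i1 i2` (`Pack.wv_tame`), `inn`
  (`BridgeTau.inn_sheetK`), `hfix` and the bridge `w_i u = 0 → IsU (sheetK … k_i) u`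
  DISCHARGED; the only binder left is `NL0` on the fixed field `E` of the tame generator;
* `ballC h` : the unit ball of `Lc h` as a valuation subring; `mem_ballC`, `mem_ballC_nonunits`;
  `val_beta_lt_one` : `beta` maps its maximal ideal into the maximal ideal of `RwL`;
* `hres_sheetK` : **the binder `hres_i` of `nl0_of_sheets`** for `e_i k := Bridge.embV … k`,
  `Oh_i := RedCompl.RwL R`, `jj_i := j V ∘ incl ∘ ι₀`, from `SheetIdx.emb_traceTame_sub_sheetRes_mem`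
  on the `K'`-rational split frame `(E₁, E', Lc h, jc h)` pushed through the bridge `beta`;
* **`nl_node_sheets`** : the per-node theorem with `NL0 := SheetAsm.nl0_of_sheets`.
-/
import Fermat.Agent.GF.KCover.Node.NlNode
import Fermat.Agent.GF.KCover.Node.SheetAsm
import Fermat.Agent.GF.KCover.Node.SheetIdx

set_option autoImplicit false
set_option linter.unusedSectionVars false
set_option linter.unusedVariables false

noncomputable section

open Polynomial AlgebraicCurve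

namespace Fermat.Agent.GF.KCover.Node.NlNodeSheets

open Fermat.Agent.GJ.J1 Fermat.Agent.S24 Fermat.Agent.GF.Trop
open Fermat.Agent.GF.KCover.Field Fermat.Agent.GF.KCover.Field.Disc
  Fermat.Agent.GF.KCover.Field.Pack
open Fermat.Agent.GF.KCover.Compl Fermat.Agent.GF.KCover.Compl.Bridge
  Fermat.Agent.GF.KCover.Compl.RedCompl Fermat.Agent.GF.KCover.Compl.RedAut
  Fermat.Agent.GF.KCover.Compl.BridgeTau
open Fermat.Agent.GF.KCover.Node.OrdRedExt Fermat.Agent.GF.KCover.Node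
  Fermat.Agent.GF.KCover.Node.NlNode

/-! ### valuation subrings attached to valuations -/

section Gen

variable {L Γ : Type*} [Field L] [LinearOrderedCommGroupWithZero Γ]

theorem mem_nonunits_valuationSubring (w : Valuation L Γ) {z : L} :
    z ∈ w.valuationSubring.nonunits ↔ w z < 1 := by
  rw [ValuationSubring.mem_nonunits_iff_or, Valuation.mem_valuationSubring_iff]
  by_cases hz : z = 0
  · rw [hz, map_zero]
    exact ⟨fun _ => zero_lt_one, fun _ => Or.inl rfl⟩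
  · have h0 : 0 < w z := zero_lt_iff.2 ((Valuation.ne_zero_iff _).2 hz)
    rw [map_inv₀, not_le, one_lt_inv₀ h0]
    exact ⟨fun h => h.resolve_left hz, fun h => Or.inr h⟩

end Gen

/-! ### the unit ball of `Lc h` and the bridge -/

section Ball

variable {E₁ : Type*} [Field E₁] {Γ₀ : Type*} [LinearOrderedCommGroupWithZero Γ₀]
variable {v : Valuation E₁ Γ₀} {ϖ : E₁} (h : IsDisc v ϖ)

/-- the unit ball of the completion of the discretely valued base. -/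
def ballC : ValuationSubring (Lc h) := (NormedField.valuation (K := Lc h)).valuationSubring

theorem mem_ballC {z : Lc h} : z ∈ ballC h ↔ ‖z‖ ≤ 1 := by
  unfold ballC
  rw [Valuation.mem_valuationSubring_iff, ← NNReal.coe_le_coe]
  rfl

theorem mem_ballC_nonunits {z : Lc h} : z ∈ (ballC h).nonunits ↔ ‖z‖ < 1 := by
  unfold ballC
  rw [mem_nonunits_valuationSubring, ← NNReal.coe_lt_coe]
  rfl

theorem norm_lt_one_iff {z : Lc h} (hz : z ≠ 0) : ‖z‖ < 1 ↔ 0 < ordL h z := by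
  rw [norm_eq_zpow h hz, ← zpow_zero base, base_zpow_lt_iff]

variable {F : Type*} [Field F] (V : Valuation F Γ₀)
variable (incl : E₁ →+* F) (hincl : ∀ a, V (incl a) = v a)
variable (harch : ∀ γ : Γ₀, γ ≠ 0 → ∃ n : ℕ, v ϖ ^ n < γ)

/-- the bridge maps the maximal ideal of the unit ball into the maximal ideal. -/
theorem val_beta_lt_one {z : Lc h} (hz : ‖z‖ < 1) : val V (beta h V incl hincl harch z) < 1 := by
  by_cases h0 : z = 0
  · rw [h0, map_zero, map_zero]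
    exact zero_lt_one
  · rw [val_beta h V incl hincl harch h0, ← zpow_zero (v ϖ), h.zpow_lt_iff]
    exact (norm_lt_one_iff h h0).1 hz

end Ball

/-! ### the frame -/

section Main

variable {K F k Ft Ft₂ : Type*} [Field K] [Field F] [Algebra K F] [Field k] [Field Ft]
  [Algebra k Ft] [Field Ft₂] [Algebra k Ft₂]
variable (Ra : RedData K F k Ft) (Rb : RedData K F k Ft₂)
variable {F' : Type*} [Field F'] [Algebra K F'] [Algebra F F'] [IsScalarTower K F F']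
variable {E₁ : Type*} [Field E₁] {ϖ : E₁}
  {va : Valuation E₁ (ValuationSubring.ValueGroup Ra.Rw)}
  {vb : Valuation E₁ (ValuationSubring.ValueGroup Rb.Rw)}
variable (incl : E₁ →+* F) (hincA : ∀ a : E₁, Ra.Rw.valuation (incl a) = va a)
  (hincB : ∀ a : E₁, Rb.Rw.valuation (incl a) = vb a)
variable (hA : IsDisc va ϖ) (hB : IsDisc vb ϖ)
variable (harchA : ∀ γ : ValuationSubring.ValueGroup Ra.Rw, γ ≠ 0 → ∃ n : ℕ, va ϖ ^ n < γ)
  (harchB : ∀ γ : ValuationSubring.ValueGroup Rb.Rw, γ ≠ 0 → ∃ n : ℕ, vb ϖ ^ n < γ)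
variable {E' : Type*} [Field E'] [Algebra E₁ E'] {p : ℕ} [NeZero p] {g₀ : E₁}
  (H₁ : IsAdjoinRoot E' (X ^ p - C g₀ : E₁[X])) {ζ : E₁} (hζ : IsPrimitiveRoot ζ p)
  {γa : Lc hA} (hγa : γa ^ p = jc hA g₀) {γb : Lc hB} (hγb : γb ^ p = jc hB g₀)
  (H : IsAdjoinRoot F' (X ^ p - C (incl g₀) : F[X]))
  (incl' : E' →+* F')
  (hincl' : ∀ a : E₁, incl' (algebraMap E₁ E' a) = algebraMap F F' (incl a))
  (hroot : incl' H₁.root = H.root)

include hincl' hroot in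
/-- **NL on `Us` from NL0 on the fixed field of the tame generator**, abstract frame:
`nl_on_subgroup` with everything but `NL0` discharged. -/
theorem nl_node_of_nl0 (hunA : Unram Ra)
    (τ : E₁ ≃+* E₁) (hτA : ∀ a, va (τ a) = va a) (hτB : ∀ a, vb (τ a) = vb a)
    (σ : F ≃+* F) (hσA : ∀ y : F, Ra.Rw.valuation (σ y) = Ra.Rw.valuation y)
    (hσK : ∀ c : K, ∃ c' : K, σ (algebraMap K F c) = algebraMap K F c')
    (hresA : ∀ (a : F) (ha : a ∈ Ra.Rw), Ra.red ⟨σ a, map_mem_Rw Ra σ hσA ha⟩ = Ra.red ⟨a, ha⟩)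
    (hcomm : ∀ a : E₁, incl (τ a) = σ (incl a))
    {x : E' ≃+* E'} (hx : IsOver (x : E' →+* E') (τ : E₁ →+* E₁))
    (hxδ : Commute (x : E' →+* E') (deck H₁ hζ)) (hg₀ : g₀ ≠ 0) {d : ℕ}
    (hd : Nat.Coprime d p) (hxd : (x : E' →+* E') ^ d = 1) (hτd : τ ^ d = 1)
    (E : Subfield E') (hE : ∀ y, y ∈ E ↔ x y = y)
    (G : Subgroup F'ˣ) (Us : Subgroup G) (a : Us →* Us) (toE : G → E')
    (htoE : ∀ y : G, incl' (toE y) = ((y : F'ˣ) : F'))
    (hmul : ∀ y z : G, toE (y * z) = toE y * toE z)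
    (ha : ∀ u : Us, toE ((a u : Us) : G) = x (toE (u : G)))
    (k₁ k₂ : ZMod p) (w1 w2 : G → ℤ)
    (hw1 : ∀ y : G, w1 y = wv hA H₁ hζ hγa k₁ (toE y))
    (hw2 : ∀ y : G, w2 y = wv hB H₁ hζ hγb k₂ (toE y))
    (Pl : Place k Ft)
    (NL0 : ∀ (u : Us) (u₀ : E), toE (u : G) = (u₀ : E') → u₀ ≠ 0 →
      IsU (sheetK Ra incl hincA hA harchA hζ hγa H k₁) (iotaE incl' E u₀) →
      IsU (sheetK Rb incl hincB hB harchB hζ hγb H k₂) (iotaE incl' E u₀) →
      (p : ℤ) ∣ ordRed (sheetK Ra incl hincA hA harchA hζ hγa H k₁)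
        (unram_sheetK Ra incl hincA hA harchA hζ hγa H hunA k₁) Pl (iotaE incl' E u₀))
    (y : G) (hy : y ∈ Us) (hy1 : w1 y = 0) (hy2 : w2 y = 0) :
    (p : ℤ) ∣ nodeOrd (sheetK Ra incl hincA hA harchA hζ hγa H k₁)
      (unram_sheetK Ra incl hincA hA harchA hζ hγa H hunA k₁) Pl G y := by
  have hne := toE_ne_zero incl' G toE htoE
  have hcop : IsCoprime (p : ℤ) (d : ℤ) := by
    exact_mod_cast (Nat.isCoprime_iff_coprime.2 hd.symm)
  refine NL0Plug.nl_on_subgroup (K0 := E) (iotaE incl' E)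
    (sheetK Ra incl hincA hA harchA hζ hγa H k₁)
    (unram_sheetK Ra incl hincA hA harchA hζ hγa H hunA k₁) Pl G Us a
    (iterate_eq_self incl' x G Us a toE htoE ha hxd) hcop w1 w2 ?_ ?_ ?_ ?_ ?_ ?_ ?_ y hy hy1 hy2
  · intro y z
    rw [hw1, hw1, hw1, hmul]
    exact wv_mul hA H₁ hζ hγa k₁ (hne y) (hne z)
  · intro y z
    rw [hw2, hw2, hw2, hmul]
    exact wv_mul hB H₁ hζ hγb k₂ (hne y) (hne z)
  · intro u
    rw [hw1, hw1, ha]
    exact wv_tame hA H₁ hζ hγa τ hτA hx hxδ hg₀ hd hxd hτd k₁ (hne _)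
  · intro u
    rw [hw2, hw2, ha]
    exact wv_tame hB H₁ hζ hγb τ hτB hx hxδ hg₀ hd hxd hτd k₂ (hne _)
  · refine inn_sheetK Ra incl hincA hA harchA H₁ hζ hγa H incl' hincl' hroot τ hτA σ hσA hx hxδ
      hunA hσK hresA hcomm hg₀ hd hxd hτd k₁ Pl G Us a ?_
    intro u
    exact ⟨toE (u : G), (htoE _).symm, by rw [← htoE, ha]⟩
  · intro u hu
    have hfix := toE_fixed_of_act_eq x G Us a toE ha u hu
    exact ⟨⟨toE (u : G), (hE _).2 hfix⟩, (htoE _).symm⟩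
  · intro u u₀ hu hu1 hu2
    have hinj : Function.Injective incl' := incl'.injective
    have htu : toE (u : G) = (u₀ : E') := by
      apply hinj
      rw [htoE]
      exact hu
    have hu₀E : (u₀ : E') ≠ 0 := by
      rw [← htu]
      exact hne _
    have hu₀ : u₀ ≠ 0 := fun h => hu₀E (by rw [h]; rfl)
    have hwa : wv hA H₁ hζ hγa k₁ (u₀ : E') = 0 := by
      rw [← htu, ← hw1]
      exact hu1
    have hwb : wv hB H₁ hζ hγb k₂ (u₀ : E') = 0 := by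
      rw [← htu, ← hw2]
      exact hu2
    exact NL0 u u₀ htu hu₀
      (isU_sheetK_of_wv_eq_zero Ra incl hincA hA harchA H₁ hζ hγa H incl' hincl' hroot k₁ hu₀E hwa)
      (isU_sheetK_of_wv_eq_zero Rb incl hincB hB harchB H₁ hζ hγb H incl' hincl' hroot k₂ hu₀E hwb)

end Main

/-! ### the binder `hres_i` of `nl0_of_sheets` on the sheets `embV … k` -/

section Hres

variable {E₁ : Type*} [Field E₁] {Γ₀ : Type*} [LinearOrderedCommGroupWithZero Γ₀]
variable {v : Valuation E₁ Γ₀} {ϖ : E₁} (h : IsDisc v ϖ)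
variable {F : Type*} [Field F] (V : Valuation F Γ₀)
variable (incl : E₁ →+* F) (hincl : ∀ a, V (incl a) = v a)
variable (harch : ∀ γ : Γ₀, γ ≠ 0 → ∃ n : ℕ, v ϖ ^ n < γ)
variable {E' : Type*} [Field E'] [Algebra E₁ E'] {p : ℕ} [NeZero p] {g₀ : E₁}
  (H₁ : IsAdjoinRoot E' (X ^ p - C g₀ : E₁[X])) {ζ : E₁} (hζ : IsPrimitiveRoot ζ p)
  {γ : Lc h} (hγ : γ ^ p = jc h g₀)
variable {F' : Type*} [Field F'] [Algebra F F']
  (H : IsAdjoinRoot F' (X ^ p - C (incl g₀) : F[X]))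
  (incl' : E' →+* F')
  (hincl' : ∀ a : E₁, incl' (algebraMap E₁ E' a) = algebraMap F F' (incl a))
  (hroot : incl' H₁.root = H.root)

include hincl' hroot in
/-- **`hres_i`**: the residues of the tame trace `θ = traceTame x d Z'` on the `p` sheets
`embV … k : F' →+* Compl V` of the big cover are `d (a + k)`, from the residue `a` of `Z'` on the
sheet `0` (read in `Lc h`). -/
theorem hres_sheetK (τ : E₁ ≃+* E₁) (hτ : ∀ a, v (τ a) = v a)
    {x : E' ≃+* E'} (hx : IsOver (x : E' →+* E') (τ : E₁ →+* E₁))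
    (hxδ : Commute (x : E' →+* E') (deck H₁ hζ)) (hg₀ : g₀ ≠ 0) {d : ℕ}
    (hd : Nat.Coprime d p) (hxd : (x : E' →+* E') ^ d = 1) (hτd : τ ^ d = 1)
    (hF : ∀ b : E₁, v b ≤ 1 → ∃ a : E₁, τ a = a ∧ v (b - a) < 1)
    {cz : E₁} (hζc : ζ = 1 + cz) (hc0 : cz ≠ 0) (hcv : v cz < 1)
    {Z' : E'} (hZ' : H₁.root = 1 + algebraMap E₁ E' cz * Z')
    (hz : ‖emb H₁ hζ (jc h) hγ 0 Z'‖ ≤ 1)
    {R : Type*} [CommRing R] (φ : R →+* E₁) (a : R)
    (hA : ‖emb H₁ hζ (jc h) hγ 0 Z' - jc h (φ a)‖ < 1) (k : ZMod p) :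
    val V (embV h V incl hincl harch hζ hγ H k (incl' (TraceRes.traceTame x d Z')) -
      j V (incl (φ (SplitAsm.sheetRes p d a k)))) < 1 := by
  letI : Algebra R E₁ := φ.toAlgebra
  have key := SheetIdx.emb_traceTame_sub_sheetRes_mem (R := R) H₁ hζ (jc h) hγ (ballC h) x hxδ d
    (tauC h τ hτ)
    (fun y => emb_tame h H₁ hζ hγ τ hτ hx hxδ hg₀ hd hxd hτd 0 y)
    (fun y hy => (mem_ballC_nonunits h).2 (tauC_inertial h τ hτ hF ((mem_ballC h).1 hy)))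
    hζc hZ' ((mem_ballC_nonunits h).2 ((norm_jc_lt_one_iff h).2 hcv)) hc0
    ((mem_ballC h).2 hz) a ((mem_ballC_nonunits h).2 hA) k
  have key' : ‖emb H₁ hζ (jc h) hγ k (TraceRes.traceTame x d Z') -
      jc h (φ (SplitAsm.sheetRes p d a k))‖ < 1 := (mem_ballC_nonunits h).1 key
  have e : embV h V incl hincl harch hζ hγ H k (incl' (TraceRes.traceTame x d Z')) -
      j V (incl (φ (SplitAsm.sheetRes p d a k))) =
      beta h V incl hincl harch (emb H₁ hζ (jc h) hγ k (TraceRes.traceTame x d Z') -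
        jc h (φ (SplitAsm.sheetRes p d a k))) := by
    rw [map_sub, beta_jc, emb_incl h V incl hincl harch H₁ hζ hγ H incl' hincl' hroot]
  rw [e]
  exact val_beta_lt_one h V incl hincl harch key'

end Hres

/-! ### the per-node theorem from the residues of the sheets -/

section Node

variable {K F k Ft Ft₂ : Type*} [Field K] [Field F] [Algebra K F] [Field k] [Field Ft]
  [Algebra k Ft] [Field Ft₂] [Algebra k Ft₂]
variable (Ra : RedData K F k Ft) (Rb : RedData K F k Ft₂)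
variable {F' : Type*} [Field F'] [Algebra K F'] [Algebra F F'] [IsScalarTower K F F']
variable {E₁ : Type*} [Field E₁] {ϖ : E₁}
  {va : Valuation E₁ (ValuationSubring.ValueGroup Ra.Rw)}
  {vb : Valuation E₁ (ValuationSubring.ValueGroup Rb.Rw)}
variable (incl : E₁ →+* F) (hincA : ∀ a : E₁, Ra.Rw.valuation (incl a) = va a)
  (hincB : ∀ a : E₁, Rb.Rw.valuation (incl a) = vb a)
variable (hA : IsDisc va ϖ) (hB : IsDisc vb ϖ)
variable (harchA : ∀ γ : ValuationSubring.ValueGroup Ra.Rw, γ ≠ 0 → ∃ n : ℕ, va ϖ ^ n < γ)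
  (harchB : ∀ γ : ValuationSubring.ValueGroup Rb.Rw, γ ≠ 0 → ∃ n : ℕ, vb ϖ ^ n < γ)
variable {E' : Type*} [Field E'] [Algebra E₁ E'] {p : ℕ} [NeZero p] [Fact p.Prime] {g₀ : E₁}
  (H₁ : IsAdjoinRoot E' (X ^ p - C g₀ : E₁[X])) {ζ : E₁} (hζ : IsPrimitiveRoot ζ p)
  {γa : Lc hA} (hγa : γa ^ p = jc hA g₀) {γb : Lc hB} (hγb : γb ^ p = jc hB g₀)
  (H : IsAdjoinRoot F' (X ^ p - C (incl g₀) : F[X]))
  (incl' : E' →+* F')
  (hincl' : ∀ a : E₁, incl' (algebraMap E₁ E' a) = algebraMap F F' (incl a))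
  (hroot : incl' H₁.root = H.root)

variable {B C₁ C₂ : Type*} [CommRing B] [IsDomain B] [CommRing C₁] [IsDedekindDomain C₁]
  [CommRing C₂] [IsDedekindDomain C₂] [Algebra C₁ Ft] [IsFractionRing C₁ Ft]
  [Algebra C₂ Ft₂] [IsFractionRing C₂ Ft₂]
variable {R F₀ : Type*} [CommRing R] [IsDomain R] [IsIntegrallyClosed R] [IsNoetherianRing R]
  [Field F₀] [Algebra R F₀] [IsFractionRing R F₀]

theorem mem_RwL_nonunits (R' : RedData K F k Ft) {z : LR R'} :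
    z ∈ (RwL R').nonunits ↔ val R'.Rw.valuation z < 1 := by
  unfold RwL
  exact mem_nonunits_valuationSubring _

/-- the sheets detect the valuation ring of `sheetK`. -/
theorem mem_sheetK_Rw (i : ZMod p) (z : F') :
    z ∈ (sheetK Ra incl hincA hA harchA hζ hγa H i).Rw ↔
      embV hA Ra.Rw.valuation incl hincA harchA hζ hγa H i z ∈ RwL Ra := by
  unfold sheetK
  rw [mem_sheet_Rw, mem_RwL]
  rfl

include hincl' hroot in
set_option maxHeartbeats 1600000 in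
/-- **The per-node theorem from the residues of the sheets, abstract frame.**
`NL0 := SheetAsm.nl0_of_sheets` with `e_i k := Bridge.embV … k`, `Oh_i := RedCompl.RwL R_i`,
`jj_i := j V_i ∘ incl ∘ ι₀`; `hRw_i he_i hjR_i hpO_i hres_i` DISCHARGED.  Per branch it remains:
`Z'` integral on the sheet `0` with a residue `a_i ∈ R` (`(U12)` ResLift), `hρB_i`; globally the
downstairs block, `hrank`, `hint`, `hvE`, `hmeet`, `hhor`. -/
theorem nl_node_sheets (hunA : Unram Ra)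
    -- the tame generator
    (τ : E₁ ≃+* E₁) (hτA : ∀ a, va (τ a) = va a) (hτB : ∀ a, vb (τ a) = vb a)
    (σ : F ≃+* F) (hσA : ∀ y : F, Ra.Rw.valuation (σ y) = Ra.Rw.valuation y)
    (hσK : ∀ c : K, ∃ c' : K, σ (algebraMap K F c) = algebraMap K F c')
    (hresA : ∀ (a : F) (ha : a ∈ Ra.Rw), Ra.red ⟨σ a, map_mem_Rw Ra σ hσA ha⟩ = Ra.red ⟨a, ha⟩)
    (hcomm : ∀ a : E₁, incl (τ a) = σ (incl a))
    {x : E' ≃+* E'} (hx : IsOver (x : E' →+* E') (τ : E₁ →+* E₁))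
    (hxδ : Commute (x : E' →+* E') (deck H₁ hζ)) (hg₀ : g₀ ≠ 0) {d : ℕ}
    (hd : Nat.Coprime d p) (hxd : (x : E' →+* E') ^ d = 1) (hτd : τ ^ d = 1)
    (hFA : ∀ b : E₁, va b ≤ 1 → ∃ a : E₁, τ a = a ∧ va (b - a) < 1)
    (hFB : ∀ b : E₁, vb b ≤ 1 → ∃ a : E₁, τ a = a ∧ vb (b - a) < 1)
    -- the fixed field and its `K0`-model
    (E : Subfield E') (hE : ∀ y, y ∈ E ↔ x y = y)
    [Algebra F₀ E] [Algebra R E] [IsScalarTower R F₀ E] [FiniteDimensional F₀ E]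
    (ι₀ : F₀ →+* E₁)
    (hι₀ : ∀ a : F₀, ((algebraMap F₀ E a : E) : E') = algebraMap E₁ E' (ι₀ a))
    (hrank : Module.finrank F₀ E = p)
    -- the group
    (G : Subgroup F'ˣ) (Us : Subgroup G) (a : Us →* Us) (toE : G → E')
    (htoE : ∀ y : G, incl' (toE y) = ((y : F'ˣ) : F'))
    (hmul : ∀ y z : G, toE (y * z) = toE y * toE z)
    (ha : ∀ u : Us, toE ((a u : Us) : G) = x (toE (u : G)))
    (k₁ k₂ : ZMod p) (w1 w2 : G → ℤ)
    (hw1 : ∀ y : G, w1 y = wv hA H₁ hζ hγa k₁ (toE y))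
    (hw2 : ∀ y : G, w2 y = wv hB H₁ hζ hγb k₂ (toE y))
    (Pl : Place k Ft)
    -- the downstairs block (`PkgAsm.nl0_of_pkg`)
    (𝔫 : Ideal B) [𝔫.IsPrime] [Algebra B R] [IsLocalization.AtPrime R 𝔫]
    (rd₁ : B →+* C₁) (hrd₁ : Function.Surjective rd₁) (𝔫'₁ : Ideal C₁) [𝔫'₁.IsPrime]
    (h𝔫₁ : Ideal.comap rd₁ 𝔫'₁ = 𝔫) (h0₁ : 𝔫'₁ ≠ ⊥)
    (rd₂ : B →+* C₂) (hrd₂ : Function.Surjective rd₂) (𝔫'₂ : Ideal C₂) [𝔫'₂.IsPrime]
    (h𝔫₂ : Ideal.comap rd₂ 𝔫'₂ = 𝔫) (h0₂ : 𝔫'₂ ≠ ⊥)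
    (y₁ y₂ l s c : B) (hy₁ : rd₁ y₁ = 0) (hy₂ : rd₂ y₂ = 0) (hy₁0 : y₁ ≠ 0) (hy₂0 : y₂ ≠ 0)
    (hgen₁ : ∀ b : B, rd₁ b = 0 → ∃ t : B, t ∉ 𝔫 ∧ y₁ ∣ t * b)
    (hgen₂ : ∀ b : B, rd₂ b = 0 → ∃ t : B, t ∉ 𝔫 ∧ y₂ ∣ t * b)
    (hs : s ∉ 𝔫) (hc : c ∉ 𝔫) (hth : l * s = c * y₂ * y₁)
    -- the Artin–Schreier generator and the tame trace
    {cz : E₁} (hζc : ζ = 1 + cz) (hc0 : cz ≠ 0) (hcA : va cz < 1) (hcB : vb cz < 1)
    {Z' : E'} (hZ' : H₁.root = 1 + algebraMap E₁ E' cz * Z')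
    (θ₀ : E) (hθ₀ : (θ₀ : E') = TraceRes.traceTame x d Z') (hint : IsIntegral R θ₀)
    (hpA : va ((p : ℕ) : E₁) < 1) (hpB : vb ((p : ℕ) : E₁) < 1)
    (hRA : ∀ r : R, va (ι₀ (algebraMap R F₀ r)) ≤ 1)
    (hRB : ∀ r : R, vb (ι₀ (algebraMap R F₀ r)) ≤ 1)
    -- the residues of `Z'` on the sheet `0` of the two branches
    (hzA : ‖emb H₁ hζ (jc hA) hγa 0 Z'‖ ≤ 1) (a₁ : R)
    (hZA : ‖emb H₁ hζ (jc hA) hγa 0 Z' - jc hA (ι₀ (algebraMap R F₀ a₁))‖ < 1)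
    (hzB : ‖emb H₁ hζ (jc hB) hγb 0 Z'‖ ≤ 1) (a₂ : R)
    (hZB : ‖emb H₁ hζ (jc hB) hγb 0 Z' - jc hB (ι₀ (algebraMap R F₀ a₂))‖ < 1)
    (hρB₁ : ∀ (b : B) (hb : iotaE incl' E (algebraMap R E (algebraMap B R b)) ∈
        (sheetK Ra incl hincA hA harchA hζ hγa H k₁).Rw),
      (sheetK Ra incl hincA hA harchA hζ hγa H k₁).red ⟨_, hb⟩ = algebraMap C₁ Ft (rd₁ b))
    (hρB₂ : ∀ (b : B) (hb : iotaE incl' E (algebraMap R E (algebraMap B R b)) ∈
        (sheetK Rb incl hincB hB harchB hζ hγb H k₂).Rw),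
      (sheetK Rb incl hincB hB harchB hζ hγb H k₂).red ⟨_, hb⟩ = algebraMap C₂ Ft₂ (rd₂ b))
    (hvE : ∀ e : C₁, e ∉ 𝔫'₁ → Pl.ord (algebraMap C₁ Ft e) = 0)
    (hmeet : ¬ IsUnit (a₁ + ((k₁.val : ℕ) : R) - (a₂ + ((k₂.val : ℕ) : R))))
    -- horizontal primes: on the `x`-fixed elements of `Us`
    (hhor : ∀ (u : Us) (u₀ : E), toE (u : G) = (u₀ : E') →
      ∀ V : ValuationSubring E, IsDiscreteValuationRing V →
      (∀ r : R, algebraMap R E r ∈ V) → θ₀ ∈ V →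
      (algebraMap R E (algebraMap B R l))⁻¹ ∈ V →
      ∃ z : E, z ≠ 0 ∧ u₀ * z ^ p ∈ V ∧ (u₀ * z ^ p)⁻¹ ∈ V)
    (y : G) (hy : y ∈ Us) (hy1 : w1 y = 0) (hy2 : w2 y = 0) :
    (p : ℤ) ∣ nodeOrd (sheetK Ra incl hincA hA harchA hζ hγa H k₁)
      (unram_sheetK Ra incl hincA hA harchA hζ hγa H hunA k₁) Pl G y := by
  have hpp : p.Prime := Fact.out
  have hd' : ¬ p ∣ d := fun hdvd => by
    have h1 : p ∣ Nat.gcd d p := Nat.dvd_gcd hdvd dvd_rfl
    rw [hd] at h1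
    exact hpp.one_lt.ne' (Nat.dvd_one.1 h1)
  refine nl_node_of_nl0 Ra Rb incl hincA hincB hA hB harchA harchB H₁ hζ hγa hγb H incl' hincl'
    hroot hunA τ hτA hτB σ hσA hσK hresA hcomm hx hxδ hg₀ hd hxd hτd E hE G Us a toE htoE hmul ha
    k₁ k₂ w1 w2 hw1 hw2 Pl ?_ y hy hy1 hy2
  intro u u₀ htu hu₀ hU1 hU2
  -- the common facts for the two branches
  have heι : ∀ a : F₀, iotaE incl' E (algebraMap F₀ E a) = algebraMap F F' (incl (ι₀ a)) := by
    intro a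
    rw [iotaE_apply, hι₀, hincl']
  have hθι : iotaE incl' E θ₀ = incl' (TraceRes.traceTame x d Z') := by
    rw [iotaE_apply, hθ₀]
  exact SheetAsm.nl0_of_sheets (K0 := E) (F₀ := F₀) 𝔫 rd₁ hrd₁ 𝔫'₁ h𝔫₁ h0₁ rd₂ hrd₂ 𝔫'₂ h𝔫₂ h0₂
    y₁ y₂ l s c hy₁ hy₂ hy₁0 hy₂0 hgen₁ hgen₂ hs hc hth hrank (iotaE incl' E)
    (sheetK Ra incl hincA hA harchA hζ hγa H k₁)
    (unram_sheetK Ra incl hincA hA harchA hζ hγa H hunA k₁)
    (sheetK Rb incl hincB hB harchB hζ hγb H k₂) Pl θ₀ hint hd'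
    -- branch 1
    (RwL Ra) ((j Ra.Rw.valuation).comp (incl.comp ι₀))
    (fun i => embV hA Ra.Rw.valuation incl hincA harchA hζ hγa H i)
    (fun i a => by
      rw [heι, embV_algebraMap]
      rfl)
    (fun r => by
      show j Ra.Rw.valuation (incl (ι₀ (algebraMap R F₀ r))) ∈ RwL Ra
      rw [mem_RwL, val_j, hincA]
      exact hRA r)
    (by
      rw [mem_RwL_nonunits]
      have e : ((p : ℕ) : LR Ra) = j Ra.Rw.valuation (incl ((p : ℕ) : E₁)) := by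
        rw [map_natCast, map_natCast]
      rw [e, val_j, hincA]
      exact hpA)
    k₁ (mem_sheetK_Rw Ra incl hincA hA harchA hζ hγa H k₁) a₁
    (fun i => by
      rw [hθι]
      rw [mem_RwL_nonunits]
      exact hres_sheetK hA Ra.Rw.valuation incl hincA harchA H₁ hζ hγa H incl' hincl' hroot τ hτA
        hx hxδ hg₀ hd hxd hτd hFA hζc hc0 hcA hZ' hzA (ι₀.comp (algebraMap R F₀)) a₁ hZA i)
    hρB₁
    -- branch 2
    (RwL Rb) ((j Rb.Rw.valuation).comp (incl.comp ι₀))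
    (fun i => embV hB Rb.Rw.valuation incl hincB harchB hζ hγb H i)
    (fun i a => by
      rw [heι, embV_algebraMap]
      rfl)
    (fun r => by
      show j Rb.Rw.valuation (incl (ι₀ (algebraMap R F₀ r))) ∈ RwL Rb
      rw [mem_RwL, val_j, hincB]
      exact hRB r)
    (by
      rw [mem_RwL_nonunits]
      have e : ((p : ℕ) : LR Rb) = j Rb.Rw.valuation (incl ((p : ℕ) : E₁)) := by
        rw [map_natCast, map_natCast]
      rw [e, val_j, hincB]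
      exact hpB)
    k₂ (mem_sheetK_Rw Rb incl hincB hB harchB hζ hγb H k₂) a₂
    (fun i => by
      rw [hθι]
      rw [mem_RwL_nonunits]
      exact hres_sheetK hB Rb.Rw.valuation incl hincB harchB H₁ hζ hγb H incl' hincl' hroot τ hτB
        hx hxδ hg₀ hd hxd hτd hFB hζc hc0 hcB hZ' hzB (ι₀.comp (algebraMap R F₀)) a₂ hZB i)
    hρB₂
    hvE hmeet p u₀ hu₀ hU1 hU2 (hhor u u₀ htu)

end Node

end Fermat.Agent.GF.KCover.Node.NlNodeSheets

end
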