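/-
GATE-F (S44) / node GF-KCOVER-INST, node side: glue for leaf (U14) `hrank` (helper37).  Mathlib only.

`SheetAsm.nl0_of_sheets` wants `Module.finrank F₀ K0 = p` for an ABSTRACT field `F₀` with
`[Algebra F₀ K0]` (in the gate `F₀ = modularFunctionFieldFullC (K0 A) N`, `K0 = fixedTame x`,
algebra `K0Model.algK0x`), while `FixedGen` / `RankP` work with a SUBFIELD `F0 ≤ E` of the cover
(`F0 := (embE' T).fieldRange`).  Transfer:

* `modelEquiv E F0 hmodel : F₀ ≃+* F0` for `hmodel : ∀ y, y ∈ F0 ↔ ∃ a : F₀, ↑(algebraMap F₀ E a) = y`;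
* **`finrank_of_model`** : `finrank F₀ E = finrank F0 E` (the latter for
  `(Subfield.inclusion hle).toAlgebra`).
-/
import Mathlib

set_option autoImplicit false

noncomputable section

namespace Fermat.Agent.GF.KCover.Node.RankModel

variable {F' : Type*} [Field F']

/-- the abstract model `F₀` of a subfield `F0 ≤ E` as a ring isomorphism. -/
def modelEquiv (E F0 : Subfield F') {F₀ : Type*} [Field F₀] [Algebra F₀ E]
    (hmodel : ∀ y : F', y ∈ F0 ↔ ∃ a : F₀, ((algebraMap F₀ E a : E) : F') = y) : F₀ ≃+* F0 :=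
  RingEquiv.ofBijective
    ((E.subtype.comp (algebraMap F₀ E)).codRestrict F0 fun a => (hmodel _).2 ⟨a, rfl⟩)
    ⟨fun a b hab => (E.subtype.comp (algebraMap F₀ E)).injective
        (congrArg (Subtype.val : F0 → F') hab),
      fun y => by
        obtain ⟨a, ha⟩ := (hmodel y).1 y.2
        exact ⟨a, Subtype.ext ha⟩⟩

theorem coe_modelEquiv (E F0 : Subfield F') {F₀ : Type*} [Field F₀] [Algebra F₀ E]
    (hmodel : ∀ y : F', y ∈ F0 ↔ ∃ a : F₀, ((algebraMap F₀ E a : E) : F') = y) (a : F₀) :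
    ((modelEquiv E F0 hmodel a : F0) : F') = ((algebraMap F₀ E a : E) : F') := rfl

/-- **transfer of the rank**: if `F₀` (with `[Algebra F₀ E]`) is a model of the subfield `F0 ≤ E`,
then `finrank F₀ E = finrank F0 E`. -/
theorem finrank_of_model (E F0 : Subfield F') (hle : F0 ≤ E) {F₀ : Type*} [Field F₀]
    [Algebra F₀ E]
    (hmodel : ∀ y : F', y ∈ F0 ↔ ∃ a : F₀, ((algebraMap F₀ E a : E) : F') = y) :
    Module.finrank F₀ E =
      @Module.finrank F0 E _ _ (Subfield.inclusion hle).toAlgebra.toModule := by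
  let _ : Algebra F0 E := (Subfield.inclusion hle).toAlgebra
  refine Algebra.finrank_eq_of_equiv_equiv (modelEquiv E F0 hmodel) (RingEquiv.refl E) ?_
  ext a
  rfl

end Fermat.Agent.GF.KCover.Node.RankModel
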