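/-
GATE-F (S44) / node GF-KCOVER-INST, leaf (U14) `hrank` of helper84 (board 6781), helper91.
Mathlib only.

**The fixed field of the tame generator has degree exactly `p` over `F₀`.**

* `finrank_eq_of_span_of_roots` (abstract): `K ⊆ L` fields, `j : L →+* F'`, `θ : L` such that every
  `y : L` is `P(θ)` with `P ∈ K[X]`, `deg P < p` (`hspan`), and `p` pairwise distinct elements
  `r k` of `F'` at which every `K`-polynomial killing `θ` vanishes (`hroot`: the conjugates of `θ`)
  ⟹ `finrank K L = p`, `Module.Finite K L`, `natDegree (minpoly K θ) = p`.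
* `finrank_fixed` (the setting of `FixedGen.exists_poly_of_fixed`): `δ x : F' ≃+* F'` commuting,
  `δ ^ p = 1`, `F0 ≤ E` subfields of `F'`, `E` the fixed field of `x`, `F0` the elements fixed by
  `δ` and `x`, `θ ∈ E` with `δ ^ k θ ≠ θ` for `0 < k < p` ⟹ `finrank F0 E = p` for EVERY
  `[Algebra F0 E]` compatible with the inclusions (`hcompat`); `finrank_fixed_inclusion` is the
  instance `Algebra F0 E := (Subfield.inclusion hle).toAlgebra`.
-/
import Mathlib
import Fermat.Agent.GF.KCover.Node.FixedGen

set_option autoImplicit false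

noncomputable section

namespace Fermat.Agent.GF.KCover.Node.RankP

open Polynomial

/-! ### the abstract statement -/

section Abstract

variable {K L F' : Type*} [Field K] [Field L] [Field F'] [Algebra K L]

/-- `L` is spanned by `1, θ, …, θ^(p-1)`. -/
theorem span_pow_eq_top (θ : L) {p : ℕ}
    (hspan : ∀ y : L, ∃ P : K[X], P.natDegree < p ∧ y = Polynomial.aeval θ P) :
    Submodule.span K (Set.range fun i : Fin p => θ ^ (i : ℕ)) = ⊤ := by
  rw [eq_top_iff]
  intro y _
  obtain ⟨P, hP, rfl⟩ := hspan y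
  rw [Polynomial.aeval_eq_sum_range' hP]
  refine Submodule.sum_mem _ fun i hi => ?_
  refine Submodule.smul_mem _ _ (Submodule.subset_span ?_)
  exact ⟨⟨i, Finset.mem_range.1 hi⟩, rfl⟩

theorem finite_of_span (θ : L) {p : ℕ}
    (hspan : ∀ y : L, ∃ P : K[X], P.natDegree < p ∧ y = Polynomial.aeval θ P) :
    Module.Finite K L := by
  refine Module.finite_def.2 ?_
  rw [← span_pow_eq_top θ hspan]
  exact Submodule.fg_span (Set.finite_range _)

theorem finrank_le_of_span (θ : L) {p : ℕ}
    (hspan : ∀ y : L, ∃ P : K[X], P.natDegree < p ∧ y = Polynomial.aeval θ P) :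
    Module.finrank K L ≤ p := by
  have h1 := finrank_range_le_card (R := K) (fun i : Fin p => θ ^ (i : ℕ))
  unfold Set.finrank at h1
  rw [span_pow_eq_top θ hspan, finrank_top, Fintype.card_fin] at h1
  exact h1

/-- **(U14), abstract form.** -/
theorem finrank_eq_of_span_of_roots (j : L →+* F') (θ : L) {p : ℕ}
    (hspan : ∀ y : L, ∃ P : K[X], P.natDegree < p ∧ y = Polynomial.aeval θ P)
    (r : Fin p → F') (hr : Function.Injective r)
    (hroot : ∀ Q : K[X], Polynomial.aeval θ Q = 0 → ∀ k : Fin p,
      (Q.map (j.comp (algebraMap K L))).eval (r k) = 0) :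
    Module.finrank K L = p ∧ Module.Finite K L ∧ (minpoly K θ).natDegree = p := by
  classical
  have hfin : Module.Finite K L := finite_of_span θ hspan
  have hle : Module.finrank K L ≤ p := finrank_le_of_span θ hspan
  have hint : IsIntegral K θ := IsIntegral.of_finite K θ
  set Q : K[X] := minpoly K θ with hQ
  have hQ0 : Q ≠ 0 := minpoly.ne_zero hint
  set Q' : F'[X] := Q.map (j.comp (algebraMap K L)) with hQ'
  have hQ'0 : Q' ≠ 0 := by
    rw [hQ', Polynomial.map_ne_zero_iff (RingHom.injective _)]
    exact hQ0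
  have hsub : (Finset.univ.image r).val ⊆ Q'.roots := by
    intro z hz
    rw [Finset.mem_val, Finset.mem_image] at hz
    obtain ⟨k, -, rfl⟩ := hz
    rw [Polynomial.mem_roots hQ'0]
    exact hroot Q (minpoly.aeval K θ) k
  have hcard := Polynomial.card_le_degree_of_subset_roots hsub
  rw [Finset.card_image_of_injective _ hr, Finset.card_univ, Fintype.card_fin, hQ',
    Polynomial.natDegree_map] at hcard
  have hdeg : Q.natDegree ≤ Module.finrank K L := minpoly.natDegree_le θ
  exact ⟨le_antisymm hle (hcard.trans hdeg), hfin, le_antisymm (hdeg.trans hle) hcard⟩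

end Abstract

/-! ### the setting of `FixedGen.exists_poly_of_fixed` -/

section Fixed

variable {F' : Type*} [Field F']

/-- a power of `δ` fixes what `δ` fixes. -/
theorem pow_apply_eq_of_fixed (δ : F' ≃+* F') {c : F'} (hc : δ c = c) (k : ℕ) : (δ ^ k) c = c := by
  induction k with
  | zero => exact FixedGen.pow_zero_apply δ c
  | succ k ih => rw [FixedGen.pow_succ_apply, ih, hc]

/-- **(U14)**: `finrank F₀ E = p` for the fixed field `E` of the tame generator `x`, for every
algebra structure compatible with the inclusions into `F'`. -/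
theorem finrank_fixed (δ x : F' ≃+* F') (hc : ∀ y, x (δ y) = δ (x y)) {p : ℕ} (hp : 0 < p)
    (hδ : δ ^ p = 1) (F0 E : Subfield F') (hF0 : ∀ y, δ y = y → x y = y → y ∈ F0)
    (hF0δ : ∀ y ∈ F0, δ y = y) (hE : ∀ y, y ∈ E ↔ x y = y) (θ : E)
    (hconj : ∀ k, 0 < k → k < p → (δ ^ k) (θ : F') ≠ θ)
    [Algebra F0 E] (hcompat : ∀ c : F0, ((algebraMap F0 E c : E) : F') = (c : F')) :
    Module.finrank F0 E = p ∧ Module.Finite F0 E ∧ (minpoly F0 θ).natDegree = p := by
  have hθx : x (θ : F') = θ := (hE _).1 θ.2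
  -- the two `aeval`s agree
  have haeval : ∀ P : F0[X], ((Polynomial.aeval θ P : E) : F') = Polynomial.aeval (θ : F') P := by
    intro P
    induction P using Polynomial.induction_on' with
    | add P Q hP hQ => rw [map_add, map_add, Subfield.coe_add, hP, hQ]
    | monomial n c =>
      rw [Polynomial.aeval_monomial, Polynomial.aeval_monomial, Subfield.coe_mul,
        SubmonoidClass.coe_pow, hcompat]
      rfl
  have hmap : (E.subtype.comp (algebraMap F0 E)) = F0.subtype := by
    ext c
    exact hcompat c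
  refine finrank_eq_of_span_of_roots (K := F0) (L := E) E.subtype θ ?_
    (fun k : Fin p => (δ ^ (k : ℕ)) (θ : F')) ?_ ?_
  · -- span
    intro y
    have hy : x (y : F') = y := (hE _).1 y.2
    obtain ⟨P, hdeg, hP⟩ :=
      FixedGen.exists_poly_of_fixed δ x hc hp hδ F0 hF0 (θ : F') hθx hconj (y : F') hy
    refine ⟨P, hdeg, Subtype.ext ?_⟩
    rw [hP, haeval]
  · -- the conjugates are pairwise distinct
    intro a b hab
    by_contra hne
    have key : ∀ k l : ℕ, k < l → l < p → (δ ^ k) (θ : F') ≠ (δ ^ l) (θ : F') := by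
      intro k l hkl hl heq
      have h1 : (δ ^ l) (θ : F') = (δ ^ k) ((δ ^ (l - k)) (θ : F')) := by
        rw [← FixedGen.pow_add_apply, Nat.add_sub_cancel' hkl.le]
      rw [h1] at heq
      exact hconj (l - k) (Nat.sub_pos_of_lt hkl) (lt_of_le_of_lt (Nat.sub_le l k) hl)
        ((δ ^ k).injective heq).symm
    have hne' : (a : ℕ) ≠ (b : ℕ) := fun h => hne (Fin.ext h)
    rcases lt_or_gt_of_ne hne' with h | h
    · exact key a b h b.2 hab
    · exact key b a h a.2 hab.symm
  · -- the conjugates are roots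
    intro Q hQ k
    rw [hmap]
    have h0 : (Q.map F0.subtype).eval (θ : F') = 0 := by
      have h1 := haeval Q
      rw [hQ] at h1
      have hsub : F0.subtype = algebraMap F0 F' := rfl
      rw [hsub, Polynomial.eval_map_algebraMap]
      exact h1.symm
    have hfix : (Q.map F0.subtype).map ((δ ^ (k : ℕ) : F' ≃+* F') : F' →+* F') =
        Q.map F0.subtype := by
      ext n
      rw [Polynomial.coeff_map, Polynomial.coeff_map]
      exact pow_apply_eq_of_fixed δ (hF0δ _ (Q.coeff n).2) k
    rw [← hfix, FixedGen.eval_map_ringEquiv, h0, map_zero]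

/-- **(U14)** with `Algebra F₀ E := (Subfield.inclusion hle).toAlgebra`. -/
theorem finrank_fixed_inclusion (δ x : F' ≃+* F') (hc : ∀ y, x (δ y) = δ (x y)) {p : ℕ}
    (hp : 0 < p) (hδ : δ ^ p = 1) (F0 E : Subfield F') (hF0 : ∀ y, δ y = y → x y = y → y ∈ F0)
    (hF0δ : ∀ y ∈ F0, δ y = y) (hE : ∀ y, y ∈ E ↔ x y = y) (hle : F0 ≤ E) (θ : E)
    (hconj : ∀ k, 0 < k → k < p → (δ ^ k) (θ : F') ≠ θ) :
    letI : Algebra F0 E := (Subfield.inclusion hle).toAlgebra
    Module.finrank F0 E = p ∧ Module.Finite F0 E ∧ (minpoly F0 θ).natDegree = p := by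
  let _ : Algebra F0 E := (Subfield.inclusion hle).toAlgebra
  exact finrank_fixed δ x hc hp hδ F0 E hF0 hF0δ hE θ hconj (fun c => rfl)

end Fixed

end Fermat.Agent.GF.KCover.Node.RankP
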