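/-
GATE-F (S44) / GF-KCOVER-INST, node side (helper84), leaf (U16) **ASRel**: the Artin–Schreier
relation `a_i ^ p − a_i − g ∈ 𝔪_R` of the residues `a_i` of `Z'` (the hypotheses `h1 h2` of
helper13's `SheetMeet.exists_shift_hmeet`), with a `K₀`-RATIONAL `g ∈ R`.

TRAP: the `g₁` of the normal form `(1 + c Z')^p = 1 + c^p g₁` is a `K'`-rational function; it is
INTEGRAL over `R = O_s` (helper60 `KrullMod`) but it is not an element of `R`.  The `K₀`-rational
representative of its residue is `g := d⁻¹ · Tr_τ(g₁)`: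

* `as_reduction` : `Ô ⊂ L` a valuation subring, `ζ = 1 + c` a primitive `p`-th root of `1`,
  `c ∈ 𝔪̂`, `Z G ∈ Ô`, `(1 + c Z)^p = 1 + c^p G` ⟹ `Z^p − Z − G ∈ 𝔪̂`
  (the Artin–Schreier polynomial of `ASEtale`; `ε₀ ≡ −1` by evaluating its identity at `X = 1`,
  `g₁ = 0` — no Wilson);
* `not_isUnit_of_mem_nonunits`, **`as_rel_of_residues`** : `Z ≡ jj a`, `G ≡ jj g` (`a g : R`) ⟹
  `a^p − a − g ∈ maximalIdeal R`;
* **`exists_trace_rep`** : `g₁` integral over `R`, the `τ`-fixed elements are `K₀`-rational ⟹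
  `∃ G₁ : R, φ₀ (algebraMap R F₀ G₁) = traceTame τ d g₁`;
* `emb_sub_rep_mem` : `u · d = 1` in `R` ⟹ `e g₁ − jj (algebraMap R F₀ (u * G₁)) ∈ 𝔪̂`
  (trivial residue action of `τ`).
-/
import Fermat.Agent.GF.KCover.Node.ResLift
import Fermat.Agent.GF.KCover.Node.TraceRes

set_option autoImplicit false
set_option linter.unusedSectionVars false
set_option linter.unusedVariables false

noncomputable section

namespace Fermat.Agent.GF.KCover.Node.ASRel

open Polynomial IsLocalRing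
open Fermat.Agent.GF.KCover.Node

/-! ### the Artin–Schreier reduction in a valuation ring -/

section Red

variable {L : Type*} [Field L] {p : ℕ} [Fact p.Prime]

/-- an element integral over `ℤ` lies in every valuation subring. -/
theorem mem_of_isIntegral_int (O : ValuationSubring L) {z : L} (hz : IsIntegral ℤ z) : z ∈ O := by
  have h1 : IsIntegral O z := hz.tower_top
  obtain ⟨y, hy⟩ := (IsIntegrallyClosed.isIntegral_iff (R := O) (K := L)).1 h1
  rw [← hy]
  exact y.2

set_option maxHeartbeats 800000 in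
/-- **the Artin–Schreier reduction**: `(1 + c Z)^p = 1 + c^p G` ⟹ `Z^p − Z ≡ G` modulo `𝔪̂`. -/
theorem as_reduction (O : ValuationSubring L) {ζ c Z G : L} (hζ : IsPrimitiveRoot ζ p)
    (hc : c = ζ - 1) (hcO : c ∈ O.nonunits) (hZ : Z ∈ O) (hG : G ∈ O)
    (hAS : (1 + c * Z) ^ p = 1 + c ^ p * G) : Z ^ p - Z - G ∈ O.nonunits := by
  have hpp : p.Prime := Fact.out
  have hc0 : c ≠ 0 := by
    rw [hc]
    exact sub_ne_zero.2 (hζ.ne_one hpp.one_lt)
  obtain ⟨ε₀, hεint, hpε⟩ := ResLift.exists_eps hζ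
  have hεO : ε₀ ∈ O := mem_of_isIntegral_int O hεint
  have hcO' : c ∈ O := SheetRes.mem_of_mem_nonunits O hcO
  -- everything in `↥O`
  let cO : O := ⟨c, hcO'⟩
  let εO : O := ⟨ε₀, hεO⟩
  let ZO : O := ⟨Z, hZ⟩
  let GO : O := ⟨G, hG⟩
  have hcast : (((p : ℕ) : O) : L) = (p : L) := map_natCast O.subtype p
  have hp : ((p : ℕ) : O) = εO * cO ^ (p - 1) := by
    apply Subtype.ext
    rw [hcast, hpε, ← hc]
    rfl
  have hϖ0 : algebraMap O O cO ≠ 0 := by
    intro h
    apply hc0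
    exact congrArg Subtype.val h
  have hAS1 : (1 + algebraMap O O cO * (1 : O)) ^ p = 1 + algebraMap O O (cO ^ p * 0) := by
    apply Subtype.ext
    show (1 + c * 1) ^ p = 1 + (c ^ p * 0)
    rw [mul_one, mul_zero, add_zero, hc, add_sub_cancel, hζ.pow_eq_one]
  have hAS2 : (1 + algebraMap O O cO * ZO) ^ p = 1 + algebraMap O O (cO ^ p * GO) := by
    apply Subtype.ext
    show (1 + c * Z) ^ p = 1 + c ^ p * G
    exact hAS
  have h1 := ASEtale.aeval_asPoly_eq_zero cO εO (0 : O) hpp hp hϖ0 hAS1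
  have h2 := ASEtale.aeval_asPoly_eq_zero cO εO GO hpp hp hϖ0 hAS2
  -- reduce modulo the maximal ideal
  have hπc : IsLocalRing.residue O cO = 0 := by
    rw [IsLocalRing.residue_eq_zero_iff, ← ValuationSubring.coe_mem_nonunits_iff]
    exact hcO
  have hmap := fun g : O => ASEtale.map_asPoly cO εO g (IsLocalRing.residue O) hπc hpp.two_le
  have hev : ∀ (g θ : O), aeval θ (ASEtale.asPoly p cO εO g) = 0 →
      (IsLocalRing.residue O θ) ^ p + IsLocalRing.residue O εO * IsLocalRing.residue O θ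
        - IsLocalRing.residue O g = 0 := by
    intro g θ h
    have h3 : Polynomial.eval (IsLocalRing.residue O θ)
        ((ASEtale.asPoly p cO εO g).map (IsLocalRing.residue O)) = 0 := by
      rw [Polynomial.eval_map, Polynomial.eval₂_at_apply]
      have : Polynomial.eval θ (ASEtale.asPoly p cO εO g) = 0 := by
        rw [← Polynomial.coe_aeval_eq_eval]
        exact h
      rw [this, map_zero]
    rw [hmap g] at h3
    simpa only [eval_sub, eval_add, eval_pow, eval_X, eval_mul, eval_C] using h3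
  have hε : IsLocalRing.residue O εO = -1 := by
    have h3 := hev 0 1 h1
    rw [map_one, one_pow, mul_one, map_zero, sub_zero] at h3
    exact eq_neg_of_add_eq_zero_right h3
  have h4 := hev GO ZO h2
  rw [hε] at h4
  have h5 : IsLocalRing.residue O (ZO ^ p - ZO - GO) = 0 := by
    rw [map_sub, map_sub, map_pow]
    linear_combination h4
  rw [IsLocalRing.residue_eq_zero_iff, ← ValuationSubring.coe_mem_nonunits_iff] at h5
  exact h5

end Red

/-! ### the relation in `R` -/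

section Rel

variable {R F₀ L : Type*} [CommRing R] [Field F₀] [Algebra R F₀] [Field L] {p : ℕ} [Fact p.Prime]

/-- an element of `R` whose image in the completion is a nonunit of `Ô` is not a unit of `R`. -/
theorem not_isUnit_of_mem_nonunits (Oh : ValuationSubring L) (jj : F₀ →+* L)
    (hjR : ∀ r : R, jj (algebraMap R F₀ r) ∈ Oh) {r : R}
    (hr : jj (algebraMap R F₀ r) ∈ Oh.nonunits) : ¬ IsUnit r := by
  intro hu
  obtain ⟨v, hv⟩ := hu.exists_right_inv
  have h1 : jj (algebraMap R F₀ r) * jj (algebraMap R F₀ v) = 1 := by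
    rw [← map_mul, ← map_mul, hv, map_one, map_one]
  rw [ValuationSubring.mem_nonunits_iff_or] at hr
  rcases hr with h0 | h0
  · rw [h0, zero_mul] at h1
    exact zero_ne_one h1
  · apply h0
    rw [inv_eq_of_mul_eq_one_right h1]
    exact hjR v

/-- **(U16)**: the Artin–Schreier relation of the residues in `R`: `Z ≡ jj a`, `G ≡ jj g` and
`(1 + c Z)^p = 1 + c^p G` ⟹ `a^p − a − g ∈ 𝔪_R` (`h1`, `h2` of `SheetMeet.exists_shift_hmeet`). -/
theorem as_rel_of_residues [IsLocalRing R] (Oh : ValuationSubring L) (jj : F₀ →+* L)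
    (hjR : ∀ r : R, jj (algebraMap R F₀ r) ∈ Oh) {ζ c Z G : L} (hζ : IsPrimitiveRoot ζ p)
    (hc : c = ζ - 1) (hcO : c ∈ Oh.nonunits) (hAS : (1 + c * Z) ^ p = 1 + c ^ p * G) (a g : R)
    (ha : Z - jj (algebraMap R F₀ a) ∈ Oh.nonunits)
    (hg : G - jj (algebraMap R F₀ g) ∈ Oh.nonunits) :
    a ^ p - a - g ∈ maximalIdeal R := by
  have hZ : Z ∈ Oh := by
    have h := Oh.add_mem _ _ (SheetRes.mem_of_mem_nonunits Oh ha) (hjR a)
    rwa [sub_add_cancel] at h
  have hG : G ∈ Oh := by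
    have h := Oh.add_mem _ _ (SheetRes.mem_of_mem_nonunits Oh hg) (hjR g)
    rwa [sub_add_cancel] at h
  have h0 := as_reduction Oh hζ hc hcO hZ hG hAS
  -- pass to the residue field of `Ô`
  let ZO : Oh := ⟨Z, hZ⟩
  let GO : Oh := ⟨G, hG⟩
  let aO : Oh := ⟨jj (algebraMap R F₀ a), hjR a⟩
  let gO : Oh := ⟨jj (algebraMap R F₀ g), hjR g⟩
  have hres : ∀ x y : Oh, ((x : L) - (y : L)) ∈ Oh.nonunits →
      IsLocalRing.residue Oh x = IsLocalRing.residue Oh y := by
    intro x y h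
    have h1 : IsLocalRing.residue Oh (x - y) = 0 := by
      rw [IsLocalRing.residue_eq_zero_iff, ← ValuationSubring.coe_mem_nonunits_iff]
      exact h
    rw [map_sub, sub_eq_zero] at h1
    exact h1
  have hZa : IsLocalRing.residue Oh ZO = IsLocalRing.residue Oh aO := hres ZO aO ha
  have hGg : IsLocalRing.residue Oh GO = IsLocalRing.residue Oh gO := hres GO gO hg
  have h1 : IsLocalRing.residue Oh (ZO ^ p - ZO - GO) = 0 := by
    rw [IsLocalRing.residue_eq_zero_iff, ← ValuationSubring.coe_mem_nonunits_iff]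
    exact h0
  have h2 : IsLocalRing.residue Oh (aO ^ p - aO - gO) = 0 := by
    rw [map_sub, map_sub, map_pow, ← hZa, ← hGg, ← map_pow, ← map_sub, ← map_sub]
    exact h1
  rw [IsLocalRing.residue_eq_zero_iff, ← ValuationSubring.coe_mem_nonunits_iff] at h2
  have h3 : jj (algebraMap R F₀ (a ^ p - a - g)) ∈ Oh.nonunits := by
    have e1 : jj (algebraMap R F₀ (a ^ p - a - g)) = ((aO ^ p - aO - gO : Oh) : L) := by
      simp only [map_sub, map_pow]
      rfl
    rw [e1]
    exact h2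
  rw [mem_maximalIdeal, mem_nonunits_iff]
  exact not_isUnit_of_mem_nonunits Oh jj hjR h3

end Rel

/-! ### the `K₀`-rational representative of the residue of `g₁` -/

section Trace

variable {R F₀ F₁ L : Type*} [CommRing R] [IsDomain R] [IsIntegrallyClosed R] [Field F₀]
  [Algebra R F₀] [IsFractionRing R F₀] [Field F₁] [Field L]

/-- **the trace of an `R`-integral element is in `R`**: `τ` of order dividing `d`, fixing the
`K₀`-rational functions, whose fixed elements are `K₀`-rational. -/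
theorem exists_trace_rep (φ₀ : F₀ →+* F₁) (τ : F₁ ≃+* F₁)
    (hfix : ∀ y : F₁, τ y = y → ∃ a : F₀, φ₀ a = y) (hτ : ∀ a : F₀, τ (φ₀ a) = φ₀ a) {d : ℕ}
    (hd : τ ^ d = 1) (g₁ : F₁) (hint : (φ₀.comp (algebraMap R F₀)).IsIntegralElem g₁) :
    ∃ G₁ : R, φ₀ (algebraMap R F₀ G₁) = TraceRes.traceTame τ d g₁ := by
  let _ : Algebra R F₁ := (φ₀.comp (algebraMap R F₀)).toAlgebra
  have hint' : IsIntegral R g₁ := hint
  have hT : IsIntegral R (TraceRes.traceTame τ d g₁) :=
    TraceRes.isIntegral_traceTame τ d (fun r => hτ (algebraMap R F₀ r)) hint'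
  have hfixT : τ (TraceRes.traceTame τ d g₁) = TraceRes.traceTame τ d g₁ :=
    (Fermat.Agent.GF.KCover.Field.mem_fixedTame).1 (TraceRes.traceTame_mem_fixedTame hd g₁)
  obtain ⟨a, ha⟩ := hfix _ hfixT
  -- `a` is integral over `R`
  obtain ⟨P, hP, hPa⟩ := hT
  have ha_int : IsIntegral R a := by
    refine ⟨P, hP, ?_⟩
    have h1 : φ₀ (P.eval₂ (algebraMap R F₀) a) = P.eval₂ (φ₀.comp (algebraMap R F₀)) (φ₀ a) :=
      Polynomial.hom_eval₂ P (algebraMap R F₀) φ₀ a
    rw [ha] at h1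
    have h2 : P.eval₂ (φ₀.comp (algebraMap R F₀)) (TraceRes.traceTame τ d g₁) = 0 := hPa
    rw [h2] at h1
    exact φ₀.injective (h1.trans (map_zero φ₀).symm)
  obtain ⟨G₁, hG₁⟩ := (IsIntegrallyClosed.isIntegral_iff (R := R) (K := F₀)).1 ha_int
  exact ⟨G₁, by rw [hG₁, ha]⟩

/-- the residue of `g₁` on a sheet is the residue of `u · G₁ ∈ R` (`u · d = 1`). -/
theorem emb_sub_rep_mem (φ₀ : F₀ →+* F₁) (τ : F₁ ≃+* F₁) (d : ℕ) (Oh : ValuationSubring L)
    (e : F₁ →+* L) (τL : L ≃+* L) (he : ∀ y, e (τ y) = τL (e y))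
    (hres : ∀ y ∈ Oh, τL y - y ∈ Oh.nonunits) {g₁ : F₁} (hg : e g₁ ∈ Oh) {G₁ u : R}
    (hG₁ : φ₀ (algebraMap R F₀ G₁) = TraceRes.traceTame τ d g₁) (hu : u * (d : R) = 1)
    (huO : e (φ₀ (algebraMap R F₀ u)) ∈ Oh) :
    e g₁ - e (φ₀ (algebraMap R F₀ (u * G₁))) ∈ Oh.nonunits := by
  have h1 := TraceRes.emb_traceTame_sub_mem_nonunits (x := τ) (d := d) (e := e) (τL := τL)
    (Ohat := Oh) he hres hg
  rw [← hG₁] at h1
  have hud : e (φ₀ (algebraMap R F₀ u)) * (d : L) = 1 := by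
    have := congrArg (fun r : R => e (φ₀ (algebraMap R F₀ r))) hu
    simpa only [map_mul, map_natCast, map_one] using this
  have h2 : e g₁ - e (φ₀ (algebraMap R F₀ (u * G₁))) =
      -(e (φ₀ (algebraMap R F₀ u)) * (e (φ₀ (algebraMap R F₀ G₁)) - (d : L) * e g₁)) := by
    rw [map_mul, map_mul, map_mul]
    linear_combination (-(e g₁)) * hud
  rw [h2]
  exact Oh.nonunits.neg_mem (TraceRes.mul_mem_nonunits_of_mem Oh huO h1)

end Trace

end Fermat.Agent.GF.KCover.Node.ASRel

end
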