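/-
GATE-F (S44) / GF-KCOVER-INST, node side (helper84), leaf (U13) part 2: **the binder `hres_i` of
`SheetAsm.nl0_of_sheets` for the sheets `Bridge.embV … k` of helper19's bridge** (the reduction data
`Bridge.sheetK … k`), from `SheetIdx.emb_traceTame_sub_sheetRes_mem`.

* `emb_mem_of_isIntegralElem` : `z` integral over `R` through `φ`, `e ∘ φ` lands in `Ô` ⟹ `e z ∈ Ô`
  (the binder `hz : e₀ Z' ∈ Ô` of `FixedGenPlug` / `SheetIdx` is AUTOMATIC from integrality, for
  every choice of the root `γ`);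
* `embV_comp_incl` : `(embV … k).comp incl' = emb H₁ hζ ((j V).comp incl) (beta_root …) k` (the sheets
  of the big cover restricted to the `K'`-rational cover are the `Split` embeddings with the root
  `beta γ`);
* `tauL_sub_mem_nonunits` : trivial residue action of `σ` ⟹ `tauL z − z ∈ 𝔪̂` for `z ∈ Ô`;
* **`embV_traceTame_sub_sheetRes_mem`** : `embV k (incl' θ) − j (incl (algebraMap R' E₁ (sheetRes p d a k))) ∈ 𝔪̂`
  for `θ = traceTame x d Z'`, every `k : ZMod p`.
-/
import Fermat.Agent.GF.KCover.Compl.BridgeTau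
import Fermat.Agent.GF.KCover.Node.SheetIdx

set_option autoImplicit false
set_option linter.unusedSectionVars false
set_option linter.unusedVariables false
set_option linter.dupNamespace false

noncomputable section

open Topology Filter UniformSpace Polynomial AlgebraicCurve

namespace Fermat.Agent.GF.KCover.Node.SheetIdxBridge

open Fermat.Agent.GF.KCover.Field Fermat.Agent.GF.KCover.Field.Disc
  Fermat.Agent.GF.KCover.Field.Pack Fermat.Agent.GF.KCover.Compl
  Fermat.Agent.GF.KCover.Compl.Bridge Fermat.Agent.GF.KCover.Compl.BridgeTau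
open Fermat.Agent.GJ.J1 Fermat.Agent.S24 Fermat.Agent.GF.Trop
  Fermat.Agent.GF.KCover.Compl.RedCompl Fermat.Agent.GF.KCover.Compl.RedAut
open Fermat.Agent.GF.KCover.Node

/-! ### integrality gives membership -/

section Int

variable {R A L : Type*} [CommRing R] [CommRing A] [Field L]

/-- `z` integral over `R` through `φ`, `e ∘ φ` with values in `Ô` ⟹ `e z ∈ Ô`. -/
theorem emb_mem_of_isIntegralElem (O : ValuationSubring L) (φ : R →+* A) (e : A →+* L)
    (hφ : ∀ r : R, e (φ r) ∈ O) {z : A} (hz : φ.IsIntegralElem z) : e z ∈ O := by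
  obtain ⟨P, hP, hPz⟩ := hz
  -- the polynomial with coefficients in `Ô`
  let ψ : R →+* O := (e.comp φ).codRestrict O.toSubring hφ
  have hsub : (O.subtype : O →+* L).comp ψ = e.comp φ := RingHom.ext fun r => rfl
  have h1 : IsIntegral O (e z) := by
    refine ⟨P.map ψ, hP.map ψ, ?_⟩
    rw [Polynomial.eval₂_map]
    have h2 : (algebraMap O L).comp ψ = e.comp φ := hsub
    rw [h2]
    have h3 := Polynomial.hom_eval₂ P φ e z
    rw [hPz, map_zero] at h3
    exact h3.symm
  obtain ⟨y, hy⟩ := (IsIntegrallyClosed.isIntegral_iff (R := O) (K := L)).1 h1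
  rw [← hy]
  exact y.2

end Int

/-! ### the bridge -/

section Sheet

variable {K F k Ft : Type*} [Field K] [Field F] [Algebra K F] [Field k] [Field Ft] [Algebra k Ft]
variable (R : RedData K F k Ft)
variable {F' : Type*} [Field F'] [Algebra K F'] [Algebra F F'] [IsScalarTower K F F']
variable {E₁ : Type*} [Field E₁] {ϖ : E₁} {v : Valuation E₁ (ValuationSubring.ValueGroup R.Rw)}
variable (incl : E₁ →+* F) (hincl : ∀ a : E₁, R.Rw.valuation (incl a) = v a)
variable (h : IsDisc v ϖ)
variable (harch : ∀ γ : ValuationSubring.ValueGroup R.Rw, γ ≠ 0 → ∃ n : ℕ, v ϖ ^ n < γ)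
variable {E' : Type*} [Field E'] [Algebra E₁ E'] {p : ℕ} [NeZero p] {g₀ : E₁}
  (H₁ : IsAdjoinRoot E' (X ^ p - C g₀ : E₁[X])) {ζ : E₁} (hζ : IsPrimitiveRoot ζ p)
  {γ : Lc h} (hγ : γ ^ p = jc h g₀)
  (H : IsAdjoinRoot F' (X ^ p - C (incl g₀) : F[X]))
  (incl' : E' →+* F')
  (hincl' : ∀ a : E₁, incl' (algebraMap E₁ E' a) = algebraMap F F' (incl a))
  (hroot : incl' H₁.root = H.root)

include hγ in
/-- the root `beta γ` for the `Split` frame `(E₁, E')` into the completion of the big field. -/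
theorem beta_root' :
    (beta h R.Rw.valuation incl hincl harch γ) ^ p = ((j R.Rw.valuation).comp incl) g₀ :=
  beta_root h R.Rw.valuation incl hincl harch hγ

include hincl' hroot in
/-- **the sheets of the big cover restricted to the `K'`-rational cover.** -/
theorem embV_comp_incl (i : ZMod p) :
    (embV h R.Rw.valuation incl hincl harch hζ hγ H i).comp incl' =
      emb H₁ hζ ((j R.Rw.valuation).comp incl) (beta_root' R incl hincl h harch hγ) i := by
  refine ringHom_ext H₁ (fun a => ?_) ?_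
  · rw [RingHom.comp_apply, hincl', embV_algebraMap, emb_algebraMap, RingHom.comp_apply]
  · rw [RingHom.comp_apply, hroot, embV_root, emb_root, RingHom.comp_apply]

include hincl' hroot in
theorem embV_incl_apply (i : ZMod p) (y : E') :
    embV h R.Rw.valuation incl hincl harch hζ hγ H i (incl' y) =
      emb H₁ hζ ((j R.Rw.valuation).comp incl) (beta_root' R incl hincl h harch hγ) i y := by
  rw [← embV_comp_incl R incl hincl h harch H₁ hζ hγ H incl' hincl' hroot i]
  rfl

variable (σ : F ≃+* F) (hσ : ∀ x : F, R.Rw.valuation (σ x) = R.Rw.valuation x)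

/-- trivial residue action of `σ` ⟹ `tauL z − z ∈ 𝔪̂` on the valuation ring of the completion. -/
theorem tauL_sub_mem_nonunits
    (hres : ∀ (a : F) (ha : a ∈ R.Rw), R.red ⟨σ a, map_mem_Rw R σ hσ ha⟩ = R.red ⟨a, ha⟩)
    (z : LR R) (hz : z ∈ RwL R) : tauL R σ hσ z - z ∈ (RwL R).nonunits := by
  have hz' : z ∈ (redCompl R).Rw := hz
  have h1 := redCompl_red_map R σ hσ hres hz'
  have h2 : (redCompl R).red (⟨tauL R σ hσ z, redCompl_map_mem R σ hσ hz'⟩ - ⟨z, hz'⟩) = 0 := by
    rw [map_sub, h1, sub_self]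
  rw [(redCompl R).red_eq_zero_iff, ← ValuationSubring.coe_mem_nonunits_iff] at h2
  exact h2

variable (τ : E₁ ≃+* E₁) (hτ : ∀ a, v (τ a) = v a)
variable {x : E' ≃+* E'}
  (hx : IsOver (x : E' →+* E') (τ : E₁ →+* E₁))
  (hxδ : Commute (x : E' →+* E') (deck H₁ hζ))

include hincl' hroot hx hxδ hτ in
/-- **`hres_i` of `SheetAsm.nl0_of_sheets` on the sheets of the bridge.** -/
theorem embV_traceTame_sub_sheetRes_mem {R' : Type*} [CommRing R'] [Algebra R' E₁]
    (hcomm : ∀ a : E₁, incl (τ a) = σ (incl a)) (hg₀ : g₀ ≠ 0) {d : ℕ}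
    (hd : Nat.Coprime d p) (hxd : (x : E' →+* E') ^ d = 1) (hτd : τ ^ d = 1)
    (hres : ∀ (a : F) (ha : a ∈ R.Rw), R.red ⟨σ a, map_mem_Rw R σ hσ ha⟩ = R.red ⟨a, ha⟩)
    {c : E₁} (hζc : ζ = 1 + c) {Z' : E'} (hZ' : H₁.root = 1 + algebraMap E₁ E' c * Z')
    (hcV : v c < 1) (hc0 : c ≠ 0)
    (hz : embV h R.Rw.valuation incl hincl harch hζ hγ H 0 (incl' Z') ∈ RwL R) (a : R')
    (hA : embV h R.Rw.valuation incl hincl harch hζ hγ H 0 (incl' Z') -
      j R.Rw.valuation (incl (algebraMap R' E₁ a)) ∈ (RwL R).nonunits) (i : ZMod p) :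
    embV h R.Rw.valuation incl hincl harch hζ hγ H i (incl' (TraceRes.traceTame x d Z')) -
      j R.Rw.valuation (incl (algebraMap R' E₁ (SplitAsm.sheetRes p d a i))) ∈
        (RwL R).nonunits := by
  rw [embV_incl_apply R incl hincl h harch H₁ hζ hγ H incl' hincl' hroot] at hz hA ⊢
  have he : ∀ y, emb H₁ hζ ((j R.Rw.valuation).comp incl) (beta_root' R incl hincl h harch hγ) 0
      (x y) = tauL R σ hσ (emb H₁ hζ ((j R.Rw.valuation).comp incl)
        (beta_root' R incl hincl h harch hγ) 0 y) := by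
    intro y
    rw [← embV_incl_apply R incl hincl h harch H₁ hζ hγ H incl' hincl' hroot,
      ← embV_incl_apply R incl hincl h harch H₁ hζ hγ H incl' hincl' hroot]
    exact embK_tame R incl hincl h harch H₁ hζ hγ H incl' hincl' hroot τ hτ σ hσ hx hxδ hcomm hg₀
      hd hxd hτd 0 y
  have hϖ : ((j R.Rw.valuation).comp incl) c ∈ (RwL R).nonunits := by
    rw [ValuationSubring.mem_nonunits_iff_or]
    right
    rw [RingHom.comp_apply, mem_RwL, map_inv₀, val_j, hincl]
    intro hle
    have h1 : (1 : ValuationSubring.ValueGroup R.Rw) ≤ v c := by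
      have hvc : v c ≠ 0 := by
        rw [Ne, Valuation.zero_iff]
        exact hc0
      exact (inv_le_one₀ (zero_lt_iff.2 hvc)).1 hle
    exact absurd hcV (not_lt.2 h1)
  exact SheetIdx.emb_traceTame_sub_sheetRes_mem (R := R') H₁ hζ ((j R.Rw.valuation).comp incl)
    (beta_root' R incl hincl h harch hγ) (RwL R) x hxδ d (tauL R σ hσ) he
    (fun y hy => tauL_sub_mem_nonunits R σ hσ hres y hy) hζc hZ' hϖ hc0 hz a hA i

end Sheet

end Fermat.Agent.GF.KCover.Node.SheetIdxBridge

end
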