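/-
GATE-F (S44) / GF-KCOVER-INST, node side (helper84), file 10: **the `K₀`-rational representative
`g ∈ R` of the residue of `g₁`, on helper19's bridge** — the binders `(g, hg₁, hg₂)` of
`SheetData.exists_sheet_data` (= `ASRel.exists_trace_rep` + `ASRel.emb_sub_rep_mem` with
`e := (j V).comp incl`, `τL := RedAut.tauL R σ hσ`).

`g₁ : E₁` the `K'`-rational function of the normal form, integral over `R` through
`ι₀ : F₀ →+* E₁`; `τ : E₁ ≃+* E₁` the tame generator of the base (`τ ^ d = 1`, the `τ`-fixed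
elements are `K₀`-rational), `σ : F ≃+* F` with `incl ∘ τ = σ ∘ incl`, `σ` trivial on the residue
field of the Gauss reduction datum `R`.

* `exists_g` : `∃ g : R` (NO reduction datum involved: the SAME `g` serves both branches) with
  `ι₀ (algebraMap Rs F₀ g) = ι₀ (algebraMap Rs F₀ u) * traceTame τ d g₁`  (`u · d = 1`);
* `j_sub_rep_mem` : for EVERY reduction datum `R` as above with `g₁ ∈ R.Rw`, `ι₀ u ∈ R.Rw`:
  `j V (incl g₁) − j V (incl (ι₀ (algebraMap Rs F₀ g))) ∈ (RwL R).nonunits`;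
* `embV_sub_rep_mem` : the same read on a sheet `embV … i` of the big cover
  (`g₁' := incl' (algebraMap E₁ E' g₁)`): the binder `hg_i` of `exists_sheet_data` VERBATIM.
-/
import Fermat.Agent.GF.KCover.Node.ASRel
import Fermat.Agent.GF.KCover.Node.SheetIdxBridge
import Fermat.Agent.GF.KCover.Node.PkgAsm

set_option autoImplicit false
set_option linter.unusedSectionVars false
set_option linter.unusedVariables false
set_option linter.dupNamespace false

noncomputable section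

open Topology Filter UniformSpace Polynomial AlgebraicCurve

namespace Fermat.Agent.GF.KCover.Node.GRep

open Fermat.Agent.GF.KCover.Field Fermat.Agent.GF.KCover.Field.Disc
  Fermat.Agent.GF.KCover.Field.Pack Fermat.Agent.GF.KCover.Compl
  Fermat.Agent.GF.KCover.Compl.Bridge Fermat.Agent.GF.KCover.Compl.BridgeTau
open Fermat.Agent.GJ.J1 Fermat.Agent.S24 Fermat.Agent.GF.Trop
  Fermat.Agent.GF.KCover.Compl.RedCompl Fermat.Agent.GF.KCover.Compl.RedAut
open Fermat.Agent.GF.KCover.Node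

/-! ### the element `g` -/

section G

variable {Rs F₀ E₁ : Type*} [CommRing Rs] [IsDomain Rs] [IsIntegrallyClosed Rs] [Field F₀]
  [Algebra Rs F₀] [IsFractionRing Rs F₀] [Field E₁]

/-- **the `K₀`-rational representative**: `g := u · G₁` with `ι₀ G₁ = Tr_τ(g₁)`, `u · d = 1`. -/
theorem exists_g (ι₀ : F₀ →+* E₁) (τ : E₁ ≃+* E₁)
    (hfix : ∀ y : E₁, τ y = y → ∃ a : F₀, ι₀ a = y) (hτ : ∀ a : F₀, τ (ι₀ a) = ι₀ a) {d : ℕ}
    (hd : τ ^ d = 1) (g₁ : E₁) (hint : (ι₀.comp (algebraMap Rs F₀)).IsIntegralElem g₁) (u : Rs) :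
    ∃ g G₁ : Rs, g = u * G₁ ∧ ι₀ (algebraMap Rs F₀ G₁) = TraceRes.traceTame τ d g₁ := by
  obtain ⟨G₁, hG₁⟩ := ASRel.exists_trace_rep ι₀ τ hfix hτ hd g₁ hint
  exact ⟨u * G₁, G₁, rfl, hG₁⟩

end G

/-! ### the residues on the bridge -/

section Sheet

variable {K F k Ft : Type*} [Field K] [Field F] [Algebra K F] [Field k] [Field Ft] [Algebra k Ft]
variable (R : RedData K F k Ft)
variable {E₁ : Type*} [Field E₁] (incl : E₁ →+* F)
variable (σ : F ≃+* F) (hσ : ∀ x : F, R.Rw.valuation (σ x) = R.Rw.valuation x)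
variable (τ : E₁ ≃+* E₁)

variable {Rs F₀ : Type*} [CommRing Rs] [IsDomain Rs] [IsIntegrallyClosed Rs] [Field F₀]
  [Algebra Rs F₀] [IsFractionRing Rs F₀]

/-- **`hg_i` on the base**: the residue of `g₁` at the Gauss valuation of `R` is the residue of
`g = u · G₁ ∈ Rs`. -/
theorem j_sub_rep_mem (hcomm : ∀ a : E₁, incl (τ a) = σ (incl a))
    (hres : ∀ (a : F) (ha : a ∈ R.Rw), R.red ⟨σ a, map_mem_Rw R σ hσ ha⟩ = R.red ⟨a, ha⟩)
    (ι₀ : F₀ →+* E₁) {d : ℕ} {g₁ : E₁} (hg₁ : incl g₁ ∈ R.Rw) {G₁ u : Rs}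
    (hG₁ : ι₀ (algebraMap Rs F₀ G₁) = TraceRes.traceTame τ d g₁) (hu : u * (d : Rs) = 1)
    (huR : incl (ι₀ (algebraMap Rs F₀ u)) ∈ R.Rw) :
    j R.Rw.valuation (incl g₁) - j R.Rw.valuation (incl (ι₀ (algebraMap Rs F₀ (u * G₁)))) ∈
      (RwL R).nonunits := by
  have he : ∀ y : E₁, ((j R.Rw.valuation).comp incl) (τ y) =
      tauL R σ hσ (((j R.Rw.valuation).comp incl) y) := by
    intro y
    rw [RingHom.comp_apply, RingHom.comp_apply, hcomm, tauL_j]
  have hg : ((j R.Rw.valuation).comp incl) g₁ ∈ RwL R := (j_mem_RwL_iff R).2 hg₁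
  have huO : ((j R.Rw.valuation).comp incl) (ι₀ (algebraMap Rs F₀ u)) ∈ RwL R :=
    (j_mem_RwL_iff R).2 huR
  exact ASRel.emb_sub_rep_mem (R := Rs) (F₀ := F₀) ι₀ τ d (RwL R) ((j R.Rw.valuation).comp incl)
    (tauL R σ hσ) he (fun y hy => SheetIdxBridge.tauL_sub_mem_nonunits R σ hσ hres y hy) hg hG₁ hu
    huO

end Sheet

/-! ### the same on the sheets of the big cover -/

section Big

variable {K F k Ft : Type*} [Field K] [Field F] [Algebra K F] [Field k] [Field Ft] [Algebra k Ft]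
variable (R : RedData K F k Ft)
variable {F' : Type*} [Field F'] [Algebra K F'] [Algebra F F'] [IsScalarTower K F F']
variable {E₁ : Type*} [Field E₁] {ϖ : E₁} {v : Valuation E₁ (ValuationSubring.ValueGroup R.Rw)}
variable (incl : E₁ →+* F) (hincl : ∀ a : E₁, R.Rw.valuation (incl a) = v a)
variable (h : IsDisc v ϖ)
variable (harch : ∀ γ : ValuationSubring.ValueGroup R.Rw, γ ≠ 0 → ∃ n : ℕ, v ϖ ^ n < γ)
variable {E' : Type*} [Field E'] [Algebra E₁ E'] {p : ℕ} [NeZero p] {g₀ : E₁}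
  {ζ : E₁} (hζ : IsPrimitiveRoot ζ p)
  {γ : Lc h} (hγ : γ ^ p = jc h g₀)
  (H : IsAdjoinRoot F' (X ^ p - C (incl g₀) : F[X]))
  (incl' : E' →+* F')
  (hincl' : ∀ a : E₁, incl' (algebraMap E₁ E' a) = algebraMap F F' (incl a))
variable (σ : F ≃+* F) (hσ : ∀ x : F, R.Rw.valuation (σ x) = R.Rw.valuation x)
variable (τ : E₁ ≃+* E₁)

variable {Rs F₀ : Type*} [CommRing Rs] [IsDomain Rs] [IsIntegrallyClosed Rs] [Field F₀]
  [Algebra Rs F₀] [IsFractionRing Rs F₀]

include hincl' in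
/-- **the binder `hg_i` of `SheetData.exists_sheet_data`** for `e_i := embV … i`,
`g₁' := incl' (algebraMap E₁ E' g₁)`, `jj_i := (j V).comp (incl.comp ι₀)`. -/
theorem embV_sub_rep_mem (hcomm : ∀ a : E₁, incl (τ a) = σ (incl a))
    (hres : ∀ (a : F) (ha : a ∈ R.Rw), R.red ⟨σ a, map_mem_Rw R σ hσ ha⟩ = R.red ⟨a, ha⟩)
    (ι₀ : F₀ →+* E₁) {d : ℕ} {g₁ : E₁} (hg₁ : incl g₁ ∈ R.Rw) {G₁ u : Rs}
    (hG₁ : ι₀ (algebraMap Rs F₀ G₁) = TraceRes.traceTame τ d g₁) (hu : u * (d : Rs) = 1)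
    (huR : incl (ι₀ (algebraMap Rs F₀ u)) ∈ R.Rw) (i : ZMod p) :
    embV h R.Rw.valuation incl hincl harch hζ hγ H i (incl' (algebraMap E₁ E' g₁)) -
      j R.Rw.valuation (incl (ι₀ (algebraMap Rs F₀ (u * G₁)))) ∈ (RwL R).nonunits := by
  rw [hincl', embV_algebraMap]
  exact j_sub_rep_mem R incl σ hσ τ hcomm hres ι₀ hg₁ hG₁ hu huR

end Big

/-! ### `d` is invertible in `R` -/

section Unit

variable {Rs : Type*} [CommRing Rs] [IsLocalRing Rs]

/-- `u · d = 1` in a local ring where `p` is not a unit and `p ∤ d`. -/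
theorem exists_inv_natCast {p : ℕ} (hp : p.Prime) (hpR : ¬ IsUnit ((p : ℕ) : Rs)) {d : ℕ}
    (hd : ¬ p ∣ d) : ∃ u : Rs, u * (d : Rs) = 1 := by
  have hn : ¬ (p : ℤ) ∣ (d : ℤ) := fun h => hd (Int.natCast_dvd_natCast.1 h)
  have hu := PkgAsm.isUnit_intCast_of_not_dvd_local (R := Rs) hp hpR hn
  rw [Int.cast_natCast] at hu
  obtain ⟨v, hv⟩ := hu.exists_left_inv
  exact ⟨v, hv⟩

end Unit

end Fermat.Agent.GF.KCover.Node.GRep

end
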