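import Mathlib
import Fermat.Agent.GF.KCover.Node.SplitAsm

/-!
# GATE-F / (U8) SheetMeet (helper13; leaf of helper84 6607): the sheets of the two branches meet

At a node the residues `a₁, a₂` (on the two branches) of the Artin–Schreier generator of the cover
satisfy the SAME Artin–Schreier equation `b ^ p - b = g` modulo the maximal ideal of the node ring
`R` (same `g`: the glued value).  Hence `a₁ - a₂ ≡ c` for ONE `c : ZMod p`, and the sheet residues
`α_i k := d * (a_i + k)` (`SplitAsm.sheetRes`) satisfy `α₁ j ≡ α₂ (j + c)` for every sheet `j`: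
with `as s := 0`, `bs s := c` this is the binder `hnode` of `PkgAsm.nl0_of_pkg` / `NL0Asm`.

* `exists_zmod_of_pow_eq_self` : in a field of characteristic `p`, `t ^ p = t` ⟹ `t ∈ 𝔽_p`;
* `exists_zmod_of_as_eq` : `b₁ ^ p - b₁ = b₂ ^ p - b₂` ⟹ `b₁ - b₂ ∈ 𝔽_p`;
* `exists_shift_of_as_sub` / `exists_shift_of_as` : the sheets meet (membership in `𝔪_R`);
* `exists_shift_not_isUnit` : the same as `¬ IsUnit (α₁ j - α₂ (j + c))` (= `hnode`);
* `exists_shifts_not_isUnit` : the symmetric spelling with two offsets `(as, bs)`.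
-/

set_option autoImplicit false

namespace Fermat.Agent.GF.KCover.Node.SheetMeet

open IsLocalRing Fermat.Agent.GF.KCover.Node.SplitAsm

section Field

variable {k : Type*} [Field k] {p : ℕ} [Fact p.Prime] [CharP k p]

/-- in a field of characteristic `p` the solutions of `t ^ p = t` are the elements of `𝔽_p`. -/
theorem exists_zmod_of_pow_eq_self {t : k} (ht : t ^ p = t) :
    ∃ c : ZMod p, t = ZMod.castHom (dvd_refl p) k c := by
  have h1 : t ∈ (⊥ : Subfield k) := (Subfield.mem_bot_iff_pow_eq_self k p).mpr ht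
  obtain ⟨n, hn⟩ := (mem_bot_iff_intCast p k).mp h1
  exact ⟨(n : ZMod p), by rw [map_intCast, hn]⟩

/-- two solutions of the same Artin–Schreier equation differ by an element of `𝔽_p`. -/
theorem exists_zmod_of_as_eq {b1 b2 : k} (h : b1 ^ p - b1 = b2 ^ p - b2) :
    ∃ c : ZMod p, b1 - b2 = ZMod.castHom (dvd_refl p) k c := by
  apply exists_zmod_of_pow_eq_self
  rw [sub_pow_char]
  linear_combination h

/-- the value of a sheet index in a ring of characteristic `p`. -/
theorem natCast_val_eq_castHom (j : ZMod p) :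
    ((j.val : ℕ) : k) = ZMod.castHom (dvd_refl p) k j := by
  rw [ZMod.castHom_apply, ZMod.natCast_val]

end Field

section Local

variable {R : Type*} [CommRing R] [IsLocalRing R] {p : ℕ} [Fact p.Prime]

/-- the residue field of a local ring in which `p` is not a unit has characteristic `p`. -/
theorem charP_residueField (hpR : ¬ IsUnit ((p : ℕ) : R)) : CharP (ResidueField R) p := by
  have hp : p.Prime := Fact.out
  have h0 : ((p : ℕ) : ResidueField R) = 0 := by
    have h1 : ((p : ℕ) : R) ∈ maximalIdeal R := (mem_maximalIdeal _).mpr hpR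
    have h2 := (residue_eq_zero_iff ((p : ℕ) : R)).mpr h1
    rwa [map_natCast] at h2
  exact ringChar.of_eq (CharP.ringChar_of_prime_eq_zero hp h0)

/-- **the sheets meet** (difference form): if `(a₁ ^ p - a₁) - (a₂ ^ p - a₂) ∈ 𝔪_R` then for ONE
`c : ZMod p` the sheet residues satisfy `α₁ j - α₂ (j + c) ∈ 𝔪_R` for every sheet `j`. -/
theorem exists_shift_of_as_sub (hpR : ¬ IsUnit ((p : ℕ) : R)) (d : ℕ) {a1 a2 : R}
    (h : (a1 ^ p - a1) - (a2 ^ p - a2) ∈ maximalIdeal R) :
    ∃ c : ZMod p, ∀ j : ZMod p,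
      sheetRes p d a1 j - sheetRes p d a2 (j + c) ∈ maximalIdeal R := by
  have : CharP (ResidueField R) p := charP_residueField hpR
  have h1 : (residue R a1) ^ p - residue R a1 = (residue R a2) ^ p - residue R a2 := by
    have h2 := (residue_eq_zero_iff _).mpr h
    rw [map_sub, map_sub, map_sub, map_pow, map_pow] at h2
    exact sub_eq_zero.mp h2
  obtain ⟨c, hc⟩ := exists_zmod_of_as_eq h1
  refine ⟨c, fun j => (residue_eq_zero_iff _).mp ?_⟩
  unfold sheetRes
  rw [map_sub, map_mul, map_mul, map_add, map_add, map_natCast, map_natCast, map_natCast,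
    natCast_val_eq_castHom, natCast_val_eq_castHom, map_add]
  linear_combination ((d : ℕ) : ResidueField R) * hc

/-- **the sheets meet** (helper84 6607 (U8)(ii)): `a_i ^ p - a_i - g ∈ 𝔪_R` for the SAME `g`. -/
theorem exists_shift_of_as (hpR : ¬ IsUnit ((p : ℕ) : R)) (d : ℕ) {a1 a2 g : R}
    (h1 : a1 ^ p - a1 - g ∈ maximalIdeal R) (h2 : a2 ^ p - a2 - g ∈ maximalIdeal R) :
    ∃ c : ZMod p, ∀ j : ZMod p,
      sheetRes p d a1 j - sheetRes p d a2 (j + c) ∈ maximalIdeal R := by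
  refine exists_shift_of_as_sub hpR d ?_
  have h3 := (maximalIdeal R).sub_mem h1 h2
  have h4 : a1 ^ p - a1 - g - (a2 ^ p - a2 - g) = (a1 ^ p - a1) - (a2 ^ p - a2) := by ring
  rwa [h4] at h3

/-- **`hnode` of `PkgAsm.nl0_of_pkg`** with `α_i := sheetRes p d a_i`, `j₁ := j`, `j₂ := j + c`. -/
theorem exists_shift_not_isUnit (hpR : ¬ IsUnit ((p : ℕ) : R)) (d : ℕ) {a1 a2 g : R}
    (h1 : a1 ^ p - a1 - g ∈ maximalIdeal R) (h2 : a2 ^ p - a2 - g ∈ maximalIdeal R) :
    ∃ c : ZMod p, ∀ j : ZMod p, ¬ IsUnit (sheetRes p d a1 j - sheetRes p d a2 (j + c)) := by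
  obtain ⟨c, hc⟩ := exists_shift_of_as hpR d h1 h2
  exact ⟨c, fun j => (mem_maximalIdeal _).mp (hc j)⟩

/-- the symmetric spelling with the two offsets `(as, bs)` of `NodeRelSub.nodeRel_one_sub`. -/
theorem exists_shifts_not_isUnit (hpR : ¬ IsUnit ((p : ℕ) : R)) (d : ℕ) {a1 a2 g : R}
    (h1 : a1 ^ p - a1 - g ∈ maximalIdeal R) (h2 : a2 ^ p - a2 - g ∈ maximalIdeal R) :
    ∃ as bs : ZMod p, ∀ j : ZMod p,
      ¬ IsUnit (sheetRes p d a1 (j + as) - sheetRes p d a2 (j + bs)) := by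
  obtain ⟨c, hc⟩ := exists_shift_not_isUnit hpR d h1 h2
  exact ⟨0, c, fun j => by rw [add_zero]; exact hc j⟩

/-- **`hmeet` of `SheetAsm.nl0_of_sheets` VERBATIM** (`j₁ := j`, `j₂ := j + c`): the bare residues
`a_i + k` (no factor `d`). -/
theorem exists_shift_hmeet (hpR : ¬ IsUnit ((p : ℕ) : R)) {a1 a2 g : R}
    (h1 : a1 ^ p - a1 - g ∈ maximalIdeal R) (h2 : a2 ^ p - a2 - g ∈ maximalIdeal R) :
    ∃ c : ZMod p, ∀ j : ZMod p,
      ¬ IsUnit (a1 + ((j.val : ℕ) : R) - (a2 + (((j + c).val : ℕ) : R))) := by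
  obtain ⟨c, hc⟩ := exists_shift_not_isUnit hpR 1 h1 h2
  refine ⟨c, fun j => ?_⟩
  have h := hc j
  unfold sheetRes at h
  rwa [Nat.cast_one, one_mul, one_mul] at h

/-- the same from the difference form of the Artin–Schreier relation. -/
theorem exists_shift_hmeet_sub (hpR : ¬ IsUnit ((p : ℕ) : R)) {a1 a2 : R}
    (h : (a1 ^ p - a1) - (a2 ^ p - a2) ∈ maximalIdeal R) :
    ∃ c : ZMod p, ∀ j : ZMod p,
      ¬ IsUnit (a1 + ((j.val : ℕ) : R) - (a2 + (((j + c).val : ℕ) : R))) := by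
  obtain ⟨c, hc⟩ := exists_shift_of_as_sub hpR 1 h
  refine ⟨c, fun j => ?_⟩
  have h' := (mem_maximalIdeal _).mp (hc j)
  unfold sheetRes at h'
  rwa [Nat.cast_one, one_mul, one_mul] at h'

end Local

end Fermat.Agent.GF.KCover.Node.SheetMeet
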