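/-
GATE-F (S44) / GF-KCOVER-INST, node side (helper84), file 9: **the sheet data of a point, packaged**
— in the vocabulary of `SheetAsm.nl0_of_sheets`, from the integrality of `Z'` and ONE `K₀`-rational
representative `g ∈ R` of the residue of `g₁`:

  `∃ (a₁ a₂ : R) (c : ZMod p)`,
     `e₁ 0 Z' − jj₁ a₁ ∈ 𝔪̂₁`, `e₂ 0 Z' − jj₂ a₂ ∈ 𝔪̂₂`   (binders `a_i`, `hA_i`; hence `hres_i` by `SheetIdx`),
     `∀ j, ¬ IsUnit (a₁ + j − (a₂ + (j + c)))`            (binder `hmeet` for the sheets `(j, j + c)`),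

i.e. `(U12) ResLift` on both branches + `(U16) ASRel` on both branches + helper13's
`(U8) SheetMeet.exists_shift_hmeet`; the membership `hz_i : e_i 0 Z' ∈ Ô_i` is produced on the way
(`SheetIdxBridge.emb_mem_of_isIntegralElem`).

* `branch_data` (one branch; enough for a smooth point), `exists_sheet_data` (node: two branches).
-/
import Fermat.Agent.GF.KCover.Node.ASRel
import Fermat.Agent.GF.KCover.Node.SheetMeet
import Fermat.Agent.GF.KCover.Node.SheetIdxBridge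

set_option autoImplicit false
set_option linter.unusedSectionVars false
set_option linter.unusedVariables false

noncomputable section

open AlgebraicCurve

namespace Fermat.Agent.GF.KCover.Node.SheetData

open Polynomial IsLocalRing
open Fermat.Agent.GJ.J1 Fermat.Agent.S24 Fermat.Agent.GF.Trop
open Fermat.Agent.GF.KCover.Node

variable {Kc F' k Ft Ft₂ : Type*} [Field Kc] [Field F'] [Algebra Kc F'] [Field k] [Field Ft]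
  [Algebra k Ft] [Field Ft₂] [Algebra k Ft₂]

variable {B E₁ E₂ : Type*} [CommRing B] [IsDomain B] [CommRing E₁] [IsDedekindDomain E₁]
  [CommRing E₂] [IsDedekindDomain E₂] [Algebra E₁ Ft] [IsFractionRing E₁ Ft]
  [Algebra E₂ Ft₂] [IsFractionRing E₂ Ft₂]

variable {R F₀ K0 : Type*} [CommRing R] [Field F₀] [Algebra R F₀] [Field K0] [Algebra F₀ K0]
  [Algebra R K0] [IsScalarTower R F₀ K0]

variable {L₁ L₂ : Type*} [Field L₁] [Field L₂] {p : ℕ} [Fact p.Prime]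

/-- one branch: `hz`, the lift `a` of the residue of `Z'`, and the Artin–Schreier relation of `a`
with respect to a given `g : R`. -/
theorem branch_data (𝔫 : Ideal B) [𝔫.IsPrime] [Algebra B R] [IsLocalization.AtPrime R 𝔫]
    (rd : B →+* E₁) (hrd : Function.Surjective rd) (𝔫' : Ideal E₁) [𝔫'.IsPrime]
    (h𝔫 : Ideal.comap rd 𝔫' = 𝔫) (h0 : 𝔫' ≠ ⊥)
    (ι' : K0 →+* F') (R0 : RedData Kc F' k Ft) (Oh : ValuationSubring L₁) (jj : F₀ →+* L₁)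
    (e : F' →+* L₁) (he : ∀ a : F₀, e (ι' (algebraMap F₀ K0 a)) = jj a)
    (hjR : ∀ r : R, jj (algebraMap R F₀ r) ∈ Oh)
    (hRw : ∀ z : F', z ∈ R0.Rw ↔ e z ∈ Oh)
    (hρB : ∀ (b : B) (hb : ι' (algebraMap R K0 (algebraMap B R b)) ∈ R0.Rw),
      R0.red ⟨_, hb⟩ = algebraMap E₁ Ft (rd b))
    {ζ' c' Z' g₁ : F'} (hζ' : IsPrimitiveRoot ζ' p) (hc : c' = ζ' - 1)
    (hAS : (1 + c' * Z') ^ p = 1 + c' ^ p * g₁) (hcO : e c' ∈ Oh.nonunits)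
    (hintZ : (ι'.comp (algebraMap R K0)).IsIntegralElem Z')
    (g : R) (hg : e g₁ - jj (algebraMap R F₀ g) ∈ Oh.nonunits) :
    e Z' ∈ Oh ∧ ∃ a : R, e Z' - jj (algebraMap R F₀ a) ∈ Oh.nonunits ∧
      ¬ IsUnit (a ^ p - a - g) := by
  have hloc : IsLocalRing R := IsLocalization.AtPrime.isLocalRing R 𝔫
  have hφ : ∀ r : R, e ((ι'.comp (algebraMap R K0)) r) ∈ Oh := fun r => by
    rw [RingHom.comp_apply, SheetAsm.sheet_algebraMap ι' jj e he]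
    exact hjR r
  have hz : e Z' ∈ Oh :=
    SheetIdxBridge.emb_mem_of_isIntegralElem Oh (ι'.comp (algebraMap R K0)) e hφ hintZ
  refine ⟨hz, ?_⟩
  obtain ⟨a, ha⟩ := ResLift.exists_sheet_lift 𝔫 rd hrd 𝔫' h𝔫 h0 ι' R0 Oh jj e he hjR hRw hρB Z' hz
    hintZ
  refine ⟨a, ha, ?_⟩
  have hζL : IsPrimitiveRoot (e ζ') p := hζ'.map_of_injective e.injective
  have hcL : e c' = e ζ' - 1 := by rw [hc, map_sub, map_one]
  have hASL : (1 + e c' * e Z') ^ p = 1 + e c' ^ p * e g₁ := by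
    have := congrArg e hAS
    simpa only [map_add, map_mul, map_pow, map_one] using this
  have h := ASRel.as_rel_of_residues Oh jj hjR hζL hcL hcO hASL a g ha hg
  rwa [mem_maximalIdeal, mem_nonunits_iff] at h

/-- **the sheet data of a NODE**: lifts `a₁ a₂ : R` of the residues of `Z'` on the sheets `0` of the
two branches and the shift `c : ZMod p` such that the sheets `j` (branch 1) and `j + c` (branch 2)
meet. -/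
theorem exists_sheet_data (𝔫 : Ideal B) [𝔫.IsPrime] [Algebra B R] [IsLocalization.AtPrime R 𝔫]
    (rd₁ : B →+* E₁) (hrd₁ : Function.Surjective rd₁) (𝔫'₁ : Ideal E₁) [𝔫'₁.IsPrime]
    (h𝔫₁ : Ideal.comap rd₁ 𝔫'₁ = 𝔫) (h0₁ : 𝔫'₁ ≠ ⊥)
    (rd₂ : B →+* E₂) (hrd₂ : Function.Surjective rd₂) (𝔫'₂ : Ideal E₂) [𝔫'₂.IsPrime]
    (h𝔫₂ : Ideal.comap rd₂ 𝔫'₂ = 𝔫) (h0₂ : 𝔫'₂ ≠ ⊥)
    (ι' : K0 →+* F')
    -- branch 1, sheet 0
    (R0₁ : RedData Kc F' k Ft) (Oh₁ : ValuationSubring L₁) (jj₁ : F₀ →+* L₁) (e₁ : F' →+* L₁)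
    (he₁ : ∀ a : F₀, e₁ (ι' (algebraMap F₀ K0 a)) = jj₁ a)
    (hjR₁ : ∀ r : R, jj₁ (algebraMap R F₀ r) ∈ Oh₁) (hpO₁ : (p : L₁) ∈ Oh₁.nonunits)
    (hRw₁ : ∀ z : F', z ∈ R0₁.Rw ↔ e₁ z ∈ Oh₁)
    (hρB₁ : ∀ (b : B) (hb : ι' (algebraMap R K0 (algebraMap B R b)) ∈ R0₁.Rw),
      R0₁.red ⟨_, hb⟩ = algebraMap E₁ Ft (rd₁ b))
    -- branch 2, sheet 0
    (R0₂ : RedData Kc F' k Ft₂) (Oh₂ : ValuationSubring L₂) (jj₂ : F₀ →+* L₂) (e₂ : F' →+* L₂)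
    (he₂ : ∀ a : F₀, e₂ (ι' (algebraMap F₀ K0 a)) = jj₂ a)
    (hjR₂ : ∀ r : R, jj₂ (algebraMap R F₀ r) ∈ Oh₂)
    (hRw₂ : ∀ z : F', z ∈ R0₂.Rw ↔ e₂ z ∈ Oh₂)
    (hρB₂ : ∀ (b : B) (hb : ι' (algebraMap R K0 (algebraMap B R b)) ∈ R0₂.Rw),
      R0₂.red ⟨_, hb⟩ = algebraMap E₂ Ft₂ (rd₂ b))
    -- the Artin–Schreier coordinate
    {ζ' c' Z' g₁ : F'} (hζ' : IsPrimitiveRoot ζ' p) (hc : c' = ζ' - 1)
    (hAS : (1 + c' * Z') ^ p = 1 + c' ^ p * g₁)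
    (hcO₁ : e₁ c' ∈ Oh₁.nonunits) (hcO₂ : e₂ c' ∈ Oh₂.nonunits)
    (hintZ : (ι'.comp (algebraMap R K0)).IsIntegralElem Z')
    (g : R) (hg₁ : e₁ g₁ - jj₁ (algebraMap R F₀ g) ∈ Oh₁.nonunits)
    (hg₂ : e₂ g₁ - jj₂ (algebraMap R F₀ g) ∈ Oh₂.nonunits) :
    e₁ Z' ∈ Oh₁ ∧ e₂ Z' ∈ Oh₂ ∧ ∃ (a₁ a₂ : R) (c : ZMod p),
      e₁ Z' - jj₁ (algebraMap R F₀ a₁) ∈ Oh₁.nonunits ∧
      e₂ Z' - jj₂ (algebraMap R F₀ a₂) ∈ Oh₂.nonunits ∧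
      ∀ j : ZMod p, ¬ IsUnit (a₁ + ((j.val : ℕ) : R) - (a₂ + (((j + c).val : ℕ) : R))) := by
  have hloc : IsLocalRing R := IsLocalization.AtPrime.isLocalRing R 𝔫
  obtain ⟨hz₁, a₁, ha₁, hr₁⟩ := branch_data 𝔫 rd₁ hrd₁ 𝔫'₁ h𝔫₁ h0₁ ι' R0₁ Oh₁ jj₁ e₁ he₁ hjR₁ hRw₁
    hρB₁ hζ' hc hAS hcO₁ hintZ g hg₁
  obtain ⟨hz₂, a₂, ha₂, hr₂⟩ := branch_data (E₁ := E₂) (Ft := Ft₂) 𝔫 rd₂ hrd₂ 𝔫'₂ h𝔫₂ h0₂ ι' R0₂
    Oh₂ jj₂ e₂ he₂ hjR₂ hRw₂ hρB₂ hζ' hc hAS hcO₂ hintZ g hg₂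
  have hpR : ¬ IsUnit ((p : ℕ) : R) := by
    refine ASRel.not_isUnit_of_mem_nonunits Oh₁ jj₁ hjR₁ ?_
    rw [map_natCast, map_natCast]
    exact hpO₁
  have hm₁ : a₁ ^ p - a₁ - g ∈ maximalIdeal R := by
    rw [mem_maximalIdeal, mem_nonunits_iff]; exact hr₁
  have hm₂ : a₂ ^ p - a₂ - g ∈ maximalIdeal R := by
    rw [mem_maximalIdeal, mem_nonunits_iff]; exact hr₂
  obtain ⟨c, hc'⟩ := SheetMeet.exists_shift_hmeet hpR hm₁ hm₂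
  exact ⟨hz₁, hz₂, a₁, a₂, c, ha₁, ha₂, hc'⟩

end Fermat.Agent.GF.KCover.Node.SheetData

end
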