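/-
GATE-F (S44) / GF-KCOVER-INST, node side (helper84), file 11: **the per-node theorem in `∃ c`-form**
— helper42's `NlNodeSheets.nl_node_sheets` with the sheet data `(hz_i, a_i, hZ_i, hmeet)` DISCHARGED
by `SheetData.exists_sheet_data` (ResLift + ASRel + SheetMeet) and `GRep` (the `K₀`-rational
representative of the residue of `g₁`):

  `∃ c : ZMod p, ∀ j, ∀ y ∈ Us, w₁ j y = 0 → w₂ (j + c) y = 0 → p ∣ nodeOrd (sheetK Ra … j) … y`

= the per-node clause of helper31's `NLSupply` with `a := 0`, `b := c`.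

New binders with respect to `nl_node_sheets`: the normal form `g₀ = 1 + cz ^ p * g₁` (`g₁ : E₁`),
`g₁` integral over `R` (through `ι₀`), `va g₁ ≤ 1`, `vb g₁ ≤ 1`, the `τ`-fixed elements of `E₁` are
`K₀`-rational (`hfix`, `hτι`), `hρB_i` for ALL the sheets.  GONE: `k₁ k₂`, `hzA a₁ hZA hzB a₂ hZB`,
`hmeet`, `hint` (the integrality of `θ₀`, a consequence of the integrality of `g₁`).

* `val_beta_lt_one_iff`, `val_beta_le_one_iff'` : the bridge detects the two balls;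
* `isIntegralElem_map`, `isIntegral_theta` : transport of integrality;
* **`nl_node_data`**.
-/
import Fermat.Agent.GF.KCover.Node.NlNodeSheets
import Fermat.Agent.GF.KCover.Node.SheetData
import Fermat.Agent.GF.KCover.Node.GRep

set_option autoImplicit false
set_option linter.unusedSectionVars false
set_option linter.unusedVariables false

noncomputable section

open Polynomial AlgebraicCurve

namespace Fermat.Agent.GF.KCover.Node.NlNodeData

open Fermat.Agent.GJ.J1 Fermat.Agent.S24 Fermat.Agent.GF.Trop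
open Fermat.Agent.GF.KCover.Field Fermat.Agent.GF.KCover.Field.Disc
  Fermat.Agent.GF.KCover.Field.Pack
open Fermat.Agent.GF.KCover.Compl Fermat.Agent.GF.KCover.Compl.Bridge
  Fermat.Agent.GF.KCover.Compl.RedCompl Fermat.Agent.GF.KCover.Compl.RedAut
  Fermat.Agent.GF.KCover.Compl.BridgeTau
open Fermat.Agent.GF.KCover.Node.OrdRedExt Fermat.Agent.GF.KCover.Node
  Fermat.Agent.GF.KCover.Node.NlNode Fermat.Agent.GF.KCover.Node.NlNodeSheets

/-! ### the bridge detects the balls -/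

section Ball

variable {E₁ : Type*} [Field E₁] {Γ₀ : Type*} [LinearOrderedCommGroupWithZero Γ₀]
variable {v : Valuation E₁ Γ₀} {ϖ : E₁} (h : IsDisc v ϖ)
variable {F : Type*} [Field F] (V : Valuation F Γ₀)
variable (incl : E₁ →+* F) (hincl : ∀ a, V (incl a) = v a)
variable (harch : ∀ γ : Γ₀, γ ≠ 0 → ∃ n : ℕ, v ϖ ^ n < γ)

theorem val_beta_le_one_iff' {z : Lc h} :
    val V (beta h V incl hincl harch z) ≤ 1 ↔ ‖z‖ ≤ 1 := by
  by_cases h0 : z = 0
  · rw [h0, map_zero, map_zero, norm_zero]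
    exact ⟨fun _ => zero_le_one, fun _ => zero_le_one⟩
  · exact val_beta_le_one_iff h V incl hincl harch h0

theorem val_beta_lt_one_iff {z : Lc h} :
    val V (beta h V incl hincl harch z) < 1 ↔ ‖z‖ < 1 := by
  by_cases h0 : z = 0
  · rw [h0, map_zero, map_zero, norm_zero]
    exact ⟨fun _ => zero_lt_one, fun _ => zero_lt_one⟩
  · rw [val_beta h V incl hincl harch h0, ← zpow_zero (v ϖ), h.zpow_lt_iff]
    exact (norm_lt_one_iff h h0).symm

end Ball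

/-! ### transport of integrality -/

section Int

variable {R A A' : Type*} [CommRing R] [CommRing A] [CommRing A']

/-- integrality goes along ring homomorphisms. -/
theorem isIntegralElem_map (f : R →+* A) (ψ : A →+* A') {x : A} (hx : f.IsIntegralElem x)
    (φ : R →+* A') (hφ : ∀ r, φ r = ψ (f r)) : φ.IsIntegralElem (ψ x) := by
  obtain ⟨P, hP, hPx⟩ := hx
  have e : φ = ψ.comp f := RingHom.ext hφ
  refine ⟨P, hP, ?_⟩
  rw [e, ← Polynomial.hom_eval₂, hPx, map_zero]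

/-- integrality descends along an injective ring homomorphism. -/
theorem isIntegral_of_injective {K0 : Type*} [CommRing K0] [Algebra R K0] (ι : K0 →+* A)
    (hι : Function.Injective ι) (θ : K0)
    (h : (ι.comp (algebraMap R K0)).IsIntegralElem (ι θ)) : IsIntegral R θ := by
  obtain ⟨P, hP, hPx⟩ := h
  refine ⟨P, hP, ?_⟩
  apply hι
  rw [Polynomial.hom_eval₂, hPx, map_zero]

end Int

/-! ### the per-node theorem, `∃ c`-form -/

section Node

variable {K F k Ft Ft₂ : Type*} [Field K] [Field F] [Algebra K F] [Field k] [Field Ft]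
  [Algebra k Ft] [Field Ft₂] [Algebra k Ft₂]
variable (Ra : RedData K F k Ft) (Rb : RedData K F k Ft₂)
variable {F' : Type*} [Field F'] [Algebra K F'] [Algebra F F'] [IsScalarTower K F F']
variable {E₁ : Type*} [Field E₁] {ϖ : E₁}
  {va : Valuation E₁ (ValuationSubring.ValueGroup Ra.Rw)}
  {vb : Valuation E₁ (ValuationSubring.ValueGroup Rb.Rw)}
variable (incl : E₁ →+* F) (hincA : ∀ a : E₁, Ra.Rw.valuation (incl a) = va a)
  (hincB : ∀ a : E₁, Rb.Rw.valuation (incl a) = vb a)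
variable (hA : IsDisc va ϖ) (hB : IsDisc vb ϖ)
variable (harchA : ∀ γ : ValuationSubring.ValueGroup Ra.Rw, γ ≠ 0 → ∃ n : ℕ, va ϖ ^ n < γ)
  (harchB : ∀ γ : ValuationSubring.ValueGroup Rb.Rw, γ ≠ 0 → ∃ n : ℕ, vb ϖ ^ n < γ)
variable {E' : Type*} [Field E'] [Algebra E₁ E'] {p : ℕ} [NeZero p] [Fact p.Prime] {g₀ : E₁}
  (H₁ : IsAdjoinRoot E' (X ^ p - C g₀ : E₁[X])) {ζ : E₁} (hζ : IsPrimitiveRoot ζ p)
  {γa : Lc hA} (hγa : γa ^ p = jc hA g₀) {γb : Lc hB} (hγb : γb ^ p = jc hB g₀)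
  (H : IsAdjoinRoot F' (X ^ p - C (incl g₀) : F[X]))
  (incl' : E' →+* F')
  (hincl' : ∀ a : E₁, incl' (algebraMap E₁ E' a) = algebraMap F F' (incl a))
  (hroot : incl' H₁.root = H.root)

variable {B C₁ C₂ : Type*} [CommRing B] [IsDomain B] [CommRing C₁] [IsDedekindDomain C₁]
  [CommRing C₂] [IsDedekindDomain C₂] [Algebra C₁ Ft] [IsFractionRing C₁ Ft]
  [Algebra C₂ Ft₂] [IsFractionRing C₂ Ft₂]
variable {R F₀ : Type*} [CommRing R] [IsDomain R] [IsIntegrallyClosed R] [IsNoetherianRing R]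
  [Field F₀] [Algebra R F₀] [IsFractionRing R F₀]

include hincl' hroot in
set_option maxHeartbeats 1600000 in
/-- **The per-node theorem, `∃ c`-form**: `nl_node_sheets` with the sheet data discharged. -/
theorem nl_node_data (hunA : Unram Ra)
    -- the tame generator
    (τ : E₁ ≃+* E₁) (hτA : ∀ a, va (τ a) = va a) (hτB : ∀ a, vb (τ a) = vb a)
    (σ : F ≃+* F) (hσA : ∀ y : F, Ra.Rw.valuation (σ y) = Ra.Rw.valuation y)
    (hσB : ∀ y : F, Rb.Rw.valuation (σ y) = Rb.Rw.valuation y)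
    (hσK : ∀ c : K, ∃ c' : K, σ (algebraMap K F c) = algebraMap K F c')
    (hresA : ∀ (a : F) (ha : a ∈ Ra.Rw), Ra.red ⟨σ a, map_mem_Rw Ra σ hσA ha⟩ = Ra.red ⟨a, ha⟩)
    (hresB : ∀ (a : F) (ha : a ∈ Rb.Rw), Rb.red ⟨σ a, map_mem_Rw Rb σ hσB ha⟩ = Rb.red ⟨a, ha⟩)
    (hcomm : ∀ a : E₁, incl (τ a) = σ (incl a))
    {x : E' ≃+* E'} (hx : IsOver (x : E' →+* E') (τ : E₁ →+* E₁))
    (hxδ : Commute (x : E' →+* E') (deck H₁ hζ)) (hg₀ : g₀ ≠ 0) {d : ℕ}
    (hd : Nat.Coprime d p) (hxd : (x : E' →+* E') ^ d = 1) (hτd : τ ^ d = 1)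
    (hFA : ∀ b : E₁, va b ≤ 1 → ∃ a : E₁, τ a = a ∧ va (b - a) < 1)
    (hFB : ∀ b : E₁, vb b ≤ 1 → ∃ a : E₁, τ a = a ∧ vb (b - a) < 1)
    -- the fixed field and its `K0`-model
    (E : Subfield E') (hE : ∀ y, y ∈ E ↔ x y = y)
    [Algebra F₀ E] [Algebra R E] [IsScalarTower R F₀ E] [FiniteDimensional F₀ E]
    (ι₀ : F₀ →+* E₁)
    (hι₀ : ∀ a : F₀, ((algebraMap F₀ E a : E) : E') = algebraMap E₁ E' (ι₀ a))
    (hrank : Module.finrank F₀ E = p)
    (hfix : ∀ y : E₁, τ y = y → ∃ a : F₀, ι₀ a = y) (hτι : ∀ a : F₀, τ (ι₀ a) = ι₀ a)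
    -- the group
    (G : Subgroup F'ˣ) (Us : Subgroup G) (a : Us →* Us) (toE : G → E')
    (htoE : ∀ y : G, incl' (toE y) = ((y : F'ˣ) : F'))
    (hmul : ∀ y z : G, toE (y * z) = toE y * toE z)
    (ha : ∀ u : Us, toE ((a u : Us) : G) = x (toE (u : G)))
    (Pl : Place k Ft)
    -- the downstairs block (`PkgAsm.nl0_of_pkg`)
    (𝔫 : Ideal B) [𝔫.IsPrime] [Algebra B R] [IsLocalization.AtPrime R 𝔫]
    (rd₁ : B →+* C₁) (hrd₁ : Function.Surjective rd₁) (𝔫'₁ : Ideal C₁) [𝔫'₁.IsPrime]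
    (h𝔫₁ : Ideal.comap rd₁ 𝔫'₁ = 𝔫) (h0₁ : 𝔫'₁ ≠ ⊥)
    (rd₂ : B →+* C₂) (hrd₂ : Function.Surjective rd₂) (𝔫'₂ : Ideal C₂) [𝔫'₂.IsPrime]
    (h𝔫₂ : Ideal.comap rd₂ 𝔫'₂ = 𝔫) (h0₂ : 𝔫'₂ ≠ ⊥)
    (y₁ y₂ l s c : B) (hy₁ : rd₁ y₁ = 0) (hy₂ : rd₂ y₂ = 0) (hy₁0 : y₁ ≠ 0) (hy₂0 : y₂ ≠ 0)
    (hgen₁ : ∀ b : B, rd₁ b = 0 → ∃ t : B, t ∉ 𝔫 ∧ y₁ ∣ t * b)
    (hgen₂ : ∀ b : B, rd₂ b = 0 → ∃ t : B, t ∉ 𝔫 ∧ y₂ ∣ t * b)
    (hs : s ∉ 𝔫) (hc : c ∉ 𝔫) (hth : l * s = c * y₂ * y₁)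
    -- the Artin–Schreier normal form and the tame trace
    {cz : E₁} (hζc : ζ = 1 + cz) (hc0 : cz ≠ 0) (hcA : va cz < 1) (hcB : vb cz < 1)
    {Z' : E'} (hZ' : H₁.root = 1 + algebraMap E₁ E' cz * Z')
    {g₁ : E₁} (hg₁ : g₀ = 1 + cz ^ p * g₁)
    (hintg : (ι₀.comp (algebraMap R F₀)).IsIntegralElem g₁)
    (hg₁A : va g₁ ≤ 1) (hg₁B : vb g₁ ≤ 1)
    (θ₀ : E) (hθ₀ : (θ₀ : E') = TraceRes.traceTame x d Z')
    (hpA : va ((p : ℕ) : E₁) < 1) (hpB : vb ((p : ℕ) : E₁) < 1)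
    (hRA : ∀ r : R, va (ι₀ (algebraMap R F₀ r)) ≤ 1)
    (hRB : ∀ r : R, vb (ι₀ (algebraMap R F₀ r)) ≤ 1)
    (hρB₁ : ∀ (i : ZMod p) (b : B) (hb : iotaE incl' E (algebraMap R E (algebraMap B R b)) ∈
        (sheetK Ra incl hincA hA harchA hζ hγa H i).Rw),
      (sheetK Ra incl hincA hA harchA hζ hγa H i).red ⟨_, hb⟩ = algebraMap C₁ Ft (rd₁ b))
    (hρB₂ : ∀ (i : ZMod p) (b : B) (hb : iotaE incl' E (algebraMap R E (algebraMap B R b)) ∈
        (sheetK Rb incl hincB hB harchB hζ hγb H i).Rw),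
      (sheetK Rb incl hincB hB harchB hζ hγb H i).red ⟨_, hb⟩ = algebraMap C₂ Ft₂ (rd₂ b))
    (hvE : ∀ e : C₁, e ∉ 𝔫'₁ → Pl.ord (algebraMap C₁ Ft e) = 0)
    -- horizontal primes: on the `x`-fixed elements of `Us`
    (hhor : ∀ (u : Us) (u₀ : E), toE (u : G) = (u₀ : E') →
      ∀ V : ValuationSubring E, IsDiscreteValuationRing V →
      (∀ r : R, algebraMap R E r ∈ V) → θ₀ ∈ V →
      (algebraMap R E (algebraMap B R l))⁻¹ ∈ V →
      ∃ z : E, z ≠ 0 ∧ u₀ * z ^ p ∈ V ∧ (u₀ * z ^ p)⁻¹ ∈ V) :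
    ∃ c₀ : ZMod p, ∀ (i : ZMod p) (y : G), y ∈ Us →
      wv hA H₁ hζ hγa i (toE y) = 0 → wv hB H₁ hζ hγb (i + c₀) (toE y) = 0 →
      (p : ℤ) ∣ nodeOrd (sheetK Ra incl hincA hA harchA hζ hγa H i)
        (unram_sheetK Ra incl hincA hA harchA hζ hγa H hunA i) Pl G y := by
  have hpp : p.Prime := Fact.out
  have hd' : ¬ p ∣ d := fun hdvd => by
    have h1 : p ∣ Nat.gcd d p := Nat.dvd_gcd hdvd dvd_rfl
    rw [hd] at h1
    exact hpp.one_lt.ne' (Nat.dvd_one.1 h1)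
  have hloc : IsLocalRing R := IsLocalization.AtPrime.isLocalRing R 𝔫
  -- the frame facts (as in `nl_node_sheets`)
  have heι : ∀ a : F₀, iotaE incl' E (algebraMap F₀ E a) = algebraMap F F' (incl (ι₀ a)) := by
    intro a
    rw [iotaE_apply, hι₀, hincl']
  have heA : ∀ a : F₀, embV hA Ra.Rw.valuation incl hincA harchA hζ hγa H 0
      (iotaE incl' E (algebraMap F₀ E a)) = ((j Ra.Rw.valuation).comp (incl.comp ι₀)) a := by
    intro a
    rw [heι, embV_algebraMap]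
    rfl
  have heB : ∀ a : F₀, embV hB Rb.Rw.valuation incl hincB harchB hζ hγb H 0
      (iotaE incl' E (algebraMap F₀ E a)) = ((j Rb.Rw.valuation).comp (incl.comp ι₀)) a := by
    intro a
    rw [heι, embV_algebraMap]
    rfl
  have hjRA : ∀ r : R, ((j Ra.Rw.valuation).comp (incl.comp ι₀)) (algebraMap R F₀ r) ∈ RwL Ra := by
    intro r
    show j Ra.Rw.valuation (incl (ι₀ (algebraMap R F₀ r))) ∈ RwL Ra
    rw [mem_RwL, val_j, hincA]
    exact hRA r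
  have hjRB : ∀ r : R, ((j Rb.Rw.valuation).comp (incl.comp ι₀)) (algebraMap R F₀ r) ∈ RwL Rb := by
    intro r
    show j Rb.Rw.valuation (incl (ι₀ (algebraMap R F₀ r))) ∈ RwL Rb
    rw [mem_RwL, val_j, hincB]
    exact hRB r
  have hpOA : ((p : ℕ) : LR Ra) ∈ (RwL Ra).nonunits := by
    rw [mem_RwL_nonunits]
    have e : ((p : ℕ) : LR Ra) = j Ra.Rw.valuation (incl ((p : ℕ) : E₁)) := by
      rw [map_natCast, map_natCast]
    rw [e, val_j, hincA]
    exact hpA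
  -- the Artin–Schreier equation, in `E'`
  have hζE : IsPrimitiveRoot (algebraMap E₁ E' ζ) p :=
    hζ.map_of_injective (algebraMap E₁ E').injective
  have hcE : algebraMap E₁ E' cz = algebraMap E₁ E' ζ - 1 := by
    rw [hζc, map_add, map_one, add_sub_cancel_left]
  have hASE : (1 + algebraMap E₁ E' cz * Z') ^ p =
      1 + algebraMap E₁ E' cz ^ p * algebraMap E₁ E' g₁ := by
    rw [← hZ', root_pow H₁, hg₁, map_add, map_one, map_mul, map_pow]
  -- `Z'` and `θ₀` are integral over `R`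
  have hφE : ∀ r : R, (E.subtype.comp (algebraMap R E)) r =
      algebraMap E₁ E' ((ι₀.comp (algebraMap R F₀)) r) := by
    intro r
    rw [RingHom.comp_apply, RingHom.comp_apply, IsScalarTower.algebraMap_apply R F₀ E, ← hι₀]
    rfl
  have hgE : (E.subtype.comp (algebraMap R E)).IsIntegralElem (algebraMap E₁ E' g₁) :=
    isIntegralElem_map _ (algebraMap E₁ E') hintg _ hφE
  have hZE : (E.subtype.comp (algebraMap R E)).IsIntegralElem Z' :=
    ResLift.isIntegralElem_of_kummer_as _ hζE hcE hASE hgE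
  have hint : IsIntegral R θ₀ := by
    refine isIntegral_of_injective E.subtype Subtype.val_injective θ₀ ?_
    show (E.subtype.comp (algebraMap R E)).IsIntegralElem (θ₀ : E')
    rw [hθ₀]
    let _ : Algebra R E' := (E.subtype.comp (algebraMap R E)).toAlgebra
    exact TraceRes.isIntegral_traceTame x d (fun r => (hE _).1 (algebraMap R E r).2) hZE
  have hZF : ((iotaE incl' E).comp (algebraMap R E)).IsIntegralElem (incl' Z') :=
    isIntegralElem_map _ incl' hZE _ (fun r => rfl)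
  -- the Artin–Schreier equation, in `F'`
  have hζF : IsPrimitiveRoot (incl' (algebraMap E₁ E' ζ)) p :=
    hζE.map_of_injective incl'.injective
  have hcF : incl' (algebraMap E₁ E' cz) = incl' (algebraMap E₁ E' ζ) - 1 := by
    rw [hcE, map_sub, map_one]
  have hASF : (1 + incl' (algebraMap E₁ E' cz) * incl' Z') ^ p =
      1 + incl' (algebraMap E₁ E' cz) ^ p * incl' (algebraMap E₁ E' g₁) := by
    have := congrArg incl' hASE
    simpa only [map_add, map_mul, map_pow, map_one] using this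
  have hcOA : embV hA Ra.Rw.valuation incl hincA harchA hζ hγa H 0
      (incl' (algebraMap E₁ E' cz)) ∈ (RwL Ra).nonunits := by
    rw [hincl', embV_algebraMap, mem_RwL_nonunits, val_j, hincA]
    exact hcA
  have hcOB : embV hB Rb.Rw.valuation incl hincB harchB hζ hγb H 0
      (incl' (algebraMap E₁ E' cz)) ∈ (RwL Rb).nonunits := by
    rw [hincl', embV_algebraMap, mem_RwL_nonunits, val_j, hincB]
    exact hcB
  -- the `K₀`-rational representative of the residue of `g₁`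
  have hpR : ¬ IsUnit ((p : ℕ) : R) := by
    refine ASRel.not_isUnit_of_mem_nonunits (RwL Ra) ((j Ra.Rw.valuation).comp (incl.comp ι₀))
      hjRA ?_
    rw [map_natCast, map_natCast]
    exact hpOA
  obtain ⟨u, hu⟩ := GRep.exists_inv_natCast hpp hpR hd'
  obtain ⟨g, G₁, hgu, hG₁⟩ := GRep.exists_g ι₀ τ hfix hτι hτd g₁ hintg u
  have hmemA : ∀ z : E₁, va z ≤ 1 → incl z ∈ Ra.Rw := fun z hz => by
    rw [← ValuationSubring.valuation_le_one_iff, hincA]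
    exact hz
  have hmemB : ∀ z : E₁, vb z ≤ 1 → incl z ∈ Rb.Rw := fun z hz => by
    rw [← ValuationSubring.valuation_le_one_iff, hincB]
    exact hz
  have hgA := GRep.embV_sub_rep_mem Ra incl hincA hA harchA hζ hγa H incl' hincl' σ hσA τ hcomm
    hresA ι₀ (hmemA g₁ hg₁A) hG₁ hu (hmemA _ (hRA u)) (0 : ZMod p)
  have hgB := GRep.embV_sub_rep_mem Rb incl hincB hB harchB hζ hγb H incl' hincl' σ hσB τ hcomm
    hresB ι₀ (hmemB g₁ hg₁B) hG₁ hu (hmemB _ (hRB u)) (0 : ZMod p)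
  rw [← hgu] at hgA hgB
  -- the sheet data
  obtain ⟨hz₁, hz₂, a₁, a₂, c₀, hA₁, hA₂, hmeet⟩ :=
    SheetData.exists_sheet_data (K0 := E) (F₀ := F₀) 𝔫 rd₁ hrd₁ 𝔫'₁ h𝔫₁ h0₁ rd₂ hrd₂ 𝔫'₂ h𝔫₂ h0₂
      (iotaE incl' E)
      (sheetK Ra incl hincA hA harchA hζ hγa H 0) (RwL Ra)
      ((j Ra.Rw.valuation).comp (incl.comp ι₀))
      (embV hA Ra.Rw.valuation incl hincA harchA hζ hγa H 0) heA hjRA hpOA
      (mem_sheetK_Rw Ra incl hincA hA harchA hζ hγa H 0) (hρB₁ 0)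
      (sheetK Rb incl hincB hB harchB hζ hγb H 0) (RwL Rb)
      ((j Rb.Rw.valuation).comp (incl.comp ι₀))
      (embV hB Rb.Rw.valuation incl hincB harchB hζ hγb H 0) heB hjRB
      (mem_sheetK_Rw Rb incl hincB hB harchB hζ hγb H 0) (hρB₂ 0)
      hζF hcF hASF hcOA hcOB hZF g hgA hgB
  -- back to the norm spelling of `nl_node_sheets`
  have hzA : ‖emb H₁ hζ (jc hA) hγa 0 Z'‖ ≤ 1 := by
    rw [emb_incl hA Ra.Rw.valuation incl hincA harchA H₁ hζ hγa H incl' hincl' hroot, mem_RwL,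
      val_beta_le_one_iff'] at hz₁
    exact hz₁
  have hzB : ‖emb H₁ hζ (jc hB) hγb 0 Z'‖ ≤ 1 := by
    rw [emb_incl hB Rb.Rw.valuation incl hincB harchB H₁ hζ hγb H incl' hincl' hroot, mem_RwL,
      val_beta_le_one_iff'] at hz₂
    exact hz₂
  have hZA : ‖emb H₁ hζ (jc hA) hγa 0 Z' - jc hA (ι₀ (algebraMap R F₀ a₁))‖ < 1 := by
    have e : embV hA Ra.Rw.valuation incl hincA harchA hζ hγa H 0 (incl' Z') -
        ((j Ra.Rw.valuation).comp (incl.comp ι₀)) (algebraMap R F₀ a₁) =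
        beta hA Ra.Rw.valuation incl hincA harchA
          (emb H₁ hζ (jc hA) hγa 0 Z' - jc hA (ι₀ (algebraMap R F₀ a₁))) := by
      rw [map_sub, beta_jc, emb_incl hA Ra.Rw.valuation incl hincA harchA H₁ hζ hγa H incl' hincl'
        hroot]
      rfl
    rw [e, mem_RwL_nonunits, val_beta_lt_one_iff] at hA₁
    exact hA₁
  have hZB : ‖emb H₁ hζ (jc hB) hγb 0 Z' - jc hB (ι₀ (algebraMap R F₀ a₂))‖ < 1 := by
    have e : embV hB Rb.Rw.valuation incl hincB harchB hζ hγb H 0 (incl' Z') -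
        ((j Rb.Rw.valuation).comp (incl.comp ι₀)) (algebraMap R F₀ a₂) =
        beta hB Rb.Rw.valuation incl hincB harchB
          (emb H₁ hζ (jc hB) hγb 0 Z' - jc hB (ι₀ (algebraMap R F₀ a₂))) := by
      rw [map_sub, beta_jc, emb_incl hB Rb.Rw.valuation incl hincB harchB H₁ hζ hγb H incl' hincl'
        hroot]
      rfl
    rw [e, mem_RwL_nonunits, val_beta_lt_one_iff] at hA₂
    exact hA₂
  refine ⟨c₀, fun i y hy hy1 hy2 => ?_⟩
  exact nl_node_sheets Ra Rb incl hincA hincB hA hB harchA harchB H₁ hζ hγa hγb H incl' hincl'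
    hroot hunA τ hτA hτB σ hσA hσK hresA hcomm hx hxδ hg₀ hd hxd hτd hFA hFB E hE ι₀ hι₀ hrank
    G Us a toE htoE hmul ha i (i + c₀) (fun y => wv hA H₁ hζ hγa i (toE y))
    (fun y => wv hB H₁ hζ hγb (i + c₀) (toE y)) (fun _ => rfl) (fun _ => rfl) Pl
    𝔫 rd₁ hrd₁ 𝔫'₁ h𝔫₁ h0₁ rd₂ hrd₂ 𝔫'₂ h𝔫₂ h0₂ y₁ y₂ l s c hy₁ hy₂ hy₁0 hy₂0 hgen₁ hgen₂ hs hc hth
    hζc hc0 hcA hcB hZ' θ₀ hθ₀ hint hpA hpB hRA hRB hzA a₁ hZA hzB a₂ hZB (hρB₁ i)
    (hρB₂ (i + c₀)) hvE (hmeet i) hhor y hy hy1 hy2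

end Node

end Fermat.Agent.GF.KCover.Node.NlNodeData

end
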