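/-
GATE-F (S44) / GF-KCOVER-INST, node side, leaf (U15) of helper84 (board 6781), helper45:
**the binder `hρB_i` of `SheetAsm.nl0_of_sheets` / `PkgAsm.nl0_of_pkg` on the finite chart
`B := BRingK0 N' ℓ A h`**, and the SEAM between the two spellings of the residue function field:
the reduction data of the frame live over `FresBar (N' * ℓ) A` (`redDataBar (N' * ℓ) A`,
`redData2 (N' * ℓ) A h`, the places `P s`, `Q s` of `NodeSupply`), the coordinate ring
`CRing N' A` and helper75's place `Q` live in `FresBar N' A`; the two are EQUAL intermediate fields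
of `k((Q))` (`fresBar_mul_eq`).

* `fresEquiv`, `coe_fresEquiv`, `coe_fresEquiv_symm`, `fresEquiv_eq_fresIncl`;
* `algC : Algebra (CRing N' A) (FresBar (N' * ℓ) A)` (through `fresEquiv.symm`; a `def`, use
  `letI := RhoBK0.algC hℓN hA`), `coe_algebraMap_algC`, `fresEquiv_algebraMap_algC`,
  `isFractionRing_algC`;
* BASE: `red1_mapK0Bar`, `red2_mapK0Bar` : for `b : BRingK0`,
  `(redDataBar (N' ℓ) A).red (mapK0Bar b) = algebraMap (CRing N' A) (FresBar (N' ℓ) A) (redC1K0 b)`,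
  `(redData2 (N' ℓ) A h).red (mapK0Bar b) = … (redC2K0 b)`;
* TRANSPORT (abstract): `hρB_of_redExt` : `RedExt Rb R'` + `ι' ∘ (B → R → K0) = algebraMap F F' ∘ m0`
  + the base statement ⟹ the binder `hρB` VERBATIM;
* `hρB₁_K0`, `hρB₂_K0` : the two binders on `BRingK0` for ANY sheets `R'_i` with
  `RedExt (redDataBar (N' ℓ) A) R'₁`, `RedExt (redData2 (N' ℓ) A h) R'₂`;
* PLACES: `exists_place_fresEquiv` : every place `Pl` of `FresBar (N' ℓ) A` is the transport of a
  place `Q` of `FresBar N' A` (`Q.ord (fresEquiv x) = Pl.ord x`, same valuation ring), and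
  `hvE_K0` : the binder `hvE` for `Pl` with `𝔫'₁ := (primeOfPlace Q hQ).asIdeal` and `algC`.
-/
import Fermat.Agent.GF.KCover.Node.NodeRingK0Pkg
import Fermat.Agent.GF.KCover.Node.OrdRedExt

set_option autoImplicit false
set_option linter.unusedSectionVars false
set_option linter.unusedVariables false
set_option linter.style.haveILetI false
set_option warn.classDefReducibility false

noncomputable section

open AlgebraicCurve

namespace Fermat.Agent.GF.KCover.Node.RhoBK0

/-! ### Abstract transport of `hρB` along a `RedExt` -/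

section Transport

open Fermat.Agent.GJ.J1 Fermat.Agent.GJ.KumGroup Fermat.Agent.S24 Fermat.Agent.GF.Trop
open Fermat.Agent.GF.KCover.Node.OrdRedExt

variable {K F F' k Ft : Type*} [Field K] [Field F] [Algebra K F] [Field F'] [Algebra K F']
  [Field k] [Field Ft] [Algebra k Ft] [Algebra F F'] [IsScalarTower K F F']

/-- `R'.red` only depends on the underlying element. -/
theorem red_congr (R' : RedData K F' k Ft) {x y : F'} (hxy : x = y) (hx : x ∈ R'.Rw)
    (hy : y ∈ R'.Rw) : R'.red ⟨x, hx⟩ = R'.red ⟨y, hy⟩ := by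
  subst hxy
  rfl

/-- **`hρB` upstairs from `hρB` downstairs**: if the reduction datum `R'` of the cover extends `Rb`
(`RedExt`), the `K₀`-model embeds compatibly (`hm0`) and `Rb.red ∘ m0 = rd` on `B`, then
`R'.red ∘ ι' = rd` on `B` — the binder `hρB` of `SheetAsm.nl0_of_sheets` VERBATIM. -/
theorem hρB_of_redExt (Rb : RedData K F k Ft) (R' : RedData K F' k Ft) (hext : RedExt Rb R')
    {B R K0 E : Type*} [CommRing B] [CommRing R] [Algebra B R] [CommRing K0] [Algebra R K0]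
    [CommRing E] [Algebra E Ft] (ι' : K0 →+* F') (m0 : B → F)
    (hm0 : ∀ b : B, ι' (algebraMap R K0 (algebraMap B R b)) = algebraMap F F' (m0 b))
    (hmem : ∀ b : B, m0 b ∈ Rb.Rw) (rd : B →+* E)
    (hbase : ∀ b : B, Rb.red ⟨m0 b, hmem b⟩ = algebraMap E Ft (rd b)) :
    ∀ (b : B) (hb : ι' (algebraMap R K0 (algebraMap B R b)) ∈ R'.Rw),
      R'.red ⟨_, hb⟩ = algebraMap E Ft (rd b) := by
  intro b hb
  rw [red_congr R' (hm0 b) hb (hext.mem _ (hmem b)), hext.red_eq _ (hmem b), hbase b]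

/-- the same for a subtype-free `ι'` on `S` (`PkgAsm.nl0_of_pkg` spelling: `hSW` given). -/
theorem hρB_of_redExt' (Rb : RedData K F k Ft) (R' : RedData K F' k Ft) (hext : RedExt Rb R')
    {B R S K0 E : Type*} [CommRing B] [CommRing R] [Algebra B R] [CommRing S] [Algebra R S]
    [CommRing K0] [Algebra S K0] [CommRing E] [Algebra E Ft] (ι' : K0 →+* F') (m0 : B → F)
    (hm0 : ∀ b : B, ι' (algebraMap S K0 (algebraMap R S (algebraMap B R b))) =
      algebraMap F F' (m0 b))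
    (hmem : ∀ b : B, m0 b ∈ Rb.Rw) (rd : B →+* E)
    (hbase : ∀ b : B, Rb.red ⟨m0 b, hmem b⟩ = algebraMap E Ft (rd b))
    (hSW : ∀ a : S, ι' (algebraMap S K0 a) ∈ R'.Rw) (b : B) :
    R'.red ⟨ι' (algebraMap S K0 (algebraMap R S (algebraMap B R b))), hSW _⟩ =
      algebraMap E Ft (rd b) := by
  rw [red_congr R' (hm0 b) (hSW _) (hext.mem _ (hmem b)), hext.red_eq _ (hmem b), hbase b]

end Transport

/-! ### Generic: equal intermediate fields -/

section EqFields

variable {k L : Type*} [Field k] [Field L] [Algebra k L]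

theorem coe_equivOfEq {E1 E2 : IntermediateField k L} (e : E1 = E2) (x : E1) :
    ((IntermediateField.equivOfEq e x : E2) : L) = (x : L) := by
  subst e
  rfl

theorem coe_equivOfEq_symm {E1 E2 : IntermediateField k L} (e : E1 = E2) (y : E2) :
    (((IntermediateField.equivOfEq e).symm y : E1) : L) = (y : L) := by
  subst e
  rfl

/-- places transport along an equality of intermediate fields (valuation ring and order). -/
theorem exists_place_of_eq' {E1 E2 : IntermediateField k L} (e : E1 = E2) (Pl : Place k E1) :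
    ∃ Q : Place k E2, (∀ x : E1, Q.ord (IntermediateField.equivOfEq e x) = Pl.ord x) ∧
      ∀ x : E1, IntermediateField.equivOfEq e x ∈ Q.toValuationSubring ↔
        x ∈ Pl.toValuationSubring := by
  subst e
  refine ⟨Pl, fun x => ?_, fun x => ?_⟩
  · congr 1
  · rfl

end EqFields

/-! ### Modular: the finite chart `BRingK0` -/

section Modular

open ModularCurve IsLocalRing AlgebraicCurve IsDedekindDomain
open Fermat.Agent.GL.KrullHeightOne Fermat.Agent.GL.KrullFrame Fermat.Agent.GL.Frame.HeightOne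
  Fermat.Agent.GL.Frame.Kummer
open Fermat.Agent.GL.Val.GaussK0 Fermat.Agent.GL.Val.SecondK0 Fermat.Agent.GL.Val.L1eLower
open Fermat.Agent.GL.Val.RamK0 Fermat.Agent.GL.MultiVal
open Fermat.Agent.GJ.KumGroup Fermat.Agent.GJ.J1 Fermat.Agent.GJ.J1.Val
open Fermat.Agent.GK.AL Fermat.Agent.GL.AL Fermat.Agent.GK.QS
open Fermat.Agent.Common_helper32
open Fermat.Agent.S24_helper6
open Fermat.Agent.GB.A4.FrameTwo Fermat.Agent.GB.A4.LocalKummer Fermat.Agent.GB.A4.ChartStep
open Fermat.Agent.GB.A4.Finite Fermat.Agent.GB.A4.TypeIInputs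
open Fermat.Agent.GL.BRingK0 Fermat.Agent.GL.BRingChart Fermat.Agent.GL.Thick
open Fermat.Agent.GF.KCover.Node Fermat.Agent.GF.KCover.Node.OrdRedExt
open Fermat.Agent.S24 Fermat.Agent.GF.Trop

attribute [local instance] Fermat.Agent.GL.Frame.InstK0.algSubringFullC

variable {A : ValuationSubring Qb} {N' : ℕ} [NeZero N'] {ℓ : ℕ} [Fact ℓ.Prime] [NeZero ℓ]
  (h : ExactDvd ℓ (N' * ℓ)) (hℓN : ¬ ℓ ∣ N') (hA : A.LiesOverPrime ℓ)

local notation "F0" => modularFunctionFieldFullC (K0 A) (N' * ℓ)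
local notation "kA" => IsLocalRing.ResidueField A

/-! #### `FresBar (N' ℓ) A ≃ FresBar N' A` -/

/-- the residue function fields at levels `N' ℓ` and `N'` are the same subfield of `k((Q))`. -/
def fresEquiv : FresBar (N' * ℓ) A ≃ₐ[kA] FresBar N' A :=
  IntermediateField.equivOfEq (fresBar_mul_eq N' ℓ A hℓN hA)

theorem coe_fresEquiv (y : FresBar (N' * ℓ) A) :
    ((fresEquiv hℓN hA y : FresBar N' A) : LaurentSeries kA) = (y : LaurentSeries kA) :=
  coe_equivOfEq (fresBar_mul_eq N' ℓ A hℓN hA) y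

theorem coe_fresEquiv_symm (y : FresBar N' A) :
    (((fresEquiv hℓN hA).symm y : FresBar (N' * ℓ) A) : LaurentSeries kA) =
      (y : LaurentSeries kA) :=
  coe_equivOfEq_symm (fresBar_mul_eq N' ℓ A hℓN hA) y

theorem fresEquiv_eq_fresIncl (y : FresBar (N' * ℓ) A) :
    fresEquiv hℓN hA y = fresIncl N' ℓ A hℓN hA y := by
  apply Subtype.ext
  rw [coe_fresEquiv, coe_fresIncl]

/-! #### `CRing N' A` inside `FresBar (N' ℓ) A` -/

/-- `FresBar (N' ℓ) A` as an algebra over the coordinate ring `CRing N' A` of the component. -/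
def algC : Algebra (CRing N' A) (FresBar (N' * ℓ) A) :=
  (((fresEquiv hℓN hA).symm : FresBar N' A →+* FresBar (N' * ℓ) A).comp
    (algebraMap (CRing N' A) (FresBar N' A))).toAlgebra

theorem algebraMap_algC (c : CRing N' A) :
    letI := algC (ℓ := ℓ) hℓN hA
    algebraMap (CRing N' A) (FresBar (N' * ℓ) A) c =
      (fresEquiv hℓN hA).symm (algebraMap (CRing N' A) (FresBar N' A) c) := rfl

theorem fresEquiv_algebraMap_algC (c : CRing N' A) :
    letI := algC (ℓ := ℓ) hℓN hA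
    fresEquiv hℓN hA (algebraMap (CRing N' A) (FresBar (N' * ℓ) A) c) =
      algebraMap (CRing N' A) (FresBar N' A) c := by
  letI := algC (ℓ := ℓ) hℓN hA
  rw [algebraMap_algC, AlgEquiv.apply_symm_apply]

theorem coe_algebraMap_algC (c : CRing N' A) :
    letI := algC (ℓ := ℓ) hℓN hA
    ((algebraMap (CRing N' A) (FresBar (N' * ℓ) A) c : FresBar (N' * ℓ) A) : LaurentSeries kA) =
      cVal N' A c := rfl

/-- `FresBar (N' ℓ) A` is the fraction field of `CRing N' A`. -/
theorem isFractionRing_algC [IsFractionRing (CRing N' A) (FresBar N' A)] :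
    letI := algC (ℓ := ℓ) hℓN hA
    IsFractionRing (CRing N' A) (FresBar (N' * ℓ) A) := by
  letI := algC (ℓ := ℓ) hℓN hA
  exact IsLocalization.isLocalization_of_algEquiv (nonZeroDivisors (CRing N' A))
    (AlgEquiv.ofRingEquiv (f := ((fresEquiv hℓN hA).symm : FresBar N' A ≃+* FresBar (N' * ℓ) A))
      (fun c => rfl))

/-! #### the base statements -/

/-- **`hρB₁` at the base level**: `red₁ (b) = rd₁ b` for `b` in the finite chart. -/
theorem red1_mapK0Bar (b : BRingK0 N' ℓ A h)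
    (hb : mapK0Bar A (N' * ℓ) (b : F0) ∈ (redDataBar (N' * ℓ) A).Rw) :
    letI := algC (ℓ := ℓ) hℓN hA
    (redDataBar (N' * ℓ) A).red ⟨mapK0Bar A (N' * ℓ) (b : F0), hb⟩ =
      algebraMap (CRing N' A) (FresBar (N' * ℓ) A) (redC1K0 h hℓN hA b) := by
  letI := algC (ℓ := ℓ) hℓN hA
  apply Subtype.ext
  rw [coe_algebraMap_algC, cVal_redC1K0, Fermat.Agent.GK.QS.rho1_apply]
  rfl

/-- **`hρB₂` at the base level**: `red₂ (b) = rd₂ b` for `b` in the finite chart. -/
theorem red2_mapK0Bar (b : BRingK0 N' ℓ A h)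
    (hb : mapK0Bar A (N' * ℓ) (b : F0) ∈ (redData2 (N' * ℓ) A h).Rw) :
    letI := algC (ℓ := ℓ) hℓN hA
    (redData2 (N' * ℓ) A h).red ⟨mapK0Bar A (N' * ℓ) (b : F0), hb⟩ =
      algebraMap (CRing N' A) (FresBar (N' * ℓ) A) (redC2K0 h hℓN hA b) := by
  letI := algC (ℓ := ℓ) hℓN hA
  apply Subtype.ext
  rw [coe_algebraMap_algC, cVal_redC2K0, Fermat.Agent.GK.QS.rho2_apply]
  rfl

/-- membership: the finite chart lies in both vertical valuation rings of `F_{N' ℓ}`. -/
theorem mapK0Bar_mem_Rw (b : BRingK0 N' ℓ A h) :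
    mapK0Bar A (N' * ℓ) (b : F0) ∈ (redDataBar (N' * ℓ) A).Rw ∧
      mapK0Bar A (N' * ℓ) (b : F0) ∈ (redData2 (N' * ℓ) A h).Rw :=
  ⟨((toBRing N' ℓ A h b).2).2.1, ((toBRing N' ℓ A h b).2).2.2⟩

/-! #### the two binders `hρB_i` for the sheets of a cover -/

section Sheets

variable {F' : Type*} [Field F'] [Algebra Kb F'] [Algebra (FK (N' * ℓ)) F']
  [IsScalarTower Kb (FK (N' * ℓ)) F']

/-- **`hρB₁` on `BRingK0`** for ANY reduction datum `R'₁` of a cover `F'` of `F_{N' ℓ}` extending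
`redDataBar (N' ℓ) A`. -/
theorem hρB₁_K0 (R'₁ : RedData Kb F' kA (FresBar (N' * ℓ) A))
    (hext : RedExt (redDataBar (N' * ℓ) A) R'₁)
    {R K0 : Type*} [CommRing R] [Algebra (BRingK0 N' ℓ A h) R] [CommRing K0] [Algebra R K0]
    (ι' : K0 →+* F')
    (hι' : ∀ b : BRingK0 N' ℓ A h, ι' (algebraMap R K0 (algebraMap (BRingK0 N' ℓ A h) R b)) =
      algebraMap (FK (N' * ℓ)) F' (mapK0Bar A (N' * ℓ) (b : F0))) :
    letI := algC (ℓ := ℓ) hℓN hA
    ∀ (b : BRingK0 N' ℓ A h)
      (hb : ι' (algebraMap R K0 (algebraMap (BRingK0 N' ℓ A h) R b)) ∈ R'₁.Rw),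
      R'₁.red ⟨_, hb⟩ = algebraMap (CRing N' A) (FresBar (N' * ℓ) A) (redC1K0 h hℓN hA b) := by
  letI := algC (ℓ := ℓ) hℓN hA
  exact hρB_of_redExt (B := ↥(BRingK0 N' ℓ A h)) (R := R) (K0 := K0) (E := ↥(CRing N' A))
    (redDataBar (N' * ℓ) A) R'₁ hext ι'
    (fun b : ↥(BRingK0 N' ℓ A h) => mapK0Bar A (N' * ℓ) (b : F0)) hι'
    (fun b => (mapK0Bar_mem_Rw h b).1)
    (redC1K0 h hℓN hA) (fun b => red1_mapK0Bar h hℓN hA b _)

/-- **`hρB₂` on `BRingK0`** for ANY reduction datum `R'₂` of a cover `F'` of `F_{N' ℓ}` extending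
`redData2 (N' ℓ) A h`. -/
theorem hρB₂_K0 (R'₂ : RedData Kb F' kA (FresBar (N' * ℓ) A))
    (hext : RedExt (redData2 (N' * ℓ) A h) R'₂)
    {R K0 : Type*} [CommRing R] [Algebra (BRingK0 N' ℓ A h) R] [CommRing K0] [Algebra R K0]
    (ι' : K0 →+* F')
    (hι' : ∀ b : BRingK0 N' ℓ A h, ι' (algebraMap R K0 (algebraMap (BRingK0 N' ℓ A h) R b)) =
      algebraMap (FK (N' * ℓ)) F' (mapK0Bar A (N' * ℓ) (b : F0))) :
    letI := algC (ℓ := ℓ) hℓN hA
    ∀ (b : BRingK0 N' ℓ A h)
      (hb : ι' (algebraMap R K0 (algebraMap (BRingK0 N' ℓ A h) R b)) ∈ R'₂.Rw),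
      R'₂.red ⟨_, hb⟩ = algebraMap (CRing N' A) (FresBar (N' * ℓ) A) (redC2K0 h hℓN hA b) := by
  letI := algC (ℓ := ℓ) hℓN hA
  exact hρB_of_redExt (B := ↥(BRingK0 N' ℓ A h)) (R := R) (K0 := K0) (E := ↥(CRing N' A))
    (redData2 (N' * ℓ) A h) R'₂ hext ι'
    (fun b : ↥(BRingK0 N' ℓ A h) => mapK0Bar A (N' * ℓ) (b : F0)) hι'
    (fun b => (mapK0Bar_mem_Rw h b).2)
    (redC2K0 h hℓN hA) (fun b => red2_mapK0Bar h hℓN hA b _)

end Sheets

/-! #### places -/

/-- every place `Pl` of `FresBar (N' ℓ) A` is the transport of a place `Q` of `FresBar N' A`. -/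
theorem exists_place_fresEquiv (Pl : Place kA (FresBar (N' * ℓ) A)) :
    ∃ Q : Place kA (FresBar N' A), (∀ x, Q.ord (fresEquiv hℓN hA x) = Pl.ord x) ∧
      ∀ x, fresEquiv hℓN hA x ∈ Q.toValuationSubring ↔ x ∈ Pl.toValuationSubring :=
  exists_place_of_eq' (fresBar_mul_eq N' ℓ A hℓN hA) Pl

/-- **the binder `hvE`** for a place `Pl` of `FresBar (N' ℓ) A` (the frame's `P s`) which is the
transport of helper75's `Q`: elements of `CRing N' A` outside the centre of `Q` have order `0`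
at `Pl`. -/
theorem hvE_K0 [IsDedekindDomain (CRing N' A)] [IsFractionRing (CRing N' A) (FresBar N' A)]
    (Pl : Place kA (FresBar (N' * ℓ) A)) (Q : Place kA (FresBar N' A))
    (hQ : ContainsB (CRing N' A) Q) (hPQ : ∀ x, Q.ord (fresEquiv hℓN hA x) = Pl.ord x) :
    letI := algC (ℓ := ℓ) hℓN hA
    ∀ e : CRing N' A, e ∉ (primeOfPlace Q hQ).asIdeal →
      Pl.ord (algebraMap (CRing N' A) (FresBar (N' * ℓ) A) e) = 0 := by
  letI := algC (ℓ := ℓ) hℓN hA
  intro e he
  rw [← hPQ, fresEquiv_algebraMap_algC]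
  exact ord_algebraMap_eq_zero Q hQ he

end Modular

end Fermat.Agent.GF.KCover.Node.RhoBK0
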