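/-
GATE-F (S44) / GF-KCOVER-INST, node side (helper84), file 12: **the per-node theorem at a SMOOTH
point (type I), data discharged** — the twin of `NlNodeData.nl_node_data` for a point of the finite
chart that is not on the second vertical component:

  `∀ i k₂, ∀ y ∈ Us, w₁ i y = 0 → w₂ k₂ y = 0 → p ∣ nodeOrd (sheetK Ra … i) … y`

= `NlNodeSheets.nl_node_of_nl0` with `NL0 := SheetAsm.nl0_of_sheets_typeI` (branch 1 only; the
hypothesis `IsU (sheetK Rb … k₂) u` is ignored), `e₁ k := Bridge.embV … k`, `Oh₁ := RwL Ra`,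
`jj₁ := j V ∘ incl ∘ ι₀`; the residue `a₁` of `Z'` on the sheet `0` from `ResLift.exists_sheet_lift`,
`hres₁` from `NlNodeSheets.hres_sheetK`, the integrality of `Z'` and `θ₀` from the integrality of
`g₁` (`g₀ = 1 + cz ^ p * g₁`).  No branch-2 binder except the frame of `w₂` (`Rb hincB hB harchB hγb
hτB`), no `hmeet`, no `g`.
-/
import Fermat.Agent.GF.KCover.Node.NlNodeData

set_option autoImplicit false
set_option linter.unusedSectionVars false
set_option linter.unusedVariables false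

noncomputable section

open Polynomial AlgebraicCurve

namespace Fermat.Agent.GF.KCover.Node.NlNodeDataSmooth

open Fermat.Agent.GJ.J1 Fermat.Agent.S24 Fermat.Agent.GF.Trop
open Fermat.Agent.GF.KCover.Field Fermat.Agent.GF.KCover.Field.Disc
  Fermat.Agent.GF.KCover.Field.Pack
open Fermat.Agent.GF.KCover.Compl Fermat.Agent.GF.KCover.Compl.Bridge
  Fermat.Agent.GF.KCover.Compl.RedCompl Fermat.Agent.GF.KCover.Compl.RedAut
  Fermat.Agent.GF.KCover.Compl.BridgeTau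
open Fermat.Agent.GF.KCover.Node.OrdRedExt Fermat.Agent.GF.KCover.Node
  Fermat.Agent.GF.KCover.Node.NlNode Fermat.Agent.GF.KCover.Node.NlNodeSheets
  Fermat.Agent.GF.KCover.Node.NlNodeData

section Node

variable {K F k Ft Ft₂ : Type*} [Field K] [Field F] [Algebra K F] [Field k] [Field Ft]
  [Algebra k Ft] [Field Ft₂] [Algebra k Ft₂]
variable (Ra : RedData K F k Ft) (Rb : RedData K F k Ft₂)
variable {F' : Type*} [Field F'] [Algebra K F'] [Algebra F F'] [IsScalarTower K F F']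
variable {E₁ : Type*} [Field E₁] {ϖ : E₁}
  {va : Valuation E₁ (ValuationSubring.ValueGroup Ra.Rw)}
  {vb : Valuation E₁ (ValuationSubring.ValueGroup Rb.Rw)}
variable (incl : E₁ →+* F) (hincA : ∀ a : E₁, Ra.Rw.valuation (incl a) = va a)
  (hincB : ∀ a : E₁, Rb.Rw.valuation (incl a) = vb a)
variable (hA : IsDisc va ϖ) (hB : IsDisc vb ϖ)
variable (harchA : ∀ γ : ValuationSubring.ValueGroup Ra.Rw, γ ≠ 0 → ∃ n : ℕ, va ϖ ^ n < γ)
  (harchB : ∀ γ : ValuationSubring.ValueGroup Rb.Rw, γ ≠ 0 → ∃ n : ℕ, vb ϖ ^ n < γ)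
variable {E' : Type*} [Field E'] [Algebra E₁ E'] {p : ℕ} [NeZero p] [Fact p.Prime] {g₀ : E₁}
  (H₁ : IsAdjoinRoot E' (X ^ p - C g₀ : E₁[X])) {ζ : E₁} (hζ : IsPrimitiveRoot ζ p)
  {γa : Lc hA} (hγa : γa ^ p = jc hA g₀) {γb : Lc hB} (hγb : γb ^ p = jc hB g₀)
  (H : IsAdjoinRoot F' (X ^ p - C (incl g₀) : F[X]))
  (incl' : E' →+* F')
  (hincl' : ∀ a : E₁, incl' (algebraMap E₁ E' a) = algebraMap F F' (incl a))
  (hroot : incl' H₁.root = H.root)

variable {B C₁ : Type*} [CommRing B] [IsDomain B] [CommRing C₁] [IsDedekindDomain C₁]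
  [Algebra C₁ Ft] [IsFractionRing C₁ Ft]
variable {R F₀ : Type*} [CommRing R] [IsDomain R] [IsIntegrallyClosed R] [IsNoetherianRing R]
  [Field F₀] [Algebra R F₀] [IsFractionRing R F₀]

include hincl' hroot hincB harchB in
set_option maxHeartbeats 1600000 in
/-- **The per-node theorem at a smooth point (type I), data discharged.** -/
theorem nl_node_data_typeI (hunA : Unram Ra)
    -- the tame generator
    (τ : E₁ ≃+* E₁) (hτA : ∀ a, va (τ a) = va a) (hτB : ∀ a, vb (τ a) = vb a)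
    (σ : F ≃+* F) (hσA : ∀ y : F, Ra.Rw.valuation (σ y) = Ra.Rw.valuation y)
    (hσK : ∀ c : K, ∃ c' : K, σ (algebraMap K F c) = algebraMap K F c')
    (hresA : ∀ (a : F) (ha : a ∈ Ra.Rw), Ra.red ⟨σ a, map_mem_Rw Ra σ hσA ha⟩ = Ra.red ⟨a, ha⟩)
    (hcomm : ∀ a : E₁, incl (τ a) = σ (incl a))
    {x : E' ≃+* E'} (hx : IsOver (x : E' →+* E') (τ : E₁ →+* E₁))
    (hxδ : Commute (x : E' →+* E') (deck H₁ hζ)) (hg₀ : g₀ ≠ 0) {d : ℕ}
    (hd : Nat.Coprime d p) (hxd : (x : E' →+* E') ^ d = 1) (hτd : τ ^ d = 1)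
    (hFA : ∀ b : E₁, va b ≤ 1 → ∃ a : E₁, τ a = a ∧ va (b - a) < 1)
    -- the fixed field and its `K0`-model
    (E : Subfield E') (hE : ∀ y, y ∈ E ↔ x y = y)
    [Algebra F₀ E] [Algebra R E] [IsScalarTower R F₀ E] [FiniteDimensional F₀ E]
    (ι₀ : F₀ →+* E₁)
    (hι₀ : ∀ a : F₀, ((algebraMap F₀ E a : E) : E') = algebraMap E₁ E' (ι₀ a))
    (hrank : Module.finrank F₀ E = p)
    -- the group
    (G : Subgroup F'ˣ) (Us : Subgroup G) (a : Us →* Us) (toE : G → E')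
    (htoE : ∀ y : G, incl' (toE y) = ((y : F'ˣ) : F'))
    (hmul : ∀ y z : G, toE (y * z) = toE y * toE z)
    (ha : ∀ u : Us, toE ((a u : Us) : G) = x (toE (u : G)))
    (Pl : Place k Ft)
    -- the downstairs block (`PkgAsm.nl0_of_pkg_typeI`)
    (𝔫 : Ideal B) [𝔫.IsPrime] [Algebra B R] [IsLocalization.AtPrime R 𝔫]
    (rd₁ : B →+* C₁) (hrd₁ : Function.Surjective rd₁) (𝔫'₁ : Ideal C₁) [𝔫'₁.IsPrime]
    (h𝔫₁ : Ideal.comap rd₁ 𝔫'₁ = 𝔫) (h0₁ : 𝔫'₁ ≠ ⊥)
    (y₁ l s c : B) (hy₁ : rd₁ y₁ = 0) (hy₁0 : y₁ ≠ 0)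
    (hgen₁ : ∀ b : B, rd₁ b = 0 → ∃ t : B, t ∉ 𝔫 ∧ y₁ ∣ t * b)
    (hs : s ∉ 𝔫) (hc : c ∉ 𝔫) (hth : l * s = c * y₁)
    -- the Artin–Schreier normal form and the tame trace
    {cz : E₁} (hζc : ζ = 1 + cz) (hc0 : cz ≠ 0) (hcA : va cz < 1)
    {Z' : E'} (hZ' : H₁.root = 1 + algebraMap E₁ E' cz * Z')
    {g₁ : E₁} (hg₁ : g₀ = 1 + cz ^ p * g₁)
    (hintg : (ι₀.comp (algebraMap R F₀)).IsIntegralElem g₁)
    (θ₀ : E) (hθ₀ : (θ₀ : E') = TraceRes.traceTame x d Z')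
    (hpA : va ((p : ℕ) : E₁) < 1)
    (hRA : ∀ r : R, va (ι₀ (algebraMap R F₀ r)) ≤ 1)
    (hρB₁ : ∀ (i : ZMod p) (b : B) (hb : iotaE incl' E (algebraMap R E (algebraMap B R b)) ∈
        (sheetK Ra incl hincA hA harchA hζ hγa H i).Rw),
      (sheetK Ra incl hincA hA harchA hζ hγa H i).red ⟨_, hb⟩ = algebraMap C₁ Ft (rd₁ b))
    (hvE : ∀ e : C₁, e ∉ 𝔫'₁ → Pl.ord (algebraMap C₁ Ft e) = 0)
    -- horizontal primes: on the `x`-fixed elements of `Us`
    (hhor : ∀ (u : Us) (u₀ : E), toE (u : G) = (u₀ : E') →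
      ∀ V : ValuationSubring E, IsDiscreteValuationRing V →
      (∀ r : R, algebraMap R E r ∈ V) → θ₀ ∈ V →
      (algebraMap R E (algebraMap B R l))⁻¹ ∈ V →
      ∃ z : E, z ≠ 0 ∧ u₀ * z ^ p ∈ V ∧ (u₀ * z ^ p)⁻¹ ∈ V)
    (i k₂ : ZMod p) (y : G) (hy : y ∈ Us)
    (hy1 : wv hA H₁ hζ hγa i (toE y) = 0) (hy2 : wv hB H₁ hζ hγb k₂ (toE y) = 0) :
    (p : ℤ) ∣ nodeOrd (sheetK Ra incl hincA hA harchA hζ hγa H i)
      (unram_sheetK Ra incl hincA hA harchA hζ hγa H hunA i) Pl G y := by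
  have hpp : p.Prime := Fact.out
  have hd' : ¬ p ∣ d := fun hdvd => by
    have h1 : p ∣ Nat.gcd d p := Nat.dvd_gcd hdvd dvd_rfl
    rw [hd] at h1
    exact hpp.one_lt.ne' (Nat.dvd_one.1 h1)
  have hloc : IsLocalRing R := IsLocalization.AtPrime.isLocalRing R 𝔫
  -- the frame facts (as in `nl_node_sheets`)
  have heι : ∀ a : F₀, iotaE incl' E (algebraMap F₀ E a) = algebraMap F F' (incl (ι₀ a)) := by
    intro a
    rw [iotaE_apply, hι₀, hincl']
  have hθι : iotaE incl' E θ₀ = incl' (TraceRes.traceTame x d Z') := by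
    rw [iotaE_apply, hθ₀]
  have heA : ∀ (i : ZMod p) (a : F₀), embV hA Ra.Rw.valuation incl hincA harchA hζ hγa H i
      (iotaE incl' E (algebraMap F₀ E a)) = ((j Ra.Rw.valuation).comp (incl.comp ι₀)) a := by
    intro i a
    rw [heι, embV_algebraMap]
    rfl
  have hjRA : ∀ r : R, ((j Ra.Rw.valuation).comp (incl.comp ι₀)) (algebraMap R F₀ r) ∈ RwL Ra := by
    intro r
    show j Ra.Rw.valuation (incl (ι₀ (algebraMap R F₀ r))) ∈ RwL Ra
    rw [mem_RwL, val_j, hincA]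
    exact hRA r
  have hpOA : ((p : ℕ) : LR Ra) ∈ (RwL Ra).nonunits := by
    rw [mem_RwL_nonunits]
    have e : ((p : ℕ) : LR Ra) = j Ra.Rw.valuation (incl ((p : ℕ) : E₁)) := by
      rw [map_natCast, map_natCast]
    rw [e, val_j, hincA]
    exact hpA
  -- the Artin–Schreier equation, in `E'`
  have hζE : IsPrimitiveRoot (algebraMap E₁ E' ζ) p :=
    hζ.map_of_injective (algebraMap E₁ E').injective
  have hcE : algebraMap E₁ E' cz = algebraMap E₁ E' ζ - 1 := by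
    rw [hζc, map_add, map_one, add_sub_cancel_left]
  have hASE : (1 + algebraMap E₁ E' cz * Z') ^ p =
      1 + algebraMap E₁ E' cz ^ p * algebraMap E₁ E' g₁ := by
    rw [← hZ', root_pow H₁, hg₁, map_add, map_one, map_mul, map_pow]
  -- `Z'` and `θ₀` are integral over `R`
  have hφE : ∀ r : R, (E.subtype.comp (algebraMap R E)) r =
      algebraMap E₁ E' ((ι₀.comp (algebraMap R F₀)) r) := by
    intro r
    rw [RingHom.comp_apply, RingHom.comp_apply, IsScalarTower.algebraMap_apply R F₀ E, ← hι₀]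
    rfl
  have hgE : (E.subtype.comp (algebraMap R E)).IsIntegralElem (algebraMap E₁ E' g₁) :=
    isIntegralElem_map _ (algebraMap E₁ E') hintg _ hφE
  have hZE : (E.subtype.comp (algebraMap R E)).IsIntegralElem Z' :=
    ResLift.isIntegralElem_of_kummer_as _ hζE hcE hASE hgE
  have hint : IsIntegral R θ₀ := by
    refine isIntegral_of_injective E.subtype Subtype.val_injective θ₀ ?_
    show (E.subtype.comp (algebraMap R E)).IsIntegralElem (θ₀ : E')
    rw [hθ₀]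
    let _ : Algebra R E' := (E.subtype.comp (algebraMap R E)).toAlgebra
    exact TraceRes.isIntegral_traceTame x d (fun r => (hE _).1 (algebraMap R E r).2) hZE
  have hZF : ((iotaE incl' E).comp (algebraMap R E)).IsIntegralElem (incl' Z') :=
    isIntegralElem_map _ incl' hZE _ (fun r => rfl)
  -- the residue of `Z'` on the sheet `0`
  have hφ : ∀ r : R, embV hA Ra.Rw.valuation incl hincA harchA hζ hγa H 0
      (((iotaE incl' E).comp (algebraMap R E)) r) ∈ RwL Ra := fun r => by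
    rw [RingHom.comp_apply, SheetAsm.sheet_algebraMap (iotaE incl' E)
      ((j Ra.Rw.valuation).comp (incl.comp ι₀))
      (embV hA Ra.Rw.valuation incl hincA harchA hζ hγa H 0) (heA 0)]
    exact hjRA r
  have hz₁ : embV hA Ra.Rw.valuation incl hincA harchA hζ hγa H 0 (incl' Z') ∈ RwL Ra :=
    SheetIdxBridge.emb_mem_of_isIntegralElem (RwL Ra) ((iotaE incl' E).comp (algebraMap R E))
      (embV hA Ra.Rw.valuation incl hincA harchA hζ hγa H 0) hφ hZF
  obtain ⟨a₁, hA₁⟩ := ResLift.exists_sheet_lift (K0 := E) (F₀ := F₀) 𝔫 rd₁ hrd₁ 𝔫'₁ h𝔫₁ h0₁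
    (iotaE incl' E) (sheetK Ra incl hincA hA harchA hζ hγa H 0) (RwL Ra)
    ((j Ra.Rw.valuation).comp (incl.comp ι₀))
    (embV hA Ra.Rw.valuation incl hincA harchA hζ hγa H 0) (heA 0) hjRA
    (mem_sheetK_Rw Ra incl hincA hA harchA hζ hγa H 0) (hρB₁ 0) (incl' Z') hz₁ hZF
  -- back to the norm spelling of `hres_sheetK`
  have hzA : ‖emb H₁ hζ (jc hA) hγa 0 Z'‖ ≤ 1 := by
    rw [emb_incl hA Ra.Rw.valuation incl hincA harchA H₁ hζ hγa H incl' hincl' hroot, mem_RwL,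
      val_beta_le_one_iff'] at hz₁
    exact hz₁
  have hZA : ‖emb H₁ hζ (jc hA) hγa 0 Z' - jc hA (ι₀ (algebraMap R F₀ a₁))‖ < 1 := by
    have e : embV hA Ra.Rw.valuation incl hincA harchA hζ hγa H 0 (incl' Z') -
        ((j Ra.Rw.valuation).comp (incl.comp ι₀)) (algebraMap R F₀ a₁) =
        beta hA Ra.Rw.valuation incl hincA harchA
          (emb H₁ hζ (jc hA) hγa 0 Z' - jc hA (ι₀ (algebraMap R F₀ a₁))) := by
      rw [map_sub, beta_jc, emb_incl hA Ra.Rw.valuation incl hincA harchA H₁ hζ hγa H incl' hincl'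
        hroot]
      rfl
    rw [e, mem_RwL_nonunits, val_beta_lt_one_iff] at hA₁
    exact hA₁
  -- the engine
  refine nl_node_of_nl0 Ra Rb incl hincA hincB hA hB harchA harchB H₁ hζ hγa hγb H incl' hincl'
    hroot hunA τ hτA hτB σ hσA hσK hresA hcomm hx hxδ hg₀ hd hxd hτd E hE G Us a toE htoE hmul ha
    i k₂ (fun y => wv hA H₁ hζ hγa i (toE y)) (fun y => wv hB H₁ hζ hγb k₂ (toE y))
    (fun _ => rfl) (fun _ => rfl) Pl ?_ y hy hy1 hy2
  intro u u₀ htu hu₀ hU1 _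
  exact SheetAsm.nl0_of_sheets_typeI (K0 := E) (F₀ := F₀) 𝔫 rd₁ hrd₁ 𝔫'₁ h𝔫₁ h0₁
    y₁ l s c hy₁ hy₁0 hgen₁ hs hc hth hrank (iotaE incl' E)
    (sheetK Ra incl hincA hA harchA hζ hγa H i)
    (unram_sheetK Ra incl hincA hA harchA hζ hγa H hunA i) Pl θ₀ hint hd'
    (RwL Ra) ((j Ra.Rw.valuation).comp (incl.comp ι₀))
    (fun i => embV hA Ra.Rw.valuation incl hincA harchA hζ hγa H i) heA hjRA hpOA
    i (mem_sheetK_Rw Ra incl hincA hA harchA hζ hγa H i) a₁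
    (fun i' => by
      rw [hθι]
      rw [mem_RwL_nonunits]
      exact hres_sheetK hA Ra.Rw.valuation incl hincA harchA H₁ hζ hγa H incl' hincl' hroot τ hτA
        hx hxδ hg₀ hd hxd hτd hFA hζc hc0 hcA hZ' hzA (ι₀.comp (algebraMap R F₀)) a₁ hZA i')
    (hρB₁ i) hvE p u₀ hu₀ hU1 (hhor u u₀ htu)

end Node

end Fermat.Agent.GF.KCover.Node.NlNodeDataSmooth

end
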