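/-
GATE-F (S40) / GF-KCOVER-INST, node side (helper84), file 2: **the tame norm (I2)**, Mathlib only.

`K' = K0(ζ_p)`, `Δ = Gal(K'/K0)` of order `p − 1`.  Every lift `τ~` of `τ ∈ Δ` to the function
field `F'_{K'}` of the cover commutes with the deck transformation `δ`, so
`Gal(F'_{K'}/F_{K0}) = ⟨δ⟩ × Δ~` is abelian and `Δ~` (its `(p−1)`-torsion) is canonical;
`F'_{K0} := Fix(Δ~)`.  `Δ~` preserves each branch valuation, each node and acts trivially on the
residue fields (`K'/K0` is totally ramified), hence preserves the three functions `w1 w2 n` of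
`Arith.lean`.

Abstract form: a finite group `Δ` of order prime to `p` acting on the group `U` and preserving
`w1 w2 n`; the node lemma `NL` on the FIXED elements implies `NL` on all of `U`
(`Φ := ∏ τ, τ • u` is fixed, `w Φ = |Δ| · w u`).
-/
import Mathlib

set_option autoImplicit false
set_option linter.unusedSectionVars false

namespace Fermat.Agent.GF.KCover.Node.Norm

variable {U : Type*} [CommGroup U] {Δ : Type*} [Group Δ] [Fintype Δ] [MulDistribMulAction Δ U]

/-- the norm `∏ τ, τ • u`. -/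
def nrm (Δ : Type*) [Group Δ] [Fintype Δ] {U : Type*} [CommGroup U] [MulDistribMulAction Δ U]
    (u : U) : U := ∏ τ : Δ, τ • u

theorem smul_nrm (σ : Δ) (u : U) : σ • nrm Δ u = nrm Δ u := by
  unfold nrm
  rw [Finset.smul_prod']
  simp_rw [smul_smul]
  exact Fintype.prod_equiv (Equiv.mulLeft σ) _ _ fun τ => rfl

theorem val_prod (w : U → ℤ) (hmul : ∀ y z, w (y * z) = w y + w z) {ι : Type*} (s : Finset ι)
    (g : ι → U) : w (∏ i ∈ s, g i) = ∑ i ∈ s, w (g i) := by
  classical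
  have h1 : w 1 = 0 := by
    have h := hmul 1 1
    rw [mul_one] at h
    linarith
  induction s using Finset.induction_on with
  | empty => simpa using h1
  | insert i s hi ih => rw [Finset.prod_insert hi, Finset.sum_insert hi, hmul, ih]

theorem val_nrm (w : U → ℤ) (hmul : ∀ y z, w (y * z) = w y + w z)
    (hinv : ∀ (τ : Δ) (u : U), w (τ • u) = w u) (u : U) :
    w (nrm Δ u) = (Fintype.card Δ : ℤ) * w u := by
  unfold nrm
  rw [val_prod w hmul]
  simp_rw [hinv]
  rw [Finset.sum_const, Finset.card_univ, nsmul_eq_mul]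

/-- **(I2) the node lemma descends along a tame group.** -/
theorem nl_of_fixed {p : ℕ} (hcop : IsCoprime (p : ℤ) (Fintype.card Δ : ℤ)) (w1 w2 n : U → ℤ)
    (h1 : ∀ y z, w1 (y * z) = w1 y + w1 z) (h2 : ∀ y z, w2 (y * z) = w2 y + w2 z)
    (hn : ∀ y z, n (y * z) = n y + n z)
    (i1 : ∀ (τ : Δ) (u : U), w1 (τ • u) = w1 u) (i2 : ∀ (τ : Δ) (u : U), w2 (τ • u) = w2 u)
    (inn : ∀ (τ : Δ) (u : U), n (τ • u) = n u)
    (NL0 : ∀ u : U, (∀ τ : Δ, τ • u = u) → w1 u = 0 → w2 u = 0 → (p : ℤ) ∣ n u)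
    (u : U) (hu1 : w1 u = 0) (hu2 : w2 u = 0) : (p : ℤ) ∣ n u := by
  have h := NL0 (nrm Δ u) (fun τ => smul_nrm τ u) (by rw [val_nrm w1 h1 i1, hu1, mul_zero])
    (by rw [val_nrm w2 h2 i2, hu2, mul_zero])
  rw [val_nrm n hn inn] at h
  exact hcop.dvd_of_dvd_mul_left h

/-- the coprimality hypothesis: `|Δ| = p − 1`. -/
theorem isCoprime_pred {p : ℕ} (hp : 1 ≤ p) : IsCoprime (p : ℤ) ((p - 1 : ℕ) : ℤ) := by
  refine ⟨1, -1, ?_⟩
  push_cast [Nat.cast_sub hp]
  ring

end Fermat.Agent.GF.KCover.Node.Norm
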