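/-
GATE-F (S44) / GF-KCOVER-INST, leaf (L-b)-ABSTRACT, CONGRUENCE form (helper47; shape requested by
helper84 6355): **`ufd_of_split` from a monic `h ∈ R[T]` with `h(θ) = 0` and
`h ≡ T ^ p + e₀ T - g mod x`.**

Over the UNRAMIFIED base `K0` the node ring `R = O_s` contains `p` but not `ϖ = 1 - ζ`;
`θ := Tr_Δ~(Z')` does not satisfy the Artin–Schreier equation itself, but its minimal polynomial
`h` is congruent to an Artin–Schreier polynomial modulo the branch equation `x`.  With ONE ring hom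
`φ : S = R[θ] → D` onto the DVR `D = R/(x)`: `β := φ θ` is a root of `T ^ p + ē₀ T - ḡ`, the other
roots are `β + c η` (`η ^ (p-1) = -ē₀`), and `∏ c, (θ - α c) ∈ x S` for ANY lifts `α c`.
-/
import Fermat.Agent.GF.KCover.Node.ASEtale

set_option autoImplicit false
set_option linter.unusedSectionVars false
set_option linter.unusedVariables false

noncomputable section

namespace Fermat.Agent.GF.KCover.Node.ASCongr

open Polynomial IsLocalRing Fermat.Agent.GF.KCover.Node.ASEtale

variable {p : ℕ} [Fact p.Prime] {R S D : Type*} [CommRing R] [CommRing S] [Algebra R S]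
  [CommRing D] [IsDomain S] [IsDomain D]

/-- the reduction of `h` is the Artin–Schreier polynomial. -/
theorem map_eq_of_congr {x e₀ g : R} {h : R[X]}
    (hcong : ∀ i, x ∣ (h - (X ^ p + C e₀ * X - C g)).coeff i) (π : R →+* D)
    (hπx : ∀ c : R, x ∣ c → π c = 0) : h.map π = X ^ p + C (π e₀) * X - C (π g) := by
  have h0 : (h - (X ^ p + C e₀ * X - C g)).map π = 0 := by
    ext i
    rw [coeff_map, coeff_zero]
    exact hπx _ (hcong i)
  rw [Polynomial.map_sub, sub_eq_zero] at h0
  rw [h0, Polynomial.map_sub, Polynomial.map_add, Polynomial.map_pow, Polynomial.map_mul, map_X,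
    map_C, map_C]

/-- **the splitting of the branch**, congruence form: `∏ c, (θ - α c) ∈ x S`. -/
theorem dvd_prod_of_congr [CharP D p] {x e₀ g : R} {h : R[X]} {θ : S} (hroot : aeval θ h = 0)
    (hcong : ∀ i, x ∣ (h - (X ^ p + C e₀ * X - C g)).coeff i) (φ : S →+* D)
    (hφx : ∀ c : R, φ (algebraMap R S c) = 0 ↔ x ∣ c) {η : D}
    (hη : η ^ (p - 1) = -φ (algebraMap R S e₀)) (hη0 : η ≠ 0) (α : ZMod p → R)
    (hα : ∀ c, φ (algebraMap R S (α c)) = asRoot (φ θ) η c) :
    algebraMap R S x ∣ ∏ c : ZMod p, (θ - algebraMap R S (α c)) := by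
  set π : R →+* D := φ.comp (algebraMap R S) with hπdef
  have hmapπ : h.map π = X ^ p + C (π e₀) * X - C (π g) :=
    map_eq_of_congr hcong π fun c hc => (hφx c).2 hc
  have hβ : (φ θ) ^ p + π e₀ * φ θ - π g = 0 := by
    have h1 : φ (aeval θ h) = 0 := by rw [hroot, map_zero]
    rw [aeval_def, hom_eval₂, ← eval_map, hmapπ] at h1
    rw [eval_sub, eval_add, eval_mul, eval_pow, eval_X, eval_C, eval_C] at h1
    exact h1
  have hprod := as_eq_prod (p := p) hβ hη hη0
  have hmap : (h - ∏ c : ZMod p, (X - C (α c))).map π = 0 := by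
    rw [Polynomial.map_sub, hmapπ, hprod, Polynomial.map_prod, sub_eq_zero]
    refine Finset.prod_congr rfl fun c _ => ?_
    rw [Polynomial.map_sub, map_X, map_C]
    congr 2
    exact (hα c).symm
  have hdvd : C x ∣ h - ∏ c : ZMod p, (X - C (α c)) := by
    rw [C_dvd_iff_dvd_coeff]
    intro n
    refine (hφx _).1 ?_
    have h' := congrArg (fun P : D[X] => P.coeff n) hmap
    simp only [coeff_map, coeff_zero] at h'
    exact h'
  obtain ⟨T, hT⟩ := hdvd
  have h2 := congrArg (aeval θ) hT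
  rw [map_sub, hroot, map_mul, aeval_C, map_prod] at h2
  refine ⟨-aeval θ T, ?_⟩
  have h3 : ∏ c : ZMod p, aeval θ (X - C (α c)) = ∏ c : ZMod p, (θ - algebraMap R S (α c)) :=
    Finset.prod_congr rfl fun c _ => by rw [map_sub, aeval_X, aeval_C]
  rw [← h3]
  linear_combination -h2

variable [IsNoetherianRing S] [ValuationRing D]

/-- **(L-b)-ABSTRACT, congruence form, `D` of characteristic `p` as an instance.** -/
theorem ufd_of_artinSchreier_congr_charP [CharP D p] {θ : S} (x e₀ g : R) (h : R[X])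
    (hm : h.Monic) (hθ : Algebra.adjoin R {θ} = ⊤) (hroot : aeval θ h = 0)
    (hcong : ∀ i, x ∣ (h - (X ^ p + C e₀ * X - C g)).coeff i)
    (hx0 : algebraMap R S x ≠ 0) (φ : S →+* D)
    (hφR : Function.Surjective (φ.comp (algebraMap R S)))
    (hφx : ∀ c : R, φ (algebraMap R S c) = 0 ↔ x ∣ c) (η : D)
    (hη : η ^ (p - 1) = -φ (algebraMap R S e₀)) (hε : IsUnit (φ (algebraMap R S e₀))) :
    UniqueFactorizationMonoid (Localization.AtPrime (Ideal.comap φ (maximalIdeal D))) ∧
      Prime (algebraMap S (Localization.AtPrime (Ideal.comap φ (maximalIdeal D)))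
        (algebraMap R S x)) := by
  have hpp : p.Prime := Fact.out
  have hηu : IsUnit η := by
    have h1 : IsUnit (η ^ (p - 1)) := by rw [hη]; exact hε.neg
    exact (isUnit_pow_iff (Nat.sub_ne_zero_of_lt hpp.one_lt)).1 h1
  choose α hα using fun c : ZMod p => hφR (asRoot (φ θ) η c)
  have hα' : ∀ c, φ (algebraMap R S (α c)) = asRoot (φ θ) η c := hα
  refine EtaleUFD.ufd_of_split hθ x hx0 α
    (dvd_prod_of_congr hroot hcong φ hφx hη hηu.ne_zero α hα') 0 φ ?_ ?_ hφR hφx
  · rw [hα' 0, asRoot_zero]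
  · intro c hc
    rw [hα' 0, hα' c, asRoot_zero_sub]
    exact (((Ne.isUnit hc).map (ZMod.castHom (dvd_refl p) D)).mul hηu).neg

/-- **(L-b)-ABSTRACT, congruence form** (helper84 6355): `x ∣ p` in `R` gives the characteristic. -/
theorem ufd_of_artinSchreier_congr {θ : S} (x e₀ g : R) (hxp : x ∣ (p : R)) (h : R[X])
    (hm : h.Monic) (hθ : Algebra.adjoin R {θ} = ⊤) (hroot : aeval θ h = 0)
    (hcong : ∀ i, x ∣ (h - (X ^ p + C e₀ * X - C g)).coeff i)
    (hx0 : algebraMap R S x ≠ 0) (φ : S →+* D)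
    (hφR : Function.Surjective (φ.comp (algebraMap R S)))
    (hφx : ∀ c : R, φ (algebraMap R S c) = 0 ↔ x ∣ c) (η : D)
    (hη : η ^ (p - 1) = -φ (algebraMap R S e₀)) (hε : IsUnit (φ (algebraMap R S e₀))) :
    UniqueFactorizationMonoid (Localization.AtPrime (Ideal.comap φ (maximalIdeal D))) ∧
      Prime (algebraMap S (Localization.AtPrime (Ideal.comap φ (maximalIdeal D)))
        (algebraMap R S x)) := by
  have hpp : p.Prime := Fact.out
  have hpD : (p : D) = 0 := by
    have h1 := (hφx (p : R)).2 hxp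
    rwa [map_natCast, map_natCast] at h1
  have : CharP D p := (CharP.charP_iff_prime_eq_zero hpp).2 hpD
  exact ufd_of_artinSchreier_congr_charP x e₀ g h hm hθ hroot hcong hx0 φ hφR hφx η hη hε

end Fermat.Agent.GF.KCover.Node.ASCongr
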