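/-
GATE-F (S40) / GF-KCOVER-INST, node side (helper84), file 3: `CoverFrame.exists_tropical_const`
(helper31, S4 of GRAPH v1) with the node relation in CONGRUENCE form, which is what
`Arith.node_congr_zmod` produces over the ramified base `K' = K0(ζ_p)`:

  `w₂ (j + b s) f − w₁ (j + a s) f ≡ E s · m_s(x)  (mod p)`,   `E s = (p − 1) · e_s`.

No new mathematics: helper31's theorem with `e := 1`, `n s j := w₂ (j + b s) f − w₁ (j + a s) f`.
-/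
import Fermat.Agent.GF.KCover.Frame

set_option autoImplicit false
set_option linter.unusedSectionVars false

namespace Fermat.Agent.GF.KCover.Node.Congr

open Fermat.Agent.GF.KCover

variable {p : ℕ} {Γ : Type*} [Group Γ] {F' : Type*} [Field F'] [MulSemiringAction Γ F']
  {C : Subfield F'} (Φ : CoverFrame p Γ F' C)

/-- **S4 of GRAPH v1 with the node relation as a congruence.** -/
theorem exists_tropical_const_of_congr [Fact p.Prime]
    {f c₁ m : fixedUnits Γ F'} {a u h : F'} (ha : a ∈ C) (ha0 : a ≠ 0) (hu0 : u ≠ 0)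
    (hh0 : h ≠ 0) (hc₁ : ((c₁ : F'ˣ) : F') ∈ C) (hδu : Φ.δ u = u)
    (hf : ((f : F'ˣ) : F') = a * u * h ^ p) (hδf : Φ.δU f = f * c₁ * m ^ p)
    (κ : Γ → ℕ)
    (hκ : ∀ ρ : Γ, ∃ b hr : F', b ∈ C ∧ b ≠ 0 ∧ Φ.δ hr = hr ∧ hr ≠ 0 ∧
      ρ • u = b * u * Φ.G ^ (p * κ ρ) * hr ^ p)
    (hpeu : ∀ c : fixedUnits Γ F', ((c : F'ˣ) : F') ∈ C → ∀ t ∈ C, t ^ p = ((c : F'ˣ) : F') →
      (∀ ρ : Γ, ρ • t * Φ.ζ ^ κ ρ = t) → (p : ℤ) ∣ Φ.vK c)
    {ι : Type*} (as bs : ι → ZMod p) (E : ι → ℤ) (mx : ι → ZMod p)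
    (hcong : ∀ s j, ((Φ.w₂ (j + bs s) f - Φ.w₁ (j + as s) f : ℤ) : ZMod p) =
      ((E s : ℤ) : ZMod p) * mx s) :
    ∃ Cst : ZMod p, ∀ s, ((E s : ℤ) : ZMod p) * mx s = Cst := by
  obtain ⟨Cst, hC⟩ := Φ.exists_tropical_const ha ha0 hu0 hh0 hc₁ hδu hf hδf κ hκ hpeu as bs
    (fun _ => 1) (fun s j => Φ.w₂ (j + bs s) f - Φ.w₁ (j + as s) f) (fun s j => (one_mul _).symm)
    (fun s => ((E s : ℤ) : ZMod p) * mx s) hcong
  refine ⟨Cst, fun s => ?_⟩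
  have := hC s
  rwa [Int.cast_one, one_mul] at this

end Fermat.Agent.GF.KCover.Node.Congr
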