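/-
GATE-F / GF-KCOVER-NODE-U1 (helper54; leaf (U1) of helper84 6432): **the two statements of (U1) in the
EXACT spelling of 6432** — ring homs `j : F₀ →+* L`, `ψ k : F' →+* L` with `ψ k ∘ algebraMap = j`
(no `Algebra F₀ L` instance), and a VALUATION SUBRING `Ô` of `L` with membership in `Ô.nonunits`.

The mathematics is helper50's `GF/KCover/Node/MinpolyCongr.lean` (856a38c4, on main); this file is the
adapter:

* `map_minpoly_eq_prod_of_hom` : `h.map (j ∘ algebraMap R F₀) = ∏ k, (X - C (ψ k θ))`, `h := minpoly R θ`;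
* `conj_mem` : the conjugates `ψ k θ` lie in `Ô` as soon as `ψ k θ - j (α k) ∈ Ô.nonunits`;
* `coeff_sub_prod_mem_nonunits` : every coefficient `c_i` of `h - ∏ k, (X - C (α k))` has
  `j (c_i) ∈ Ô.nonunits`;
* `dvd_coeff_sub_prod` : the divisibility form `x ∣ c_i` when `j⁻¹(Ô.nonunits) ∩ R ⊆ x R`
  (= `hcong`-type input of `ASCongr`, to be chained with `MinpolyCongr.dvd_coeff_sub_trans`).
-/
import Mathlib
import Fermat.Agent.GF.KCover.Node.MinpolyCongr

set_option autoImplicit false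
set_option linter.unusedSectionVars false

namespace Fermat.Agent.GF.KCover.Node.MinpolyCongrU1

open Polynomial Fermat.Agent.GF.KCover.Node.MinpolyCongr

variable {R F₀ F' L ι : Type*} [CommRing R] [IsDomain R] [IsIntegrallyClosed R] [Field F₀]
  [Algebra R F₀] [IsFractionRing R F₀] [Field F'] [Algebra F₀ F'] [Algebra R F']
  [IsScalarTower R F₀ F'] [Field L] [Fintype ι]

/-- **(U1), first statement**: the minimal polynomial over `R` maps to the product over the
`card ι = deg` pairwise distinct conjugates `ψ k θ`. -/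
theorem map_minpoly_eq_prod_of_hom (θ : F') (hθ : IsIntegral R θ) (j : F₀ →+* L)
    (ψ : ι → (F' →+* L)) (hψ : ∀ k, (ψ k).comp (algebraMap F₀ F') = j)
    (hcard : Fintype.card ι = (minpoly R θ).natDegree)
    (hinj : Function.Injective fun k => ψ k θ) :
    (minpoly R θ).map (j.comp (algebraMap R F₀)) = ∏ k, (X - C (ψ k θ)) := by
  letI : Algebra F₀ L := j.toAlgebra
  let ε : ι → (F' →ₐ[F₀] L) := fun k =>
    { ψ k with
      commutes' := fun a => by
        show ψ k (algebraMap F₀ F' a) = j a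
        rw [← hψ k]
        rfl }
  have hε : ∀ k, ε k θ = ψ k θ := fun k => rfl
  have h1 := map_minpoly_int_eq_prod (R := R) (F₀ := F₀) (L := L) θ hθ ε hcard.symm
    (by simpa only [hε] using hinj)
  have h2 : algebraMap F₀ L = j := RingHom.algebraMap_toAlgebra j
  rw [h2] at h1
  exact h1

variable (Ô : ValuationSubring L)

/-- the conjugates lie in `Ô`. -/
theorem conj_mem (θ : F') (j : F₀ →+* L) (ψ : ι → (F' →+* L))
    (hjR : ∀ r : R, j (algebraMap R F₀ r) ∈ Ô) (α : ι → R)
    (hα : ∀ k, ψ k θ - j (algebraMap R F₀ (α k)) ∈ Ô.nonunits) (k : ι) : ψ k θ ∈ Ô := by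
  have h1 : ψ k θ - j (algebraMap R F₀ (α k)) ∈ Ô := Ô.nonunits_subset (hα k)
  have h2 := Ô.add_mem _ _ h1 (hjR (α k))
  rwa [sub_add_cancel] at h2

/-- **(U1), second statement**: every coefficient `c_i` of `minpoly R θ - ∏ k, (X - C (α k))` has
`j (c_i) ∈ Ô.nonunits`. -/
theorem coeff_sub_prod_mem_nonunits (θ : F') (hθ : IsIntegral R θ) (j : F₀ →+* L)
    (ψ : ι → (F' →+* L)) (hψ : ∀ k, (ψ k).comp (algebraMap F₀ F') = j)
    (hcard : Fintype.card ι = (minpoly R θ).natDegree)
    (hinj : Function.Injective fun k => ψ k θ)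
    (hjR : ∀ r : R, j (algebraMap R F₀ r) ∈ Ô) (α : ι → R)
    (hα : ∀ k, ψ k θ - j (algebraMap R F₀ (α k)) ∈ Ô.nonunits) (i : ℕ) :
    j (algebraMap R F₀ ((minpoly R θ - ∏ k, (X - C (α k))).coeff i)) ∈ Ô.nonunits := by
  set j' : R →+* L := j.comp (algebraMap R F₀) with hj'
  -- the two families in `Ô`
  let a : ι → Ô := fun k => ⟨ψ k θ, conj_mem Ô θ j ψ hjR α hα k⟩
  let b : ι → Ô := fun k => ⟨j' (α k), hjR (α k)⟩
  have hab : ∀ k, a k - b k ∈ IsLocalRing.maximalIdeal Ô := by
    intro k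
    rw [← ValuationSubring.coe_mem_nonunits_iff]
    exact hα k
  have hmem := coeff_prod_sub_prod_mem (IsLocalRing.maximalIdeal Ô) a b hab i
  -- compare in `L`
  have hA : (∏ k, (X - C (a k))).map Ô.subtype = (minpoly R θ).map j' := by
    rw [map_minpoly_eq_prod_of_hom θ hθ j ψ hψ hcard hinj, Polynomial.map_prod]
    refine Finset.prod_congr rfl fun k _ => ?_
    rw [Polynomial.map_sub, map_X, map_C]
    rfl
  have hB : (∏ k, (X - C (b k))).map Ô.subtype = (∏ k, (X - C (α k))).map j' := by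
    rw [Polynomial.map_prod, Polynomial.map_prod]
    refine Finset.prod_congr rfl fun k _ => ?_
    rw [Polynomial.map_sub, Polynomial.map_sub, map_X, map_X, map_C, map_C]
    rfl
  have hcoe : ((∏ k, (X - C (a k)) - ∏ k, (X - C (b k))).coeff i : L)
      = j' ((minpoly R θ - ∏ k, (X - C (α k))).coeff i) := by
    have h1 : ((∏ k, (X - C (a k)) - ∏ k, (X - C (b k))).map Ô.subtype).coeff i
        = ((minpoly R θ - ∏ k, (X - C (α k))).map j').coeff i := by
      rw [Polynomial.map_sub, Polynomial.map_sub, hA, hB]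
    rw [coeff_map, coeff_map] at h1
    exact h1
  rw [← ValuationSubring.coe_mem_nonunits_iff, hcoe] at hmem
  exact hmem

/-- **divisibility form**: if the elements of `R` landing in `Ô.nonunits` are the multiples of `x`,
then `x ∣ (minpoly R θ - ∏ k, (X - C (α k))).coeff i`. -/
theorem dvd_coeff_sub_prod (θ : F') (hθ : IsIntegral R θ) (j : F₀ →+* L)
    (ψ : ι → (F' →+* L)) (hψ : ∀ k, (ψ k).comp (algebraMap F₀ F') = j)
    (hcard : Fintype.card ι = (minpoly R θ).natDegree)
    (hinj : Function.Injective fun k => ψ k θ)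
    (hjR : ∀ r : R, j (algebraMap R F₀ r) ∈ Ô) (α : ι → R)
    (hα : ∀ k, ψ k θ - j (algebraMap R F₀ (α k)) ∈ Ô.nonunits)
    (x : R) (hker : ∀ r : R, j (algebraMap R F₀ r) ∈ Ô.nonunits → x ∣ r) (i : ℕ) :
    x ∣ (minpoly R θ - ∏ k, (X - C (α k))).coeff i :=
  hker _ (coeff_sub_prod_mem_nonunits Ô θ hθ j ψ hψ hcard hinj hjR α hα i)

end Fermat.Agent.GF.KCover.Node.MinpolyCongrU1
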