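/-
GATE-F (S44) / GF-KCOVER-INST, node side (helper84), leaf (L-c) ABSTRACT, file 2:
**NL0 at a point of the cover, ASSEMBLED** from the abstract pieces on main
(`EtaleUFD.ufd_of_split` + `EtaleUFD.exists_dvd_of_split` + `ASResidue.exists_hom_of_isIntegral`
+ `Upstairs.nl0`), purely ring-theoretic: no level, no modular object.

Downstairs: `R` = the LOCAL ring of the `K₀`-model at the point (`R := locSub F₀ 𝔫`), `x₁ x₂ ∈ R`
local equations of the two branches through the point, `π_i : R ↠ D_i` onto the discrete valuation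
ring of the branch (`π_i c = 0 ↔ x_i ∣ c`), `p0 ∣ x₂ x₁` the residue characteristic.  A smooth point
(type I) is the special case "both branches equal" (`x₁ = x₂`, `p0 ∣ x₁ x₁`).

Upstairs: `S = R[θ]` (`θ := Tr_Δ~ Z'`), `K = Frac S` (`= fixedTame x`), on each branch `i` the
residues of the conjugates of `θ` have lifts `α_i k ∈ R` (`k : ι`, `ι = ZMod p`) with
`∏ k, (θ − α_i k) ∈ x_i S` (`MinpolyCongr` + `h(θ) = 0`), pairwise incongruent modulo `𝔪(D_i)`;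
the point of the cover is the sheet `j_i` on branch `i`, and the two sheets MEET:
`α₁ j₁ − α₂ j₂ ∈ 𝔪_R` (`hnode`).

* `comap_eq_of_same_point` : `φ₁⁻¹ 𝔪(D₁) = φ₂⁻¹ 𝔪(D₂)` (the same point of `Spec S`);
* `nl0_of_split` : NL0 with the ring homs `φ_i : S → D_i` given;
* `nl0_of_residue` : NL0 with residue maps `Φ_i : S → κ_i = Frac D_i` (the residue maps of the
  branch valuations of the cover restricted to `S`): `φ_i` is produced by integrality of `θ`.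
-/
import Fermat.Agent.GF.KCover.Node.Upstairs
import Fermat.Agent.GF.KCover.Node.EtaleUFD
import Fermat.Agent.GF.KCover.Node.ASResidue

set_option autoImplicit false
set_option linter.unusedSectionVars false
set_option linter.unusedVariables false

noncomputable section

namespace Fermat.Agent.GF.KCover.Node.NL0Asm

open IsLocalRing Polynomial

/-! ### The two branch descriptions give the same point of `Spec R[θ]` -/

section SamePoint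

variable {R S D : Type*} [CommRing R] [IsLocalRing R] [CommRing S] [Algebra R S]
  [CommRing D] [IsLocalRing D]

/-- membership in `φ⁻¹ 𝔪(D)` is read off the value at `a` (`φ θ = φ a`). -/
theorem aeval_mem_comap_iff {θ : S} (φ : S →+* D)
    (hφR : Function.Surjective (φ.comp (algebraMap R S))) {a : R}
    (h : φ θ = φ (algebraMap R S a)) (P : R[X]) :
    aeval θ P ∈ Ideal.comap φ (maximalIdeal D) ↔ P.eval a ∈ maximalIdeal R := by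
  have hloc : IsLocalHom (φ.comp (algebraMap R S)) := IsLocalHom.of_surjective _ hφR
  have h1 : φ (aeval θ P) = (φ.comp (algebraMap R S)) (P.eval a) := by
    rw [aeval_def, hom_eval₂, h, ← RingHom.comp_apply, eval₂_at_apply]
  rw [Ideal.mem_comap, h1, mem_maximalIdeal, mem_maximalIdeal, mem_nonunits_iff,
    mem_nonunits_iff, not_iff_not]
  constructor
  · intro hu
    exact hloc.map_nonunit _ hu
  · intro hu
    exact hu.map _

/-- **the same point**: two branch descriptions `φ₁ φ₂` of points of `Spec R[θ]` over the closed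
point of `R` with `θ ≡ a₁` resp. `θ ≡ a₂` and `a₁ ≡ a₂ mod 𝔪_R` cut out the same prime. -/
theorem comap_eq_of_same_point {D₂ : Type*} [CommRing D₂] [IsLocalRing D₂] {θ : S}
    (hθ : Algebra.adjoin R {θ} = ⊤) (φ₁ : S →+* D) (φ₂ : S →+* D₂)
    (hφR₁ : Function.Surjective (φ₁.comp (algebraMap R S)))
    (hφR₂ : Function.Surjective (φ₂.comp (algebraMap R S))) {a₁ a₂ : R}
    (h₁ : φ₁ θ = φ₁ (algebraMap R S a₁)) (h₂ : φ₂ θ = φ₂ (algebraMap R S a₂))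
    (ha : a₁ - a₂ ∈ maximalIdeal R) :
    Ideal.comap φ₁ (maximalIdeal D) = Ideal.comap φ₂ (maximalIdeal D₂) := by
  ext s
  have hs : s ∈ Algebra.adjoin R {θ} := by rw [hθ]; exact Algebra.mem_top
  rw [Algebra.adjoin_singleton_eq_range_aeval] at hs
  obtain ⟨P, rfl⟩ := hs
  change aeval θ P ∈ _ ↔ aeval θ P ∈ _
  rw [aeval_mem_comap_iff φ₁ hφR₁ h₁ P, aeval_mem_comap_iff φ₂ hφR₂ h₂ P]
  have hd : P.eval a₁ - P.eval a₂ ∈ maximalIdeal R := by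
    obtain ⟨c, hc⟩ := sub_dvd_eval_sub a₁ a₂ P
    rw [hc]
    exact Ideal.mul_mem_right _ _ ha
  constructor
  · intro h
    have := Ideal.sub_mem _ h hd
    rwa [sub_sub_cancel] at this
  · intro h
    have := Ideal.add_mem _ hd h
    rwa [sub_add_cancel] at this

end SamePoint

/-! ### NL0 with the ring homs `φ_i : R[θ] → D_i` given -/

section Split

variable {R S K D₁ D₂ : Type*} [CommRing R] [IsLocalRing R] [CommRing S] [IsDomain S]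
  [IsNoetherianRing S] [Algebra R S] [Field K] [Algebra S K] [IsFractionRing S K]
  [CommRing D₁] [IsDomain D₁] [ValuationRing D₁] [CommRing D₂] [IsDomain D₂] [ValuationRing D₂]
  {ι : Type*} [Fintype ι] [DecidableEq ι]

/-- the other sheets do not pass through the point. -/
theorem sub_notMem_comap {D : Type*} [CommRing D] [IsLocalRing D] {θ : S} (φ : S →+* D)
    (α : ι → R) (j : ι) (hφθ : φ θ = φ (algebraMap R S (α j)))
    (hα : ∀ i, i ≠ j → IsUnit (φ (algebraMap R S (α j)) - φ (algebraMap R S (α i)))) :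
    ∀ i, i ≠ j → θ - algebraMap R S (α i) ∉ Ideal.comap φ (maximalIdeal D) := by
  intro i hij hmem
  rw [Ideal.mem_comap, mem_maximalIdeal, mem_nonunits_iff, map_sub, hφθ] at hmem
  exact hmem (hα i hij)

set_option maxHeartbeats 1000000 in
/-- **NL0 at a point of the cover, assembled (ring homs `φ_i` given).** -/
theorem nl0_of_split {θ : S} (hθ : Algebra.adjoin R {θ} = ⊤)
    (x₁ x₂ p0 : R) (hxy : p0 ∣ x₂ * x₁)
    (hx₁0 : algebraMap R S x₁ ≠ 0) (hx₂0 : algebraMap R S x₂ ≠ 0)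
    -- branch 1
    (φ₁ : S →+* D₁) (hφR₁ : Function.Surjective (φ₁.comp (algebraMap R S)))
    (hφx₁ : ∀ c : R, φ₁ (algebraMap R S c) = 0 ↔ x₁ ∣ c)
    (α₁ : ι → R) (hsplit₁ : algebraMap R S x₁ ∣ ∏ i, (θ - algebraMap R S (α₁ i)))
    (j₁ : ι) (hφθ₁ : φ₁ θ = φ₁ (algebraMap R S (α₁ j₁)))
    (hα₁ : ∀ i, i ≠ j₁ → IsUnit (φ₁ (algebraMap R S (α₁ j₁)) - φ₁ (algebraMap R S (α₁ i))))
    -- branch 2
    (φ₂ : S →+* D₂) (hφR₂ : Function.Surjective (φ₂.comp (algebraMap R S)))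
    (hφx₂ : ∀ c : R, φ₂ (algebraMap R S c) = 0 ↔ x₂ ∣ c)
    (α₂ : ι → R) (hsplit₂ : algebraMap R S x₂ ∣ ∏ i, (θ - algebraMap R S (α₂ i)))
    (j₂ : ι) (hφθ₂ : φ₂ θ = φ₂ (algebraMap R S (α₂ j₂)))
    (hα₂ : ∀ i, i ≠ j₂ → IsUnit (φ₂ (algebraMap R S (α₂ j₂)) - φ₂ (algebraMap R S (α₂ i))))
    -- the two sheets meet
    (hnode : α₁ j₁ - α₂ j₂ ∈ maximalIdeal R)
    -- the branch valuation rings of the cover
    (W₁ W₂ : ValuationSubring K)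
    (hSW₁ : ∀ a : S, algebraMap S K a ∈ W₁) (hSW₂ : ∀ a : S, algebraMap S K a ∈ W₂)
    (hWφ₁ : ∀ a : S, algebraMap S K a ∈ W₁.nonunits ↔ φ₁ a = 0)
    (hWφ₂ : ∀ a : S, algebraMap S K a ∈ W₂.nonunits ↔ φ₂ a = 0)
    {Fb : Type*} [Field Fb] (ρ : W₁ →+* Fb) (hρ : ∀ w : W₁, ρ w = 0 ↔ (w : K) ∈ W₁.nonunits)
    (v : Fb → ℤ) (hv : ∀ a b : Fb, a ≠ 0 → b ≠ 0 → v (a * b) = v a + v b)
    (hvφ : ∀ a : S, IsUnit (φ₁ a) → v (ρ ⟨algebraMap S K a, hSW₁ a⟩) = 0)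
    (m : ℕ) (u : K) (hu0 : u ≠ 0) (hu1 : u ∈ W₁) (hu1' : u⁻¹ ∈ W₁) (hu2 : u ∈ W₂)
    (hu2' : u⁻¹ ∈ W₂)
    (hhor : ∀ V : ValuationSubring K, IsDiscreteValuationRing V →
      (∀ a : S, algebraMap S K a ∈ V) →
      (∀ a : S, algebraMap S K a ∈ V.nonunits → a ∈ Ideal.comap φ₂ (maximalIdeal D₂)) →
      (algebraMap S K (algebraMap R S p0))⁻¹ ∈ V →
      ∃ z : K, z ≠ 0 ∧ u * z ^ m ∈ V ∧ (u * z ^ m)⁻¹ ∈ V) :
    (m : ℤ) ∣ v (ρ ⟨u, hu1⟩) := by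
  have hinj : Function.Injective (algebraMap S K) := IsFractionRing.injective S K
  -- the point
  have hsame : Ideal.comap φ₁ (maximalIdeal D₁) = Ideal.comap φ₂ (maximalIdeal D₂) :=
    comap_eq_of_same_point hθ φ₁ φ₂ hφR₁ hφR₂ hφθ₁ hφθ₂ hnode
  -- factoriality at the point (branch 2 description)
  obtain ⟨hufd, -⟩ := EtaleUFD.ufd_of_split hθ x₂ hx₂0 α₂ hsplit₂ j₂ φ₂ hφθ₂ hα₂ hφR₂ hφx₂
  have hα𝔫₂ := sub_notMem_comap φ₂ α₂ j₂ hφθ₂ hα₂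
  have hα𝔫₁ : ∀ i, i ≠ j₁ → θ - algebraMap R S (α₁ i) ∉ Ideal.comap φ₂ (maximalIdeal D₂) := by
    rw [← hsame]
    exact sub_notMem_comap φ₁ α₁ j₁ hφθ₁ hα₁
  -- `W_i ≠ ⊤`
  have htop : ∀ (W : ValuationSubring K) (a : S), a ≠ 0 → algebraMap S K a ∈ W.nonunits →
      W ≠ ⊤ := by
    intro W a ha0 ha hW
    have ha0' : algebraMap S K a ≠ 0 := fun h => ha0 (hinj (by rw [h, map_zero]))
    refine NodeLemma.not_mem_nonunits W ha0' ?_ ?_ ha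
    · rw [hW]; exact ValuationSubring.mem_top _
    · rw [hW]; exact ValuationSubring.mem_top _
  have hW₁ : W₁ ≠ ⊤ :=
    htop W₁ _ hx₁0 ((hWφ₁ _).2 ((hφx₁ x₁).2 dvd_rfl))
  have hW₂ : W₂ ≠ ⊤ :=
    htop W₂ _ hx₂0 ((hWφ₂ _).2 ((hφx₂ x₂).2 dvd_rfl))
  refine Upstairs.nl0 (𝔫 := Ideal.comap φ₂ (maximalIdeal D₂)) W₁ W₂ hSW₁ hSW₂ ?_ ?_ hW₁ hW₂
    (x := algebraMap R S x₂) (y := algebraMap R S x₁) (p0 := algebraMap R S p0)
    ?_ ?_ ?_ ρ hρ v hv ?_ m u hu0 hu1 hu1' hu2 hu2' hhor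
  · -- centre of `W₁`
    intro a ha
    rw [← hsame, Ideal.mem_comap, (hWφ₁ a).1 ha]
    exact Ideal.zero_mem _
  · -- centre of `W₂`
    intro a ha
    rw [Ideal.mem_comap, (hWφ₂ a).1 ha]
    exact Ideal.zero_mem _
  · -- `hker₁`
    intro a ha
    exact EtaleUFD.exists_dvd_of_split hθ x₁ α₁ hsplit₁ j₁ φ₁ hφθ₁ (fun c hc => (hφx₁ c).1 hc)
      (Ideal.comap φ₂ (maximalIdeal D₂)) hα𝔫₁ a ((hWφ₁ a).1 ha)
  · -- `hker₂`
    intro a ha
    exact EtaleUFD.exists_dvd_of_split hθ x₂ α₂ hsplit₂ j₂ φ₂ hφθ₂ (fun c hc => (hφx₂ c).1 hc)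
      (Ideal.comap φ₂ (maximalIdeal D₂)) hα𝔫₂ a ((hWφ₂ a).1 ha)
  · -- `p0 ∣ x y`
    rw [← map_mul]
    exact map_dvd _ hxy
  · -- units at the point have order zero
    intro a ha
    refine hvφ a ?_
    rw [← hsame, Ideal.mem_comap, mem_maximalIdeal, mem_nonunits_iff, not_not] at ha
    exact ha

end Split

/-! ### NL0 with residue maps `Φ_i : R[θ] → κ_i = Frac D_i` -/

section Residue

variable {R S K D₁ D₂ κ₁ κ₂ : Type*} [CommRing R] [IsLocalRing R] [CommRing S] [IsDomain S]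
  [IsNoetherianRing S] [Algebra R S] [Field K] [Algebra S K] [IsFractionRing S K]
  [CommRing D₁] [IsDomain D₁] [ValuationRing D₁] [IsIntegrallyClosed D₁]
  [CommRing D₂] [IsDomain D₂] [ValuationRing D₂] [IsIntegrallyClosed D₂]
  [Field κ₁] [Algebra D₁ κ₁] [IsFractionRing D₁ κ₁] [Field κ₂] [Algebra D₂ κ₂]
  [IsFractionRing D₂ κ₂]
  {ι : Type*} [Fintype ι] [DecidableEq ι]

set_option maxHeartbeats 1000000 in
/-- **NL0 at a point of the cover, assembled (residue maps `Φ_i` into the residue FIELDS).**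
`W₁` is the valuation ring of the first branch with residue map `ρ : W₁ → κ₁`; `Φ₂` is the
restriction to `S` of the residue map of the second branch. -/
theorem nl0_of_residue {θ : S} (hθ : Algebra.adjoin R {θ} = ⊤) (hint : IsIntegral R θ)
    (x₁ x₂ p0 : R) (hxy : p0 ∣ x₂ * x₁)
    (hx₁0 : algebraMap R S x₁ ≠ 0) (hx₂0 : algebraMap R S x₂ ≠ 0)
    -- downstairs branches
    (π₁ : R →+* D₁) (hπ₁ : Function.Surjective π₁) (hπx₁ : ∀ c : R, π₁ c = 0 ↔ x₁ ∣ c)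
    (π₂ : R →+* D₂) (hπ₂ : Function.Surjective π₂) (hπx₂ : ∀ c : R, π₂ c = 0 ↔ x₂ ∣ c)
    -- the branch valuation rings of the cover and their residue maps on `S`
    (W₁ W₂ : ValuationSubring K)
    (hSW₁ : ∀ a : S, algebraMap S K a ∈ W₁) (hSW₂ : ∀ a : S, algebraMap S K a ∈ W₂)
    (ρ : W₁ →+* κ₁) (hρ : ∀ w : W₁, ρ w = 0 ↔ (w : K) ∈ W₁.nonunits)
    (hρπ : ∀ r : R, ρ ⟨algebraMap S K (algebraMap R S r), hSW₁ _⟩ = algebraMap D₁ κ₁ (π₁ r))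
    (Φ₂ : S →+* κ₂) (hΦ₂ : ∀ a : S, algebraMap S K a ∈ W₂.nonunits ↔ Φ₂ a = 0)
    (hΦπ₂ : ∀ r : R, Φ₂ (algebraMap R S r) = algebraMap D₂ κ₂ (π₂ r))
    -- the sheets
    (α₁ : ι → R) (hsplit₁ : algebraMap R S x₁ ∣ ∏ i, (θ - algebraMap R S (α₁ i)))
    (j₁ : ι) (hθ₁ : ρ ⟨algebraMap S K θ, hSW₁ θ⟩ = algebraMap D₁ κ₁ (π₁ (α₁ j₁)))
    (hα₁ : ∀ i, i ≠ j₁ → IsUnit (π₁ (α₁ j₁) - π₁ (α₁ i)))
    (α₂ : ι → R) (hsplit₂ : algebraMap R S x₂ ∣ ∏ i, (θ - algebraMap R S (α₂ i)))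
    (j₂ : ι) (hθ₂ : Φ₂ θ = algebraMap D₂ κ₂ (π₂ (α₂ j₂)))
    (hα₂ : ∀ i, i ≠ j₂ → IsUnit (π₂ (α₂ j₂) - π₂ (α₂ i)))
    (hnode : α₁ j₁ - α₂ j₂ ∈ maximalIdeal R)
    -- the order at the point on the first branch
    (v : κ₁ → ℤ) (hv : ∀ a b : κ₁, a ≠ 0 → b ≠ 0 → v (a * b) = v a + v b)
    (hvD : ∀ d : D₁, IsUnit d → v (algebraMap D₁ κ₁ d) = 0)
    (m : ℕ) (u : K) (hu0 : u ≠ 0) (hu1 : u ∈ W₁) (hu1' : u⁻¹ ∈ W₁) (hu2 : u ∈ W₂)
    (hu2' : u⁻¹ ∈ W₂)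
    (hhor : ∀ V : ValuationSubring K, IsDiscreteValuationRing V →
      (∀ a : S, algebraMap S K a ∈ V) →
      (algebraMap S K (algebraMap R S p0))⁻¹ ∈ V →
      ∃ z : K, z ≠ 0 ∧ u * z ^ m ∈ V ∧ (u * z ^ m)⁻¹ ∈ V) :
    (m : ℤ) ∣ v (ρ ⟨u, hu1⟩) := by
  have hinj₁ : Function.Injective (algebraMap D₁ κ₁) := IsFractionRing.injective D₁ κ₁
  have hinj₂ : Function.Injective (algebraMap D₂ κ₂) := IsFractionRing.injective D₂ κ₂
  -- the restriction of `ρ` to `S`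
  let Φ₁ : S →+* κ₁ := ρ.comp
    ((algebraMap S K).codRestrict W₁.toSubring fun a => hSW₁ a)
  have hΦ₁ : ∀ a : S, Φ₁ a = ρ ⟨algebraMap S K a, hSW₁ a⟩ := fun a => rfl
  obtain ⟨φ₁, hφΦ₁, hφπ₁⟩ := ASResidue.exists_hom_of_isIntegral hθ hint Φ₁ π₁
    (fun r => by rw [hΦ₁]; exact hρπ r)
  obtain ⟨φ₂, hφΦ₂, hφπ₂⟩ := ASResidue.exists_hom_of_isIntegral hθ hint Φ₂ π₂ hΦπ₂
  have hφπ₁' : ∀ r, φ₁ (algebraMap R S r) = π₁ r := fun r => by rw [← hφπ₁]; rfl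
  have hφπ₂' : ∀ r, φ₂ (algebraMap R S r) = π₂ r := fun r => by rw [← hφπ₂]; rfl
  refine nl0_of_split hθ x₁ x₂ p0 hxy hx₁0 hx₂0
    φ₁ (by rw [hφπ₁]; exact hπ₁) (fun c => by rw [hφπ₁' c]; exact hπx₁ c) α₁ hsplit₁ j₁ ?_ ?_
    φ₂ (by rw [hφπ₂]; exact hπ₂) (fun c => by rw [hφπ₂' c]; exact hπx₂ c) α₂ hsplit₂ j₂ ?_ ?_
    hnode W₁ W₂ hSW₁ hSW₂ ?_ ?_ ρ hρ v hv ?_ m u hu0 hu1 hu1' hu2 hu2'
    (fun V hV hSV _ hp0 => hhor V hV hSV hp0)
  · apply hinj₁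
    rw [hφΦ₁, hΦ₁, hθ₁, hφπ₁']
  · intro i hi
    rw [hφπ₁', hφπ₁']
    exact hα₁ i hi
  · apply hinj₂
    rw [hφΦ₂, hθ₂, hφπ₂']
  · intro i hi
    rw [hφπ₂', hφπ₂']
    exact hα₂ i hi
  · intro a
    rw [← hρ ⟨algebraMap S K a, hSW₁ a⟩, ← hΦ₁, ← hφΦ₁,
      map_eq_zero_iff _ hinj₁]
  · intro a
    rw [hΦ₂ a, ← hφΦ₂, map_eq_zero_iff _ hinj₂]
  · intro a ha
    rw [← hΦ₁, ← hφΦ₁]
    exact hvD _ ha

end Residue

end Fermat.Agent.GF.KCover.Node.NL0Asm
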