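/-
GATE-F (S40/S44) / GF-KCOVER-INST, leaf (L-c) (helper42; supplier row "W_i, ρ, Φ₂, hρπ" of helper84's
table 6584 [D]): **`NL0Asm.nl0_of_residue` in the `ordRed` spelling.**

`K0` = the `K₀`-model of the cover (`Frac S`, `S = O_s[θ]`; in the gate `fixedTame x`),
`ι' : K0 →+* F'` its embedding into the cover over `ℚ̄`, `R₁ R₂` the reduction data of the two sheets
`(1, j + a_s)`, `(2, j + b_s)` through the node (`Compl/RedCompl.sheet`), `Pl₁ = P s`, `Pl₂ = Q s` the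
node on the two components.  We instantiate

  `W_i := R_i.Rw.comap ι'`,  `ρ := R₁.red ∘ ι'`,  `Φ₂ := R₂.red ∘ ι'` on `S`,
  `κ_i := Ft_i`,  `D_i := Pl_i.toValuationSubring`,  `v := Pl₁.ord`;

`hρ`, `hΦ₂`, `hv`, `hvD` are automatic, and the conclusion reads `m ∣ ordRed R₁ hun₁ Pl₁ (ι' u)`.
-/
import Fermat.Agent.GF.KCover.Node.NL0Asm
import Fermat.Agent.GF.KCover.Node.NL0OrdRed

set_option autoImplicit false
set_option linter.unusedSectionVars false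

noncomputable section

open AlgebraicCurve IsLocalRing

namespace Fermat.Agent.GF.KCover.Node.NL0AsmOrdRed

open Fermat.Agent.GJ.J1 Fermat.Agent.S24 Fermat.Agent.GF.Trop
open Fermat.Agent.GF.KCover.Node.NLOrdRed Fermat.Agent.GF.KCover.Node.NL0OrdRed

variable {Kc F' k Ft₁ Ft₂ : Type*} [Field Kc] [Field F'] [Algebra Kc F'] [Field k] [Field Ft₁]
  [Algebra k Ft₁] [Field Ft₂] [Algebra k Ft₂]

/-- a unit of the valuation ring of a place has order zero -/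
theorem ord_eq_zero_of_isUnit {Ft : Type*} [Field Ft] [Algebra k Ft] (Pl : Place k Ft)
    (d : Pl.toValuationSubring) (hd : IsUnit d) : Pl.ord (d : Ft) = 0 := by
  obtain ⟨c, hc⟩ := hd.exists_right_inv
  have h1 : (d : Ft) * (c : Ft) = 1 := by
    have := congrArg Subtype.val hc
    simpa using this
  have hd0 : (d : Ft) ≠ 0 := left_ne_zero_of_mul_eq_one h1
  have hc0 : (c : Ft) ≠ 0 := right_ne_zero_of_mul_eq_one h1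
  have h2 : 0 ≤ Pl.ord (d : Ft) := (PlaceB.ord_nonneg_iff Pl hd0).2 d.2
  have h3 : 0 ≤ Pl.ord (c : Ft) := (PlaceB.ord_nonneg_iff Pl hc0).2 c.2
  have h4 := Place.ord_mul Pl hd0 hc0
  rw [h1, Place.ord_one] at h4
  omega

variable {R S K0 : Type*} [CommRing R] [IsLocalRing R] [CommRing S] [IsDomain S]
  [IsNoetherianRing S] [Algebra R S] [Field K0] [Algebra S K0] [IsFractionRing S K0]
  {ι : Type*} [Fintype ι] [DecidableEq ι]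

set_option maxHeartbeats 1000000 in
/-- **NL0 at a node of the cover, assembled, in the `ordRed` spelling.** -/
theorem nl0_of_residue_ordRed (ι' : K0 →+* F') (R₁ : RedData Kc F' k Ft₁) (hun₁ : Unram R₁)
    (R₂ : RedData Kc F' k Ft₂) (Pl₁ : Place k Ft₁) (Pl₂ : Place k Ft₂)
    {θ : S} (hθ : Algebra.adjoin R {θ} = ⊤) (hint : IsIntegral R θ)
    (x₁ x₂ p0 : R) (hxy : p0 ∣ x₂ * x₁)
    (hx₁0 : algebraMap R S x₁ ≠ 0) (hx₂0 : algebraMap R S x₂ ≠ 0)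
    (π₁ : R →+* Pl₁.toValuationSubring) (hπ₁ : Function.Surjective π₁)
    (hπx₁ : ∀ c : R, π₁ c = 0 ↔ x₁ ∣ c)
    (π₂ : R →+* Pl₂.toValuationSubring) (hπ₂ : Function.Surjective π₂)
    (hπx₂ : ∀ c : R, π₂ c = 0 ↔ x₂ ∣ c)
    (hSW₁ : ∀ a : S, ι' (algebraMap S K0 a) ∈ R₁.Rw)
    (hSW₂ : ∀ a : S, ι' (algebraMap S K0 a) ∈ R₂.Rw)
    (hρπ : ∀ r : R, R₁.red ⟨ι' (algebraMap S K0 (algebraMap R S r)), hSW₁ _⟩ = ((π₁ r : _) : Ft₁))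
    (hΦπ₂ : ∀ r : R, R₂.red ⟨ι' (algebraMap S K0 (algebraMap R S r)), hSW₂ _⟩ = ((π₂ r : _) : Ft₂))
    (α₁ : ι → R) (hsplit₁ : algebraMap R S x₁ ∣ ∏ i, (θ - algebraMap R S (α₁ i)))
    (j₁ : ι) (hθ₁ : R₁.red ⟨ι' (algebraMap S K0 θ), hSW₁ θ⟩ = ((π₁ (α₁ j₁) : _) : Ft₁))
    (hα₁ : ∀ i, i ≠ j₁ → IsUnit (π₁ (α₁ j₁) - π₁ (α₁ i)))
    (α₂ : ι → R) (hsplit₂ : algebraMap R S x₂ ∣ ∏ i, (θ - algebraMap R S (α₂ i)))
    (j₂ : ι) (hθ₂ : R₂.red ⟨ι' (algebraMap S K0 θ), hSW₂ θ⟩ = ((π₂ (α₂ j₂) : _) : Ft₂))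
    (hα₂ : ∀ i, i ≠ j₂ → IsUnit (π₂ (α₂ j₂) - π₂ (α₂ i)))
    (hnode : α₁ j₁ - α₂ j₂ ∈ maximalIdeal R)
    (m : ℕ) (u : K0) (hu0 : u ≠ 0) (hu1 : IsU R₁ (ι' u)) (hu2 : IsU R₂ (ι' u))
    (hhor : ∀ V : ValuationSubring K0, IsDiscreteValuationRing V →
      (∀ a : S, algebraMap S K0 a ∈ V) →
      (algebraMap S K0 (algebraMap R S p0))⁻¹ ∈ V →
      ∃ z : K0, z ≠ 0 ∧ u * z ^ m ∈ V ∧ (u * z ^ m)⁻¹ ∈ V) :
    (m : ℤ) ∣ ordRed R₁ hun₁ Pl₁ (ι' u) := by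
  have hu1' : u⁻¹ ∈ R₁.Rw.comap ι' := by
    show ι' u⁻¹ ∈ R₁.Rw
    rw [map_inv₀]
    exact hu1.2.2
  have hu2' : u⁻¹ ∈ R₂.Rw.comap ι' := by
    show ι' u⁻¹ ∈ R₂.Rw
    rw [map_inv₀]
    exact hu2.2.2
  -- the residue map of the second branch on `S`
  let Φ₂ : S →+* Ft₂ := (resHom ι' R₂).comp
    ((algebraMap S K0).codRestrict (R₂.Rw.comap ι').toSubring fun a => hSW₂ a)
  have hΦ₂ : ∀ a : S, Φ₂ a = R₂.red ⟨ι' (algebraMap S K0 a), hSW₂ a⟩ := fun a => rfl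
  have key := NL0Asm.nl0_of_residue (R := R) (S := S) (K := K0)
    (D₁ := Pl₁.toValuationSubring) (D₂ := Pl₂.toValuationSubring) (κ₁ := Ft₁) (κ₂ := Ft₂)
    hθ hint x₁ x₂ p0 hxy hx₁0 hx₂0 π₁ hπ₁ hπx₁ π₂ hπ₂ hπx₂
    (R₁.Rw.comap ι') (R₂.Rw.comap ι') hSW₁ hSW₂ (resHom ι' R₁) (resHom_eq_zero_iff ι' R₁)
    (fun r => hρπ r) Φ₂
    (fun a => by
      rw [hΦ₂]
      exact mem_nonunits_comap_iff ι' R₂ _ (hSW₂ a))
    (fun r => by rw [hΦ₂]; exact hΦπ₂ r)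
    α₁ hsplit₁ j₁ hθ₁ hα₁ α₂ hsplit₂ j₂ (by rw [hΦ₂]; exact hθ₂) hα₂ hnode
    (fun z => Pl₁.ord z) (fun a b ha hb => Place.ord_mul Pl₁ ha hb)
    (fun d hd => ord_eq_zero_of_isUnit Pl₁ d hd) m u hu0 hu1.2.1 hu1' hu2.2.1 hu2' hhor
  rw [ordRed_of_isU hun₁ Pl₁ hu1]
  exact key

end Fermat.Agent.GF.KCover.Node.NL0AsmOrdRed

end
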