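/-
GATE-F (S44) / GF-KCOVER-INST, node side (L-c), stage 2 seam (helper75): **the per-node theorem
`NL on Us` in the abstract Kummer frame, with the NL0 step as ONE binder.**

`NlNode.nl_node_abs` (helper42) = `NL0Plug.nl_on_subgroup ∘ PkgAsm.nl0_of_pkg ∘ …` has the
downstairs/sheet block of `nl0_of_pkg` (the NODE variant: thickness `l * s = c * y₂ * y₁`) as
binders.  Here the frame / tame generator / group blocks are kept VERBATIM and the block is replaced
by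

  `NL0 : ∀ (u : Us) (u₀ : E), toE u = u₀ → u₀ ≠ 0 → IsU R₁ (ι' u₀) → IsU R₂ (ι' u₀) →
            (p : ℤ) ∣ ordRed R₁ hun₁ Pl (ι' u₀)`     (`R_i := sheetK …`, `ι' := iotaE incl' E`)

so that ANY NL0 engine plugs: `SheetAsm.nl0_of_sheets` (node), `SheetAsm.nl0_of_sheets_typeI`
(smooth point, `hu2` ignored), or the modular `NodeMod/NodeK0Call.nl0_at_point` (node OR smooth,
`by_cases` inside) — the thickness never appears at this level.
-/
import Fermat.Agent.GF.KCover.Node.NlNode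

set_option autoImplicit false
set_option linter.unusedSectionVars false
set_option linter.unusedVariables false

noncomputable section

open Polynomial AlgebraicCurve

namespace Fermat.Agent.GF.KCover.Node.NlNodeNL0

open Fermat.Agent.GJ.J1 Fermat.Agent.S24 Fermat.Agent.GF.Trop
open Fermat.Agent.GF.KCover.Field Fermat.Agent.GF.KCover.Field.Disc
  Fermat.Agent.GF.KCover.Field.Pack
open Fermat.Agent.GF.KCover.Compl Fermat.Agent.GF.KCover.Compl.Bridge
  Fermat.Agent.GF.KCover.Compl.RedCompl Fermat.Agent.GF.KCover.Compl.RedAut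
  Fermat.Agent.GF.KCover.Compl.BridgeTau
open Fermat.Agent.GF.KCover.Node.OrdRedExt Fermat.Agent.GF.KCover.Node
open Fermat.Agent.GF.KCover.Node.NlNode

section Main

variable {K F k Ft Ft₂ : Type*} [Field K] [Field F] [Algebra K F] [Field k] [Field Ft]
  [Algebra k Ft] [Field Ft₂] [Algebra k Ft₂]
variable (Ra : RedData K F k Ft) (Rb : RedData K F k Ft₂)
variable {F' : Type*} [Field F'] [Algebra K F'] [Algebra F F'] [IsScalarTower K F F']
variable {E₁ : Type*} [Field E₁] {ϖ : E₁}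
  {va : Valuation E₁ (ValuationSubring.ValueGroup Ra.Rw)}
  {vb : Valuation E₁ (ValuationSubring.ValueGroup Rb.Rw)}
variable (incl : E₁ →+* F) (hincA : ∀ a : E₁, Ra.Rw.valuation (incl a) = va a)
  (hincB : ∀ a : E₁, Rb.Rw.valuation (incl a) = vb a)
variable (hA : IsDisc va ϖ) (hB : IsDisc vb ϖ)
variable (harchA : ∀ γ : ValuationSubring.ValueGroup Ra.Rw, γ ≠ 0 → ∃ n : ℕ, va ϖ ^ n < γ)
  (harchB : ∀ γ : ValuationSubring.ValueGroup Rb.Rw, γ ≠ 0 → ∃ n : ℕ, vb ϖ ^ n < γ)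
variable {E' : Type*} [Field E'] [Algebra E₁ E'] {p : ℕ} [NeZero p] {g₀ : E₁}
  (H₁ : IsAdjoinRoot E' (X ^ p - C g₀ : E₁[X])) {ζ : E₁} (hζ : IsPrimitiveRoot ζ p)
  {γa : Lc hA} (hγa : γa ^ p = jc hA g₀) {γb : Lc hB} (hγb : γb ^ p = jc hB g₀)
  (H : IsAdjoinRoot F' (X ^ p - C (incl g₀) : F[X]))
  (incl' : E' →+* F')
  (hincl' : ∀ a : E₁, incl' (algebraMap E₁ E' a) = algebraMap F F' (incl a))
  (hroot : incl' H₁.root = H.root)

include hincl' hroot in
set_option maxHeartbeats 1600000 in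
/-- **The per-node theorem, abstract frame, NL0 as a binder.**  Conclusion = the `NL` clause of
`F2Plug.NodeSupply` at one `(s, j)`. -/
theorem nl_node_of_nl0 (hunA : Unram Ra)
    -- the tame generator
    (τ : E₁ ≃+* E₁) (hτA : ∀ a, va (τ a) = va a) (hτB : ∀ a, vb (τ a) = vb a)
    (σ : F ≃+* F) (hσA : ∀ y : F, Ra.Rw.valuation (σ y) = Ra.Rw.valuation y)
    (hσK : ∀ c : K, ∃ c' : K, σ (algebraMap K F c) = algebraMap K F c')
    (hresA : ∀ (a : F) (ha : a ∈ Ra.Rw), Ra.red ⟨σ a, map_mem_Rw Ra σ hσA ha⟩ = Ra.red ⟨a, ha⟩)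
    (hcomm : ∀ a : E₁, incl (τ a) = σ (incl a))
    {x : E' ≃+* E'} (hx : IsOver (x : E' →+* E') (τ : E₁ →+* E₁))
    (hxδ : Commute (x : E' →+* E') (deck H₁ hζ)) (hg₀ : g₀ ≠ 0) {d : ℕ}
    (hd : Nat.Coprime d p) (hxd : (x : E' →+* E') ^ d = 1) (hτd : τ ^ d = 1)
    (E : Subfield E') (hE : ∀ y, y ∈ E ↔ x y = y)
    -- the group
    (G : Subgroup F'ˣ) (Us : Subgroup G) (a : Us →* Us) (toE : G → E')
    (htoE : ∀ y : G, incl' (toE y) = ((y : F'ˣ) : F'))
    (hmul : ∀ y z : G, toE (y * z) = toE y * toE z)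
    (ha : ∀ u : Us, toE ((a u : Us) : G) = x (toE (u : G)))
    (k₁ k₂ : ZMod p) (w1 w2 : G → ℤ)
    (hw1 : ∀ y : G, w1 y = wv hA H₁ hζ hγa k₁ (toE y))
    (hw2 : ∀ y : G, w2 y = wv hB H₁ hζ hγb k₂ (toE y))
    (Pl : Place k Ft)
    -- the NL0 engine, on the `x`-fixed elements of `Us`
    (NL0 : ∀ (u : Us) (u₀ : E), toE (u : G) = (u₀ : E') → u₀ ≠ 0 →
      IsU (sheetK Ra incl hincA hA harchA hζ hγa H k₁) (iotaE incl' E u₀) →
      IsU (sheetK Rb incl hincB hB harchB hζ hγb H k₂) (iotaE incl' E u₀) →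
      (p : ℤ) ∣ ordRed (sheetK Ra incl hincA hA harchA hζ hγa H k₁)
        (unram_sheetK Ra incl hincA hA harchA hζ hγa H hunA k₁) Pl (iotaE incl' E u₀))
    (y : G) (hy : y ∈ Us) (hy1 : w1 y = 0) (hy2 : w2 y = 0) :
    (p : ℤ) ∣ nodeOrd (sheetK Ra incl hincA hA harchA hζ hγa H k₁)
      (unram_sheetK Ra incl hincA hA harchA hζ hγa H hunA k₁) Pl G y := by
  have hne := toE_ne_zero incl' G toE htoE
  have hcop : IsCoprime (p : ℤ) (d : ℤ) := by
    exact_mod_cast (Nat.isCoprime_iff_coprime.2 hd.symm)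
  refine NL0Plug.nl_on_subgroup (K0 := E) (iotaE incl' E)
    (sheetK Ra incl hincA hA harchA hζ hγa H k₁)
    (unram_sheetK Ra incl hincA hA harchA hζ hγa H hunA k₁) Pl G Us a
    (iterate_eq_self incl' x G Us a toE htoE ha hxd) hcop w1 w2 ?_ ?_ ?_ ?_ ?_ ?_ ?_ y hy hy1 hy2
  · -- h1
    intro y z
    rw [hw1, hw1, hw1, hmul]
    exact wv_mul hA H₁ hζ hγa k₁ (hne y) (hne z)
  · -- h2
    intro y z
    rw [hw2, hw2, hw2, hmul]
    exact wv_mul hB H₁ hζ hγb k₂ (hne y) (hne z)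
  · -- i1
    intro u
    rw [hw1, hw1, ha]
    exact wv_tame hA H₁ hζ hγa τ hτA hx hxδ hg₀ hd hxd hτd k₁ (hne _)
  · -- i2
    intro u
    rw [hw2, hw2, ha]
    exact wv_tame hB H₁ hζ hγb τ hτB hx hxδ hg₀ hd hxd hτd k₂ (hne _)
  · -- inn
    refine inn_sheetK Ra incl hincA hA harchA H₁ hζ hγa H incl' hincl' hroot τ hτA σ hσA hx hxδ
      hunA hσK hresA hcomm hg₀ hd hxd hτd k₁ Pl G Us a ?_
    intro u
    exact ⟨toE (u : G), (htoE _).symm, by rw [← htoE, ha]⟩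
  · -- hfix
    intro u hu
    have hfix := toE_fixed_of_act_eq x G Us a toE ha u hu
    exact ⟨⟨toE (u : G), (hE _).2 hfix⟩, (htoE _).symm⟩
  · -- NL0
    intro u u₀ hu hu1 hu2
    have hinj : Function.Injective incl' := incl'.injective
    have htu : toE (u : G) = (u₀ : E') := by
      apply hinj
      rw [htoE]
      exact hu
    have hu₀E : (u₀ : E') ≠ 0 := by
      rw [← htu]
      exact hne _
    have hu₀ : u₀ ≠ 0 := fun h => hu₀E (by rw [h]; rfl)
    have hwa : wv hA H₁ hζ hγa k₁ (u₀ : E') = 0 := by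
      rw [← htu, ← hw1]
      exact hu1
    have hwb : wv hB H₁ hζ hγb k₂ (u₀ : E') = 0 := by
      rw [← htu, ← hw2]
      exact hu2
    have hU1 : IsU (sheetK Ra incl hincA hA harchA hζ hγa H k₁) (iotaE incl' E u₀) :=
      isU_sheetK_of_wv_eq_zero Ra incl hincA hA harchA H₁ hζ hγa H incl' hincl' hroot k₁ hu₀E hwa
    have hU2 : IsU (sheetK Rb incl hincB hB harchB hζ hγb H k₂) (iotaE incl' E u₀) :=
      isU_sheetK_of_wv_eq_zero Rb incl hincB hB harchB H₁ hζ hγb H incl' hincl' hroot k₂ hu₀E hwb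
    exact NL0 u u₀ htu hu₀ hU1 hU2

end Main

end Fermat.Agent.GF.KCover.Node.NlNodeNL0

end
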