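/-
GATE-F (S40/S44) / GF-KCOVER-INST, leaf (L-c) (helper42): **`Δ~`-invariance of the node order.**

`R' : RedData K F' k Ft` the reduction datum of ONE sheet of the cover, `x : F' ≃+* F'` a
(semilinear) automorphism which maps constants to constants, preserves the valuation ring of the
sheet and acts TRIVIALLY on its residue field (`x` inertial: a lift of an element of the inertia
group preserving the sheet).  Then `ordRed R' hun' Pl (x y) = ordRed R' hun' Pl y`, hence the node
order `OrdRedExt.nodeOrd` is invariant under `Field.Act.actS x S hS` — the binder `inn` of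
`Field.Act.nl_of_fixedTame` (helper3), i.e. of the descent (I2) of the node lemma.

* `ordRed_map_of_inertial`, `nodeOrd_actS`;
* `inertial_of_comm` : the hypotheses on a pulled-back datum `comapRed e RL` from
  `e ∘ x = τL ∘ e` (`Field/Split.emb_comp_eq`) and `τL` inertial on `RL`
  (`Field/Inertia.inertial_of_dense`, `Compl`).
-/
import Fermat.Agent.GF.KCover.Node.OrdRedExt
import Fermat.Agent.GF.KCover.Field.Act

set_option autoImplicit false
set_option linter.unusedSectionVars false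

noncomputable section

open AlgebraicCurve

namespace Fermat.Agent.GF.KCover.Node.NodeOrdInv

open Fermat.Agent.GJ.J1 Fermat.Agent.S24 Fermat.Agent.GF.Trop
open Fermat.Agent.GF.KCover.Node.OrdRedExt Fermat.Agent.GF.KCover.Field.Act

variable {K F' k Ft : Type*} [Field K] [Field F'] [Algebra K F'] [Field k] [Field Ft]
  [Algebra k Ft]

/-- **an inertial automorphism of a sheet preserves the node order.** -/
theorem ordRed_map_of_inertial (R' : RedData K F' k Ft) (hun' : Unram R') (Pl : Place k Ft)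
    (x : F' ≃+* F')
    (hK : ∀ c : K, ∃ c' : K, x (algebraMap K F' c) = algebraMap K F' c')
    (hmem : ∀ y : F', y ∈ R'.Rw → x y ∈ R'.Rw)
    (hred : ∀ (y : F') (hy : y ∈ R'.Rw), R'.red ⟨x y, hmem y hy⟩ = R'.red ⟨y, hy⟩) (y : F') :
    ordRed R' hun' Pl (x y) = ordRed R' hun' Pl y := by
  by_cases hy : y = 0
  · subst hy
    rw [map_zero]
  have hxy : x y ≠ 0 := by
    rw [Ne, map_eq_zero_iff x x.injective]
    exact hy
  obtain ⟨c, hc0, hm, hmi⟩ := hun' y hy
  have hcF : algebraMap K F' c ≠ 0 := by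
    rw [Ne, map_eq_zero_iff _ (algebraMap K F').injective]
    exact hc0
  have hU : IsU R' (algebraMap K F' c * y) := ⟨mul_ne_zero hcF hy, hm, hmi⟩
  obtain ⟨c', hc'⟩ := hK c
  have e : algebraMap K F' c' * x y = x (algebraMap K F' c * y) := by
    rw [map_mul, hc']
  have hU' : IsU R' (algebraMap K F' c' * x y) := by
    rw [e]
    refine ⟨?_, hmem _ hU.2.1, ?_⟩
    · rw [Ne, map_eq_zero_iff x x.injective]
      exact hU.1
    · rw [← map_inv₀]
      exact hmem _ hU.2.2
  rw [ordRed_eq hun' Pl hxy hU', ordRed_eq hun' Pl hy hU, ← hred _ hU.2.1]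
  congr 2
  exact Subtype.ext e

/-- **the binder `inn` of `Field.Act.nl_of_fixedTame`** for the node order. -/
theorem nodeOrd_actS (R' : RedData K F' k Ft) (hun' : Unram R') (Pl : Place k Ft)
    (x : F' ≃+* F') (S : Subgroup F'ˣ)
    (hS : ∀ u ∈ S, Units.map ((x : F' ≃+* F') : F' →* F') u ∈ S)
    (hK : ∀ c : K, ∃ c' : K, x (algebraMap K F' c) = algebraMap K F' c')
    (hmem : ∀ y : F', y ∈ R'.Rw → x y ∈ R'.Rw)
    (hred : ∀ (y : F') (hy : y ∈ R'.Rw), R'.red ⟨x y, hmem y hy⟩ = R'.red ⟨y, hy⟩) (u : S) :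
    nodeOrd R' hun' Pl S (actS x S hS u) = nodeOrd R' hun' Pl S u := by
  unfold nodeOrd
  rw [coe_actS]
  exact ordRed_map_of_inertial R' hun' Pl x hK hmem hred _

/-! ### the hypotheses on a pulled-back datum -/

section Comap

variable {L : Type*} [Field L] [Algebra K L]

/-- `x` is inertial on the pull-back `comapRed e RL` as soon as `e ∘ x = τL ∘ e` with `τL` inertial
on `RL`. -/
theorem inertial_of_comm (e : F' →ₐ[K] L) (RL : RedData K L k Ft) hsurj (x : F' ≃+* F')
    (τL : L ≃+* L) (hcomm : ∀ y : F', e (x y) = τL (e y))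
    (hτmem : ∀ z : L, z ∈ RL.Rw → τL z ∈ RL.Rw)
    (hτred : ∀ (z : L) (hz : z ∈ RL.Rw), RL.red ⟨τL z, hτmem z hz⟩ = RL.red ⟨z, hz⟩) :
    ∃ hmem : ∀ y : F', y ∈ (comapRed e RL hsurj).Rw → x y ∈ (comapRed e RL hsurj).Rw,
      ∀ (y : F') (hy : y ∈ (comapRed e RL hsurj).Rw),
        (comapRed e RL hsurj).red ⟨x y, hmem y hy⟩ = (comapRed e RL hsurj).red ⟨y, hy⟩ := by
  have hmem : ∀ y : F', y ∈ (comapRed e RL hsurj).Rw → x y ∈ (comapRed e RL hsurj).Rw := by
    intro y hy
    show e (x y) ∈ RL.Rw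
    rw [hcomm]
    exact hτmem _ hy
  refine ⟨hmem, fun y hy => ?_⟩
  rw [comapRed_red, comapRed_red, ← hτred (e y) hy]
  congr 1
  exact Subtype.ext (hcomm y)

/-- the node order of a pulled-back datum is invariant under `x` with `e ∘ x = τL ∘ e`,
`τL` inertial. -/
theorem ordRed_comapRed_map (e : F' →ₐ[K] L) (RL : RedData K L k Ft) hsurj (hunL : Unram RL)
    (Pl : Place k Ft) (x : F' ≃+* F')
    (hK : ∀ c : K, ∃ c' : K, x (algebraMap K F' c) = algebraMap K F' c')
    (τL : L ≃+* L) (hcomm : ∀ y : F', e (x y) = τL (e y))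
    (hτmem : ∀ z : L, z ∈ RL.Rw → τL z ∈ RL.Rw)
    (hτred : ∀ (z : L) (hz : z ∈ RL.Rw), RL.red ⟨τL z, hτmem z hz⟩ = RL.red ⟨z, hz⟩) (y : F') :
    ordRed (comapRed e RL hsurj) (unram_comapRed e RL hsurj hunL) Pl (x y) =
      ordRed (comapRed e RL hsurj) (unram_comapRed e RL hsurj hunL) Pl y := by
  obtain ⟨hmem, hred⟩ := inertial_of_comm e RL hsurj x τL hcomm hτmem hτred
  exact ordRed_map_of_inertial _ _ Pl x hK hmem hred y

end Comap

end Fermat.Agent.GF.KCover.Node.NodeOrdInv

end
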