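/-
GATE-F (S44) / GF-KCOVER-INST, node side (helper75): the input `hPl : ContainsC hℓN hA Pl` of
`NodeMod/NodeK0Call.nl0_at_point` from the frame: a place `Pl` of `F̃_{N'ℓ}` at which
`τ = red₁ j` (`GK/CuspSep/Witness.tauF`) is regular contains the coordinate ring `C`.

For the nodes `P s` of a nodal frame: `0 ≤ (P s).ord (tauF (M' * p) A)` is
`GF/Eis/Final.hoff_of_frameFacts M' A h FF s` (from `FrameFacts.offP`).
-/
import Fermat.Agent.GF.KCover.Node.NodeRingK0Level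
import Fermat.Agent.GK.CuspSep.Witness
import Fermat.Agent.GJ.J1.PlaceLattice

set_option autoImplicit false
set_option linter.unusedSectionVars false

noncomputable section

namespace Fermat.Agent.GF.KCover.Node.NodeRingK0Point

open ModularCurve IsLocalRing AlgebraicCurve
open Fermat.Agent.GJ.J1 Fermat.Agent.GJ.J1.Val Fermat.Agent.GJ.J1.Haupt
open Fermat.Agent.GK.AL Fermat.Agent.GK.QS Fermat.Agent.GK.CuspSep
open Fermat.Agent.Common_helper32
open Fermat.Agent.S24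
open Fermat.Agent.GL.Thick
open Fermat.Agent.GF.KCover.Node.NodeRingK0Level

variable {A : ValuationSubring Qb} {N' : ℕ} [NeZero N'] {ℓ : ℕ} [Fact ℓ.Prime] [NeZero ℓ]
  (hℓN : ¬ ℓ ∣ N') (hA : A.LiesOverPrime ℓ)

variable [IsDedekindDomain (CRing N' A)] [IsFractionRing (CRing N' A) (FresBar N' A)]

/-- `τ ∈ O_{Pl} ⟹ C ⊆ O_{Pl}`. -/
theorem containsC_of_tauF_mem (Pl : Place (IsLocalRing.ResidueField A) (FresBar (N' * ℓ) A))
    (hτ : tauF (N' * ℓ) A ∈ Pl.toValuationSubring) : ContainsC hℓN hA Pl :=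
  containsC_of_red1_jF_mem hℓN hA Pl (jF_mem_Rw (N' * ℓ) A) hτ

/-- **`0 ≤ ord_{Pl} τ ⟹ C ⊆ O_{Pl}`** (`hPl` of `nl0_at_point` from `hoff`). -/
theorem containsC_of_ord_tauF_nonneg
    (Pl : Place (IsLocalRing.ResidueField A) (FresBar (N' * ℓ) A))
    (h0 : 0 ≤ Pl.ord (tauF (N' * ℓ) A)) : ContainsC hℓN hA Pl :=
  containsC_of_tauF_mem hℓN hA Pl
    ((Fermat.Agent.GJ.J1.PlaceLattice.ord_nonneg_iff_mem Pl _).1 h0)

end Fermat.Agent.GF.KCover.Node.NodeRingK0Point
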