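/-
GATE-F (S44) / node GF-KCOVER-INST, node side (L-c): plug of leaf (U14) `hrank` (`RankP`, helper91)
on the abstract Kummer frame of helper3 (`GF/KCover/Field/Lift`) — the twin of helper37's
`FixedGenPlug.isFractionRing_adjoin_traceTame`, with the SAME binders.

`δ := DeckFixed.deckEquiv H hζ _`, `F0 := DeckFixed.fixedBoth δ x`, `E` the fixed field of the tame
generator `x`, `θ = traceTame x d Z'`:

* `fixedBoth_le` : `fixedBoth δ x ≤ E`;
* **`finrank_fixedBoth_traceTame`** : `finrank (fixedBoth δ x) E = p`, `Module.Finite`,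
  `natDegree (minpoly _ θ) = p` (algebra := `Subfield.inclusion`);
* **`hrank_of_model`** : for an ABSTRACT model `F₀` (`[Algebra F₀ E]`) of `fixedBoth δ x`
  (helper37's `RankModel`; in the gate `F₀ = modularFunctionFieldFullC (K0 A) N` with helper56's
  `K0Model.algK0x`): `Module.finrank F₀ E = p ∧ Module.Finite F₀ E` = the binder `hrank` and the
  instance `[FiniteDimensional F₀ K0]` of `SheetAsm.nl0_of_sheets`.
-/
import Mathlib
import Fermat.Agent.GF.KCover.Node.FixedGenPlug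
import Fermat.Agent.GF.KCover.Node.RankP
import Fermat.Agent.GF.KCover.Node.RankModel

set_option autoImplicit false

noncomputable section

namespace Fermat.Agent.GF.KCover.Node.RankPlug

open Polynomial
open Fermat.Agent.GF.KCover.Field
open Fermat.Agent.GF.KCover.Node

section kummer

variable {F₁ F' : Type*} [Field F₁] [Field F'] [Algebra F₁ F']
variable {p : ℕ} {g₀ : F₁} (H : IsAdjoinRoot F' (X ^ p - C g₀ : F₁[X]))
variable {ζ : F₁} (hζ : IsPrimitiveRoot ζ p)
variable {L : Type*} [Field L] (O : ValuationSubring L)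

/-- the elements fixed by the deck transformation and by `x` lie in the fixed field of `x`. -/
theorem fixedBoth_le (δ x : F' ≃+* F') (E : Subfield F') (hE : ∀ y, y ∈ E ↔ x y = y) :
    DeckFixed.fixedBoth δ x ≤ E :=
  fun y hy => (hE y).2 (DeckFixed.mem_fixedBoth.1 hy).2

/-- **(U14) on the Kummer frame**: the fixed field `E` of the tame generator `x` has degree `p`
over the field of the elements fixed by `x` and the deck transformation. -/
theorem finrank_fixedBoth_traceTame (hpp : p.Prime) (x : F' ≃+* F')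
    (hcomm : Commute (x : F' →+* F') (deck H hζ))
    {d : ℕ} (hd : ¬ p ∣ d) (e₀ : F' →+* L) (τL : L ≃+* L) (he : ∀ y, e₀ (x y) = τL (e₀ y))
    (hres : ∀ y ∈ O, τL y - y ∈ O.nonunits)
    {c : F₁} (hζc : ζ = 1 + c) {Z' : F'} (hZ' : H.root = 1 + algebraMap F₁ F' c * Z')
    (hϖ : e₀ (algebraMap F₁ F' c) ∈ O.nonunits) (hϖ0 : e₀ (algebraMap F₁ F' c) ≠ 0)
    (hz : e₀ Z' ∈ O) (hpO : (p : L) ∈ O.nonunits)
    (E : Subfield F') (hE : ∀ y, y ∈ E ↔ x y = y)
    (θ : E) (hθ : (θ : F') = TraceRes.traceTame x d Z') :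
    letI : Algebra (DeckFixed.fixedBoth (DeckFixed.deckEquiv H hζ hpp.ne_zero) x) E :=
      (Subfield.inclusion (fixedBoth_le (DeckFixed.deckEquiv H hζ hpp.ne_zero) x E hE)).toAlgebra
    Module.finrank (DeckFixed.fixedBoth (DeckFixed.deckEquiv H hζ hpp.ne_zero) x) E = p ∧
      Module.Finite (DeckFixed.fixedBoth (DeckFixed.deckEquiv H hζ hpp.ne_zero) x) E ∧
      (minpoly (DeckFixed.fixedBoth (DeckFixed.deckEquiv H hζ hpp.ne_zero) x) θ).natDegree = p := by
  refine RankP.finrank_fixed_inclusion (DeckFixed.deckEquiv H hζ hpp.ne_zero) x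
    (FixedGenPlug.comm_apply H hζ hpp.ne_zero x hcomm) hpp.pos
    (DeckFixed.deckEquiv_pow_p H hζ hpp.ne_zero)
    (DeckFixed.fixedBoth (DeckFixed.deckEquiv H hζ hpp.ne_zero) x) E
    (fun y hy hxy => DeckFixed.mem_fixedBoth.2 ⟨hy, hxy⟩)
    (fun y hy => (DeckFixed.mem_fixedBoth.1 hy).1) hE
    (fixedBoth_le (DeckFixed.deckEquiv H hζ hpp.ne_zero) x E hE) θ ?_
  rw [hθ]
  exact FixedGenPlug.hconj_traceTame H hζ O hpp x hcomm hd e₀ τL he hres hζc hZ' hϖ hϖ0 hz hpO

/-- **`hrank` + `FiniteDimensional` of `SheetAsm.nl0_of_sheets`** for an abstract model `F₀` of the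
field `fixedBoth δ x`. -/
theorem hrank_of_model (hpp : p.Prime) (x : F' ≃+* F')
    (hcomm : Commute (x : F' →+* F') (deck H hζ))
    {d : ℕ} (hd : ¬ p ∣ d) (e₀ : F' →+* L) (τL : L ≃+* L) (he : ∀ y, e₀ (x y) = τL (e₀ y))
    (hres : ∀ y ∈ O, τL y - y ∈ O.nonunits)
    {c : F₁} (hζc : ζ = 1 + c) {Z' : F'} (hZ' : H.root = 1 + algebraMap F₁ F' c * Z')
    (hϖ : e₀ (algebraMap F₁ F' c) ∈ O.nonunits) (hϖ0 : e₀ (algebraMap F₁ F' c) ≠ 0)
    (hz : e₀ Z' ∈ O) (hpO : (p : L) ∈ O.nonunits)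
    (E : Subfield F') (hE : ∀ y, y ∈ E ↔ x y = y)
    (θ : E) (hθ : (θ : F') = TraceRes.traceTame x d Z')
    {F₀ : Type*} [Field F₀] [Algebra F₀ E]
    (hmodel : ∀ y : F', y ∈ DeckFixed.fixedBoth (DeckFixed.deckEquiv H hζ hpp.ne_zero) x ↔
      ∃ a : F₀, ((algebraMap F₀ E a : E) : F') = y) :
    Module.finrank F₀ E = p ∧ Module.Finite F₀ E := by
  have h1 := (finrank_fixedBoth_traceTame H hζ O hpp x hcomm hd e₀ τL he hres hζc hZ' hϖ hϖ0 hz
    hpO E hE θ hθ).1
  have h2 : Module.finrank F₀ E = p := by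
    rw [RankModel.finrank_of_model E _ (fixedBoth_le _ x E hE) hmodel]
    exact h1
  refine ⟨h2, Module.finite_of_finrank_pos ?_⟩
  rw [h2]
  exact hpp.pos

end kummer

end Fermat.Agent.GF.KCover.Node.RankPlug
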