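/-
GATE-F / GF-KCOVER-NODE, leaf (U4) of helper84's hub list (helper22): **the same-point lemma**.

`S = R[θ]` (one generator over `R`), `m` a maximal ideal of `R`, `a : R`.  Then
`(m, θ - a) := m.map (algebraMap R S) ⊔ span {θ - a}` is the ONLY proper ideal of `S` containing
`m·S` and `θ - a`; it is maximal (when proper).  In particular two primes `n₁ n₂` of `S` lying over
`m` and containing `θ - a` for ONE `a : R` coincide — the gluing of the two branch descriptions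
`comap φ₁ 𝔪_{D₁} = comap φ₂ 𝔪_{D₂}` of a node.

Mathlib only.
-/
import Mathlib

set_option autoImplicit false

namespace Fermat.Agent.GF.KCover.Node.SamePoint

open Ideal

variable {R S : Type*} [CommRing R] [CommRing S] [Algebra R S]

/-- modulo `θ - a` every element of `R[θ]` is a constant -/
theorem exists_sub_mem_span (θ : S) (hθ : Algebra.adjoin R {θ} = ⊤) (a : R) (s : S) :
    ∃ r : R, s - algebraMap R S r ∈ Ideal.span {θ - algebraMap R S a} := by
  have hs : s ∈ Algebra.adjoin R {θ} := by rw [hθ]; exact Algebra.mem_top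
  induction hs using Algebra.adjoin_induction with
  | mem x hx =>
    rw [Set.mem_singleton_iff] at hx
    subst hx
    exact ⟨a, Ideal.subset_span rfl⟩
  | algebraMap r => exact ⟨r, by rw [sub_self]; exact Ideal.zero_mem _⟩
  | add x y _ _ hx hy =>
    obtain ⟨r, hr⟩ := hx
    obtain ⟨r', hr'⟩ := hy
    refine ⟨r + r', ?_⟩
    have : x + y - algebraMap R S (r + r') =
        (x - algebraMap R S r) + (y - algebraMap R S r') := by rw [map_add]; ring
    rw [this]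
    exact Ideal.add_mem _ hr hr'
  | mul x y _ _ hx hy =>
    obtain ⟨r, hr⟩ := hx
    obtain ⟨r', hr'⟩ := hy
    refine ⟨r * r', ?_⟩
    have : x * y - algebraMap R S (r * r') =
        (x - algebraMap R S r) * y + algebraMap R S r * (y - algebraMap R S r') := by
      rw [map_mul]; ring
    rw [this]
    exact Ideal.add_mem _ (Ideal.mul_mem_right _ _ hr) (Ideal.mul_mem_left _ _ hr')

/-- a proper ideal containing `m·S` meets `R` exactly in `m` (`m` maximal) -/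
theorem mem_of_algebraMap_mem (m : Ideal R) [hm : m.IsMaximal] (n : Ideal S) (hn : n ≠ ⊤)
    (h : m.map (algebraMap R S) ≤ n) {r : R} (hr : algebraMap R S r ∈ n) : r ∈ m := by
  by_contra hrm
  obtain ⟨y, i, hi, hyi⟩ := hm.exists_inv hrm
  apply hn
  rw [Ideal.eq_top_iff_one]
  have h1 : algebraMap R S (y * r + i) = 1 := by rw [hyi, map_one]
  rw [← h1, map_add, map_mul]
  exact Ideal.add_mem _ (Ideal.mul_mem_left _ _ hr) (h (Ideal.mem_map_of_mem _ hi))

/-- **the ideal `(m, θ - a)`** of `S = R[θ]` -/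
def pt (m : Ideal R) (θ : S) (a : R) : Ideal S :=
  m.map (algebraMap R S) ⊔ Ideal.span {θ - algebraMap R S a}

theorem pt_le (m : Ideal R) (θ : S) (a : R) (n : Ideal S)
    (h : m.map (algebraMap R S) ≤ n) (ha : θ - algebraMap R S a ∈ n) : pt m θ a ≤ n :=
  sup_le h ((Ideal.span_singleton_le_iff_mem _).mpr ha)

/-- **every proper ideal of `R[θ]` containing `m·S` and `θ - a` IS `(m, θ - a)`** -/
theorem eq_pt (m : Ideal R) [m.IsMaximal] (θ : S) (hθ : Algebra.adjoin R {θ} = ⊤) (a : R)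
    (n : Ideal S) (hn : n ≠ ⊤) (h : m.map (algebraMap R S) ≤ n)
    (ha : θ - algebraMap R S a ∈ n) : n = pt m θ a := by
  refine le_antisymm ?_ (pt_le m θ a n h ha)
  intro s hs
  obtain ⟨r, hr⟩ := exists_sub_mem_span θ hθ a s
  have hspan : Ideal.span {θ - algebraMap R S a} ≤ n :=
    (Ideal.span_singleton_le_iff_mem _).mpr ha
  have hrn : algebraMap R S r ∈ n := by
    have := Ideal.sub_mem _ hs (hspan hr)
    rwa [sub_sub_cancel] at this
  have hrm : r ∈ m := mem_of_algebraMap_mem m n hn h hrn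
  have : s = (s - algebraMap R S r) + algebraMap R S r := by ring
  rw [this]
  exact Ideal.add_mem _ (Ideal.mem_sup_right hr)
    (Ideal.mem_sup_left (Ideal.mem_map_of_mem _ hrm))

/-- **SAME POINT**: two proper ideals (e.g. primes) of `S = R[θ]` containing `m·S` and `θ - a`
for ONE `a : R` coincide -/
theorem eq_of_mem (m : Ideal R) [m.IsMaximal] (θ : S) (hθ : Algebra.adjoin R {θ} = ⊤) (a : R)
    (n₁ n₂ : Ideal S) (hn₁ : n₁ ≠ ⊤) (hn₂ : n₂ ≠ ⊤)
    (h₁ : m.map (algebraMap R S) ≤ n₁) (h₂ : m.map (algebraMap R S) ≤ n₂)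
    (ha₁ : θ - algebraMap R S a ∈ n₁) (ha₂ : θ - algebraMap R S a ∈ n₂) : n₁ = n₂ :=
  (eq_pt m θ hθ a n₁ hn₁ h₁ ha₁).trans (eq_pt m θ hθ a n₂ hn₂ h₂ ha₂).symm

/-- prime version -/
theorem eq_of_mem_of_isPrime (m : Ideal R) [m.IsMaximal] (θ : S)
    (hθ : Algebra.adjoin R {θ} = ⊤) (a : R) (n₁ n₂ : Ideal S) [hn₁ : n₁.IsPrime]
    [hn₂ : n₂.IsPrime] (h₁ : m.map (algebraMap R S) ≤ n₁) (h₂ : m.map (algebraMap R S) ≤ n₂)
    (ha₁ : θ - algebraMap R S a ∈ n₁) (ha₂ : θ - algebraMap R S a ∈ n₂) : n₁ = n₂ :=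
  eq_of_mem m θ hθ a n₁ n₂ hn₁.ne_top hn₂.ne_top h₁ h₂ ha₁ ha₂

/-- a proper ideal containing `m·S` and `θ - a` is MAXIMAL -/
theorem isMaximal_of_mem (m : Ideal R) [m.IsMaximal] (θ : S) (hθ : Algebra.adjoin R {θ} = ⊤)
    (a : R) (n : Ideal S) (hn : n ≠ ⊤) (h : m.map (algebraMap R S) ≤ n)
    (ha : θ - algebraMap R S a ∈ n) : n.IsMaximal := by
  rw [Ideal.isMaximal_def]
  refine ⟨hn, fun J hJ => ?_⟩
  by_contra hJtop
  have hJn : J = n := eq_of_mem m θ hθ a J n hJtop hn (h.trans hJ.le) h (hJ.le ha) ha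
  exact (lt_irrefl _ (hJn ▸ hJ))

/-- the membership hypotheses in the `comap` form -/
theorem map_le_comap {D : Type*} [CommRing D] (m : Ideal R) (φ : S →+* D) (I : Ideal D)
    (h : ∀ x ∈ m, φ (algebraMap R S x) ∈ I) : m.map (algebraMap R S) ≤ I.comap φ := by
  rw [Ideal.map_le_iff_le_comap]
  intro x hx
  exact h x hx

/-- **SAME POINT, `comap` form**: `φᵢ : S →+* Dᵢ` into two local rings, both sending `m` and
`θ - a` into the maximal ideal ⟹ the two centres on `S = R[θ]` coincide. -/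
theorem comap_eq_comap {D₁ D₂ : Type*} [CommRing D₁] [CommRing D₂] [IsLocalRing D₁]
    [IsLocalRing D₂] (m : Ideal R) [m.IsMaximal] (θ : S) (hθ : Algebra.adjoin R {θ} = ⊤) (a : R)
    (φ₁ : S →+* D₁) (φ₂ : S →+* D₂)
    (h₁ : ∀ x ∈ m, φ₁ (algebraMap R S x) ∈ IsLocalRing.maximalIdeal D₁)
    (h₂ : ∀ x ∈ m, φ₂ (algebraMap R S x) ∈ IsLocalRing.maximalIdeal D₂)
    (ha₁ : φ₁ (θ - algebraMap R S a) ∈ IsLocalRing.maximalIdeal D₁)
    (ha₂ : φ₂ (θ - algebraMap R S a) ∈ IsLocalRing.maximalIdeal D₂) :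
    (IsLocalRing.maximalIdeal D₁).comap φ₁ = (IsLocalRing.maximalIdeal D₂).comap φ₂ :=
  eq_of_mem_of_isPrime m θ hθ a _ _ (map_le_comap m φ₁ _ h₁) (map_le_comap m φ₂ _ h₂) ha₁ ha₂

/-- `R` local, `m := 𝔪_R` -/
theorem comap_eq_comap_of_isLocalRing [IsLocalRing R] {D₁ D₂ : Type*} [CommRing D₁]
    [CommRing D₂] [IsLocalRing D₁] [IsLocalRing D₂] (θ : S) (hθ : Algebra.adjoin R {θ} = ⊤)
    (a : R) (φ₁ : S →+* D₁) (φ₂ : S →+* D₂)
    (h₁ : ∀ x ∈ IsLocalRing.maximalIdeal R, φ₁ (algebraMap R S x) ∈ IsLocalRing.maximalIdeal D₁)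
    (h₂ : ∀ x ∈ IsLocalRing.maximalIdeal R, φ₂ (algebraMap R S x) ∈ IsLocalRing.maximalIdeal D₂)
    (ha₁ : φ₁ (θ - algebraMap R S a) ∈ IsLocalRing.maximalIdeal D₁)
    (ha₂ : φ₂ (θ - algebraMap R S a) ∈ IsLocalRing.maximalIdeal D₂) :
    (IsLocalRing.maximalIdeal D₁).comap φ₁ = (IsLocalRing.maximalIdeal D₂).comap φ₂ :=
  comap_eq_comap (IsLocalRing.maximalIdeal R) θ hθ a φ₁ φ₂ h₁ h₂ ha₁ ha₂

/-- the local-hom form: if `φᵢ ∘ algebraMap R S` are LOCAL homs out of a local ring `R`, the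
condition on `m` is automatic -/
theorem comap_eq_comap_of_isLocalHom [IsLocalRing R] {D₁ D₂ : Type*} [CommRing D₁]
    [CommRing D₂] [IsLocalRing D₁] [IsLocalRing D₂] (θ : S) (hθ : Algebra.adjoin R {θ} = ⊤)
    (a : R) (φ₁ : S →+* D₁) (φ₂ : S →+* D₂)
    [IsLocalHom (φ₁.comp (algebraMap R S))] [IsLocalHom (φ₂.comp (algebraMap R S))]
    (ha₁ : φ₁ (θ - algebraMap R S a) ∈ IsLocalRing.maximalIdeal D₁)
    (ha₂ : φ₂ (θ - algebraMap R S a) ∈ IsLocalRing.maximalIdeal D₂) :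
    (IsLocalRing.maximalIdeal D₁).comap φ₁ = (IsLocalRing.maximalIdeal D₂).comap φ₂ := by
  refine comap_eq_comap_of_isLocalRing θ hθ a φ₁ φ₂ (fun x hx => ?_) (fun x hx => ?_) ha₁ ha₂
  · rw [IsLocalRing.mem_maximalIdeal, mem_nonunits_iff] at hx ⊢
    intro hu
    exact hx (isUnit_of_map_unit (φ₁.comp (algebraMap R S)) x hu)
  · rw [IsLocalRing.mem_maximalIdeal, mem_nonunits_iff] at hx ⊢
    intro hu
    exact hx (isUnit_of_map_unit (φ₂.comp (algebraMap R S)) x hu)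

end Fermat.Agent.GF.KCover.Node.SamePoint
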