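/-
GATE-F (S44) / GF-KCOVER-INST, node side, leaf (U6) part 2 (helper57; asked by helper84, board
6642): **stability of `Us` under the tame generator `x`, and the endomorphism `a : Us →* Us` that
`NL0Plug.nl_on_subgroup` consumes — stated on helper31's `UsInst.Us T`.**

* `map_mem_regDiv_of_semilinear` : `regDiv Kb J p` is stable under a ring automorphism `x` of `F'`
  which is `τ`-semilinear over `Kb` and fixes `J` (no hypothesis on places: the prelude action of
  `SemilinearAut` on `Place`);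
* `map_mem_fixedUnits` : `fixedUnits Γ F'` is stable under `x` when `x` normalises the `Γ`-action
  (`∀ ρ, ∃ ρ', ρ • x y = x (ρ' • y)`);
* `actV V hV x hxfix hxreg : V →* V` for ANY subgroup `V ≤ fixedUnits Γ F'` cut out by the
  `regDiv` condition (`hV`), `coe_actV`, `coe_actV_iterate`, `actV_iterate_eq` (`x ^ d = 1 ⟹
  a^[d] u = u`, the binder `hd` of `nl_on_subgroup`), `actV_eq_self_iff` (`a u = u ↔ x u = u`);
* `eq_Us` : helper31's `UsInst.Us T` IS `UsGroup.Us Kb (tameGroup A ζ) (jCover T) p`;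
* `actUsInst T x τ hxτ hxj hxΓ : UsInst.Us T →* UsInst.Us T` + the same three lemmas.
-/
import Mathlib
import Fermat.Agent.GF.KCover.Node.UsGroup
import Fermat.Agent.GF.F2Asm.UsInst

set_option autoImplicit false
set_option linter.unusedSectionVars false

open AlgebraicCurve

namespace Fermat.Agent.GF.KCover.Node.UsStable

open Fermat.Agent.GF.KCover Fermat.Agent.GF.KCover.Node.UsGroup

section Generic

variable {Kb F' : Type*} [Field Kb] [Field F'] [Algebra Kb F'] {J : F'} {p : ℕ}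

/-- `regDiv` is stable under a `τ`-semilinear ring automorphism fixing `J`. -/
theorem map_mem_regDiv_of_semilinear (x : F' ≃+* F') (τ : Kb ≃+* Kb)
    (hxτ : ∀ a : Kb, x (algebraMap Kb F' a) = algebraMap Kb F' (τ a)) (hxJ : x J = J)
    {y : F'ˣ} (hy : y ∈ regDiv Kb J p) :
    Units.map ((x : F' ≃+* F') : F' →* F') y ∈ regDiv Kb J p :=
  smul_mem_regDiv (⟨(x, τ), hxτ⟩ : SemilinearAut Kb F') hxJ hy

variable {Γ : Type*} [Group Γ] [MulSemiringAction Γ F']

/-- `fixedUnits Γ F'` is stable under a ring automorphism normalising the `Γ`-action. -/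
theorem map_mem_fixedUnits (x : F' ≃+* F')
    (hxΓ : ∀ ρ : Γ, ∃ ρ' : Γ, ∀ y : F', ρ • x y = x (ρ' • y)) {u : F'ˣ}
    (hu : u ∈ fixedUnits Γ F') :
    Units.map ((x : F' ≃+* F') : F' →* F') u ∈ fixedUnits Γ F' := by
  intro ρ
  obtain ⟨ρ', hρ'⟩ := hxΓ ρ
  show ρ • x (u : F') = x (u : F')
  rw [hρ', hu ρ']

variable (V : Subgroup (fixedUnits Γ F'))
  (hV : ∀ y : fixedUnits Γ F', y ∈ V ↔
    ∀ P : Place Kb F', J ∈ P.toValuationSubring → (p : ℤ) ∣ P.ord ((y : F'ˣ) : F'))
  (x : F' ≃+* F')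
  (hxfix : ∀ u ∈ fixedUnits Γ F', Units.map ((x : F' ≃+* F') : F' →* F') u ∈ fixedUnits Γ F')
  (hxreg : ∀ y ∈ regDiv Kb J p, Units.map ((x : F' ≃+* F') : F' →* F') y ∈ regDiv Kb J p)

/-- **`x` on a subgroup `V` of `fixedUnits Γ F'` cut out by the `regDiv` condition.** -/
def actV : V →* V where
  toFun u := ⟨⟨Units.map ((x : F' ≃+* F') : F' →* F') ((u : fixedUnits Γ F') : F'ˣ),
      hxfix _ (u : fixedUnits Γ F').2⟩,
    (hV _).mpr fun P hP => hxreg _ ((hV _).mp u.2) P hP⟩
  map_one' := by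
    apply Subtype.ext
    apply Subtype.ext
    exact map_one _
  map_mul' u v := by
    apply Subtype.ext
    apply Subtype.ext
    exact map_mul _ _ _

@[simp] theorem coe_actV (u : V) :
    ((((actV V hV x hxfix hxreg u : V) : fixedUnits Γ F') : F'ˣ) : F') =
      x (((u : fixedUnits Γ F') : F'ˣ) : F') := rfl

theorem coe_actV_iterate (i : ℕ) (u : V) :
    (((((actV V hV x hxfix hxreg)^[i] u : V) : fixedUnits Γ F') : F'ˣ) : F') =
      (x ^ i) (((u : fixedUnits Γ F') : F'ˣ) : F') := by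
  induction i generalizing u with
  | zero => rfl
  | succ i ih =>
    rw [Function.iterate_succ_apply, ih, coe_actV, pow_succ]
    rfl

/-- the binder `hd` of `NL0Plug.nl_on_subgroup`. -/
theorem actV_iterate_eq {d : ℕ} (hxd : x ^ d = 1) (u : V) :
    (actV V hV x hxfix hxreg)^[d] u = u := by
  apply Subtype.ext
  apply Subtype.ext
  apply Units.ext
  rw [coe_actV_iterate, hxd]
  rfl

theorem actV_eq_self_iff (u : V) :
    actV V hV x hxfix hxreg u = u ↔
      x (((u : fixedUnits Γ F') : F'ˣ) : F') = (((u : fixedUnits Γ F') : F'ˣ) : F') := by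
  constructor
  · intro h
    have := congrArg (fun v : V => (((v : fixedUnits Γ F') : F'ˣ) : F')) h
    simpa using this
  · intro h
    apply Subtype.ext
    apply Subtype.ext
    apply Units.ext
    rw [coe_actV]
    exact h

end Generic

section Modular

open Fermat.Agent.GJ.KumGroup Fermat.Agent.GF.F2Asm Fermat.Agent.GF.F2Asm.Inst
open Fermat.Agent.GF.F2Asm.UsInst (jCover)

variable {N : ℕ} [NeZero N] {p : ℕ} [hpF : Fact p.Prime] {A : ValuationSubring Kb} {ζ : Kb}
  (T : TameDatum N p A ζ)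

/-- helper31's `Us` is the generic one. -/
theorem eq_Us : UsInst.Us T = UsGroup.Us Kb (tameGroup A ζ) (jCover T) p :=
  Subgroup.ext fun _ => Iff.rfl

variable (x : T.Fp ≃+* T.Fp) (τ : Kb ≃+* Kb)
  (hxτ : ∀ a : Kb, x (algebraMap Kb T.Fp a) = algebraMap Kb T.Fp (τ a))
  (hxj : x (jCover T) = jCover T)
  (hxΓ : ∀ ρ : tameGroup A ζ, ∃ ρ' : tameGroup A ζ, ∀ y : T.Fp, ρ • x y = x (ρ' • y))

/-- **the tame generator on helper31's `Us T`** = the `a` of `NL0Plug.nl_on_subgroup`. -/
noncomputable def actUsInst : UsInst.Us T →* UsInst.Us T :=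
  actV (Kb := Kb) (J := jCover T) (p := p) (UsInst.Us T) (fun _ => UsInst.mem_Us T) x
    (fun _ hu => map_mem_fixedUnits x hxΓ hu)
    (fun _ hy => map_mem_regDiv_of_semilinear x τ hxτ hxj hy)

@[simp] theorem coe_actUsInst (u : UsInst.Us T) :
    ((((actUsInst T x τ hxτ hxj hxΓ u : UsInst.Us T) :
      fixedUnits (tameGroup A ζ) T.Fp) : T.Fpˣ) : T.Fp) =
      x (((u : fixedUnits (tameGroup A ζ) T.Fp) : T.Fpˣ) : T.Fp) := rfl

theorem actUsInst_iterate_eq {d : ℕ} (hxd : x ^ d = 1) (u : UsInst.Us T) :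
    (actUsInst T x τ hxτ hxj hxΓ)^[d] u = u :=
  actV_iterate_eq _ _ x _ _ hxd u

theorem actUsInst_eq_self_iff (u : UsInst.Us T) :
    actUsInst T x τ hxτ hxj hxΓ u = u ↔
      x (((u : fixedUnits (tameGroup A ζ) T.Fp) : T.Fpˣ) : T.Fp) =
        (((u : fixedUnits (tameGroup A ζ) T.Fp) : T.Fpˣ) : T.Fp) :=
  actV_eq_self_iff _ _ x _ _ u

end Modular

end Fermat.Agent.GF.KCover.Node.UsStable
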